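/-
S17 project — B-route "PLK" for the packages INC and CERT (helper2397).  DEFINITIONS (no sorry).

Spec / mathematics: `notes/S17_PLK_route_v2_helper2397.md` on origin/helper2397.
Targets: the two frozen statements `delta_classInv`, `delta_pos` of `Fermat/Agent/S17/H/Interfaces.lean`.
Tools: FND (function-field facts), HT (absolute height `ht` on `ℚ̄`-tuples), Mathlib.

Notation of the note ↔ Lean:
  `V_n = L(n P₀)`                        `V S n`            (`lvlDiv S n = n • pt P₀`)
  `d_n`, `ψ^n`, `[a]_n`                  `dim S n`, `psi S n`, `coords S n a`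
  value at `Q` of a section of `O(A)`    `secVal A Q s = evalAt Q (s * unif Q ^ (A Q))`
  `x_n(Q)`                               `xvec S n Q`      (at `Q = P₀`: leading coefficients of order `n`)
  `x_m(Q)` in the basis `φ`              `xphi S Q`
  `b_c(y) = y_s φ_t − y_t φ_s`           `bsec S y c`
  `M(P,Q)`                               `Mvec S P Q`
  Plücker vector of a basis matrix       `plVec B`
  `η_N(E)`                               `eta S N E = etaSub S N (L(N P₀ − E))`
  `h_∞(E)`                               `hInf S E`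
-/
import Fermat.Agent.S17.H.Defs
import Fermat.Agent.S17.FND.Skel
import Fermat.Agent.S17.HT.Skel

set_option autoImplicit false

noncomputable section

open AlgebraicCurve ModularCurve

namespace Fermat.Agent.S17.PLK

open Fermat.Agent.S17.FND Fermat.Agent.S17.H Fermat.Agent.S17.HT

section Generic

variable {K F : Type*} [Field K] [Field F] [Algebra K F]

/-- The value at `Q` of `s`, regarded as a section of `O(A)`: `s ∈ L(A)` has `ord_Q s ≥ -A(Q)`, and
`secVal A Q s` is the value at `Q` of `s * t_Q ^ (A Q)`.  It is `K`-linear on `L(A)` with kernel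
`L(A - Q)`, and multiplicative: `secVal (A + A') Q (s * s') = secVal A Q s * secVal A' Q s'`. -/
def secVal (A : Divisor K F) (Q : Place K F) (s : F) : K := evalAt Q (s * unif Q ^ (A Q))

/-- Plücker vector of the row space of the `r × d` matrix `B`: all `r × r` minors, indexed by
arbitrary maps `f : Fin r → Fin d` (repetitions give `0`, permutations give `±` the same minor). -/
def plVec {r d : ℕ} (B : Fin r → Fin d → K) : (Fin r → Fin d) → K :=
  fun f => Matrix.det (Matrix.of fun i j => B i (f j))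

end Generic

section Arithmetic

variable {F₀ : IntermediateField ℚ (LaurentSeries ℚ)}

/-- The divisor `n · P₀`. -/
abbrev lvlDiv (S : Setup F₀) (n : ℕ) : Divisor Qbar (FB F₀) := (n : ℤ) • pt S.P₀

/-- `V_n = L(n P₀)`. -/
abbrev V (S : Setup F₀) (n : ℕ) : Submodule Qbar (FB F₀) := riemannRochSpace (lvlDiv S n)

/-- `d_n = dim V_n`. -/
def dim (S : Setup F₀) (n : ℕ) : ℕ := ell (lvlDiv S n)

/-- `h_∞(E) = Σ_P E(P) δ(P, P₀)`. -/
def hInf (S : Setup F₀) (E : Divisor Qbar (FB F₀)) : ℝ := Lam (delta S.φ) E (pt S.P₀)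

/-- Coordinates of `Q` in the basis `φ` of `L(m P₀)`, unnormalised (`Q = P₀`: leading coefficients). -/
def xphi (S : Setup F₀) (Q : Place Qbar (FB F₀)) : Fin (S.r + 1) → Qbar :=
  fun j => secVal (lvlDiv S S.m) Q (S.φ j)

/-- `b_c(y) = y_s φ_t − y_t φ_s ∈ L(m P₀)`, `c = (s, t)`; it vanishes at `P` when `y = xphi S P`. -/
def bsec (S : Setup F₀) (y : Fin (S.r + 1) → Qbar) (c : Fin (S.r + 1) × Fin (S.r + 1)) : FB F₀ :=
  algebraMap Qbar (FB F₀) (y c.1) * S.φ c.2 - algebraMap Qbar (FB F₀) (y c.2) * S.φ c.1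

/-- The pairing vector `M(P,Q)`: values at `Q` of the sections `b_c(x(P))` of `O(m P₀ − P)`.
Proportional to `minorVec φ P Q` if `P ≠ Q` and to `gaussVec φ Q` if `P = Q`. -/
def Mvec (S : Setup F₀) (P Q : Place Qbar (FB F₀)) : Fin (S.r + 1) × Fin (S.r + 1) → Qbar :=
  fun c => secVal (lvlDiv S S.m - pt P) Q (bsec S (xphi S P) c)

variable [IsCurveOver Qbar (FB F₀)] [Algebra.EssFiniteType Qbar (FB F₀)]

/-- A basis `ψ^n` of `V_n` (arbitrary choice). -/
def lvlBasis (S : Setup F₀) (n : ℕ) : Module.Basis (Fin (dim S n)) Qbar (V S n) :=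
  haveI : Module.Finite Qbar (riemannRochSpace (lvlDiv S n)) := finite_RR _
  Module.finBasis Qbar (V S n)

/-- `ψ^n_j` as an element of the function field. -/
def psi (S : Setup F₀) (n : ℕ) (j : Fin (dim S n)) : FB F₀ := (lvlBasis S n j : FB F₀)

open Classical in
/-- The coordinate vector `[s]_n` of `s ∈ V_n` in the basis `ψ^n` (junk `0` outside `V_n`). -/
def coords (S : Setup F₀) (n : ℕ) (s : FB F₀) : Fin (dim S n) → Qbar :=
  if h : s ∈ V S n then ⇑((lvlBasis S n).repr ⟨s, h⟩) else 0

/-- `x_n(Q)`: the values at `Q` of the basis `ψ^n`, as sections of `O(n P₀)`. -/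
def xvec (S : Setup F₀) (n : ℕ) (Q : Place Qbar (FB F₀)) : Fin (dim S n) → Qbar :=
  fun j => secVal (lvlDiv S n) Q (psi S n j)

open Classical in
/-- Height of the Plücker point of a finite-dimensional subspace `W ⊆ V_N`, in `ψ^N`-coordinates. -/
def etaSub (S : Setup F₀) (N : ℕ) (W : Submodule Qbar (FB F₀)) : ℝ :=
  if h : Module.Finite Qbar W then
    haveI := h
    ht (plVec fun i => coords S N ((Module.finBasis Qbar W i : W) : FB F₀))
  else 0

/-- `η_N(E)`: the height of the Plücker point of `L(N P₀ − E) ⊆ L(N P₀)`. -/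
def eta (S : Setup F₀) (N : ℕ) (E : Divisor Qbar (FB F₀)) : ℝ :=
  etaSub S N (riemannRochSpace (lvlDiv S N - E))

/-- The generating sections `s_β(y) = ∏_i b_{c_i}(y_i) · ψ^{N − k m}_l` of `L(N P₀ − Σ P_i)`
(`y_i = xphi S (P i)`), `β = (c, l)`. -/
def sgen (S : Setup F₀) (k N : ℕ) (y : Fin k → Fin (S.r + 1) → Qbar)
    (β : (Fin k → Fin (S.r + 1) × Fin (S.r + 1)) × Fin (dim S (N - k * S.m))) : FB F₀ :=
  (∏ i, bsec S (y i) (β.1 i)) * psi S (N - k * S.m) β.2

end Arithmetic

end Fermat.Agent.S17.PLK
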