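import Mathlib

set_option autoImplicit false

/-!
# S17 / PLK — (LA3) Cramer's rule in a subspace of dimension `≤ ρ` (helper6026; Mathlib only)

`T : Matrix Rw Cl K` a matrix whose columns lie in a subspace `W` with `finrank W ≤ ρ`; `R`, `C`
index `ρ`-tuples with `μ := det T[R,C] ≠ 0`.  Then for every `u ∈ W`
    `μ • u = ∑ k, (adj(T[R,C]) *ᵥ u_R) k • (column C k of T)`.
(The columns `C k` are a basis of `W`, the coefficients are given by Cramer's rule on the rows `R`.)
The right-hand side is polynomial in the entries of `T` and linear in `u`; this is the identity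
behind (T1) "≤", (A) "≤" and (VIII) of the PLK route.
-/

namespace Fermat.Agent.S17.PLK6026

open Matrix

variable {K : Type*} [Field K] {Rw Cl : Type*} [Fintype Rw]

theorem det_smul_eq_sum_adjugate_smul_col {ρ : ℕ} (T : Matrix Rw Cl K)
    (W : Submodule K (Rw → K)) (hW : Module.finrank K W ≤ ρ)
    (hT : ∀ j, (fun i => T i j) ∈ W) (R : Fin ρ → Rw) (C : Fin ρ → Cl)
    (hA : (T.submatrix R C).det ≠ 0) {u : Rw → K} (hu : u ∈ W) :
    (T.submatrix R C).det • u =
      ∑ k, ((T.submatrix R C).adjugate *ᵥ (u ∘ R)) k • (fun i => T i (C k)) := by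
  classical
  set A : Matrix (Fin ρ) (Fin ρ) K := T.submatrix R C with hAdef
  -- the columns `C k`, as elements of `W`
  let c : Fin ρ → W := fun k => ⟨fun i => T i (C k), hT (C k)⟩
  have hrestr : ∀ l : Fin ρ → K, (fun a => (∑ k, l k • (c k : Rw → K)) (R a)) = A *ᵥ l := by
    intro l
    funext a
    simp only [Finset.sum_apply, Pi.smul_apply, smul_eq_mul, Matrix.mulVec, dotProduct, c, hAdef,
      Matrix.submatrix_apply]
    exact Finset.sum_congr rfl fun k _ => mul_comm _ _
  have hli : LinearIndependent K c := by
    rw [Fintype.linearIndependent_iff]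
    intro l hl
    have h1 : (∑ k, l k • (c k : Rw → K)) = 0 := by
      have := congrArg (Subtype.val) hl
      simpa using this
    have h2 : A *ᵥ l = 0 := by
      rw [← hrestr l, h1]
      rfl
    have h3 : l = 0 := Matrix.eq_zero_of_mulVec_eq_zero hA h2
    intro k
    rw [h3]
    rfl
  have hfin : Module.finrank K W = Fintype.card (Fin ρ) := by
    have h1 := hli.fintype_card_le_finrank
    simp only [Fintype.card_fin] at h1 ⊢
    omega
  have hspan : Submodule.span K (Set.range c) = ⊤ := by
    have : Module.Finite K W := Module.Finite.of_injective (Submodule.subtype W)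
      (Submodule.injective_subtype W)
    exact hli.span_eq_top_of_card_eq_finrank' hfin.symm
  have hmem : (⟨u, hu⟩ : W) ∈ Submodule.span K (Set.range c) := by
    rw [hspan]; exact Submodule.mem_top
  obtain ⟨l, hl⟩ := (Submodule.mem_span_range_iff_exists_fun K).mp hmem
  have hl' : u = ∑ k, l k • (c k : Rw → K) := by
    have := congrArg (Subtype.val) hl
    simpa using this.symm
  have huR : u ∘ R = A *ᵥ l := by
    rw [← hrestr l, hl']
    rfl
  have hadj : A.adjugate *ᵥ (u ∘ R) = A.det • l := by
    rw [huR, Matrix.mulVec_mulVec, Matrix.adjugate_mul, Matrix.smul_mulVec, Matrix.one_mulVec]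
  rw [hadj]
  conv_lhs => rw [hl']
  rw [Finset.smul_sum]
  refine Finset.sum_congr rfl fun k _ => ?_
  simp only [Pi.smul_apply, smul_eq_mul, c, smul_smul]

end Fermat.Agent.S17.PLK6026
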