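import Mathlib
import Fermat.Agent.S17.HT.Defs

set_option autoImplicit false

/-!
# S17 / PLK (B-route of helper2397 for the H interface) — multi-homogeneous FUNCTION calculus (helper6026)

The height machine of package HT (`ht_blockEval_le`, `ht_blockEval_ge_of_zeroLocus`) talks about
polynomials `p : MvPolynomial (Σ c, κ c) R` with `IsMultiHomogeneous p d`, evaluated by `blockEval`.
Every step of the PLK route applies it to an explicit polynomial map built from sums, products,
determinants and adjugates of coordinates.  To avoid writing those polynomials by hand this file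
provides the predicate

  `IsMHFun d f` : the function `f : ((c : β) → κ c → R) → R` is the `blockEval` of a multi-homogeneous
                  polynomial of multidegree `d`

and its closure properties: constants, coordinates, `+`, `*`, finite sums and products, scalar
multiples, determinants (row-dependent degrees) and adjugate entries.

Only `Fermat.Agent.S17.HT.Defs` (frozen, no sorry) is imported.
-/

namespace Fermat.Agent.S17.PLK6026

open MvPolynomial Fermat.Agent.S17.HT

/-! ### Closure properties of `IsMultiHomogeneous` -/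

section Poly

variable {R : Type*} [CommSemiring R] {β : Type*} {κ : β → Type*} [∀ c, Fintype (κ c)]

theorem isMultiHomogeneous_zero (d : β → ℕ) :
    IsMultiHomogeneous (0 : MvPolynomial (Σ c, κ c) R) d := by
  intro m hm
  simp at hm

theorem isMultiHomogeneous_C (a : R) :
    IsMultiHomogeneous (C a : MvPolynomial (Σ c, κ c) R) 0 := by
  classical
  intro m hm c
  have hm0 : m = 0 := by
    by_contra h
    rw [mem_support_iff, coeff_C] at hm
    exact hm (if_neg (Ne.symm h))
  subst hm0
  simp

theorem isMultiHomogeneous_one :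
    IsMultiHomogeneous (1 : MvPolynomial (Σ c, κ c) R) 0 := by
  have h := isMultiHomogeneous_C (κ := κ) (1 : R)
  rwa [C_1] at h

theorem isMultiHomogeneous_X [DecidableEq β] (c : β) (i : κ c) :
    IsMultiHomogeneous (X ⟨c, i⟩ : MvPolynomial (Σ c, κ c) R) (Pi.single c 1) := by
  classical
  intro m hm c'
  have hm0 : m = Finsupp.single ⟨c, i⟩ 1 := by
    by_contra h
    rw [mem_support_iff, coeff_X] at hm
    exact hm (if_neg (Ne.symm h))
  subst hm0
  by_cases hc : c' = c
  · subst hc
    rw [Pi.single_eq_same]
    rw [Finset.sum_eq_single i]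
    · simp
    · intro j _ hj
      rw [Finsupp.single_apply, if_neg]
      intro h
      exact hj (eq_of_heq (Sigma.mk.inj h).2).symm
    · intro h
      exact absurd (Finset.mem_univ i) h
  · rw [Pi.single_eq_of_ne hc]
    apply Finset.sum_eq_zero
    intro j _
    rw [Finsupp.single_apply, if_neg]
    intro h
    exact hc (Sigma.mk.inj h).1.symm

theorem isMultiHomogeneous_add {p q : MvPolynomial (Σ c, κ c) R} {d : β → ℕ}
    (hp : IsMultiHomogeneous p d) (hq : IsMultiHomogeneous q d) :
    IsMultiHomogeneous (p + q) d := by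
  classical
  intro m hm c
  rcases Finset.mem_union.mp (support_add hm) with h | h
  exacts [hp m h c, hq m h c]

theorem isMultiHomogeneous_mul {p q : MvPolynomial (Σ c, κ c) R} {d e : β → ℕ}
    (hp : IsMultiHomogeneous p d) (hq : IsMultiHomogeneous q e) :
    IsMultiHomogeneous (p * q) (d + e) := by
  classical
  intro m hm c
  obtain ⟨a, ha, b, hb, rfl⟩ := Finset.mem_add.mp (support_mul p q hm)
  simp only [Finsupp.coe_add, Pi.add_apply, Finset.sum_add_distrib, hp a ha c, hq b hb c]

theorem isMultiHomogeneous_sum {ι : Type*} (s : Finset ι) {p : ι → MvPolynomial (Σ c, κ c) R}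
    {d : β → ℕ} (hp : ∀ i ∈ s, IsMultiHomogeneous (p i) d) :
    IsMultiHomogeneous (∑ i ∈ s, p i) d := by
  classical
  induction s using Finset.induction_on with
  | empty => simpa using isMultiHomogeneous_zero (R := R) (κ := κ) d
  | insert a s ha ih =>
    rw [Finset.sum_insert ha]
    exact isMultiHomogeneous_add (hp a (Finset.mem_insert_self a s))
      (ih fun i hi => hp i (Finset.mem_insert_of_mem hi))

theorem isMultiHomogeneous_prod {ι : Type*} (s : Finset ι) {p : ι → MvPolynomial (Σ c, κ c) R}
    {d : ι → β → ℕ} (hp : ∀ i ∈ s, IsMultiHomogeneous (p i) (d i)) :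
    IsMultiHomogeneous (∏ i ∈ s, p i) (∑ i ∈ s, d i) := by
  classical
  induction s using Finset.induction_on with
  | empty => simpa using isMultiHomogeneous_one (R := R) (κ := κ)
  | insert a s ha ih =>
    rw [Finset.prod_insert ha, Finset.sum_insert ha]
    exact isMultiHomogeneous_mul (hp a (Finset.mem_insert_self a s))
      (ih fun i hi => hp i (Finset.mem_insert_of_mem hi))

end Poly

/-! ### Multi-homogeneous polynomial functions -/

section Fun

variable {R : Type*} [CommSemiring R] {β : Type*} {κ : β → Type*} [∀ c, Fintype (κ c)]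

/-- `f` is the evaluation of a multi-homogeneous polynomial of multidegree `d` in the blocks of
variables `κ c`. -/
def IsMHFun (d : β → ℕ) (f : ((c : β) → κ c → R) → R) : Prop :=
  ∃ p : MvPolynomial (Σ c, κ c) R, IsMultiHomogeneous p d ∧ ∀ x, blockEval x p = f x

theorem IsMHFun.congr {d : β → ℕ} {f g : ((c : β) → κ c → R) → R} (hf : IsMHFun d f)
    (h : ∀ x, f x = g x) : IsMHFun d g := by
  obtain ⟨p, hp, hpe⟩ := hf
  exact ⟨p, hp, fun x => (hpe x).trans (h x)⟩

theorem IsMHFun.of_eq {d d' : β → ℕ} {f : ((c : β) → κ c → R) → R} (hf : IsMHFun d f)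
    (h : d = d') : IsMHFun d' f := h ▸ hf

theorem isMHFun_zero (d : β → ℕ) : IsMHFun d (fun _ : (c : β) → κ c → R => (0 : R)) :=
  ⟨0, isMultiHomogeneous_zero d, fun x => by simp [blockEval]⟩

theorem isMHFun_const (a : R) : IsMHFun 0 (fun _ : (c : β) → κ c → R => a) :=
  ⟨C a, isMultiHomogeneous_C a, fun x => by simp [blockEval]⟩

theorem isMHFun_coord [DecidableEq β] (c : β) (i : κ c) :
    IsMHFun (Pi.single c 1) (fun x : (c : β) → κ c → R => x c i) :=
  ⟨X ⟨c, i⟩, isMultiHomogeneous_X c i, fun x => by simp [blockEval]⟩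

theorem IsMHFun.add {d : β → ℕ} {f g : ((c : β) → κ c → R) → R} (hf : IsMHFun d f)
    (hg : IsMHFun d g) : IsMHFun d (fun x => f x + g x) := by
  obtain ⟨p, hp, hpe⟩ := hf
  obtain ⟨q, hq, hqe⟩ := hg
  exact ⟨p + q, isMultiHomogeneous_add hp hq, fun x => by simp [blockEval, ← hpe, ← hqe]⟩

theorem IsMHFun.mul {d e : β → ℕ} {f g : ((c : β) → κ c → R) → R} (hf : IsMHFun d f)
    (hg : IsMHFun e g) : IsMHFun (d + e) (fun x => f x * g x) := by
  obtain ⟨p, hp, hpe⟩ := hf
  obtain ⟨q, hq, hqe⟩ := hg
  exact ⟨p * q, isMultiHomogeneous_mul hp hq, fun x => by simp [blockEval, ← hpe, ← hqe]⟩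

theorem IsMHFun.const_mul {d : β → ℕ} {f : ((c : β) → κ c → R) → R} (a : R) (hf : IsMHFun d f) :
    IsMHFun d (fun x => a * f x) :=
  ((isMHFun_const (κ := κ) a).mul hf).of_eq (zero_add d)

theorem IsMHFun.mul_const {d : β → ℕ} {f : ((c : β) → κ c → R) → R} (hf : IsMHFun d f) (a : R) :
    IsMHFun d (fun x => f x * a) :=
  (hf.mul (isMHFun_const (κ := κ) a)).of_eq (add_zero d)

theorem IsMHFun.sum {ι : Type*} (s : Finset ι) {d : β → ℕ}
    {f : ι → ((c : β) → κ c → R) → R} (hf : ∀ i ∈ s, IsMHFun d (f i)) :
    IsMHFun d (fun x => ∑ i ∈ s, f i x) := by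
  classical
  induction s using Finset.induction_on with
  | empty => simpa using isMHFun_zero (R := R) (κ := κ) d
  | insert a s ha ih =>
    have h1 := (hf a (Finset.mem_insert_self a s)).add
      (ih fun i hi => hf i (Finset.mem_insert_of_mem hi))
    exact h1.congr fun x => by rw [Finset.sum_insert ha]

theorem IsMHFun.prod {ι : Type*} (s : Finset ι) {d : ι → β → ℕ}
    {f : ι → ((c : β) → κ c → R) → R} (hf : ∀ i ∈ s, IsMHFun (d i) (f i)) :
    IsMHFun (∑ i ∈ s, d i) (fun x => ∏ i ∈ s, f i x) := by
  classical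
  induction s using Finset.induction_on with
  | empty => simpa using isMHFun_const (R := R) (κ := κ) 1
  | insert a s ha ih =>
    have h1 := (hf a (Finset.mem_insert_self a s)).mul
      (ih fun i hi => hf i (Finset.mem_insert_of_mem hi))
    rw [Finset.sum_insert ha]
    exact h1.congr fun x => by rw [Finset.prod_insert ha]

end Fun

section Ring

variable {R : Type*} [CommRing R] {β : Type*} {κ : β → Type*} [∀ c, Fintype (κ c)]

theorem IsMHFun.neg {d : β → ℕ} {f : ((c : β) → κ c → R) → R} (hf : IsMHFun d f) :
    IsMHFun d (fun x => - f x) :=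
  (hf.const_mul (-1)).congr fun x => by ring

theorem IsMHFun.sub {d : β → ℕ} {f g : ((c : β) → κ c → R) → R} (hf : IsMHFun d f)
    (hg : IsMHFun d g) : IsMHFun d (fun x => f x - g x) :=
  (hf.add hg.neg).congr fun x => by ring

/-- Determinant of a matrix whose entries in row `i` are multi-homogeneous of multidegree `e i`. -/
theorem IsMHFun.det {n : Type*} [Fintype n] [DecidableEq n] {e : n → β → ℕ}
    {M : n → n → ((c : β) → κ c → R) → R} (hM : ∀ i j, IsMHFun (e i) (M i j)) :
    IsMHFun (∑ i, e i) (fun x => Matrix.det (Matrix.of fun i j => M i j x)) := by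
  have key : ∀ σ : Equiv.Perm n,
      IsMHFun (∑ i, e i) (fun x => ((Equiv.Perm.sign σ : ℤ) : R) * ∏ i, M (σ i) i x) := by
    intro σ
    have h1 : IsMHFun (∑ i, e (σ i)) (fun x => ∏ i, M (σ i) i x) :=
      IsMHFun.prod Finset.univ (fun i _ => hM (σ i) i)
    have h2 : ∑ i, e (σ i) = ∑ i, e i := Equiv.sum_comp σ e
    exact (h1.of_eq h2).const_mul _
  refine (IsMHFun.sum Finset.univ (fun σ _ => key σ)).congr fun x => ?_
  rw [Matrix.det_apply]
  refine Finset.sum_congr rfl fun σ _ => ?_
  rw [Units.smul_def, zsmul_eq_mul]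
  rfl

/-- Entries of the adjugate: multidegree `∑_{a ≠ j} e a`. -/
theorem IsMHFun.adjugate {n : Type*} [Fintype n] [DecidableEq n] {e : n → β → ℕ}
    {M : n → n → ((c : β) → κ c → R) → R} (hM : ∀ i j, IsMHFun (e i) (M i j)) (i j : n) :
    IsMHFun (∑ a, if a = j then 0 else e a)
      (fun x => Matrix.adjugate (Matrix.of fun a b => M a b x) i j) := by
  have h1 : ∀ a b, IsMHFun (if a = j then 0 else e a)
      (fun x => if a = j then (Pi.single i 1 : n → R) b else M a b x) := by
    intro a b
    by_cases h : a = j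
    · simp only [h, if_true]
      exact isMHFun_const _
    · simp only [h, if_false]
      exact hM a b
  refine (IsMHFun.det h1).congr fun x => ?_
  rw [Matrix.adjugate_apply]
  congr 1
  ext a b
  by_cases h : a = j
  · subst h
    simp [Matrix.updateRow_apply]
  · simp [Matrix.updateRow_apply, h]

/-- Entries of the adjugate, uniform row degree `d`: multidegree `(card n - 1) • d`. -/
theorem IsMHFun.adjugate_uniform {n : Type*} [Fintype n] [DecidableEq n] {d : β → ℕ}
    {M : n → n → ((c : β) → κ c → R) → R} (hM : ∀ i j, IsMHFun d (M i j)) (i j : n) :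
    IsMHFun ((Fintype.card n - 1) • d)
      (fun x => Matrix.adjugate (Matrix.of fun a b => M a b x) i j) := by
  refine (IsMHFun.adjugate (e := fun _ => d) hM i j).of_eq ?_
  rw [Finset.sum_ite, Finset.sum_const_zero, zero_add, Finset.sum_const]
  congr 1
  rw [Finset.filter_not, Finset.card_sdiff_of_subset (Finset.subset_univ _)]
  simp [Finset.filter_eq']

end Ring

end Fermat.Agent.S17.PLK6026
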