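import Mathlib
import Fermat.Agent.S17.HT.Basic
import Fermat.Agent.S17.HT.Multi
import Fermat.Agent.S17.PLK.MHFun6026
import Fermat.Agent.S17.PLK.Cramer6026

set_option autoImplicit false
set_option linter.unusedSectionVars false

/-!
# S17 / PLK — the abstract height engines of the HG layer (helper6026)

Everything is stated on the frozen API of package HT (`ht`, `ht_tensor`, `ht_smul`, `ht_comp_le`,
`ht_restrict_support`, `ht_blockEval_le`, `ht_blockEval_ge_of_zeroLocus`; origin/helper636) and on the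
multi-homogeneous function calculus `IsMHFun` of `MHFun6026.lean`.  No curve appears here.

* `ht_le_of_isMHFun`, `ht_ge_of_isMHFun_of_zeroLocus`: the two HT bounds for families of `IsMHFun`.
* `cramer_ht_le` (ENGINE A = the "≤" half of (T1), of (A) and (VIII) of the PLK note): a matrix `T(x)` of
  rank `≤ ρ` with multi-homogeneous entries, vectors `u_l(x)` in its column space, a functional `τ`
  with `τ T(x) = π(x)` and `τ u_l(x) = γ v_l`: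
      `ht (ρ-minors of T(x)) + ht v ≤ ∑_c (dπ + (ρ-1) dT + du)(c) · ht (x c) + C`.
* `minors_ht_ge` (ENGINE B = (CERT_k)): if the `ρ`-minors have no common zero on the multi-cone `V(S)`
  then `∑_c ρ dT(c) · ht (x c) ≤ ht (ρ-minors of T(x)) + C` on `V(S)`.
* `cramer_incidence_le` (A + B): `∑_c dT(c) · ht (x c) + ht v ≤ ∑_c (dπ + du)(c) · ht (x c) + C`.
-/

namespace Fermat.Agent.S17.PLK6026

open Fermat.Agent.S17.HT

local notation "ℚ̄" => AlgebraicClosure ℚ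

variable {β : Type*} [Fintype β] {κ : β → Type*} [∀ c, Fintype (κ c)]

/-! ### The two bounds of the HT machine for `IsMHFun` families -/

theorem ht_le_of_isMHFun {ι' : Type*} [Fintype ι'] (d : β → ℕ)
    (f : ι' → ((c : β) → κ c → ℚ̄) → ℚ̄) (hf : ∀ j, IsMHFun d (f j)) :
    ∃ C : ℝ, ∀ x : (c : β) → κ c → ℚ̄,
      ht (fun j => f j x) ≤ ∑ c, (d c : ℝ) * ht (x c) + C := by
  choose p hp hpe using hf
  obtain ⟨C, hC⟩ := ht_blockEval_le d p hp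
  refine ⟨C, fun x => ?_⟩
  have h := hC x
  simpa only [hpe] using h

theorem ht_ge_of_isMHFun_of_zeroLocus {ι' : Type*} [Fintype ι']
    (S : Set (MvPolynomial (Σ c, κ c) ℚ̄)) (hS : ∀ g ∈ S, ∃ e : β → ℕ, IsMultiHomogeneous g e)
    (d : β → ℕ) (f : ι' → ((c : β) → κ c → ℚ̄) → ℚ̄) (hf : ∀ j, IsMHFun d (f j))
    (h0 : ∀ x : (c : β) → κ c → ℚ̄, (∀ g ∈ S, blockEval x g = 0) → (∀ j, f j x = 0) →
      ∃ c, x c = 0) :
    ∃ C : ℝ, ∀ x : (c : β) → κ c → ℚ̄, (∀ g ∈ S, blockEval x g = 0) → (∀ c, x c ≠ 0) →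
      ∑ c, (d c : ℝ) * ht (x c) ≤ ht (fun j => f j x) + C := by
  choose p hp hpe using hf
  obtain ⟨C, hC⟩ := ht_blockEval_ge_of_zeroLocus S hS d p hp
    (fun x hx hpx => h0 x hx (fun j => by rw [← hpe j x]; exact hpx j))
  refine ⟨C, fun x hx hx0 => ?_⟩
  have h := hC x hx hx0
  simpa only [hpe] using h

/-! ### Minors and the Cramer functions -/

section Engine

variable {Rw Cl L : Type*}

/-- The `ρ`-minor of the matrix `T(x)` with rows `α.1` and columns `α.2`. -/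
noncomputable def minorFun (ρ : ℕ) (T : Rw → Cl → ((c : β) → κ c → ℚ̄) → ℚ̄)
    (α : (Fin ρ → Rw) × (Fin ρ → Cl)) (x : (c : β) → κ c → ℚ̄) : ℚ̄ :=
  ((Matrix.of fun i j => T i j x).submatrix α.1 α.2).det

/-- The Cramer expression `∑_k π_{C k}(x) · (adj(T(x)[R,C]) u_l(x)_R)_k`. -/
noncomputable def cramerFun (ρ : ℕ) (T : Rw → Cl → ((c : β) → κ c → ℚ̄) → ℚ̄)
    (u : L → Rw → ((c : β) → κ c → ℚ̄) → ℚ̄) (π : Cl → ((c : β) → κ c → ℚ̄) → ℚ̄)
    (a : ((Fin ρ → Rw) × (Fin ρ → Cl)) × L) (x : (c : β) → κ c → ℚ̄) : ℚ̄ :=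
  ∑ k, π (a.1.2 k) x *
    ∑ k', ((Matrix.of fun i j => T i j x).submatrix a.1.1 a.1.2).adjugate k k' * u a.2 (a.1.1 k') x

theorem isMHFun_minorFun (ρ : ℕ) {dT : β → ℕ} {T : Rw → Cl → ((c : β) → κ c → ℚ̄) → ℚ̄}
    (hT : ∀ i j, IsMHFun dT (T i j)) (α : (Fin ρ → Rw) × (Fin ρ → Cl)) :
    IsMHFun (ρ • dT) (minorFun ρ T α) := by
  have h := IsMHFun.det (e := fun _ : Fin ρ => dT)
    (M := fun a b => T (α.1 a) (α.2 b)) (fun a b => hT (α.1 a) (α.2 b))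
  refine (h.of_eq ?_).congr fun x => rfl
  simp

theorem isMHFun_cramerFun (ρ : ℕ) {dT du dπ : β → ℕ} {T : Rw → Cl → ((c : β) → κ c → ℚ̄) → ℚ̄}
    (hT : ∀ i j, IsMHFun dT (T i j)) {u : L → Rw → ((c : β) → κ c → ℚ̄) → ℚ̄}
    (hu : ∀ l i, IsMHFun du (u l i)) {π : Cl → ((c : β) → κ c → ℚ̄) → ℚ̄}
    (hπ : ∀ j, IsMHFun dπ (π j)) (a : ((Fin ρ → Rw) × (Fin ρ → Cl)) × L) :
    IsMHFun (dπ + ((ρ - 1) • dT + du)) (cramerFun ρ T u π a) := by
  unfold cramerFun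
  refine IsMHFun.sum Finset.univ fun k _ => (hπ (a.1.2 k)).mul ?_
  refine IsMHFun.sum Finset.univ fun k' _ => IsMHFun.mul ?_ (hu a.2 (a.1.1 k'))
  have h := IsMHFun.adjugate_uniform (d := dT)
    (M := fun i j => T (a.1.1 i) (a.1.2 j)) (fun i j => hT (a.1.1 i) (a.1.2 j)) k k'
  rw [Fintype.card_fin] at h
  exact h.congr fun x => rfl

/-- The Cramer identity behind ENGINE A. -/
theorem minorFun_mul_eq_cramerFun [Fintype Rw] {ρ : ℕ} {T : Rw → Cl → ((c : β) → κ c → ℚ̄) → ℚ̄}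
    {u : L → Rw → ((c : β) → κ c → ℚ̄) → ℚ̄} {π : Cl → ((c : β) → κ c → ℚ̄) → ℚ̄}
    {x : (c : β) → κ c → ℚ̄} {τ : Rw → ℚ̄} {W : Submodule ℚ̄ (Rw → ℚ̄)}
    (hW : Module.finrank ℚ̄ W ≤ ρ) (hTW : ∀ j, (fun i => T i j x) ∈ W)
    (huW : ∀ l, (fun i => u l i x) ∈ W) (hτT : ∀ j, ∑ i, τ i * T i j x = π j x)
    (α : (Fin ρ → Rw) × (Fin ρ → Cl)) (l : L) (hμ : minorFun ρ T α x ≠ 0) :
    minorFun ρ T α x * ∑ i, τ i * u l i x = cramerFun ρ T u π (α, l) x := by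
  have h := det_smul_eq_sum_adjugate_smul_col (Matrix.of fun i j => T i j x) W hW hTW α.1 α.2 hμ
    (huW l)
  have h2 := congrArg (fun w : Rw → ℚ̄ => ∑ i, τ i * w i) h
  simp only [Pi.smul_apply, smul_eq_mul, Finset.sum_apply, Matrix.of_apply] at h2
  unfold cramerFun
  unfold minorFun
  calc ((Matrix.of fun i j => T i j x).submatrix α.1 α.2).det * ∑ i, τ i * u l i x
      = ∑ i, τ i * (((Matrix.of fun i j => T i j x).submatrix α.1 α.2).det * u l i x) := by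
        rw [Finset.mul_sum]
        exact Finset.sum_congr rfl fun i _ => by ring
    _ = ∑ i, τ i * ∑ k, (((Matrix.of fun i j => T i j x).submatrix α.1 α.2).adjugate.mulVec
          ((fun i => u l i x) ∘ α.1)) k * T i (α.2 k) x := h2
    _ = ∑ k, π (α.2 k) x * ∑ k', ((Matrix.of fun i j => T i j x).submatrix α.1 α.2).adjugate k k' *
          u l (α.1 k') x := by
        simp only [Finset.mul_sum]
        rw [Finset.sum_comm]
        refine Finset.sum_congr rfl fun k _ => ?_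
        rw [← hτT (α.2 k)]
        simp only [Matrix.mulVec, dotProduct, Function.comp_apply, Finset.sum_mul, Finset.mul_sum]
        rw [Finset.sum_comm]
        refine Finset.sum_congr rfl fun i _ => Finset.sum_congr rfl fun k' _ => by ring

variable [Fintype Rw] [Fintype Cl] [Fintype L]

/-- **ENGINE A** (Cramer height inequality). -/
theorem cramer_ht_le (ρ : ℕ) (dT du dπ : β → ℕ)
    (T : Rw → Cl → ((c : β) → κ c → ℚ̄) → ℚ̄) (hT : ∀ i j, IsMHFun dT (T i j))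
    (u : L → Rw → ((c : β) → κ c → ℚ̄) → ℚ̄) (hu : ∀ l i, IsMHFun du (u l i))
    (π : Cl → ((c : β) → κ c → ℚ̄) → ℚ̄) (hπ : ∀ j, IsMHFun dπ (π j)) :
    ∃ C : ℝ, ∀ (x : (c : β) → κ c → ℚ̄) (γ : ℚ̄) (v : L → ℚ̄) (τ : Rw → ℚ̄)
      (W : Submodule ℚ̄ (Rw → ℚ̄)),
      Module.finrank ℚ̄ W ≤ ρ → (∀ j, (fun i => T i j x) ∈ W) → (∀ l, (fun i => u l i x) ∈ W) →
      (∀ j, ∑ i, τ i * T i j x = π j x) → (∀ l, ∑ i, τ i * u l i x = γ * v l) →
      γ ≠ 0 → v ≠ 0 → (∃ α, minorFun ρ T α x ≠ 0) →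
      ht (fun α => minorFun ρ T α x) + ht v ≤
        ∑ c, ((dπ c + ((ρ - 1) * dT c + du c) : ℕ) : ℝ) * ht (x c) + C := by
  obtain ⟨C, hC⟩ := ht_le_of_isMHFun (dπ + ((ρ - 1) • dT + du)) (cramerFun ρ T u π)
    (isMHFun_cramerFun ρ hT hu hπ)
  refine ⟨C, fun x γ v τ W hW hTW huW hτT hτu hγ hv hμ => ?_⟩
  -- the tensor `μ ⊗ v`
  let F : ((Fin ρ → Rw) × (Fin ρ → Cl)) × L → ℚ̄ := fun p => minorFun ρ T p.1 x * v p.2
  have hμ0 : (fun α => minorFun ρ T α x) ≠ 0 := by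
    obtain ⟨α, hα⟩ := hμ
    intro h
    exact hα (congrFun h α)
  have hF : ht F = ht (fun α => minorFun ρ T α x) + ht v := ht_tensor _ _ hμ0 hv
  have hγF : ht (γ • F) = ht F := ht_smul F hγ
  -- on its support, `γ • F` is the Cramer family
  have hkey : ∀ p : ((Fin ρ → Rw) × (Fin ρ → Cl)) × L, (γ • F) p ≠ 0 →
      (γ • F) p = cramerFun ρ T u π p x := by
    rintro ⟨α, l⟩ hp
    have hα : minorFun ρ T α x ≠ 0 := by
      intro h
      apply hp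
      simp [F, h]
    rw [← minorFun_mul_eq_cramerFun hW hTW huW hτT α l hα, hτu l]
    simp only [Pi.smul_apply, smul_eq_mul, F]
    ring
  have h1 : ht (γ • F) =
      ht (fun i : {i // (γ • F) i ≠ 0} => cramerFun ρ T u π i.1 x) := by
    rw [← ht_restrict_support (γ • F)]
    congr 1
    funext i
    exact hkey i.1 i.2
  have h2 : ht (fun i : {i // (γ • F) i ≠ 0} => cramerFun ρ T u π i.1 x) ≤
      ht (fun p => cramerFun ρ T u π p x) :=
    ht_comp_le (Subtype.val : {i // (γ • F) i ≠ 0} → _) (fun p => cramerFun ρ T u π p x)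
  have h3 := hC x
  have h4 : ∑ c, (((dπ + ((ρ - 1) • dT + du)) c : ℕ) : ℝ) * ht (x c) =
      ∑ c, ((dπ c + ((ρ - 1) * dT c + du c) : ℕ) : ℝ) * ht (x c) := by
    refine Finset.sum_congr rfl fun c _ => ?_
    simp
  rw [h4] at h3
  linarith

/-- **ENGINE B** (certificate: the minors have no common zero on the multi-cone `V(S)`). -/
theorem minors_ht_ge (S : Set (MvPolynomial (Σ c, κ c) ℚ̄))
    (hS : ∀ g ∈ S, ∃ e : β → ℕ, IsMultiHomogeneous g e) (ρ : ℕ) (dT : β → ℕ)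
    (T : Rw → Cl → ((c : β) → κ c → ℚ̄) → ℚ̄) (hT : ∀ i j, IsMHFun dT (T i j))
    (h0 : ∀ x : (c : β) → κ c → ℚ̄, (∀ g ∈ S, blockEval x g = 0) →
      (∀ α, minorFun ρ T α x = 0) → ∃ c, x c = 0) :
    ∃ C : ℝ, ∀ x : (c : β) → κ c → ℚ̄, (∀ g ∈ S, blockEval x g = 0) → (∀ c, x c ≠ 0) →
      ∑ c, ((ρ * dT c : ℕ) : ℝ) * ht (x c) ≤ ht (fun α => minorFun ρ T α x) + C := by
  obtain ⟨C, hC⟩ := ht_ge_of_isMHFun_of_zeroLocus S hS (ρ • dT) (minorFun ρ T)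
    (isMHFun_minorFun ρ hT) h0
  refine ⟨C, fun x hx hx0 => ?_⟩
  have h := hC x hx hx0
  have h4 : ∑ c, (((ρ • dT) c : ℕ) : ℝ) * ht (x c) = ∑ c, ((ρ * dT c : ℕ) : ℝ) * ht (x c) := by
    refine Finset.sum_congr rfl fun c _ => ?_
    simp
  rw [h4] at h
  exact h

/-- **ENGINE A + B** (the abstract form of the "≤" half of the incidence identity (T1), of (A) and
of (VIII)): on the multi-cone `V(S)`, where the `ρ`-minors of `T` have no common zero. -/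
theorem cramer_incidence_le (S : Set (MvPolynomial (Σ c, κ c) ℚ̄))
    (hS : ∀ g ∈ S, ∃ e : β → ℕ, IsMultiHomogeneous g e) (ρ : ℕ) (hρ : 1 ≤ ρ)
    (dT du dπ : β → ℕ)
    (T : Rw → Cl → ((c : β) → κ c → ℚ̄) → ℚ̄) (hT : ∀ i j, IsMHFun dT (T i j))
    (u : L → Rw → ((c : β) → κ c → ℚ̄) → ℚ̄) (hu : ∀ l i, IsMHFun du (u l i))
    (π : Cl → ((c : β) → κ c → ℚ̄) → ℚ̄) (hπ : ∀ j, IsMHFun dπ (π j))
    (h0 : ∀ x : (c : β) → κ c → ℚ̄, (∀ g ∈ S, blockEval x g = 0) →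
      (∀ α, minorFun ρ T α x = 0) → ∃ c, x c = 0) :
    ∃ C : ℝ, ∀ (x : (c : β) → κ c → ℚ̄) (γ : ℚ̄) (v : L → ℚ̄) (τ : Rw → ℚ̄)
      (W : Submodule ℚ̄ (Rw → ℚ̄)),
      (∀ g ∈ S, blockEval x g = 0) → (∀ c, x c ≠ 0) →
      Module.finrank ℚ̄ W ≤ ρ → (∀ j, (fun i => T i j x) ∈ W) → (∀ l, (fun i => u l i x) ∈ W) →
      (∀ j, ∑ i, τ i * T i j x = π j x) → (∀ l, ∑ i, τ i * u l i x = γ * v l) →
      γ ≠ 0 → v ≠ 0 →
      ∑ c, (dT c : ℝ) * ht (x c) + ht v ≤ ∑ c, ((dπ c + du c : ℕ) : ℝ) * ht (x c) + C := by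
  obtain ⟨CA, hA⟩ := cramer_ht_le ρ dT du dπ T hT u hu π hπ
  obtain ⟨CB, hB⟩ := minors_ht_ge S hS ρ dT T hT h0
  refine ⟨CA + CB, fun x γ v τ W hx hx0 hW hTW huW hτT hτu hγ hv => ?_⟩
  have hμ : ∃ α, minorFun ρ T α x ≠ 0 := by
    by_contra hcon
    have hall : ∀ α, minorFun ρ T α x = 0 := fun α => by_contra fun h => hcon ⟨α, h⟩
    obtain ⟨c, hc⟩ := h0 x hx hall
    exact hx0 c hc
  have h1 := hA x γ v τ W hW hTW huW hτT hτu hγ hv hμ
  have h2 := hB x hx hx0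
  have e1 : ∑ c, ((ρ * dT c : ℕ) : ℝ) * ht (x c) =
      ∑ c, (dT c : ℝ) * ht (x c) + ∑ c, (((ρ - 1) * dT c : ℕ) : ℝ) * ht (x c) := by
    rw [← Finset.sum_add_distrib]
    refine Finset.sum_congr rfl fun c _ => ?_
    push_cast [Nat.cast_sub hρ]
    ring
  have e2 : ∑ c, ((dπ c + ((ρ - 1) * dT c + du c) : ℕ) : ℝ) * ht (x c) =
      ∑ c, ((dπ c + du c : ℕ) : ℝ) * ht (x c) + ∑ c, (((ρ - 1) * dT c : ℕ) : ℝ) * ht (x c) := by
    rw [← Finset.sum_add_distrib]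
    refine Finset.sum_congr rfl fun c _ => ?_
    push_cast
    ring
  linarith

end Engine

end Fermat.Agent.S17.PLK6026
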