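/-
S17 / PLK — leaf HG4 `eta_add_pt` (A), part 1: linear algebra of Plücker vectors (helper576).
Mathlib + `PLK/Defs.lean` (for `plVec`) + HT leaf statements `ht_smul` only.  Complete proofs.
-/
import Fermat.Agent.S17.PLK.Defs

set_option autoImplicit false

noncomputable section

namespace Fermat.Agent.S17.PLK.H576

open Fermat.Agent.S17.HT Fermat.Agent.S17.H

section LA

variable {K : Type*} [Field K]

/-- A change of basis multiplies the Plücker vector by the determinant (own proof of LA1). -/
theorem plVec_mul' {r d : ℕ} (A : Matrix (Fin r) (Fin r) K) (B : Fin r → Fin d → K) :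
    plVec (fun i => ∑ l, A i l • B l) = A.det • plVec B := by
  funext f
  simp only [plVec, Pi.smul_apply, smul_eq_mul]
  rw [← Matrix.det_mul]
  congr 1
  ext i j
  simp [Matrix.mul_apply, Finset.sum_apply]

/-- The Plücker vector of a linearly independent family is nonzero. -/
theorem plVec_ne_zero {r d : ℕ} (B : Fin r → Fin d → K) (hB : LinearIndependent K B) :
    plVec B ≠ 0 := by
  classical
  -- the columns of `B` span `K^r`
  let A : Matrix (Fin r) (Fin d) K := Matrix.of B
  have hrank : A.rank = r := by
    have h := LinearIndependent.rank_matrix (M := A) (show LinearIndependent K A.row from hB)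
    simpa using h
  have hspan : Module.finrank K (Submodule.span K (Set.range A.col)) = r := by
    rw [← Matrix.rank_eq_finrank_span_cols]; exact hrank
  obtain ⟨n, hn, f', hf's, -, hf'li⟩ : ∃ n, n = r ∧ ∃ f' : Fin n → (Fin r → K),
      (∀ i, f' i ∈ Set.range A.col) ∧
      Submodule.span K (Set.range f') = Submodule.span K (Set.range A.col) ∧
      LinearIndependent K f' :=
    ⟨_, hspan, Submodule.exists_fun_fin_finrank_span_eq K (Set.range A.col)⟩
  subst hn
  choose f hf using hf's
  intro h0
  have hdet : Matrix.det (Matrix.of fun i j => B i (f j)) = 0 := congrFun h0 f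
  have hli : LinearIndependent K (Matrix.of fun i j => B i (f j)).col := by
    have : (Matrix.of fun i j => B i (f j)).col = f' := by
      funext j
      rw [← hf j]
      rfl
    rw [this]
    exact hf'li
  have hunit := Matrix.linearIndependent_cols_iff_isUnit.mp hli
  rw [Matrix.isUnit_iff_isUnit_det, hdet] at hunit
  exact not_isUnit_zero hunit

/-- Contraction of the Plücker vector with a linear form `τ` vanishing on all rows but the first
(own replacement of LA2(i); no division). -/
theorem plVec_contract' {r d : ℕ} (B : Fin (r + 1) → Fin d → K) (τ : Fin d → K)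
    (hτ : ∀ i : Fin r, ∑ l, τ l * B i.succ l = 0) (f : Fin r → Fin d) :
    ∑ j, τ j * plVec B (Fin.cons j f) =
      (∑ l, τ l * B 0 l) * plVec (fun i : Fin r => B i.succ) f := by
  have hexp : ∀ j : Fin d, plVec B (Fin.cons j f) =
      ∑ i : Fin (r + 1), (-1) ^ (i : ℕ) * B i j *
        Matrix.det (Matrix.of fun (i' : Fin r) (c : Fin r) => B (i.succAbove i') (f c)) := by
    intro j
    unfold plVec
    rw [Matrix.det_succ_column_zero]
    refine Finset.sum_congr rfl fun i _ => ?_
    congr 1
  simp only [hexp, Finset.mul_sum]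
  rw [Finset.sum_comm]
  have hrw : ∀ i : Fin (r + 1), (∑ j, τ j * ((-1) ^ (i : ℕ) * B i j *
        Matrix.det (Matrix.of fun (i' : Fin r) (c : Fin r) => B (i.succAbove i') (f c)))) =
      (-1) ^ (i : ℕ) * (∑ j, τ j * B i j) *
        Matrix.det (Matrix.of fun (i' : Fin r) (c : Fin r) => B (i.succAbove i') (f c)) := by
    intro i
    rw [Finset.mul_sum, Finset.sum_mul]
    exact Finset.sum_congr rfl fun j _ => by ring
  simp only [hrw]
  rw [Fin.sum_univ_succ]
  have hz : ∑ i : Fin r, (-1) ^ ((i.succ : Fin (r + 1)) : ℕ) * (∑ j, τ j * B i.succ j) *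
        Matrix.det (Matrix.of fun (i' : Fin r) (c : Fin r) => B (i.succ.succAbove i') (f c)) = 0 :=
    Finset.sum_eq_zero fun i _ => by rw [hτ i]; ring
  rw [hz, add_zero]
  simp only [Fin.val_zero, pow_zero, one_mul, Fin.succAbove_zero]
  rfl

end LA

local notation "ℚ̄" => AlgebraicClosure ℚ

/-- The height of the Plücker vector does not depend on the basis. -/
theorem ht_plVec_basis_indep {W : Type*} [AddCommGroup W] [Module ℚ̄ W] {d m n : ℕ}
    (Ψ : W →ₗ[ℚ̄] (Fin d → ℚ̄)) (e₁ : Module.Basis (Fin m) ℚ̄ W)
    (e₂ : Module.Basis (Fin n) ℚ̄ W) :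
    ht (plVec fun i => Ψ (e₁ i)) = ht (plVec fun i => Ψ (e₂ i)) := by
  classical
  have hmn : m = n := by
    have h1 := Module.finrank_eq_card_basis e₁
    have h2 := Module.finrank_eq_card_basis e₂
    simp only [Fintype.card_fin] at h1 h2
    omega
  subst hmn
  have hexp : (fun i => Ψ (e₁ i)) =
      fun i => ∑ l, (e₂.toMatrix e₁).transpose i l • Ψ (e₂ l) := by
    funext i
    have h := e₂.sum_toMatrix_smul_self e₁ i
    calc Ψ (e₁ i) = Ψ (∑ l, e₂.toMatrix e₁ l i • e₂ l) := by rw [h]
      _ = ∑ l, (e₂.toMatrix e₁).transpose i l • Ψ (e₂ l) := by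
        rw [map_sum]
        exact Finset.sum_congr rfl fun l _ => by rw [map_smul]; rfl
  rw [hexp, plVec_mul']
  refine ht_smul _ ?_
  rw [Matrix.det_transpose]
  have hu : IsUnit (e₂.det e₁) := e₂.isUnit_det e₁
  rw [Module.Basis.det_apply] at hu
  exact hu.ne_zero

end Fermat.Agent.S17.PLK.H576
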