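/-
S17 / PLK — leaf group CG1 (evaluation calculus) of helper2397's skeleton v0, proved by helper8158.

All nine CG1 statements VERBATIM (`secVal_add`, `secVal_smul`, `secVal_mul`, `secVal_eq_zero_iff`,
`ht_xphi`, `xphi_ne_zero`, `ht_Mvec`, `Mvec_ne_zero`, `delta_symm`), in the namespace
`Fermat.Agent.S17.PLK.H8158`.  Black boxes used: statements of FND (`FND/Skel.lean`, leaves A, B, C) and of
HT L1 (`ht_smul`).  No sorry in this file.
-/
import Fermat.Agent.S17.PLK.Defs

set_option autoImplicit false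
set_option linter.unusedSectionVars false

noncomputable section

open AlgebraicCurve ModularCurve

namespace Fermat.Agent.S17.PLK.H8158

open Fermat.Agent.S17.FND Fermat.Agent.S17.H Fermat.Agent.S17.HT Fermat.Agent.S17.PLK

/-! ## Generic function-field lemmas -/

section Generic

variable {K F : Type*} [Field K] [Field F] [Algebra K F]
variable [IsAlgClosed K] [CharZero K] [IsCurveOver K F] [Algebra.EssFiniteType K F]

theorem unif_ord (P : Place K F) : P.ord (unif P) = 1 := by
  have h : ∃ t : F, P.ord t = 1 := exists_uniformizer P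
  unfold unif
  rw [dif_pos h]
  exact h.choose_spec

theorem unif_ne_zero (P : Place K F) : unif P ≠ 0 := by
  intro h
  have h1 := unif_ord P
  rw [h, Place.ord_zero] at h1
  exact zero_ne_one h1

theorem ord_unif_zpow (P : Place K F) (n : ℤ) : P.ord (unif P ^ n) = n := by
  rw [Place.ord_zpow, unif_ord, mul_one]

theorem ord_mul_unif_zpow (P : Place K F) {s : F} (hs : s ≠ 0) (n : ℤ) :
    P.ord (s * unif P ^ n) = P.ord s + n := by
  rw [P.ord_mul hs (zpow_ne_zero n (unif_ne_zero P)), ord_unif_zpow]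

/-- A section of `O(A)` times `t_Q ^ A(Q)` is regular at `Q`. -/
theorem mul_unif_mem (A : Divisor K F) (Q : Place K F) {s : F} (hs : s ∈ riemannRochSpace A) :
    s * unif Q ^ (A Q) ∈ Q.toValuationSubring := by
  rw [mem_valuationSubring_iff]
  rcases eq_or_ne s 0 with rfl | h0
  · simp
  · rw [ord_mul_unif_zpow Q h0]
    rcases (mem_riemannRochSpace_iff.mp hs) Q with h | h
    · exact absurd h h0
    · linarith

theorem algebraMap_mul_mem (A : Divisor K F) (c : K) {s : F} (hs : s ∈ riemannRochSpace A) :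
    algebraMap K F c * s ∈ riemannRochSpace A := by
  have h := (riemannRochSpace A).smul_mem c hs
  rwa [Algebra.smul_def] at h

theorem g_secVal_add (A : Divisor K F) (Q : Place K F) {s s' : F}
    (hs : s ∈ riemannRochSpace A) (hs' : s' ∈ riemannRochSpace A) :
    secVal A Q (s + s') = secVal A Q s + secVal A Q s' := by
  unfold secVal
  rw [add_mul]
  exact evalAt_add Q (mul_unif_mem A Q hs) (mul_unif_mem A Q hs')

theorem g_secVal_smul (A : Divisor K F) (Q : Place K F) (c : K) {s : F}
    (hs : s ∈ riemannRochSpace A) :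
    secVal A Q (algebraMap K F c * s) = c * secVal A Q s := by
  unfold secVal
  rw [mul_assoc, evalAt_mul Q (Q.algebraMap_mem' c) (mul_unif_mem A Q hs), evalAt_algebraMap]

theorem g_secVal_mul (A A' : Divisor K F) (Q : Place K F) {s s' : F}
    (hs : s ∈ riemannRochSpace A) (hs' : s' ∈ riemannRochSpace A') :
    secVal (A + A') Q (s * s') = secVal A Q s * secVal A' Q s' := by
  unfold secVal
  rw [← evalAt_mul Q (mul_unif_mem A Q hs) (mul_unif_mem A' Q hs')]
  congr 1
  rw [Finsupp.add_apply, zpow_add₀ (unif_ne_zero Q)]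
  ring

theorem g_secVal_eq_zero_iff (A : Divisor K F) (Q : Place K F) {s : F}
    (hs : s ∈ riemannRochSpace A) :
    secVal A Q s = 0 ↔ s ∈ riemannRochSpace (A - pt Q) := by
  classical
  unfold secVal
  rw [evalAt_eq_zero_iff Q (mul_unif_mem A Q hs), mem_riemannRochSpace_iff]
  have hs0 := mem_riemannRochSpace_iff.mp hs
  constructor
  · intro h v
    rcases eq_or_ne s 0 with h0 | h0
    · exact Or.inl h0
    · right
      rcases h with h | h
      · exact absurd h (mul_ne_zero h0 (zpow_ne_zero _ (unif_ne_zero Q)))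
      · rw [ord_mul_unif_zpow Q h0] at h
        rw [Finsupp.sub_apply, Finsupp.single_apply]
        split_ifs with hv
        · subst hv
          linarith
        · rcases hs0 v with h' | h'
          · exact absurd h' h0
          · linarith
  · intro h
    rcases eq_or_ne s 0 with h0 | h0
    · left
      rw [h0, zero_mul]
    · right
      rw [ord_mul_unif_zpow Q h0]
      rcases h Q with h' | h'
      · exact absurd h' h0
      · rw [Finsupp.sub_apply, Finsupp.single_apply, if_pos rfl] at h'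
        linarith

theorem secVal_zero (A : Divisor K F) (Q : Place K F) : secVal A Q (0 : F) = 0 := by
  unfold secVal
  rw [zero_mul]
  have h := evalAt_algebraMap Q (0 : K)
  rwa [map_zero] at h

theorem secVal_sub (A : Divisor K F) (Q : Place K F) {s s' : F}
    (hs : s ∈ riemannRochSpace A) (hs' : s' ∈ riemannRochSpace A) :
    secVal A Q (s - s') = secVal A Q s - secVal A Q s' := by
  have h := g_secVal_add A Q ((riemannRochSpace A).sub_mem hs hs') hs'
  rw [sub_add_cancel] at h
  rw [h]
  ring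

theorem secVal_sum (A : Divisor K F) (Q : Place K F) {ι : Type*} (t : Finset ι) (a : ι → K)
    (f : ι → F) (hf : ∀ i ∈ t, f i ∈ riemannRochSpace A) :
    secVal A Q (∑ i ∈ t, algebraMap K F (a i) * f i) = ∑ i ∈ t, a i * secVal A Q (f i) := by
  classical
  induction t using Finset.induction_on with
  | empty => simp [secVal_zero]
  | insert i t hi ih =>
    have hf' : ∀ j ∈ t, f j ∈ riemannRochSpace A := fun j hj => hf j (Finset.mem_insert_of_mem hj)
    rw [Finset.sum_insert hi, Finset.sum_insert hi,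
      g_secVal_add A Q (algebraMap_mul_mem A (a i) (hf i (Finset.mem_insert_self i t)))
        ((riemannRochSpace A).sum_mem fun j hj => algebraMap_mul_mem A (a j) (hf' j hj)),
      g_secVal_smul A Q (a i) (hf i (Finset.mem_insert_self i t)), ih hf']

theorem secVal_congr {A A' : Divisor K F} (Q : Place K F) (h : A Q = A' Q) (s : F) :
    secVal A Q s = secVal A' Q s := by
  unfold secVal
  rw [h]

theorem RR_sub_pt_le (A : Divisor K F) (Q : Place K F) :
    riemannRochSpace (A - pt Q) ≤ riemannRochSpace A := by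
  classical
  intro f hf
  rw [mem_riemannRochSpace_iff] at hf ⊢
  intro v
  rcases hf v with h | h
  · exact Or.inl h
  · right
    rw [Finsupp.sub_apply, Finsupp.single_apply] at h
    split_ifs at h <;> linarith

/-- Base-point freeness in the form: some section of `L(A)` is not in `L(A - Q)`. -/
theorem exists_mem_not_mem_sub_pt {A : Divisor K F}
    (hA : 2 * (genusFF K F : ℤ) ≤ Divisor.degree A) (Q : Place K F) :
    ∃ s : F, s ∈ riemannRochSpace A ∧ s ∉ riemannRochSpace (A - pt Q) := by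
  by_contra hcon
  push Not at hcon
  have hle : riemannRochSpace A ≤ riemannRochSpace (A - pt Q) := hcon
  have heq : riemannRochSpace (A - pt Q) = riemannRochSpace A := le_antisymm (RR_sub_pt_le A Q) hle
  have h1 := ell_sub_pt hA Q
  unfold ell at h1
  rw [heq] at h1
  omega

/-- If `φ` spans `L(A)` and `deg A ≥ 2g`, some `φ j` has exact order `-A(Q)` at `Q`. -/
theorem exists_ord_eq_neg {A : Divisor K F} (hA : 2 * (genusFF K F : ℤ) ≤ Divisor.degree A)
    {ι : Type*} (φ : ι → F) (hφ : Submodule.span K (Set.range φ) = riemannRochSpace A)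
    (Q : Place K F) : ∃ j, φ j ≠ 0 ∧ Q.ord (φ j) = -A Q := by
  classical
  obtain ⟨s, hs, hs'⟩ := exists_mem_not_mem_sub_pt hA Q
  have hex : ∃ j, φ j ∉ riemannRochSpace (A - pt Q) := by
    by_contra hcon
    push Not at hcon
    apply hs'
    have hle : Submodule.span K (Set.range φ) ≤ riemannRochSpace (A - pt Q) := by
      rw [Submodule.span_le]
      rintro _ ⟨j, rfl⟩
      exact hcon j
    rw [hφ] at hle
    exact hle hs
  obtain ⟨j, hj⟩ := hex
  have hjA : φ j ∈ riemannRochSpace A := by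
    rw [← hφ]
    exact Submodule.subset_span (Set.mem_range_self j)
  have hj0 : φ j ≠ 0 := by
    intro h
    apply hj
    rw [h]
    exact Submodule.zero_mem _
  refine ⟨j, hj0, ?_⟩
  have hA' := mem_riemannRochSpace_iff.mp hjA
  rw [mem_riemannRochSpace_iff] at hj
  push Not at hj
  obtain ⟨v, -, hv⟩ := hj
  rw [Finsupp.sub_apply, Finsupp.single_apply] at hv
  by_cases hQv : Q = v
  · subst hQv
    rw [if_pos rfl] at hv
    rcases hA' Q with h | h
    · exact absurd h hj0
    · omega
  · rw [if_neg hQv] at hv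
    rcases hA' v with h | h
    · exact absurd h hj0
    · omega

theorem minIdx_spec {ι : Type*} [Finite ι] [Nonempty ι] (φ : ι → F) (P : Place K F) (j : ι) :
    P.ord (φ (minIdx φ P)) ≤ P.ord (φ j) := by
  have h : ∃ i, ∀ j, P.ord (φ i) ≤ P.ord (φ j) := Finite.exists_min fun i => P.ord (φ i)
  unfold minIdx
  rw [dif_pos h]
  exact h.choose_spec j

theorem evalAt_sub' (P : Place K F) {f g : F} (hf : f ∈ P.toValuationSubring)
    (hg : g ∈ P.toValuationSubring) : evalAt P (f - g) = evalAt P f - evalAt P g := by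
  have h := evalAt_add P (P.toValuationSubring.sub_mem hf hg) hg
  rw [sub_add_cancel] at h
  rw [h]
  ring

end Generic

/-! ## The arithmetic curve -/

section Arithmetic

variable {F₀ : IntermediateField ℚ (LaurentSeries ℚ)}
  [IsCurveOver Qbar (FB F₀)] [Algebra.EssFiniteType Qbar (FB F₀)]

/-! ### The four `secVal` leaves (verbatim) -/

/-- `secVal A Q` is additive on `L(A)`. -/
theorem secVal_add (A : Divisor Qbar (FB F₀)) (Q : Place Qbar (FB F₀)) {s s' : FB F₀}
    (hs : s ∈ riemannRochSpace A) (hs' : s' ∈ riemannRochSpace A) :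
    secVal A Q (s + s') = secVal A Q s + secVal A Q s' :=
  g_secVal_add A Q hs hs'

theorem secVal_smul (A : Divisor Qbar (FB F₀)) (Q : Place Qbar (FB F₀)) (c : Qbar) {s : FB F₀}
    (hs : s ∈ riemannRochSpace A) :
    secVal A Q (algebraMap Qbar (FB F₀) c * s) = c * secVal A Q s :=
  g_secVal_smul A Q c hs

/-- `secVal` is multiplicative. -/
theorem secVal_mul (A A' : Divisor Qbar (FB F₀)) (Q : Place Qbar (FB F₀)) {s s' : FB F₀}
    (hs : s ∈ riemannRochSpace A) (hs' : s' ∈ riemannRochSpace A') :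
    secVal (A + A') Q (s * s') = secVal A Q s * secVal A' Q s' :=
  g_secVal_mul A A' Q hs hs'

/-- The kernel of `secVal A Q` on `L(A)` is `L(A − Q)`. -/
theorem secVal_eq_zero_iff (A : Divisor Qbar (FB F₀)) (Q : Place Qbar (FB F₀)) {s : FB F₀}
    (hs : s ∈ riemannRochSpace A) :
    secVal A Q s = 0 ↔ s ∈ riemannRochSpace (A - pt Q) :=
  g_secVal_eq_zero_iff A Q hs

/-! ### Bridge `hbar = ht` -/

theorem hbar_eq_ht {ι : Type*} [Finite ι] (x : ι → Qbar) : hbar x = ht x := by
  have h : Finite ι ∧ ∀ i, IsIntegral ℚ (x i) :=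
    ⟨inferInstance, fun i => Algebra.IsIntegral.isIntegral (x i)⟩
  unfold hbar ht
  rw [dif_pos h, div_eq_inv_mul]

/-! ### The embedding basis -/

theorem degree_lvlDiv (S : Setup F₀) (n : ℕ) : Divisor.degree (lvlDiv S n) = n := by
  rw [map_zsmul, degree_pt]
  simp

theorem two_g_le_m (S : Setup F₀) :
    2 * (genusFF Qbar (FB F₀) : ℤ) ≤ Divisor.degree (lvlDiv S S.m) := by
  rw [degree_lvlDiv]
  have h := S.hm
  unfold mMin at h
  omega

theorem two_g_le_m_sub (S : Setup F₀) (P : Place Qbar (FB F₀)) :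
    2 * (genusFF Qbar (FB F₀) : ℤ) ≤ Divisor.degree (lvlDiv S S.m - pt P) := by
  rw [map_sub, degree_lvlDiv, degree_pt]
  have h := S.hm
  unfold mMin at h
  omega

theorem phi_mem (S : Setup F₀) (j : Fin (S.r + 1)) :
    S.φ j ∈ riemannRochSpace (lvlDiv S S.m) := by
  have h := S.basis.2
  rw [← h]
  exact Submodule.subset_span (Set.mem_range_self j)

theorem phi_ne_zero (S : Setup F₀) (j : Fin (S.r + 1)) : S.φ j ≠ 0 :=
  S.basis.1.ne_zero j

theorem ord_phi_minIdx (S : Setup F₀) (Q : Place Qbar (FB F₀)) :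
    Q.ord (S.φ (minIdx S.φ Q)) = -(lvlDiv S S.m Q) := by
  obtain ⟨j, -, hj⟩ := exists_ord_eq_neg (two_g_le_m S) S.φ S.basis.2 Q
  have h1 := minIdx_spec S.φ Q j
  rcases (mem_riemannRochSpace_iff.mp (phi_mem S (minIdx S.φ Q))) Q with h | h
  · exact absurd h (phi_ne_zero S _)
  · omega

/-- The normalising constant: the value at `Q` of the section `φ_{i₀}` of `O(m P₀)`. -/
def cval (S : Setup F₀) (Q : Place Qbar (FB F₀)) : Qbar :=
  secVal (lvlDiv S S.m) Q (S.φ (minIdx S.φ Q))

theorem cval_ne_zero (S : Setup F₀) (Q : Place Qbar (FB F₀)) : cval S Q ≠ 0 := by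
  unfold cval secVal
  rw [Ne, evalAt_eq_zero_iff Q (mul_unif_mem _ Q (phi_mem S _))]
  push Not
  refine ⟨mul_ne_zero (phi_ne_zero S _) (zpow_ne_zero _ (unif_ne_zero Q)), ?_⟩
  rw [ord_mul_unif_zpow Q (phi_ne_zero S _), ord_phi_minIdx]
  omega

theorem div_minIdx_mem (S : Setup F₀) (Q : Place Qbar (FB F₀)) (j : Fin (S.r + 1)) :
    S.φ j / S.φ (minIdx S.φ Q) ∈ Q.toValuationSubring := by
  rw [mem_valuationSubring_iff, div_eq_mul_inv,
    Q.ord_mul (phi_ne_zero S j) (inv_ne_zero (phi_ne_zero S _)), Place.ord_inv]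
  have h := minIdx_spec S.φ Q j
  omega

theorem xphi_eq (S : Setup F₀) (Q : Place Qbar (FB F₀)) (j : Fin (S.r + 1)) :
    xphi S Q j = pointVec S.φ Q j * cval S Q := by
  unfold xphi pointVec cval secVal
  rw [← evalAt_mul Q (div_minIdx_mem S Q j) (mul_unif_mem _ Q (phi_mem S _))]
  congr 1
  have h := phi_ne_zero S (minIdx S.φ Q)
  field_simp

theorem xphi_eq_smul (S : Setup F₀) (Q : Place Qbar (FB F₀)) :
    xphi S Q = cval S Q • pointVec S.φ Q := by
  funext j
  rw [xphi_eq, Pi.smul_apply, smul_eq_mul, mul_comm]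

theorem pointVec_minIdx (S : Setup F₀) (Q : Place Qbar (FB F₀)) :
    pointVec S.φ Q (minIdx S.φ Q) = 1 := by
  unfold pointVec
  rw [div_self (phi_ne_zero S _)]
  have h := evalAt_algebraMap Q (1 : Qbar)
  rwa [map_one] at h

theorem xphi_minIdx (S : Setup F₀) (Q : Place Qbar (FB F₀)) :
    xphi S Q (minIdx S.φ Q) = cval S Q := by
  rw [xphi_eq, pointVec_minIdx, one_mul]

theorem xphi_ne_zero (S : Setup F₀) (Q : Place Qbar (FB F₀)) : xphi S Q ≠ 0 := by
  intro h
  have h1 := xphi_minIdx S Q
  rw [h] at h1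
  exact cval_ne_zero S Q h1.symm

/-- `xphi S Q` is a system of projective coordinates of `Q`: its height is `hX`. -/
theorem ht_xphi (S : Setup F₀) (Q : Place Qbar (FB F₀)) : ht (xphi S Q) = hX S.φ Q := by
  rw [xphi_eq_smul, ht_smul _ (cval_ne_zero S Q)]
  unfold hX
  rw [hbar_eq_ht]

/-! ### The sections `b_c(y)` -/

theorem bsec_mem (S : Setup F₀) (y : Fin (S.r + 1) → Qbar)
    (c : Fin (S.r + 1) × Fin (S.r + 1)) : bsec S y c ∈ riemannRochSpace (lvlDiv S S.m) := by
  unfold bsec
  exact Submodule.sub_mem _ (algebraMap_mul_mem _ _ (phi_mem S _))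
    (algebraMap_mul_mem _ _ (phi_mem S _))

theorem secVal_bsec (S : Setup F₀) (y : Fin (S.r + 1) → Qbar)
    (c : Fin (S.r + 1) × Fin (S.r + 1)) (Q : Place Qbar (FB F₀)) :
    secVal (lvlDiv S S.m) Q (bsec S y c) = y c.1 * xphi S Q c.2 - y c.2 * xphi S Q c.1 := by
  unfold bsec
  rw [secVal_sub _ Q (algebraMap_mul_mem _ _ (phi_mem S _)) (algebraMap_mul_mem _ _ (phi_mem S _)),
    g_secVal_smul _ Q _ (phi_mem S _), g_secVal_smul _ Q _ (phi_mem S _)]
  rfl

theorem bsec_xphi_mem (S : Setup F₀) (P : Place Qbar (FB F₀))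
    (c : Fin (S.r + 1) × Fin (S.r + 1)) :
    bsec S (xphi S P) c ∈ riemannRochSpace (lvlDiv S S.m - pt P) := by
  rw [← g_secVal_eq_zero_iff _ P (bsec_mem S _ c), secVal_bsec]
  ring

/-! ### The pairing vector -/

theorem Mvec_eq_of_ne (S : Setup F₀) {P Q : Place Qbar (FB F₀)} (h : P ≠ Q)
    (c : Fin (S.r + 1) × Fin (S.r + 1)) :
    Mvec S P Q c = cval S P * cval S Q * minorVec S.φ P Q c := by
  classical
  have h1 : (lvlDiv S S.m - pt P) Q = lvlDiv S S.m Q := by
    rw [Finsupp.sub_apply, Finsupp.single_apply, if_neg h, sub_zero]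
  unfold Mvec
  rw [secVal_congr Q h1, secVal_bsec, xphi_eq, xphi_eq, xphi_eq, xphi_eq]
  unfold minorVec
  ring

theorem Mvec_self (S : Setup F₀) (P : Place Qbar (FB F₀))
    (c : Fin (S.r + 1) × Fin (S.r + 1)) :
    Mvec S P P c = cval S P ^ 2 * gaussVec S.φ P c := by
  classical
  set u : FB F₀ := S.φ (minIdx S.φ P) with hu
  set t : FB F₀ := unif P with ht
  set n : ℤ := lvlDiv S S.m P with hn
  have hu0 : u ≠ 0 := phi_ne_zero S _
  have ht0 : t ≠ 0 := unif_ne_zero P
  -- the first-order Taylor quotients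
  let D : Fin (S.r + 1) → FB F₀ := fun j =>
    (S.φ j / u - algebraMap Qbar (FB F₀) (pointVec S.φ P j)) / t
  have hDval : ∀ j, evalAt P (D j) = derivVec S.φ P j := fun j => rfl
  have hDmem : ∀ j, D j ∈ P.toValuationSubring := by
    intro j
    have h1 : evalAt P (S.φ j / u) = pointVec S.φ P j := rfl
    rcases (evalAt_eq_iff P (div_minIdx_mem S P j) (pointVec S.φ P j)).mp h1 with h2 | h2
    · rw [← hu] at h2
      have : D j = 0 := by
        simp only [D]
        rw [h2, sub_self, zero_div]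
      rw [this]
      exact P.toValuationSubring.zero_mem
    · rw [← hu] at h2
      rw [mem_valuationSubring_iff]
      have hne : S.φ j / u - algebraMap Qbar (FB F₀) (pointVec S.φ P j) ≠ 0 := by
        intro h0
        rw [h0, Place.ord_zero] at h2
        exact lt_irrefl _ h2
      simp only [D]
      rw [div_eq_mul_inv, P.ord_mul hne (inv_ne_zero ht0), Place.ord_inv, ht, unif_ord]
      omega
  have hφ : ∀ j, S.φ j = u * (algebraMap Qbar (FB F₀) (pointVec S.φ P j) + t * D j) := by
    intro j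
    simp only [D]
    field_simp
    ring
  have hy : ∀ j, xphi S P j = pointVec S.φ P j * cval S P := xphi_eq S P
  have hexp : (lvlDiv S S.m - pt P) P = n - 1 := by
    rw [Finsupp.sub_apply, Finsupp.single_apply, if_pos rfl]
  have htn : t ^ n = t ^ (n - 1) * t := by
    rw [← zpow_add_one₀ ht0]
    congr 1
    ring
  have hzero : algebraMap Qbar (FB F₀) (xphi S P c.1) * algebraMap Qbar (FB F₀) (pointVec S.φ P c.2)
      = algebraMap Qbar (FB F₀) (xphi S P c.2) * algebraMap Qbar (FB F₀) (pointVec S.φ P c.1) := by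
    rw [← map_mul, ← map_mul, hy, hy]
    congr 1
    ring
  have key : bsec S (xphi S P) c * t ^ (n - 1) =
      (u * t ^ n) * (algebraMap Qbar (FB F₀) (xphi S P c.1) * D c.2 -
        algebraMap Qbar (FB F₀) (xphi S P c.2) * D c.1) := by
    unfold bsec
    rw [hφ c.1, hφ c.2, htn]
    linear_combination (u * t ^ (n - 1)) * hzero
  have hw : u * t ^ n ∈ P.toValuationSubring := mul_unif_mem _ P (phi_mem S _)
  have hA1 : algebraMap Qbar (FB F₀) (xphi S P c.1) * D c.2 ∈ P.toValuationSubring :=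
    mul_mem (P.algebraMap_mem' _) (hDmem _)
  have hA2 : algebraMap Qbar (FB F₀) (xphi S P c.2) * D c.1 ∈ P.toValuationSubring :=
    mul_mem (P.algebraMap_mem' _) (hDmem _)
  have hcv : evalAt P (u * t ^ n) = cval S P := rfl
  unfold Mvec secVal
  rw [hexp, key, evalAt_mul P hw (sub_mem hA1 hA2), evalAt_sub' P hA1 hA2,
    evalAt_mul P (P.algebraMap_mem' _) (hDmem _), evalAt_mul P (P.algebraMap_mem' _) (hDmem _),
    evalAt_algebraMap, evalAt_algebraMap, hDval, hDval, hcv, hy, hy]
  unfold gaussVec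
  ring

/-- (M): the pairing vector computes the Δ-height (minors for `P ≠ Q`, Gauss vector for `P = Q`). -/
theorem ht_Mvec (S : Setup F₀) (P Q : Place Qbar (FB F₀)) :
    ht (Mvec S P Q) = hX S.φ P + hX S.φ Q - delta S.φ P Q := by
  classical
  by_cases h : P = Q
  · subst h
    have h1 : Mvec S P P = (cval S P ^ 2) • gaussVec S.φ P := by
      funext c
      rw [Mvec_self, Pi.smul_apply, smul_eq_mul]
    rw [h1, ht_smul _ (pow_ne_zero 2 (cval_ne_zero S P))]
    unfold delta
    rw [if_pos rfl, hbar_eq_ht]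
    ring
  · have h1 : Mvec S P Q = (cval S P * cval S Q) • minorVec S.φ P Q := by
      funext c
      rw [Mvec_eq_of_ne S h, Pi.smul_apply, smul_eq_mul]
    rw [h1, ht_smul _ (mul_ne_zero (cval_ne_zero S P) (cval_ne_zero S Q))]
    unfold delta
    rw [if_neg h, hbar_eq_ht]
    ring

theorem Mvec_ne_zero (S : Setup F₀) (P Q : Place Qbar (FB F₀)) : Mvec S P Q ≠ 0 := by
  classical
  intro hM
  obtain ⟨s, hs, hs'⟩ := exists_mem_not_mem_sub_pt (two_g_le_m_sub S P) Q
  have hsm : s ∈ riemannRochSpace (lvlDiv S S.m) := RR_sub_pt_le _ P hs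
  have hspan : s ∈ Submodule.span Qbar (Set.range S.φ) := by
    rw [S.basis.2]
    exact hsm
  obtain ⟨a, ha⟩ := (Submodule.mem_span_range_iff_exists_fun Qbar).mp hspan
  have ha' : s = ∑ j, algebraMap Qbar (FB F₀) (a j) * S.φ j := by
    rw [← ha]
    exact Finset.sum_congr rfl fun j _ => Algebra.smul_def _ _
  -- `Σ a_j x(P)_j = 0`
  have h0 : ∑ j, a j * xphi S P j = 0 := by
    have h1 := (g_secVal_eq_zero_iff _ P hsm).mpr hs
    rw [ha', secVal_sum _ P Finset.univ a S.φ fun j _ => phi_mem S j] at h1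
    exact h1
  set i0 := minIdx S.φ P with hi0
  have hid : algebraMap Qbar (FB F₀) (xphi S P i0) * s =
      ∑ j, algebraMap Qbar (FB F₀) (a j) * bsec S (xphi S P) (i0, j) := by
    have e1 : ∑ j, algebraMap Qbar (FB F₀) (a j) * bsec S (xphi S P) (i0, j) =
        algebraMap Qbar (FB F₀) (xphi S P i0) * ∑ j, algebraMap Qbar (FB F₀) (a j) * S.φ j -
          algebraMap Qbar (FB F₀) (∑ j, a j * xphi S P j) * S.φ i0 := by
      rw [map_sum, Finset.mul_sum, Finset.sum_mul, ← Finset.sum_sub_distrib]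
      refine Finset.sum_congr rfl fun j _ => ?_
      unfold bsec
      rw [map_mul]
      ring
    rw [e1, h0, map_zero, zero_mul, sub_zero, ← ha']
  have h2 := congrArg (secVal (lvlDiv S S.m - pt P) Q) hid
  rw [g_secVal_smul _ Q _ hs,
    secVal_sum _ Q Finset.univ a (fun j => bsec S (xphi S P) (i0, j))
      fun j _ => bsec_xphi_mem S P (i0, j)] at h2
  have h3 : ∑ j, a j * secVal (lvlDiv S S.m - pt P) Q (bsec S (xphi S P) (i0, j)) = 0 := by
    refine Finset.sum_eq_zero fun j _ => ?_
    have : secVal (lvlDiv S S.m - pt P) Q (bsec S (xphi S P) (i0, j)) = Mvec S P Q (i0, j) := rfl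
    rw [this, hM]
    simp
  rw [h3, xphi_minIdx] at h2
  rcases mul_eq_zero.mp h2 with h4 | h4
  · exact cval_ne_zero S P h4
  · exact hs' ((g_secVal_eq_zero_iff _ Q hs).mp h4)

/-- [glue] symmetry of the Δ-height (same statement as `H.delta_symm`). -/
theorem delta_symm (S : Setup F₀) (P Q : Place Qbar (FB F₀)) :
    delta S.φ P Q = delta S.φ Q P := by
  classical
  by_cases h : P = Q
  · subst h
    rfl
  · have h' : ¬ Q = P := fun e => h e.symm
    have h1 : minorVec S.φ Q P = (-1 : Qbar) • minorVec S.φ P Q := by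
      funext c
      unfold minorVec
      rw [Pi.smul_apply, smul_eq_mul]
      ring
    unfold delta
    rw [if_neg h, if_neg h', hbar_eq_ht, hbar_eq_ht, h1, ht_smul _ (by norm_num : (-1 : Qbar) ≠ 0)]
    ring

end Arithmetic

end Fermat.Agent.S17.PLK.H8158
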