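/-
S17 / PLK leaf CG2 `span_sgen` (helper8196): the sections `s_β` span `L(N P₀ − Σ P_i)`.

Proof: base-point-free pencil trick `L(D₁) · L(D₂) = L(D₁ + D₂)` for `deg D₁ ≥ 2g`,
`deg D₂ ≥ deg D₁ + 2g − 1` (from Riemann–Roch in FND leaf B), iterated `k` times, plus
`span (b_c(x(P))) = L(m P₀ − P)` (kernel of the evaluation functional `secVal`).
Statement of `span_sgen` = verbatim the frozen PLK skeleton statement (helper2397).
-/
import Fermat.Agent.S17.PLK.Defs

set_option autoImplicit false

noncomputable section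

open AlgebraicCurve ModularCurve

open scoped Pointwise

namespace Fermat.Agent.S17.PLK.H8196

open Fermat.Agent.S17.FND Fermat.Agent.S17.H Fermat.Agent.S17.HT Fermat.Agent.S17.PLK

section Generic

variable {K F : Type*} [Field K] [Field F] [Algebra K F]
variable [IsAlgClosed K] [CharZero K] [IsCurveOver K F] [Algebra.EssFiniteType K F]

omit [IsAlgClosed K] [CharZero K] [IsCurveOver K F] [Algebra.EssFiniteType K F] in
theorem mem_RR_of_ne' {D : Divisor K F} {f : F} (hf : f ≠ 0) :
    f ∈ riemannRochSpace D ↔ ∀ v : Place K F, - D v ≤ v.ord f := by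
  rw [mem_riemannRochSpace_iff]
  exact forall_congr' fun v => by simp [hf]

omit [IsAlgClosed K] [CharZero K] [IsCurveOver K F] [Algebra.EssFiniteType K F] in
theorem RR_sub_pt_le (D : Divisor K F) (P : Place K F) :
    riemannRochSpace (D - pt P) ≤ riemannRochSpace D := by
  classical
  intro f hf
  rw [mem_riemannRochSpace_iff] at hf ⊢
  intro v
  rcases hf v with h | h
  · exact Or.inl h
  · refine Or.inr (le_trans ?_ h)
    simp only [Finsupp.coe_sub, Pi.sub_apply, pt, Finsupp.single_apply]
    split_ifs <;> omega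

/-- A base-point-free pencil in `L(D)` for `deg D ≥ 2g`. -/
theorem exists_pencil {D : Divisor K F} (hD : 2 * (genusFF K F : ℤ) ≤ Divisor.degree D) :
    ∃ s t : F, s ∈ riemannRochSpace D ∧ t ∈ riemannRochSpace D ∧ s ≠ 0 ∧ t ≠ 0 ∧
      ∀ v : Place K F, min (v.ord s) (v.ord t) = - D v := by
  classical
  have hell : 0 < ell D := by
    have h1 := ell_ge D
    have : (0 : ℤ) < ell D := by omega
    exact_mod_cast this
  obtain ⟨s, hs0, hs⟩ := B68.exists_ne_zero_mem hell
  have hsv := (mem_RR_of_ne' hs0).mp hs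
  let W : Place K F → Subspace K (riemannRochSpace D) := fun P =>
    (riemannRochSpace (D - pt P)).comap (riemannRochSpace D).subtype
  have hW : ∀ P, W P ≠ ⊤ := by
    intro P htop
    have hle : riemannRochSpace D ≤ riemannRochSpace (D - pt P) := by
      intro f hf
      have : (⟨f, hf⟩ : riemannRochSpace D) ∈ W P := by rw [htop]; trivial
      exact this
    have h1 := ell_sub_pt hD P
    have h2 : ell D ≤ ell (D - pt P) := by
      have := finite_RR (D - pt P)
      exact Submodule.finrank_mono hle
    omega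
  have hbot : (⊥ : Subspace K (riemannRochSpace D)) ≠ ⊤ := by
    intro h
    have : (⟨s, hs⟩ : riemannRochSpace D) ∈ (⊥ : Subspace K (riemannRochSpace D)) := by
      rw [h]; trivial
    exact hs0 (congrArg Subtype.val ((Submodule.mem_bot K).mp this))
  let T : Finset (Subspace K (riemannRochSpace D)) :=
    insert ⊥ ((divF s + D).support.image W)
  have hT : ⊤ ∉ T := by
    simp only [T, Finset.mem_insert, Finset.mem_image, not_or, not_exists, not_and]
    exact ⟨fun h => hbot h.symm, fun P _ h => hW P h⟩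
  have hne := Subspace.biUnion_ne_univ_of_top_notMem hT
  obtain ⟨t, ht⟩ : ∃ t : riemannRochSpace D, ∀ p ∈ T, t ∉ p := by
    by_contra hcon
    push Not at hcon
    apply hne
    apply Set.eq_univ_of_forall
    intro x
    obtain ⟨p, hp, hx⟩ := hcon x
    exact Set.mem_biUnion hp hx
  have ht0 : (t : F) ≠ 0 := by
    intro h
    refine ht ⊥ (Finset.mem_insert_self _ _) ?_
    rw [Submodule.mem_bot]
    exact Subtype.ext h
  have htZ : ∀ P ∈ (divF s + D).support, (t : F) ∉ riemannRochSpace (D - pt P) := by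
    intro P hP hmem
    exact ht (W P) (Finset.mem_insert_of_mem (Finset.mem_image_of_mem W hP)) hmem
  have htv := (mem_RR_of_ne' ht0).mp t.2
  refine ⟨s, t, hs, t.2, hs0, ht0, fun v => ?_⟩
  by_cases hv : v ∈ (divF s + D).support
  · have hnot := htZ v hv
    rw [mem_RR_of_ne' ht0] at hnot
    push Not at hnot
    obtain ⟨w, hw⟩ := hnot
    have hwv : w = v := by
      by_contra hne'
      have h1 := htv w
      simp only [Finsupp.coe_sub, Pi.sub_apply, pt, Finsupp.single_apply,
        if_neg (Ne.symm hne')] at hw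
      omega
    subst hwv
    simp only [Finsupp.coe_sub, Pi.sub_apply, pt, Finsupp.single_eq_same] at hw
    have h1 := htv w
    have h2 := hsv w
    rw [min_eq_right (by omega)]
    omega
  · have h0 : (divF s + D : Divisor K F) v = 0 := Finsupp.notMem_support_iff.mp hv
    rw [Finsupp.add_apply, divF_apply] at h0
    have h1 := htv v
    rw [min_eq_left (by omega)]
    omega

/-- Base-point-free pencil trick: `L(D₁) · L(D₂) = L(D₁ + D₂)`. -/
theorem rr_mul_eq {D₁ D₂ : Divisor K F} (h1 : 2 * (genusFF K F : ℤ) ≤ Divisor.degree D₁)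
    (h2 : Divisor.degree D₁ + 2 * (genusFF K F : ℤ) - 1 ≤ Divisor.degree D₂) :
    riemannRochSpace D₁ * riemannRochSpace D₂ = riemannRochSpace (D₁ + D₂) := by
  classical
  have hle : riemannRochSpace D₁ * riemannRochSpace D₂ ≤ riemannRochSpace (D₁ + D₂) :=
    Submodule.mul_le.mpr fun a ha b hb => mul_mem_RR ha hb
  refine le_antisymm hle ?_
  obtain ⟨s, t, hs, ht, hs0, ht0, hmin⟩ := exists_pencil h1
  have := finite_RR D₂
  have := finite_RR (D₂ - D₁)
  have := finite_RR (D₁ + D₂)
  let A : Submodule K F := riemannRochSpace D₂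
  let Φ : A × A →ₗ[K] F :=
    ((LinearMap.mulLeft K s).comp A.subtype).coprod ((LinearMap.mulLeft K t).comp A.subtype)
  have hΦ : ∀ x : A × A, Φ x = s * x.1 + t * x.2 := fun x => by simp [Φ]
  have hrange_le : LinearMap.range Φ ≤ riemannRochSpace D₁ * riemannRochSpace D₂ := by
    rintro _ ⟨x, rfl⟩
    rw [hΦ]
    exact add_mem (Submodule.mul_mem_mul hs x.1.2) (Submodule.mul_mem_mul ht x.2.2)
  have hrange_le' : LinearMap.range Φ ≤ riemannRochSpace (D₁ + D₂) := hrange_le.trans hle
  -- the kernel embeds into `L(D₂ - D₁)`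
  have hker : Module.finrank K (LinearMap.ker Φ) ≤ ell (D₂ - D₁) := by
    let g0 : LinearMap.ker Φ →ₗ[K] F :=
      (LinearMap.mulRight K t⁻¹).comp
        (A.subtype.comp ((LinearMap.fst K A A).comp (LinearMap.ker Φ).subtype))
    have hg0 : ∀ x : LinearMap.ker Φ, g0 x = (x.1.1 : F) * t⁻¹ := fun x => by simp [g0]
    have hrel : ∀ x : LinearMap.ker Φ, s * (x.1.1 : F) + t * (x.1.2 : F) = 0 := by
      intro x
      have := x.2
      rw [LinearMap.mem_ker, hΦ] at this
      exact this
    have hmem : ∀ x : LinearMap.ker Φ, g0 x ∈ riemannRochSpace (D₂ - D₁) := by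
      intro x
      rw [hg0]
      have hx := hrel x
      rcases eq_or_ne (x.1.1 : F) 0 with hu | hu
      · rw [hu, zero_mul]; exact zero_mem _
      have hv : (x.1.2 : F) ≠ 0 := by
        intro hv
        rw [hv, mul_zero, add_zero] at hx
        exact hu ((mul_eq_zero.mp hx).resolve_left hs0)
      have hw : (x.1.1 : F) * t⁻¹ = - ((x.1.2 : F) * s⁻¹) := by
        field_simp
        linear_combination hx
      rw [mem_RR_of_ne' (mul_ne_zero hu (inv_ne_zero ht0))]
      intro P
      have hu' := (mem_RR_of_ne' hu).mp x.1.1.2 P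
      have hv' := (mem_RR_of_ne' hv).mp x.1.2.2 P
      have e1 : P.ord ((x.1.1 : F) * t⁻¹) = P.ord (x.1.1 : F) - P.ord t := by
        rw [P.ord_mul hu (inv_ne_zero ht0), P.ord_inv]; ring
      have e2 : P.ord ((x.1.1 : F) * t⁻¹) = P.ord (x.1.2 : F) - P.ord s := by
        rw [hw, A68.ord_neg', P.ord_mul hv (inv_ne_zero hs0), P.ord_inv]; ring
      have hm := hmin P
      simp only [Finsupp.coe_sub, Pi.sub_apply]
      rcases min_choice (P.ord s) (P.ord t) with hc | hc
      · rw [hc] at hm; omega
      · rw [hc] at hm; omega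
    have hinj : Function.Injective (g0.codRestrict _ hmem) := by
      rw [injective_iff_map_eq_zero]
      intro x hx
      have h0 : g0 x = 0 := congrArg Subtype.val hx
      rw [hg0] at h0
      have hu : (x.1.1 : F) = 0 := (mul_eq_zero.mp h0).resolve_right (inv_ne_zero ht0)
      have hx' := hrel x
      rw [hu, mul_zero, zero_add] at hx'
      have hv : (x.1.2 : F) = 0 := (mul_eq_zero.mp hx').resolve_left ht0
      apply Subtype.ext
      apply Prod.ext
      · exact Subtype.ext hu
      · exact Subtype.ext hv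
    exact LinearMap.finrank_le_finrank_of_injective hinj
  have hrk := LinearMap.finrank_range_add_finrank_ker Φ
  rw [Module.finrank_prod] at hrk
  have e2 := ell_eq_of_degree_gt (D := D₂) (by omega)
  have e3 := ell_eq_of_degree_gt (D := D₂ - D₁) (by rw [map_sub]; omega)
  have e4 := ell_eq_of_degree_gt (D := D₁ + D₂) (by rw [map_add]; omega)
  have hge : ell (D₁ + D₂) ≤ Module.finrank K (LinearMap.range Φ) := by
    have hA : Module.finrank K A = ell D₂ := rfl
    rw [map_sub] at e3
    rw [map_add] at e4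
    rw [hA] at hrk
    omega
  have heq : LinearMap.range Φ = riemannRochSpace (D₁ + D₂) :=
    Submodule.eq_of_le_of_finrank_le hrange_le' hge
  rw [← heq]
  exact hrange_le

/-- Iterated pencil trick on spanning families. -/
theorem span_range_prod_mul (k : ℕ) {C J : Type*} (b : Fin k → C → F) (ψ : J → F)
    (D : Fin k → Divisor K F) (D₀ : Divisor K F)
    (hb : ∀ i, Submodule.span K (Set.range (b i)) = riemannRochSpace (D i))
    (hψ : Submodule.span K (Set.range ψ) = riemannRochSpace D₀)
    (d : ℤ) (hd : ∀ i, Divisor.degree (D i) = d) (hd1 : 2 * (genusFF K F : ℤ) ≤ d)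
    (h0 : d + 2 * (genusFF K F : ℤ) - 1 ≤ Divisor.degree D₀) :
    Submodule.span K (Set.range fun β : (Fin k → C) × J => (∏ i, b i (β.1 i)) * ψ β.2) =
      riemannRochSpace (∑ i, D i + D₀) := by
  induction k with
  | zero =>
    have : (Set.range fun β : (Fin 0 → C) × J => (∏ i, b i (β.1 i)) * ψ β.2) = Set.range ψ := by
      ext x
      constructor
      · rintro ⟨β, rfl⟩
        exact ⟨β.2, by simp⟩
      · rintro ⟨l, rfl⟩
        exact ⟨(Fin.elim0, l), by simp⟩
    rw [this, hψ]
    simp
  | succ k ih =>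
    have hset : (Set.range fun β : (Fin (k + 1) → C) × J => (∏ i, b i (β.1 i)) * ψ β.2) =
        Set.range (b 0) *
          Set.range fun β : (Fin k → C) × J => (∏ i, b i.succ (β.1 i)) * ψ β.2 := by
      ext x
      constructor
      · rintro ⟨⟨c, l⟩, rfl⟩
        refine Set.mem_mul.mpr ⟨b 0 (c 0), ⟨c 0, rfl⟩, _, ⟨(fun i => c i.succ, l), rfl⟩, ?_⟩
        simp only [Fin.prod_univ_succ, mul_assoc]
      · rintro ⟨_, ⟨c0, rfl⟩, _, ⟨⟨c, l⟩, rfl⟩, rfl⟩
        refine ⟨(Fin.cons c0 c, l), ?_⟩
        simp only [Fin.prod_univ_succ, Fin.cons_zero, Fin.cons_succ, mul_assoc]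
    have ih' := ih (fun i => b i.succ) (fun i => D i.succ) (fun i => hb i.succ)
      (fun i => hd i.succ)
    rw [hset, ← Submodule.span_mul_span, hb 0, ih']
    have hdeg : Divisor.degree (∑ i : Fin k, D i.succ + D₀) = (k : ℤ) * d + Divisor.degree D₀ := by
      rw [map_add, map_sum]
      simp [hd]
    have hkd : 0 ≤ (k : ℤ) * d := mul_nonneg (Nat.cast_nonneg k) (by omega)
    rw [rr_mul_eq (by rw [hd 0]; exact hd1) (by rw [hd 0, hdeg]; omega)]
    congr 1
    rw [Fin.sum_univ_succ, add_assoc]

/-! ### The evaluation functional `secVal` -/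

theorem ord_unif (Q : Place K F) : Q.ord (unif Q) = 1 := by
  unfold unif
  rw [dif_pos (exists_uniformizer Q)]
  exact (exists_uniformizer Q).choose_spec

theorem unif_ne_zero (Q : Place K F) : unif Q ≠ 0 := by
  intro h
  have := ord_unif Q
  rw [h, Place.ord_zero] at this
  exact zero_ne_one this

theorem secVal_arg_mem {A : Divisor K F} (Q : Place K F) {s : F}
    (hs : s ∈ riemannRochSpace A) : s * unif Q ^ (A Q) ∈ Q.toValuationSubring := by
  rw [mem_valuationSubring_iff]
  rcases eq_or_ne s 0 with rfl | hs0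
  · simp [Place.ord_zero]
  · rw [Q.ord_mul hs0 (zpow_ne_zero _ (unif_ne_zero Q)), Q.ord_zpow, ord_unif, mul_one]
    have := (mem_RR_of_ne' hs0).mp hs Q
    omega

theorem secVal_add' (A : Divisor K F) (Q : Place K F) {s s' : F}
    (hs : s ∈ riemannRochSpace A) (hs' : s' ∈ riemannRochSpace A) :
    secVal A Q (s + s') = secVal A Q s + secVal A Q s' := by
  unfold secVal
  rw [add_mul, evalAt_add Q (secVal_arg_mem Q hs) (secVal_arg_mem Q hs')]

theorem secVal_smul' (A : Divisor K F) (Q : Place K F) (c : K) {s : F}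
    (hs : s ∈ riemannRochSpace A) :
    secVal A Q (algebraMap K F c * s) = c * secVal A Q s := by
  unfold secVal
  rw [mul_assoc, evalAt_mul Q ((mem_valuationSubring_iff Q _).mpr (ord_algebraMap Q c).ge)
    (secVal_arg_mem Q hs), evalAt_algebraMap]

theorem secVal_eq_zero_iff' (A : Divisor K F) (Q : Place K F) {s : F}
    (hs : s ∈ riemannRochSpace A) :
    secVal A Q s = 0 ↔ s ∈ riemannRochSpace (A - pt Q) := by
  classical
  unfold secVal
  rw [evalAt_eq_zero_iff Q (secVal_arg_mem Q hs)]
  rcases eq_or_ne s 0 with rfl | hs0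
  · simp
  · have hu := zpow_ne_zero (A Q) (unif_ne_zero Q)
    rw [mem_RR_of_ne' hs0, Q.ord_mul hs0 hu, Q.ord_zpow, ord_unif, mul_one]
    have hsA := (mem_RR_of_ne' hs0).mp hs
    constructor
    · rintro (h | h)
      · exact absurd h (mul_ne_zero hs0 hu)
      · intro v
        by_cases hv : v = Q
        · subst hv
          simp only [Finsupp.coe_sub, Pi.sub_apply, pt, Finsupp.single_eq_same]
          omega
        · have := hsA v
          simp only [Finsupp.coe_sub, Pi.sub_apply, pt, Finsupp.single_apply,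
            if_neg (Ne.symm hv)]
          omega
    · intro h
      right
      have := h Q
      simp only [Finsupp.coe_sub, Pi.sub_apply, pt, Finsupp.single_eq_same] at this
      omega

/-- The sections `λ(φ_s) φ_t − λ(φ_t) φ_s` span the kernel `L(A − Q)` of `λ = secVal A Q`. -/
theorem span_ker_secVal {n : ℕ} (A : Divisor K F) (Q : Place K F) (φ : Fin n → F)
    (hφ : Submodule.span K (Set.range φ) = riemannRochSpace A)
    (hA : 2 * (genusFF K F : ℤ) ≤ Divisor.degree A) :
    Submodule.span K (Set.range fun c : Fin n × Fin n =>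
        algebraMap K F (secVal A Q (φ c.1)) * φ c.2 -
          algebraMap K F (secVal A Q (φ c.2)) * φ c.1) =
      riemannRochSpace (A - pt Q) := by
  classical
  have hφmem : ∀ j, φ j ∈ riemannRochSpace A := fun j => by
    rw [← hφ]; exact Submodule.subset_span ⟨j, rfl⟩
  -- `secVal` of a linear combination
  have hlin : ∀ a : Fin n → K, secVal A Q (∑ i, a i • φ i) = ∑ i, a i * secVal A Q (φ i) := by
    intro a
    have hgen : ∀ T : Finset (Fin n), (∑ i ∈ T, a i • φ i) ∈ riemannRochSpace A ∧
        secVal A Q (∑ i ∈ T, a i • φ i) = ∑ i ∈ T, a i * secVal A Q (φ i) := by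
      intro T
      induction T using Finset.induction_on with
      | empty =>
        refine ⟨by simp, ?_⟩
        simp [secVal, evalAt_eq_zero_iff Q (zero_mem _)]
      | insert i T hi ih =>
        have hmem : a i • φ i ∈ riemannRochSpace A := Submodule.smul_mem _ _ (hφmem i)
        rw [Finset.sum_insert hi, Finset.sum_insert hi]
        refine ⟨add_mem hmem ih.1, ?_⟩
        rw [secVal_add' A Q hmem ih.1, ih.2, Algebra.smul_def, secVal_smul' A Q _ (hφmem i)]
    exact (hgen Finset.univ).2
  apply le_antisymm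
  · rw [Submodule.span_le]
    rintro _ ⟨c, rfl⟩
    have hmem : algebraMap K F (secVal A Q (φ c.1)) * φ c.2 -
        algebraMap K F (secVal A Q (φ c.2)) * φ c.1 ∈ riemannRochSpace A := by
      refine sub_mem ?_ ?_
      · rw [← Algebra.smul_def]; exact Submodule.smul_mem _ _ (hφmem _)
      · rw [← Algebra.smul_def]; exact Submodule.smul_mem _ _ (hφmem _)
    rw [SetLike.mem_coe, ← secVal_eq_zero_iff' A Q hmem]
    have h1 : algebraMap K F (secVal A Q (φ c.1)) * φ c.2 -
        algebraMap K F (secVal A Q (φ c.2)) * φ c.1 =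
        algebraMap K F (secVal A Q (φ c.1)) * φ c.2 +
          algebraMap K F (- secVal A Q (φ c.2)) * φ c.1 := by
      rw [map_neg]; ring
    rw [h1, secVal_add' A Q (by rw [← Algebra.smul_def]; exact Submodule.smul_mem _ _ (hφmem _))
      (by rw [← Algebra.smul_def]; exact Submodule.smul_mem _ _ (hφmem _)),
      secVal_smul' A Q _ (hφmem _), secVal_smul' A Q _ (hφmem _)]
    ring
  · intro v hv
    have hvA : v ∈ riemannRochSpace A := RR_sub_pt_le A Q hv
    have hv0 : secVal A Q v = 0 := (secVal_eq_zero_iff' A Q hvA).mpr hv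
    obtain ⟨a, ha⟩ := (Submodule.mem_span_range_iff_exists_fun K).mp (hφ ▸ hvA)
    have hsum0 : ∑ i, a i * secVal A Q (φ i) = 0 := by rw [← hlin a, ha, hv0]
    -- some coordinate of `λ` is nonzero
    obtain ⟨s0, hs0⟩ : ∃ s0, secVal A Q (φ s0) ≠ 0 := by
      by_contra hcon
      push Not at hcon
      have hle : riemannRochSpace A ≤ riemannRochSpace (A - pt Q) := by
        intro w hw
        obtain ⟨a', ha'⟩ := (Submodule.mem_span_range_iff_exists_fun K).mp (hφ ▸ hw)
        rw [← secVal_eq_zero_iff' A Q hw, ← ha', hlin a']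
        simp [hcon]
      have h1 := ell_sub_pt hA Q
      have h2 : ell A ≤ ell (A - pt Q) := by
        have := finite_RR (A - pt Q)
        exact Submodule.finrank_mono hle
      omega
    have key : algebraMap K F (secVal A Q (φ s0)) * v =
        ∑ t, a t • (algebraMap K F (secVal A Q (φ s0)) * φ t -
          algebraMap K F (secVal A Q (φ t)) * φ s0) := by
      have h1 : ∑ t, a t • (algebraMap K F (secVal A Q (φ s0)) * φ t -
          algebraMap K F (secVal A Q (φ t)) * φ s0) =
          algebraMap K F (secVal A Q (φ s0)) * ∑ t, a t • φ t -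
            algebraMap K F (∑ t, a t * secVal A Q (φ t)) * φ s0 := by
        rw [Finset.mul_sum, map_sum, Finset.sum_mul, ← Finset.sum_sub_distrib]
        refine Finset.sum_congr rfl fun t _ => ?_
        rw [Algebra.smul_def, Algebra.smul_def, map_mul]
        ring
      rw [h1, ha, hsum0, map_zero, zero_mul, sub_zero]
    have hv' : v = (secVal A Q (φ s0))⁻¹ • (algebraMap K F (secVal A Q (φ s0)) * v) := by
      rw [Algebra.smul_def, ← mul_assoc, ← map_mul, inv_mul_cancel₀ hs0, map_one, one_mul]
    rw [hv', key]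
    exact Submodule.smul_mem _ _ (Submodule.sum_mem _ fun t _ =>
      Submodule.smul_mem _ _ (Submodule.subset_span ⟨(s0, t), rfl⟩))

end Generic

section Specific

variable {F₀ : IntermediateField ℚ (LaurentSeries ℚ)}
  [IsCurveOver Qbar (FB F₀)] [Algebra.EssFiniteType Qbar (FB F₀)]

theorem span_psi (S : Setup F₀) (n : ℕ) :
    Submodule.span Qbar (Set.range (psi S n)) = riemannRochSpace (lvlDiv S n) := by
  have h := (lvlBasis S n).span_eq
  have hr : Set.range (psi S n) = (V S n).subtype '' Set.range (lvlBasis S n) := by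
    rw [← Set.range_comp]; rfl
  rw [hr, Submodule.span_image, h, Submodule.map_top, Submodule.range_subtype]

theorem degree_lvlDiv (S : Setup F₀) (n : ℕ) : Divisor.degree (lvlDiv S n) = n := by
  rw [map_zsmul, degree_pt]; simp

theorem span_bsec (S : Setup F₀) (P : Place Qbar (FB F₀)) :
    Submodule.span Qbar (Set.range (bsec S (xphi S P))) =
      riemannRochSpace (lvlDiv S S.m - pt P) := by
  have hm : 2 * genusFF Qbar (FB F₀) + 1 ≤ S.m := S.hm
  exact span_ker_secVal (lvlDiv S S.m) P S.φ S.basis.2 (by rw [degree_lvlDiv]; omega)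

/-- **PLK leaf CG2** (SURJ): the sections `s_β(x(P_1), .., x(P_k))` span `L(N P₀ − Σ P_i)`, for ALL
`k`-tuples of places (repetitions and `P₀` allowed). -/
theorem span_sgen (S : Setup F₀) (k N : ℕ)
    (hN : (k + 1) * S.m + 2 * genusFF Qbar (FB F₀) ≤ N) (P : Fin k → Place Qbar (FB F₀)) :
    Submodule.span Qbar (Set.range (sgen S k N fun i => xphi S (P i))) =
      riemannRochSpace (lvlDiv S N - ∑ i, pt (P i)) := by
  have hm : 2 * genusFF Qbar (FB F₀) + 1 ≤ S.m := S.hm
  have hkm : k * S.m + (S.m + 2 * genusFF Qbar (FB F₀)) ≤ N := by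
    have : (k + 1) * S.m = k * S.m + S.m := by ring
    omega
  obtain ⟨q, hq⟩ : ∃ q, N = k * S.m + q := ⟨N - k * S.m, by omega⟩
  have hNq : N - k * S.m = q := by omega
  have h := span_range_prod_mul k (fun i c => bsec S (xphi S (P i)) c) (psi S (N - k * S.m))
    (fun i => lvlDiv S S.m - pt (P i)) (lvlDiv S (N - k * S.m))
    (fun i => span_bsec S (P i)) (span_psi S _) ((S.m : ℤ) - 1)
    (fun i => by rw [degree_sub_pt, degree_lvlDiv]) (by omega)
    (by rw [degree_lvlDiv, hNq]; omega)
  have hfun : (sgen S k N fun i => xphi S (P i)) =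
      fun β : (Fin k → Fin (S.r + 1) × Fin (S.r + 1)) × Fin (dim S (N - k * S.m)) =>
        (∏ i, bsec S (xphi S (P i)) (β.1 i)) * psi S (N - k * S.m) β.2 := rfl
  rw [hfun, h]
  congr 1
  rw [Finset.sum_sub_distrib, Finset.sum_const, Finset.card_univ, Fintype.card_fin, hNq]
  have e : (k : ℕ) • lvlDiv S S.m + lvlDiv S q = lvlDiv S N := by
    rw [hq]
    simp only [lvlDiv]
    rw [← natCast_zsmul, smul_smul, ← add_smul]
    push_cast
    rfl
  rw [← e]
  abel

end Specific

end Fermat.Agent.S17.PLK.H8196
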