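/-
S17 project — PLK route (helper2397), leaf CG3 `cone_closed` (helper598).

`H598.cone_closed` is the statement of `Fermat/Agent/S17/PLK/Skel.lean` v0 VERBATIM.

Proof (uniform in the place; no projective normality, no case split `P = P₀`):
1. pick `j₁` with `y j₁ ≠ 0`; `z j := φ j / φ j₁`, `η j := y j / y j₁`.  By homogenisation
   (`hmg`, `dehom_rel`) every polynomial relation `q(z) = 0` gives `q(η) = 0`.
2. `A := K[z]`; the ideal `(z_j - η_j)_j` of `A` is proper, so Mathlib's
   `Ideal.image_subset_nonunits_valuationSubring` gives a valuation subring `V ⊇ A` of `F` with all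
   `z_j - η_j` non-units (`exists_valuationSubring_of_rel`).
3. If `V ≠ ⊤`, `V` is the valuation ring of a place (landed `S27.A1h326`, FND `isFF`); if `V = ⊤`
   all `z_j = η_j` and any place works (`exists_place_of_rel`).
4. `z_j` is regular at `P` with value `η_j`; `φ_j t^a = z_j · (φ_{j₁} t^a)`, so
   `xphi j = η_j · xphi j₁`, and `xphi ≠ 0` (`xphi_ne_zero'`, from FND B `ell_sub_pt`) gives
   `xphi j₁ ≠ 0`.
Black boxes: FND Skel statements `isFF`, `mem_valuationSubring_iff`, `ord_algebraMap`,
`exists_uniformizer`, `degree_pt`, `mem_RR_iff`, `finite_RR`, `ell_sub_pt`, `evalAt_algebraMap`,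
`evalAt_mul`, `evalAt_eq_zero_iff`, `evalAt_eq_iff`; landed `S27.A1h326`.
-/
import Fermat.Agent.S17.PLK.Defs
import Fermat.Agent.S27.A1h326

set_option autoImplicit false

noncomputable section

open AlgebraicCurve ModularCurve

namespace Fermat.Agent.S17.PLK.H598

open Fermat.Agent.S17.FND Fermat.Agent.S17.H Fermat.Agent.S17.HT

/-! ## 1. Homogenisation (Mathlib only) -/

section Homog

variable {K : Type*} [Field K] {n : ℕ}

/-- A homogeneous polynomial of degree `d` scales by `c ^ d`. -/
theorem aeval_mul_of_isHomogeneous {A : Type*} [CommRing A] [Algebra K A]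
    {p : MvPolynomial (Fin n) K} {d : ℕ} (hp : p.IsHomogeneous d) (c : A) (z : Fin n → A) :
    MvPolynomial.aeval (fun j => c * z j) p = c ^ d * MvPolynomial.aeval z p := by
  rw [MvPolynomial.aeval_def, MvPolynomial.aeval_def, MvPolynomial.eval₂_eq',
    MvPolynomial.eval₂_eq', Finset.mul_sum]
  refine Finset.sum_congr rfl fun m hm => ?_
  have hd : d = ∑ i, m i := by
    rw [hp.degree_eq_sum_deg_support hm]
    exact Finset.sum_subset (Finset.subset_univ _) (fun i _ hi => by simpa using hi)
  simp only [mul_pow, Finset.prod_mul_distrib, Finset.prod_pow_eq_pow_sum, ← hd]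
  ring

/-- The homogenisation of `q` with respect to the variable `j₁`. -/
def hmg (j₁ : Fin n) (q : MvPolynomial (Fin n) K) : MvPolynomial (Fin n) K :=
  ∑ d ∈ Finset.range (q.totalDegree + 1),
    MvPolynomial.X j₁ ^ (q.totalDegree - d) * MvPolynomial.homogeneousComponent d q

theorem hmg_isHomogeneous (j₁ : Fin n) (q : MvPolynomial (Fin n) K) :
    (hmg j₁ q).IsHomogeneous q.totalDegree := by
  refine MvPolynomial.IsHomogeneous.sum _ _ _ fun d hd => ?_
  have hd' : d ≤ q.totalDegree := Nat.lt_succ_iff.mp (Finset.mem_range.mp hd)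
  have h1 : (MvPolynomial.X j₁ ^ (q.totalDegree - d) : MvPolynomial (Fin n) K).IsHomogeneous
      (q.totalDegree - d) := MvPolynomial.isHomogeneous_X_pow _ _
  have h2 := h1.mul (MvPolynomial.homogeneousComponent_isHomogeneous d q)
  rwa [Nat.sub_add_cancel hd'] at h2

theorem aeval_hmg {A : Type*} [CommRing A] [Algebra K A] (j₁ : Fin n)
    (q : MvPolynomial (Fin n) K) (c : A) (z : Fin n → A) (hz : z j₁ = 1) :
    MvPolynomial.aeval (fun j => c * z j) (hmg j₁ q) =
      c ^ q.totalDegree * MvPolynomial.aeval z q := by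
  unfold hmg
  rw [map_sum]
  have key : ∀ d ∈ Finset.range (q.totalDegree + 1),
      MvPolynomial.aeval (fun j => c * z j)
          (MvPolynomial.X j₁ ^ (q.totalDegree - d) * MvPolynomial.homogeneousComponent d q) =
        c ^ q.totalDegree * MvPolynomial.aeval z (MvPolynomial.homogeneousComponent d q) := by
    intro d hd
    have hd' : d ≤ q.totalDegree := Nat.lt_succ_iff.mp (Finset.mem_range.mp hd)
    rw [map_mul, map_pow, MvPolynomial.aeval_X,
      aeval_mul_of_isHomogeneous (MvPolynomial.homogeneousComponent_isHomogeneous d q), hz,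
      mul_one, ← mul_assoc, ← pow_add, Nat.sub_add_cancel hd']
  rw [Finset.sum_congr rfl key, ← Finset.mul_sum, ← map_sum,
    MvPolynomial.sum_homogeneousComponent]

/-- Dehomogenisation of the relations: if `y` kills all homogeneous relations between the `x j`,
then `y / y j₁` kills all relations between the `x j / x j₁`. -/
theorem dehom_rel {F : Type*} [Field F] [Algebra K F] (x : Fin n → F) (y : Fin n → K)
    (j₁ : Fin n) (hx : x j₁ ≠ 0) (hy : y j₁ ≠ 0)
    (hrel : ∀ G : MvPolynomial (Fin n) K, (∃ d, G.IsHomogeneous d) →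
      MvPolynomial.aeval x G = 0 → MvPolynomial.eval y G = 0)
    (q : MvPolynomial (Fin n) K) (hq : MvPolynomial.aeval (fun j => x j / x j₁) q = 0) :
    MvPolynomial.eval (fun j => y j / y j₁) q = 0 := by
  have h1 : MvPolynomial.aeval x (hmg j₁ q) = 0 := by
    have h := aeval_hmg j₁ q (x j₁) (fun j => x j / x j₁) (div_self hx)
    have hxe : (fun j => x j₁ * (x j / x j₁)) = x := funext fun j => mul_div_cancel₀ _ hx
    rw [hxe, hq, mul_zero] at h
    exact h
  have h2 := hrel _ ⟨_, hmg_isHomogeneous j₁ q⟩ h1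
  have h3 := aeval_hmg (A := K) j₁ q (y j₁) (fun j => y j / y j₁) (div_self hy)
  have hye : (fun j => y j₁ * (y j / y j₁)) = y := funext fun j => mul_div_cancel₀ _ hy
  rw [hye, MvPolynomial.aeval_eq_eval, MvPolynomial.aeval_eq_eval, h2] at h3
  exact (mul_eq_zero.mp h3.symm).resolve_left (pow_ne_zero _ hy)

end Homog

/-! ## 2. The chart point is dominated by a valuation ring (Mathlib only) -/

section Chart

variable {K F : Type*} [Field K] [Field F] [Algebra K F] {n : ℕ}

theorem exists_valuationSubring_of_rel (z : Fin n → F) (η : Fin n → K)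
    (hrel : ∀ q : MvPolynomial (Fin n) K, MvPolynomial.aeval z q = 0 →
      MvPolynomial.eval η q = 0) :
    ∃ V : ValuationSubring F, (∀ a : K, algebraMap K F a ∈ V) ∧ (∀ j, z j ∈ V) ∧
      ∀ j, z j - algebraMap K F (η j) ∈ V.nonunits := by
  classical
  let A0 : Subalgebra K F := Algebra.adjoin K (Set.range z)
  let A : Subring F := A0.toSubring
  have hzA : ∀ j, z j ∈ A := fun j => Algebra.subset_adjoin (Set.mem_range_self j)
  have hKA : ∀ a : K, algebraMap K F a ∈ A := fun a => A0.algebraMap_mem a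
  let s : Fin n → A := fun j => ⟨z j - algebraMap K F (η j), A.sub_mem (hzA j) (hKA _)⟩
  let I : Ideal A := Ideal.span (Set.range s)
  have hI : I ≠ ⊤ := by
    intro htop
    have h1 : (1 : A) ∈ Ideal.span (Set.range s) := by
      change (1 : A) ∈ I
      rw [htop]; exact Submodule.mem_top
    obtain ⟨c, hc⟩ := (Ideal.mem_span_range_iff_exists_fun).mp h1
    have hcp : ∀ j, ∃ p : MvPolynomial (Fin n) K, MvPolynomial.aeval z p = (c j : F) := by
      intro j
      have hmem : (c j : F) ∈ Algebra.adjoin K (Set.range z) := (c j).2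
      rw [Algebra.adjoin_range_eq_range_aeval] at hmem
      exact hmem
    choose p hp using hcp
    let q : MvPolynomial (Fin n) K :=
      ∑ j, p j * (MvPolynomial.X j - MvPolynomial.C (η j)) - 1
    have hq : MvPolynomial.aeval z q = 0 := by
      have hc' : ∑ j, (c j : F) * (z j - algebraMap K F (η j)) = 1 := by
        have h := congrArg (fun a : A => (a : F)) hc
        simpa [s] using h
      simp only [q, map_sub, map_sum, map_mul, MvPolynomial.aeval_X, MvPolynomial.aeval_C,
        map_one, hp]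
      rw [sub_eq_zero]
      exact hc'
    have h2 := hrel q hq
    simp [q] at h2
  obtain ⟨V, hAV, hIV⟩ := Ideal.image_subset_nonunits_valuationSubring I hI
  refine ⟨V, fun a => hAV (hKA a), fun j => hAV (hzA j), fun j => ?_⟩
  exact hIV ⟨s j, Ideal.subset_span (Set.mem_range_self j), rfl⟩

end Chart

/-! ## 3. The valuation ring is a place -/

section Curve

variable {K F : Type*} [Field K] [Field F] [Algebra K F]
variable [IsAlgClosed K] [CharZero K] [IsCurveOver K F] [Algebra.EssFiniteType K F]

theorem algebraMap_mem_place (P : Place K F) (a : K) : algebraMap K F a ∈ P.toValuationSubring := by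
  rw [mem_valuationSubring_iff, ord_algebraMap]

/-- A point of the chart `Spec K[z]` (a `K`-point `η` killing all relations) is the centre of a
place: all `z j` are regular at `P` and `z j (P) = η j`. -/
theorem exists_place_of_rel {n : ℕ} (P₀ : Place K F) (z : Fin n → F) (η : Fin n → K)
    (hrel : ∀ q : MvPolynomial (Fin n) K, MvPolynomial.aeval z q = 0 →
      MvPolynomial.eval η q = 0) :
    ∃ P : Place K F, ∀ j, z j ∈ P.toValuationSubring ∧ evalAt P (z j) = η j := by
  classical
  by_cases hall : ∀ j, z j = algebraMap K F (η j)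
  · refine ⟨P₀, fun j => ?_⟩
    rw [hall j]
    exact ⟨algebraMap_mem_place P₀ _, evalAt_algebraMap P₀ _⟩
  · push Not at hall
    obtain ⟨j₀, hj₀⟩ := hall
    obtain ⟨V, hKV, hzV, hsV⟩ := exists_valuationSubring_of_rel z η hrel
    have hVtop : V ≠ ⊤ := by
      intro htop
      have hs := hsV j₀
      have hs0 : z j₀ - algebraMap K F (η j₀) ≠ 0 := sub_ne_zero.mpr hj₀
      have hinv : (z j₀ - algebraMap K F (η j₀))⁻¹ ∈ V := by
        rw [htop]; exact ValuationSubring.mem_top _
      rw [ValuationSubring.mem_nonunits_iff] at hs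
      rw [← ValuationSubring.valuation_le_one_iff, map_inv₀] at hinv
      have hpos : 0 < V.valuation (z j₀ - algebraMap K F (η j₀)) :=
        zero_lt_iff.mpr ((Valuation.ne_zero_iff _).mpr hs0)
      exact absurd hinv (not_le.mpr ((one_lt_inv₀ hpos).mpr hs))
    obtain ⟨x, hx, hfin⟩ := isFF K F
    have := hfin
    obtain ⟨P, hP⟩ := Fermat.Agent.S27.A1h326.exists_place_of_valuationSubring x hx V hKV hVtop
    refine ⟨P, fun j => ?_⟩
    have hz : z j ∈ P.toValuationSubring := by rw [hP]; exact hzV j
    refine ⟨hz, ?_⟩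
    rw [evalAt_eq_iff P hz]
    by_cases hs0 : z j - algebraMap K F (η j) = 0
    · exact Or.inl (sub_eq_zero.mp hs0)
    · right
      by_contra hle
      push Not at hle
      have hinv : (z j - algebraMap K F (η j))⁻¹ ∈ V := by
        rw [← hP, mem_valuationSubring_iff, Place.ord_inv]
        omega
      have hs := hsV j
      rw [ValuationSubring.mem_nonunits_iff] at hs
      rw [← ValuationSubring.valuation_le_one_iff, map_inv₀] at hinv
      have hpos : 0 < V.valuation (z j - algebraMap K F (η j)) :=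
        zero_lt_iff.mpr ((Valuation.ne_zero_iff _).mpr hs0)
      exact absurd hinv (not_le.mpr ((one_lt_inv₀ hpos).mpr hs))

theorem ord_unif (P : Place K F) : P.ord (unif P) = 1 := by
  have h := exists_uniformizer P
  unfold unif
  rw [dif_pos h]
  exact h.choose_spec

theorem unif_ne_zero (P : Place K F) : unif P ≠ 0 := by
  intro h
  have h1 := ord_unif P
  rw [h, Place.ord_zero] at h1
  exact absurd h1 (by norm_num)

theorem ord_mul_unif_zpow (P : Place K F) {s : F} (hs : s ≠ 0) (a : ℤ) :
    P.ord (s * unif P ^ a) = P.ord s + a := by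
  rw [P.ord_mul hs (zpow_ne_zero _ (unif_ne_zero P)), Place.ord_zpow, ord_unif, mul_one]

/-- A section of `O(A)` has a value at `Q`. -/
theorem mul_unif_mem (A : Divisor K F) (Q : Place K F) {s : F} (hs : s ∈ riemannRochSpace A) :
    s * unif Q ^ (A Q) ∈ Q.toValuationSubring := by
  by_cases h0 : s = 0
  · rw [h0, zero_mul]; exact Q.toValuationSubring.zero_mem
  rw [mem_valuationSubring_iff, ord_mul_unif_zpow Q h0]
  rcases (mem_RR_iff A s).mp hs with h | h
  · exact absurd h h0
  · have := h Q
    simpa [divF_apply] using this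

/-- If the section `s` of `O(A)` vanishes at `Q`, it is a section of `O(A - Q)`. -/
theorem mem_sub_pt_of_secVal_eq_zero (A : Divisor K F) (Q : Place K F) {s : F}
    (hs : s ∈ riemannRochSpace A) (h : secVal A Q s = 0) : s ∈ riemannRochSpace (A - pt Q) := by
  by_cases h0 : s = 0
  · rw [h0]; exact Submodule.zero_mem _
  unfold secVal at h
  rw [evalAt_eq_zero_iff Q (mul_unif_mem A Q hs)] at h
  have hu := zpow_ne_zero (A Q) (unif_ne_zero Q)
  rcases h with h | h
  · exact absurd h (mul_ne_zero h0 hu)
  rw [ord_mul_unif_zpow Q h0] at h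
  rw [mem_RR_iff]
  right
  rcases (mem_RR_iff A s).mp hs with h' | h'
  · exact absurd h' h0
  intro v
  have hv := h' v
  by_cases hvQ : v = Q
  · subst hvQ
    simp [divF_apply, pt]
    omega
  · have : (pt Q : Divisor K F) v = 0 := by
      simp [pt, Ne.symm hvQ]
    simp only [Finsupp.coe_add, Finsupp.coe_sub, Pi.add_apply, Pi.sub_apply, this, sub_zero,
      Finsupp.coe_zero, Pi.zero_apply] at hv ⊢
    exact hv

end Curve

/-! ## 4. The closed cone -/

variable {F₀ : IntermediateField ℚ (LaurentSeries ℚ)}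
  [IsCurveOver Qbar (FB F₀)] [Algebra.EssFiniteType Qbar (FB F₀)]

omit [IsCurveOver Qbar (FB F₀)] [Algebra.EssFiniteType Qbar (FB F₀)] in
theorem phi_mem (S : Setup F₀) (j : Fin (S.r + 1)) : S.φ j ∈ V S S.m := by
  have h := S.basis.2
  change S.φ j ∈ riemannRochSpace (lvlDiv S S.m)
  rw [← h]
  exact Submodule.subset_span (Set.mem_range_self j)

/-- `L(m P₀)` has no base point (`m ≥ 2g`): local copy of the CG1 leaf `xphi_ne_zero`. -/
theorem xphi_ne_zero' (S : Setup F₀) (Q : Place Qbar (FB F₀)) : xphi S Q ≠ 0 := by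
  intro h0
  have hall : ∀ j, S.φ j ∈ riemannRochSpace (lvlDiv S S.m - pt Q) := by
    intro j
    refine mem_sub_pt_of_secVal_eq_zero _ Q (phi_mem S j) ?_
    exact congrFun h0 j
  have hle : riemannRochSpace (lvlDiv S S.m) ≤ riemannRochSpace (lvlDiv S S.m - pt Q) := by
    rw [← S.basis.2, Submodule.span_le]
    rintro _ ⟨j, rfl⟩
    exact hall j
  have : Module.Finite Qbar (riemannRochSpace (lvlDiv S S.m - pt Q)) := finite_RR _
  have hfin := Submodule.finrank_mono hle
  have hdeg : 2 * (genusFF Qbar (FB F₀) : ℤ) ≤ Divisor.degree (lvlDiv S S.m) := by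
    have hm := S.hm
    unfold mMin at hm
    rw [map_zsmul, degree_pt]
    simp only [smul_eq_mul, mul_one]
    omega
  have hsub := ell_sub_pt hdeg Q
  unfold ell at hsub
  omega

/-- **CG3** (statement of `PLK/Skel.lean` v0, verbatim): the cone over the embedded curve is
closed. -/
theorem cone_closed (S : Setup F₀) (y : Fin (S.r + 1) → Qbar) (hy : y ≠ 0)
    (h : ∀ G : MvPolynomial (Fin (S.r + 1)) Qbar, (∃ n, G.IsHomogeneous n) →
      MvPolynomial.aeval S.φ G = 0 → MvPolynomial.eval y G = 0) :
    ∃ (P : Place Qbar (FB F₀)) (c : Qbar), c ≠ 0 ∧ y = c • xphi S P := by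
  classical
  obtain ⟨j₁, hj₁⟩ : ∃ j, y j ≠ 0 := by
    by_contra hcon
    push Not at hcon
    exact hy (funext hcon)
  have hφ1 : S.φ j₁ ≠ 0 := S.basis.1.ne_zero j₁
  obtain ⟨P, hP⟩ := exists_place_of_rel S.P₀ (fun j => S.φ j / S.φ j₁) (fun j => y j / y j₁)
    (dehom_rel S.φ y j₁ hφ1 hj₁ h)
  have hw := mul_unif_mem (lvlDiv S S.m) P (phi_mem S j₁)
  have hx : ∀ j, xphi S P j = y j / y j₁ * xphi S P j₁ := by
    intro j
    have he : S.φ j * unif P ^ ((lvlDiv S S.m) P) =
        S.φ j / S.φ j₁ * (S.φ j₁ * unif P ^ ((lvlDiv S S.m) P)) := by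
      field_simp
    change evalAt P (S.φ j * unif P ^ ((lvlDiv S S.m) P)) =
      y j / y j₁ * evalAt P (S.φ j₁ * unif P ^ ((lvlDiv S S.m) P))
    rw [he, evalAt_mul P (hP j).1 hw, (hP j).2]
  have hx1 : xphi S P j₁ ≠ 0 := by
    intro h0
    apply xphi_ne_zero' S P
    funext j
    rw [hx j, h0, mul_zero]
    rfl
  refine ⟨P, y j₁ / xphi S P j₁, div_ne_zero hj₁ hx1, ?_⟩
  funext j
  rw [Pi.smul_apply, smul_eq_mul, hx j]
  field_simp

end Fermat.Agent.S17.PLK.H598
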