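/-
S17 project — PLK B-route (helper2397), HG1 glue leaves, by helper3566.

* `coords_level`      : VERBATIM leaf of `PLK/Skel.lean` v0 (no earlier leaf needed).
* `xvec_m_sub_of`     : leaf `xvec_m_sub` from the earlier leaf `ht_xphi` (hypothesis `hxphi`).
* `delta_base_ge_of`  : leaf `delta_base_ge` from the earlier leaves `ht_xphi`, `ht_Mvec`, `H_add`
                        (hypotheses `hxphi`, `hMvec`, `hadd`).
In `Skel.lean`:  `exact H3566.coords_level S n N hnN`,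
                 `exact H3566.xvec_m_sub_of S (ht_xphi S)`,
                 `exact H3566.delta_base_ge_of S (ht_xphi S) (ht_Mvec S) (H_add S)`.
-/
import Fermat.Agent.S17.PLK.Defs

set_option autoImplicit false

noncomputable section

open AlgebraicCurve ModularCurve

namespace Fermat.Agent.S17.PLK.H3566

open Fermat.Agent.S17.FND Fermat.Agent.S17.H Fermat.Agent.S17.HT Fermat.Agent.S17.PLK

/-! ### Evaluation of sections (generic) -/

section Generic

variable {K F : Type*} [Field K] [Field F] [Algebra K F]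
variable [IsAlgClosed K] [CharZero K] [IsCurveOver K F] [Algebra.EssFiniteType K F]

theorem unif_ord (Q : Place K F) : Q.ord (unif Q) = 1 := by
  have h := exists_uniformizer Q
  unfold unif
  rw [dif_pos h]
  exact h.choose_spec

theorem unif_ne_zero (Q : Place K F) : unif Q ≠ 0 := by
  intro h
  have h1 := unif_ord Q
  rw [h, Place.ord_zero] at h1
  exact zero_ne_one h1

theorem sec_mem (A : Divisor K F) (Q : Place K F) {s : F} (hs : s ∈ riemannRochSpace A) :
    s * unif Q ^ (A Q) ∈ Q.toValuationSubring := by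
  rw [mem_valuationSubring_iff]
  rcases eq_or_ne s 0 with rfl | hs0
  · simp
  · rw [Q.ord_mul hs0 (zpow_ne_zero _ (unif_ne_zero Q)), Q.ord_zpow, unif_ord, mul_one]
    rcases mem_riemannRochSpace_iff.mp hs Q with h | h
    · exact absurd h hs0
    · linarith

/-- `secVal A Q` as a linear form on `L(A)`. -/
def secLin (A : Divisor K F) (Q : Place K F) : riemannRochSpace A →ₗ[K] K where
  toFun s := secVal A Q (s : F)
  map_add' s t := by
    show evalAt Q (((s : F) + (t : F)) * unif Q ^ (A Q)) = _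
    rw [add_mul]
    exact evalAt_add Q (sec_mem A Q s.2) (sec_mem A Q t.2)
  map_smul' c s := by
    show evalAt Q ((c • (s : F)) * unif Q ^ (A Q)) = c • evalAt Q ((s : F) * unif Q ^ (A Q))
    rw [Algebra.smul_def, mul_assoc, evalAt_mul Q (Q.algebraMap_mem' c) (sec_mem A Q s.2),
      evalAt_algebraMap, smul_eq_mul]

theorem secLin_apply (A : Divisor K F) (Q : Place K F) (s : riemannRochSpace A) :
    secLin A Q s = secVal A Q (s : F) := rfl

/-- The kernel of `secVal A Q` on `L(A)` is contained in `L(A − Q)`. -/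
theorem sec_ker (A : Divisor K F) (Q : Place K F) {s : F} (hs : s ∈ riemannRochSpace A)
    (h0 : secVal A Q s = 0) : s ∈ riemannRochSpace (A - pt Q) := by
  unfold secVal at h0
  rw [evalAt_eq_zero_iff Q (sec_mem A Q hs)] at h0
  rw [mem_riemannRochSpace_iff] at hs ⊢
  intro v
  rcases eq_or_ne s 0 with hs0 | hs0
  · exact Or.inl hs0
  · right
    have hu : unif Q ^ (A Q) ≠ 0 := zpow_ne_zero _ (unif_ne_zero Q)
    rcases h0 with h0 | h0
    · exact absurd h0 (mul_ne_zero hs0 hu)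
    · rw [Q.ord_mul hs0 hu, Q.ord_zpow, unif_ord, mul_one] at h0
      by_cases hv : Q = v
      · subst hv
        simp only [pt, Finsupp.coe_sub, Pi.sub_apply, Finsupp.single_eq_same]
        linarith
      · have h1 := (hs v).resolve_left hs0
        simpa [pt, Finsupp.single_apply, hv] using h1

/-- Expansion of `secVal` on `L(A)` in a basis. -/
theorem secLin_sum_repr {ι : Type*} [Fintype ι] (A : Divisor K F) (Q : Place K F)
    (b : Module.Basis ι K (riemannRochSpace A)) (x : riemannRochSpace A) :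
    secLin A Q x = ∑ l, b.repr x l * secLin A Q (b l) := by
  conv_lhs => rw [← b.sum_repr x]
  rw [map_sum]
  simp only [map_smul, smul_eq_mul]

theorem secVal_lin2 (A : Divisor K F) (Q : Place K F) (a b : K) {f g : F}
    (hf : f ∈ riemannRochSpace A) (hg : g ∈ riemannRochSpace A) :
    secVal A Q (algebraMap K F a * f - algebraMap K F b * g) =
      a * secVal A Q f - b * secVal A Q g := by
  have h : algebraMap K F a * f - algebraMap K F b * g =
      ((a • (⟨f, hf⟩ : riemannRochSpace A) - b • (⟨g, hg⟩ : riemannRochSpace A) :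
        riemannRochSpace A) : F) := by
    simp [Algebra.smul_def]
  rw [h, ← secLin_apply, map_sub, map_smul, map_smul, smul_eq_mul, smul_eq_mul]
  rfl

end Generic

variable {F₀ : IntermediateField ℚ (LaurentSeries ℚ)}

/-- `L(n P₀) ⊆ L(N P₀)` for `n ≤ N`. -/
theorem V_mono (S : Setup F₀) {n N : ℕ} (h : n ≤ N) : V S n ≤ V S N := by
  intro f hf
  rw [mem_riemannRochSpace_iff] at hf ⊢
  intro v
  rcases hf v with h0 | h1
  · exact Or.inl h0
  · refine Or.inr (le_trans ?_ h1)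
    have hn : (n : ℤ) ≤ N := by exact_mod_cast h
    have hv : (0 : ℤ) ≤ (pt S.P₀ : Divisor Qbar (FB F₀)) v := by
      by_cases hv : S.P₀ = v
      · subst hv; simp [pt]
      · simp [pt, hv]
    simp only [lvlDiv, Finsupp.coe_smul, Pi.smul_apply, smul_eq_mul, neg_le_neg_iff]
    exact mul_le_mul_of_nonneg_right hn hv

theorem phi_mem (S : Setup F₀) (j : Fin (S.r + 1)) : S.φ j ∈ V S S.m := by
  have h := S.basis.2
  show S.φ j ∈ riemannRochSpace ((S.m : ℤ) • pt S.P₀)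
  rw [← h]
  exact Submodule.subset_span ⟨j, rfl⟩

/-- Away from `P₀` the divisor `n P₀` has coefficient `0`. -/
theorem lvlDiv_apply_ne (S : Setup F₀) (n : ℕ) {P : Place Qbar (FB F₀)} (hP : P ≠ S.P₀) :
    lvlDiv S n P = 0 := by
  simp [lvlDiv, pt, Ne.symm hP]

theorem lvlDiv_apply_self (S : Setup F₀) (n : ℕ) : lvlDiv S n S.P₀ = n := by
  simp [lvlDiv, pt]

/-- Away from `P₀`, `secVal` does not depend on the level. -/
theorem secVal_lvl_ne (S : Setup F₀) (n n' : ℕ) {P : Place Qbar (FB F₀)} (hP : P ≠ S.P₀)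
    (s : FB F₀) : secVal (lvlDiv S n) P s = secVal (lvlDiv S n') P s := by
  unfold secVal
  rw [lvlDiv_apply_ne S n hP, lvlDiv_apply_ne S n' hP]

theorem lvlDiv_sub_pt (S : Setup F₀) {n : ℕ} (hn : 1 ≤ n) :
    lvlDiv S n - pt S.P₀ = lvlDiv S (n - 1) := by
  show (n : ℤ) • pt S.P₀ - pt S.P₀ = ((n - 1 : ℕ) : ℤ) • pt S.P₀
  rw [Nat.cast_sub hn, sub_smul, Nat.cast_one, one_smul]

variable [IsCurveOver Qbar (FB F₀)] [Algebra.EssFiniteType Qbar (FB F₀)]

theorem coords_of_mem (S : Setup F₀) (n : ℕ) {s : FB F₀} (h : s ∈ V S n) :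
    coords S n s = ⇑((lvlBasis S n).repr ⟨s, h⟩) := by
  unfold coords
  rw [dif_pos h]

/-- HG1 [glue]: the height of the coefficient vector does not depend on the level, up to `O(1)`. -/
theorem coords_level (S : Setup F₀) (n N : ℕ) (hnN : n ≤ N) :
    ∃ C : ℝ, ∀ a : FB F₀, a ∈ V S n → |ht (coords S N a) - ht (coords S n a)| ≤ C := by
  classical
  set incl : V S n →ₗ[Qbar] V S N := Submodule.inclusion (V_mono S hnN) with hincl
  have hker : LinearMap.ker incl = ⊥ :=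
    LinearMap.ker_eq_bot.mpr (Submodule.inclusion_injective _)
  obtain ⟨g, hg⟩ := LinearMap.exists_leftInverse_of_injective incl hker
  set A : Matrix (Fin (dim S N)) (Fin (dim S n)) Qbar :=
    LinearMap.toMatrix (lvlBasis S n) (lvlBasis S N) incl with hA
  set B : Matrix (Fin (dim S n)) (Fin (dim S N)) Qbar :=
    LinearMap.toMatrix (lvlBasis S N) (lvlBasis S n) g with hB
  obtain ⟨C₁, hC₁⟩ := ht_mulVec_le A
  obtain ⟨C₂, hC₂⟩ := ht_mulVec_le B
  refine ⟨max C₁ C₂, fun a ha => ?_⟩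
  have haN : a ∈ V S N := V_mono S hnN ha
  have e1 : coords S N a = A.mulVec (coords S n a) := by
    rw [coords_of_mem S N haN, coords_of_mem S n ha, hA, LinearMap.toMatrix_mulVec_repr]
    rfl
  have e2 : coords S n a = B.mulVec (coords S N a) := by
    rw [coords_of_mem S N haN, coords_of_mem S n ha, hB]
    have h3 : (⟨a, haN⟩ : V S N) = incl ⟨a, ha⟩ := rfl
    rw [h3, LinearMap.toMatrix_mulVec_repr]
    have h4 : g (incl ⟨a, ha⟩) = ⟨a, ha⟩ := by
      have := congrArg (fun f => f ⟨a, ha⟩) hg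
      simpa using this
    rw [h4]
  have i1 : ht (coords S N a) ≤ ht (coords S n a) + C₁ := by
    rw [e1]; exact hC₁ _
  have i2 : ht (coords S n a) ≤ ht (coords S N a) + C₂ := by
    conv_lhs => rw [e2]
    exact hC₂ _
  rw [abs_le]
  constructor
  · have := le_max_right C₁ C₂; linarith
  · have := le_max_left C₁ C₂; linarith

/-! ### `xvec_m_sub` -/

/-- `φ` as a basis of `V_m`. -/
def phiB (S : Setup F₀) : Module.Basis (Fin (S.r + 1)) Qbar (V S S.m) :=
  Module.Basis.mk (v := fun j => (⟨S.φ j, phi_mem S j⟩ : V S S.m))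
    (by
      apply LinearIndependent.of_comp (V S S.m).subtype
      exact S.basis.1)
    (by
      have h := S.basis.2
      have hinj : Function.Injective (Submodule.map (V S S.m).subtype) :=
        Submodule.map_injective_of_injective (V S S.m).injective_subtype
      have : Submodule.span Qbar (Set.range fun j => (⟨S.φ j, phi_mem S j⟩ : V S S.m)) = ⊤ := by
        apply hinj
        rw [Submodule.map_span, ← Set.range_comp, Submodule.map_subtype_top]
        exact h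
      exact this.ge)

omit [IsCurveOver Qbar (FB F₀)] [Algebra.EssFiniteType Qbar (FB F₀)] in
theorem phiB_apply (S : Setup F₀) (j : Fin (S.r + 1)) :
    ((phiB S j : V S S.m) : FB F₀) = S.φ j := by
  unfold phiB
  rw [Module.Basis.mk_apply]

theorem xphi_eq (S : Setup F₀) (Q : Place Qbar (FB F₀)) (j : Fin (S.r + 1)) :
    xphi S Q j = secLin (lvlDiv S S.m) Q (phiB S j) := by
  rw [secLin_apply, phiB_apply]
  rfl

theorem xvec_eq (S : Setup F₀) (n : ℕ) (Q : Place Qbar (FB F₀)) (j : Fin (dim S n)) :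
    xvec S n Q j = secLin (lvlDiv S n) Q (lvlBasis S n j) := rfl

/-- `x_m(Q)` in the basis `ψ^m` is a fixed linear image of `xphi S Q`. -/
theorem xvec_m_eq_mulVec (S : Setup F₀) (Q : Place Qbar (FB F₀)) :
    xvec S S.m Q = ((phiB S).toMatrix (lvlBasis S S.m)).transpose.mulVec (xphi S Q) := by
  funext j
  rw [xvec_eq, ← Module.Basis.sum_toMatrix_smul_self (phiB S) (lvlBasis S S.m) j, map_sum]
  simp only [map_smul, smul_eq_mul, Matrix.mulVec, dotProduct, Matrix.transpose_apply, xphi_eq]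

theorem xphi_eq_mulVec (S : Setup F₀) (Q : Place Qbar (FB F₀)) :
    xphi S Q = ((lvlBasis S S.m).toMatrix (phiB S)).transpose.mulVec (xvec S S.m Q) := by
  funext j
  rw [xphi_eq, ← Module.Basis.sum_toMatrix_smul_self (lvlBasis S S.m) (phiB S) j, map_sum]
  simp only [map_smul, smul_eq_mul, Matrix.mulVec, dotProduct, Matrix.transpose_apply, xvec_eq]

/-- HG1: the level-`m` height in the basis `ψ^m` is `hX` up to `O(1)` (from the leaf `ht_xphi`). -/
theorem xvec_m_sub_of (S : Setup F₀)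
    (hxphi : ∀ Q : Place Qbar (FB F₀), ht (xphi S Q) = hX S.φ Q) :
    ∃ C : ℝ, ∀ Q : Place Qbar (FB F₀), |ht (xvec S S.m Q) - hX S.φ Q| ≤ C := by
  obtain ⟨C₁, hC₁⟩ := ht_mulVec_le ((phiB S).toMatrix (lvlBasis S S.m)).transpose
  obtain ⟨C₂, hC₂⟩ := ht_mulVec_le ((lvlBasis S S.m).toMatrix (phiB S)).transpose
  refine ⟨max C₁ C₂, fun Q => ?_⟩
  have i1 : ht (xvec S S.m Q) ≤ ht (xphi S Q) + C₁ := by
    rw [xvec_m_eq_mulVec]; exact hC₁ _
  have i2 : ht (xphi S Q) ≤ ht (xvec S S.m Q) + C₂ := by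
    conv_lhs => rw [xphi_eq_mulVec]
    exact hC₂ _
  rw [← hxphi Q, abs_le]
  constructor
  · have := le_max_right C₁ C₂; linarith
  · have := le_max_left C₁ C₂; linarith

/-! ### `delta_base_ge` -/

/-- Expansion of `secVal` on `V_n` in the basis `ψ^n`. -/
theorem secVal_eq_sum (S : Setup F₀) (n : ℕ) (Q : Place Qbar (FB F₀)) {s : FB F₀}
    (hs : s ∈ V S n) :
    secVal (lvlDiv S n) Q s = ∑ l, coords S n s l * xvec S n Q l := by
  calc secVal (lvlDiv S n) Q s = secLin (lvlDiv S n) Q ⟨s, hs⟩ := rfl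
    _ = ∑ l, (lvlBasis S n).repr ⟨s, hs⟩ l * secLin (lvlDiv S n) Q (lvlBasis S n l) :=
        secLin_sum_repr (lvlDiv S n) Q (lvlBasis S n) ⟨s, hs⟩
    _ = ∑ l, coords S n s l * xvec S n Q l := by
        simp only [coords_of_mem S n hs, xvec_eq]

omit [IsCurveOver Qbar (FB F₀)] [Algebra.EssFiniteType Qbar (FB F₀)] in
theorem bsec_mem (S : Setup F₀) (y : Fin (S.r + 1) → Qbar) (c : Fin (S.r + 1) × Fin (S.r + 1)) :
    bsec S y c ∈ V S S.m := by
  unfold bsec
  refine Submodule.sub_mem _ ?_ ?_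
  · rw [← Algebra.smul_def]; exact Submodule.smul_mem _ _ (phi_mem S _)
  · rw [← Algebra.smul_def]; exact Submodule.smul_mem _ _ (phi_mem S _)

theorem secVal_bsec (S : Setup F₀) (Q : Place Qbar (FB F₀)) (y : Fin (S.r + 1) → Qbar)
    (c : Fin (S.r + 1) × Fin (S.r + 1)) :
    secVal (lvlDiv S S.m) Q (bsec S y c) = y c.1 * xphi S Q c.2 - y c.2 * xphi S Q c.1 := by
  unfold bsec
  exact secVal_lin2 (lvlDiv S S.m) Q (y c.1) (y c.2) (phi_mem S c.2) (phi_mem S c.1)

/-- `M(P, P₀)` for `P ≠ P₀`: the minors of `(x(P); x(P₀))`. -/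
theorem Mvec_base (S : Setup F₀) {P : Place Qbar (FB F₀)} (hP : P ≠ S.P₀)
    (c : Fin (S.r + 1) × Fin (S.r + 1)) :
    Mvec S P S.P₀ c = xphi S P c.1 * xphi S S.P₀ c.2 - xphi S P c.2 * xphi S S.P₀ c.1 := by
  have h : (lvlDiv S S.m - pt P) S.P₀ = lvlDiv S S.m S.P₀ := by
    simp [pt, hP]
  have h2 : Mvec S P S.P₀ c = secVal (lvlDiv S S.m) S.P₀ (bsec S (xphi S P) c) := by
    unfold Mvec secVal
    rw [h]
  rw [h2, secVal_bsec]

/-- The fixed sections `θ_c = e_t φ_s − e_s φ_t`, `e = x(P₀)`; they lie in `V_{m−1}`. -/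
def theta (S : Setup F₀) (c : Fin (S.r + 1) × Fin (S.r + 1)) : FB F₀ :=
  bsec S (xphi S S.P₀) (c.2, c.1)

theorem theta_mem (S : Setup F₀) (hm : 1 ≤ S.m) (c : Fin (S.r + 1) × Fin (S.r + 1)) :
    theta S c ∈ V S (S.m - 1) := by
  have h0 : secVal (lvlDiv S S.m) S.P₀ (theta S c) = 0 := by
    unfold theta
    rw [secVal_bsec]
    ring
  have h1 := sec_ker (lvlDiv S S.m) S.P₀ (bsec_mem S _ _) h0
  rw [lvlDiv_sub_pt S hm] at h1
  exact h1

theorem Mvec_base_eq_mulVec (S : Setup F₀) (hm : 1 ≤ S.m) {P : Place Qbar (FB F₀)}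
    (hP : P ≠ S.P₀) :
    Mvec S P S.P₀ =
      (Matrix.of fun c l => coords S (S.m - 1) (theta S c) l).mulVec (xvec S (S.m - 1) P) := by
  funext c
  have h1 : Mvec S P S.P₀ c = secVal (lvlDiv S S.m) P (theta S c) := by
    rw [Mvec_base S hP]
    unfold theta
    rw [secVal_bsec]
    ring
  rw [h1, secVal_lvl_ne S S.m (S.m - 1) hP, secVal_eq_sum S (S.m - 1) P (theta_mem S hm c)]
  rfl

/-- Iterating (PT): `H_{(k+1) a} = (k+1) H_a + O(1)`. -/
theorem H_mul (S : Setup F₀)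
    (hadd : ∀ a b : ℕ, 2 * genusFF Qbar (FB F₀) ≤ a → 2 * genusFF Qbar (FB F₀) ≤ b →
      ∃ C : ℝ, ∀ Q : Place Qbar (FB F₀),
        |ht (xvec S (a + b) Q) - ht (xvec S a Q) - ht (xvec S b Q)| ≤ C)
    (a : ℕ) (ha : 2 * genusFF Qbar (FB F₀) ≤ a) (k : ℕ) :
    ∃ C : ℝ, ∀ Q : Place Qbar (FB F₀),
      |ht (xvec S ((k + 1) * a) Q) - ((k : ℝ) + 1) * ht (xvec S a Q)| ≤ C := by
  induction k with
  | zero =>
    refine ⟨0, fun Q => ?_⟩
    rw [zero_add, one_mul]
    simp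
  | succ k ih =>
    obtain ⟨C, hC⟩ := ih
    obtain ⟨C', hC'⟩ := hadd ((k + 1) * a) a
      (le_trans ha (Nat.le_mul_of_pos_left a (Nat.succ_pos k))) ha
    refine ⟨C + C', fun Q => ?_⟩
    have h1 := hC Q
    have h2 := hC' Q
    have e : (k + 1 + 1) * a = (k + 1) * a + a := by ring
    rw [e]
    rw [abs_le] at h1 h2 ⊢
    push_cast
    constructor <;> linarith

/-- `m · H_{m−1} ≤ (m − 1) · H_m + C`. -/
theorem H_pred_le (S : Setup F₀)
    (hadd : ∀ a b : ℕ, 2 * genusFF Qbar (FB F₀) ≤ a → 2 * genusFF Qbar (FB F₀) ≤ b →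
      ∃ C : ℝ, ∀ Q : Place Qbar (FB F₀),
        |ht (xvec S (a + b) Q) - ht (xvec S a Q) - ht (xvec S b Q)| ≤ C) :
    ∃ C : ℝ, ∀ Q : Place Qbar (FB F₀),
      (S.m : ℝ) * ht (xvec S (S.m - 1) Q) ≤ ((S.m : ℝ) - 1) * ht (xvec S S.m Q) + C := by
  have hm := S.hm
  unfold mMin at hm
  rcases Nat.lt_or_ge S.m 2 with h2 | h2
  · -- `m = 1`: `H_0 = 0`
    have hm1 : S.m = 1 := by omega
    have hd : dim S (S.m - 1) = 1 := by
      rw [hm1]
      show ell ((((1 - 1 : ℕ) : ℤ)) • pt S.P₀) = 1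
      simp only [Nat.sub_self, Nat.cast_zero, zero_smul]
      exact ell_zero
    have : Subsingleton (Fin (dim S (S.m - 1))) := by
      rw [hd]; infer_instance
    refine ⟨0, fun Q => ?_⟩
    rw [ht_of_subsingleton, hm1]
    simp
  · obtain ⟨k, hk⟩ : ∃ k, S.m = k + 2 := ⟨S.m - 2, by omega⟩
    have hg1 : 2 * genusFF Qbar (FB F₀) ≤ k + 1 := by omega
    have hg2 : 2 * genusFF Qbar (FB F₀) ≤ k + 2 := by omega
    obtain ⟨C, hC⟩ := H_mul S hadd (k + 1) hg1 (k + 1)
    obtain ⟨C', hC'⟩ := H_mul S hadd (k + 2) hg2 k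
    refine ⟨C + C', fun Q => ?_⟩
    have h1 := hC Q
    have h2 := hC' Q
    have e : (k + 1 + 1) * (k + 1) = (k + 1) * (k + 2) := by ring
    rw [e] at h1
    rw [abs_le] at h1 h2
    rw [hk]
    have e2 : k + 2 - 1 = k + 1 := by omega
    rw [e2]
    push_cast at h1 h2 ⊢
    linarith

/-- HG1 [glue]: `δ(P, P₀) ≥ hX(P)/m − C`, from the earlier leaves `ht_xphi`, `ht_Mvec`, `H_add`. -/
theorem delta_base_ge_of (S : Setup F₀)
    (hxphi : ∀ Q : Place Qbar (FB F₀), ht (xphi S Q) = hX S.φ Q)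
    (hMvec : ∀ P Q : Place Qbar (FB F₀),
      ht (Mvec S P Q) = hX S.φ P + hX S.φ Q - delta S.φ P Q)
    (hadd : ∀ a b : ℕ, 2 * genusFF Qbar (FB F₀) ≤ a → 2 * genusFF Qbar (FB F₀) ≤ b →
      ∃ C : ℝ, ∀ Q : Place Qbar (FB F₀),
        |ht (xvec S (a + b) Q) - ht (xvec S a Q) - ht (xvec S b Q)| ≤ C) :
    ∃ C : ℝ, ∀ P : Place Qbar (FB F₀), (1 / (S.m : ℝ)) * hX S.φ P - C ≤ delta S.φ P S.P₀ := by
  classical
  have hm := S.hm
  unfold mMin at hm
  have hm1 : 1 ≤ S.m := by omega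
  have hM : (0 : ℝ) < (S.m : ℝ) := by exact_mod_cast hm1
  have hM1 : (0 : ℝ) ≤ (S.m : ℝ) - 1 := by
    have : (1 : ℝ) ≤ (S.m : ℝ) := by exact_mod_cast hm1
    linarith
  obtain ⟨C₁, hC₁⟩ := ht_mulVec_le
    (Matrix.of fun c l => coords S (S.m - 1) (theta S c) l :
      Matrix (Fin (S.r + 1) × Fin (S.r + 1)) (Fin (dim S (S.m - 1))) Qbar)
  obtain ⟨C₂, hC₂⟩ := H_pred_le S hadd
  obtain ⟨C₃, hC₃⟩ := xvec_m_sub_of S hxphi
  set D : ℝ := C₁ * (S.m : ℝ) + ((S.m : ℝ) - 1) * C₃ + C₂ - hX S.φ S.P₀ * (S.m : ℝ) with hD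
  refine ⟨max (D / (S.m : ℝ)) ((1 / (S.m : ℝ)) * hX S.φ S.P₀ - delta S.φ S.P₀ S.P₀), fun P => ?_⟩
  by_cases hP : P = S.P₀
  · subst hP
    have := le_max_right (D / (S.m : ℝ)) ((1 / (S.m : ℝ)) * hX S.φ S.P₀ - delta S.φ S.P₀ S.P₀)
    linarith
  · have hle := le_max_left (D / (S.m : ℝ)) ((1 / (S.m : ℝ)) * hX S.φ S.P₀ - delta S.φ S.P₀ S.P₀)
    have hMv : ht (Mvec S P S.P₀) ≤ ht (xvec S (S.m - 1) P) + C₁ := by
      rw [Mvec_base_eq_mulVec S hm1 hP]
      exact hC₁ _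
    rw [hMvec P S.P₀] at hMv
    have h2 := hC₂ P
    have h3 := (abs_le.mp (hC₃ P)).2
    have h3' : ((S.m : ℝ) - 1) * ht (xvec S S.m P) ≤ ((S.m : ℝ) - 1) * (hX S.φ P + C₃) :=
      mul_le_mul_of_nonneg_left (by linarith) hM1
    have h1' : (S.m : ℝ) * (hX S.φ P + hX S.φ S.P₀ - delta S.φ P S.P₀) ≤
        (S.m : ℝ) * (ht (xvec S (S.m - 1) P) + C₁) :=
      mul_le_mul_of_nonneg_left hMv hM.le
    have key : (1 / (S.m : ℝ)) * hX S.φ P - D / (S.m : ℝ) ≤ delta S.φ P S.P₀ := by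
      rw [div_mul_eq_mul_div, one_mul, ← sub_div, div_le_iff₀ hM]
      rw [hD]
      nlinarith
    linarith

end Fermat.Agent.S17.PLK.H3566
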