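/-
S17 / PLK (B-route of helper2397 for `delta_classInv` / `delta_pos`), leaf CG2 core — helper2066.

Base-point-free pencil trick on top of the FROZEN FND skeleton v0 (origin/helper8457):

* `RR_mul_RR_eq` : `2g ≤ deg D₁`, `deg D₁ + 2g - 1 ≤ deg D₂`  ⟹  `L(D₁) * L(D₂) = L(D₁ + D₂)`
  (product of `K`-submodules of `F`, i.e. the span of all products).
* `exists_pencil` : the two sections `s, t ∈ L(D₁)` without common zero, and the decomposition
  `f = s u + t v`, `u v ∈ L(D₂)`, of every `f ∈ L(D₁ + D₂)`.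
* `RR_list_prod_mul_eq` : iterated form for a list of divisors.

Only statements of `FND/Skel.lean` used: `mem_RR_iff`, `finite_RR`, `mul_mem_RR`, `ord_algebraMap`,
`ell_eq_of_degree_gt`, `ell_sub_pt`.
-/
import Fermat.Agent.S17.FND.Skel

set_option autoImplicit false

noncomputable section

namespace Fermat.Agent.S17.PLK.H2066

open AlgebraicCurve Fermat.Agent.S17.FND

variable {K F : Type*} [Field K] [Field F] [Algebra K F]
variable [IsAlgClosed K] [CharZero K] [IsCurveOver K F] [Algebra.EssFiniteType K F]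

/-- Pointwise form of membership in `L(D)`. -/
theorem mem_RR_iff_ord (D : Divisor K F) (f : F) :
    f ∈ riemannRochSpace D ↔ f = 0 ∨ ∀ v : Place K F, 0 ≤ v.ord f + D v := by
  rw [mem_RR_iff]
  refine or_congr Iff.rfl ?_
  constructor
  · intro h v
    have := h v
    simpa [divF_apply] using this
  · intro h v
    have := h v
    simpa [divF_apply] using this

theorem ord_neg' (v : Place K F) (f : F) : v.ord (-f) = v.ord f := by
  by_cases hf : f = 0
  · simp [hf]
  · have h1 : (-f) = algebraMap K F (-1) * f := by simp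
    have hne : algebraMap K F (-1) ≠ 0 := by simp
    rw [h1, Place.ord_mul v hne hf, ord_algebraMap, zero_add]

/-- The pencil: two sections of a divisor of degree `≥ 2g` without common zero. -/
theorem exists_pencil_sections {D : Divisor K F}
    (h : 2 * (genusFF K F : ℤ) ≤ Divisor.degree D) :
    ∃ s t : F, s ∈ riemannRochSpace D ∧ t ∈ riemannRochSpace D ∧ s ≠ 0 ∧ t ≠ 0 ∧
      ∀ v : Place K F, v.ord s + D v = 0 ∨ v.ord t + D v = 0 := by
  classical
  have := finite_RR D
  have hell : (ell D : ℤ) = Divisor.degree D + 1 - genusFF K F :=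
    ell_eq_of_degree_gt (by omega)
  have hpos : 0 < ell D := by
    have : (0 : ℤ) < ell D := by omega
    exact_mod_cast this
  -- a nonzero section
  have hne : riemannRochSpace D ≠ ⊥ := by
    intro hb
    unfold ell at hpos
    rw [hb] at hpos
    simp at hpos
  obtain ⟨s, hs, hs0⟩ := Submodule.exists_mem_ne_zero_of_ne_bot hne
  -- the finitely many zeros of `s`
  set E : Finset (Place K F) := (divF s + D : Divisor K F).support with hE
  -- proper subspaces
  let W : Place K F → Submodule K (riemannRochSpace D) := fun P =>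
    (riemannRochSpace (D - pt P)).comap (riemannRochSpace D).subtype
  have hW : ∀ P, W P ≠ ⊤ := by
    intro P htop
    have hle : riemannRochSpace D ≤ riemannRochSpace (D - pt P) := by
      intro x hx
      have : (⟨x, hx⟩ : riemannRochSpace D) ∈ W P := by rw [htop]; trivial
      exact this
    have := finite_RR (D - pt P)
    have h1 := Submodule.finrank_mono hle
    have h2 := ell_sub_pt h P
    unfold ell at h2
    omega
  have hbot : (⊥ : Submodule K (riemannRochSpace D)) ≠ ⊤ := by
    intro hbt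
    apply hne
    rw [Submodule.eq_bot_iff]
    intro x hx
    have : (⟨x, hx⟩ : riemannRochSpace D) ∈ (⊥ : Submodule K (riemannRochSpace D)) := by
      rw [hbt]; trivial
    simpa using congrArg Subtype.val ((Submodule.mem_bot K).mp this)
  have hcov := Subspace.biUnion_ne_univ_of_top_notMem (k := K) (E := riemannRochSpace D)
    (s := insert ⊥ (E.image W)) (by
      intro hmem
      rcases Finset.mem_insert.mp hmem with hmem | hmem
      · exact hbot hmem.symm
      · obtain ⟨P, -, hP⟩ := Finset.mem_image.mp hmem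
        exact hW P hP)
  obtain ⟨t, ht⟩ : ∃ t : riemannRochSpace D,
      t ∉ ⋃ p ∈ insert ⊥ (E.image W), (p : Set (riemannRochSpace D)) := by
    by_contra hcon
    push Not at hcon
    exact hcov (Set.eq_univ_of_forall hcon)
  have htW : ∀ P ∈ E, (t : F) ∉ riemannRochSpace (D - pt P) := by
    intro P hP hmem
    apply ht
    simp only [Set.mem_iUnion, exists_prop]
    exact ⟨W P, Finset.mem_insert_of_mem (Finset.mem_image_of_mem W hP), hmem⟩
  have ht0 : (t : F) ≠ 0 := by
    intro h0
    apply ht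
    simp only [Set.mem_iUnion, exists_prop]
    refine ⟨⊥, Finset.mem_insert_self _ _, ?_⟩
    have : t = 0 := Subtype.ext h0
    rw [this]
    exact zero_mem _
  have htD := (mem_RR_iff_ord D t).mp t.2
  refine ⟨s, t, hs, t.2, hs0, ht0, ?_⟩
  intro v
  by_cases hv : v ∈ E
  · right
    have hnot := htW v hv
    rw [mem_RR_iff_ord] at hnot
    push Not at hnot
    obtain ⟨-, w, hw⟩ := hnot
    rcases htD with h0 | htD
    · exact absurd h0 ht0
    · have hwD := htD w
      by_cases hwv : w = v
      · subst hwv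
        simp [pt] at hw
        omega
      · have h1 : (Finsupp.single v (1:ℤ)) w = 0 := by
          rw [Finsupp.single_apply, if_neg (Ne.symm hwv)]
        simp [pt, h1] at hw
        omega
  · left
    have : (divF s + D : Divisor K F) v = 0 := by
      simpa [hE] using hv
    simpa [divF_apply] using this

/-- **Pencil trick**, element form. -/
theorem exists_pencil {D₁ D₂ : Divisor K F}
    (h1 : 2 * (genusFF K F : ℤ) ≤ Divisor.degree D₁)
    (h2 : Divisor.degree D₁ + 2 * (genusFF K F : ℤ) - 1 ≤ Divisor.degree D₂) :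
    ∃ s t : F, s ∈ riemannRochSpace D₁ ∧ t ∈ riemannRochSpace D₁ ∧ s ≠ 0 ∧ t ≠ 0 ∧
      (∀ v : Place K F, v.ord s + D₁ v = 0 ∨ v.ord t + D₁ v = 0) ∧
      ∀ f ∈ riemannRochSpace (D₁ + D₂), ∃ u ∈ riemannRochSpace D₂, ∃ v ∈ riemannRochSpace D₂,
        f = s * u + t * v := by
  classical
  obtain ⟨s, t, hs, ht, hs0, ht0, hst⟩ := exists_pencil_sections h1
  refine ⟨s, t, hs, ht, hs0, ht0, hst, ?_⟩
  have fin2 := finite_RR D₂
  have fin12 := finite_RR (D₁ + D₂)
  have fin21 := finite_RR (D₂ - D₁)
  set L2 := riemannRochSpace D₂ with hL2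
  -- the pencil map
  let Φ : (L2 × L2) →ₗ[K] F :=
    ((LinearMap.mulLeft K s).comp L2.subtype).coprod ((LinearMap.mulLeft K t).comp L2.subtype)
  have hΦ : ∀ p : L2 × L2, Φ p = s * (p.1 : F) + t * (p.2 : F) := by
    intro p
    simp [Φ]
  have hrange : LinearMap.range Φ ≤ riemannRochSpace (D₁ + D₂) := by
    rintro _ ⟨p, rfl⟩
    rw [hΦ]
    exact add_mem (mul_mem_RR hs p.1.2) (mul_mem_RR ht p.2.2)
  -- the kernel embeds into `L(D₂ - D₁)`
  have hker : ∀ p : L2 × L2, Φ p = 0 → t⁻¹ * (p.1 : F) ∈ riemannRochSpace (D₂ - D₁) := by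
    intro p hp
    rw [hΦ] at hp
    rw [mem_RR_iff_ord]
    by_cases hu : (p.1 : F) = 0
    · left; simp [hu]
    · right
      have hsu : s * (p.1 : F) = -(t * (p.2 : F)) := by linear_combination hp
      have hv : (p.2 : F) ≠ 0 := by
        intro hv
        rw [hv, mul_zero, neg_zero] at hsu
        exact (mul_ne_zero hs0 hu) hsu
      have hU := ((mem_RR_iff_ord D₂ _).mp p.1.2).resolve_left hu
      have hV := ((mem_RR_iff_ord D₂ _).mp p.2.2).resolve_left hv
      have hS := ((mem_RR_iff_ord D₁ _).mp hs).resolve_left hs0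
      have hT := ((mem_RR_iff_ord D₁ _).mp ht).resolve_left ht0
      intro w
      have e1 : w.ord (s * (p.1 : F)) = w.ord s + w.ord (p.1 : F) := Place.ord_mul w hs0 hu
      have e2 : w.ord (-(t * (p.2 : F))) = w.ord t + w.ord (p.2 : F) := by
        rw [ord_neg', Place.ord_mul w ht0 hv]
      have e3 : w.ord (t⁻¹ * (p.1 : F)) = -w.ord t + w.ord (p.1 : F) := by
        rw [Place.ord_mul w (inv_ne_zero ht0) hu, Place.ord_inv]
      rw [hsu] at e1
      have hUw := hU w
      have hVw := hV w
      have hSw := hS w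
      have hTw := hT w
      have hsub : (D₂ - D₁) w = D₂ w - D₁ w := rfl
      rw [e3, hsub]
      rcases hst w with h0 | h0 <;> omega
  let ψ : LinearMap.ker Φ →ₗ[K] riemannRochSpace (D₂ - D₁) :=
    LinearMap.codRestrict (riemannRochSpace (D₂ - D₁))
      ((LinearMap.mulLeft K t⁻¹).comp (L2.subtype.comp
        ((LinearMap.fst K L2 L2).comp (LinearMap.ker Φ).subtype)))
      (fun p => hker p.1 p.2)
  have hψ : Function.Injective ψ := by
    intro p q hpq
    have e : ∀ r : LinearMap.ker Φ,
        ((ψ r : riemannRochSpace (D₂ - D₁)) : F) = t⁻¹ * ((r : L2 × L2).1 : F) := fun r => rfl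
    have h0 : t⁻¹ * ((p : L2 × L2).1 : F) = t⁻¹ * ((q : L2 × L2).1 : F) := by
      rw [← e p, ← e q, hpq]
    have hu : ((p : L2 × L2).1 : F) = ((q : L2 × L2).1 : F) :=
      mul_left_cancel₀ (inv_ne_zero ht0) h0
    have hp0 : Φ p = 0 := p.2
    have hq0 : Φ q = 0 := q.2
    rw [hΦ] at hp0 hq0
    have hv : ((p : L2 × L2).2 : F) = ((q : L2 × L2).2 : F) := by
      apply mul_left_cancel₀ ht0
      rw [hu] at hp0
      linear_combination hp0 - hq0
    apply Subtype.ext
    apply Prod.ext
    · exact Subtype.ext hu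
    · exact Subtype.ext hv
  have hkerdim : Module.finrank K (LinearMap.ker Φ) ≤ ell (D₂ - D₁) :=
    LinearMap.finrank_le_finrank_of_injective hψ
  have hrn := LinearMap.finrank_range_add_finrank_ker Φ
  rw [Module.finrank_prod] at hrn
  -- Riemann
  have hd2 : (ell D₂ : ℤ) = Divisor.degree D₂ + 1 - genusFF K F :=
    ell_eq_of_degree_gt (by omega)
  have hd21 : (ell (D₂ - D₁) : ℤ) = Divisor.degree (D₂ - D₁) + 1 - genusFF K F :=
    ell_eq_of_degree_gt (by rw [map_sub]; omega)
  have hd12 : (ell (D₁ + D₂) : ℤ) = Divisor.degree (D₁ + D₂) + 1 - genusFF K F :=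
    ell_eq_of_degree_gt (by rw [map_add]; omega)
  rw [map_sub] at hd21
  rw [map_add] at hd12
  have hdim : Module.finrank K (riemannRochSpace (D₁ + D₂)) ≤
      Module.finrank K (LinearMap.range Φ) := by
    have e2 : Module.finrank K L2 = ell D₂ := rfl
    have e12 : Module.finrank K (riemannRochSpace (D₁ + D₂)) = ell (D₁ + D₂) := rfl
    omega
  have heq : LinearMap.range Φ = riemannRochSpace (D₁ + D₂) :=
    Submodule.eq_of_le_of_finrank_le hrange hdim
  intro f hf
  rw [← heq] at hf
  obtain ⟨p, rfl⟩ := hf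
  exact ⟨p.1, p.1.2, p.2, p.2.2, hΦ p⟩

/-- **Pencil trick** (base-point-free): `L(D₁) * L(D₂) = L(D₁ + D₂)` as soon as
`deg D₁ ≥ 2g` and `deg D₂ ≥ deg D₁ + 2g - 1`. -/
theorem RR_mul_RR_eq {D₁ D₂ : Divisor K F}
    (h1 : 2 * (genusFF K F : ℤ) ≤ Divisor.degree D₁)
    (h2 : Divisor.degree D₁ + 2 * (genusFF K F : ℤ) - 1 ≤ Divisor.degree D₂) :
    riemannRochSpace D₁ * riemannRochSpace D₂ = riemannRochSpace (D₁ + D₂) := by
  apply le_antisymm
  · rw [Submodule.mul_le]
    intro a ha b hb
    exact mul_mem_RR ha hb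
  · obtain ⟨s, t, hs, ht, -, -, -, hdec⟩ := exists_pencil h1 h2
    intro f hf
    obtain ⟨u, hu, v, hv, rfl⟩ := hdec f hf
    exact add_mem (Submodule.mul_mem_mul hs hu) (Submodule.mul_mem_mul ht hv)

end Fermat.Agent.S17.PLK.H2066
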