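/-
S17 / PLK (B-route of helper2397 for `delta_classInv` / `delta_pos`) — leaf HG1 `H_add` (PT), helper2196.

Statement VERBATIM from `Fermat/Agent/S17/PLK/Skel.lean` v0 (origin/helper2397 27f1513e):

    theorem H_add (S : Setup F₀) (a b : ℕ) (ha : 2 g ≤ a) (hb : 2 g ≤ b) :
        ∃ C, ∀ Q, |ht (xvec S (a + b) Q) - ht (xvec S a Q) - ht (xvec S b Q)| ≤ C

Proof.
 * `xvec_tensor`  : `x_a(Q) ⊗ x_b(Q) = A *ᵥ x_{a+b}(Q)`, `A` = coordinates of the products `ψ^a_i ψ^b_j ∈ V_{a+b}`
                    (CG1 `secVal_mul`, `secVal_add`, `secVal_smul`).  With `ht_tensor`, `ht_mulVec_le`: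
                    `H_a + H_b ≤ H_{a+b} + C`                                        (`Hn_add_le`).
 * `xvec_eq_mulVec`: if `a ≥ 2g`, `b ≥ a + 2g − 1` then `V_a · V_b = V_{a+b}` (base-point-free pencil trick,
                    vendored `Pencil2066.lean` of helper2066), so `x_{a+b}(Q) = B *ᵥ (x_a(Q) ⊗ x_b(Q))` and
                    `H_{a+b} ≤ H_a + H_b + C`                                        (`Hn_add_ge`).
 * general `a, b ≥ 2g`: auxiliary level `c = a + b + 2g`:
                    `H_{a+b} + H_c ≤ H_{a+b+c} + C ≤ H_b + H_{a+c} + C' ≤ H_a + H_b + H_c + C''`.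
Black boxes (statements only): FND Skel v0 (`finite_RR`, `mul_mem_RR`, `ell_sub_pt`, `degree_pt`,
`evalAt_algebraMap`, + those used by `Pencil2066`), HT Skel (`ht_tensor`, `ht_mulVec_le`), PLK Skel CG1
(`secVal_add`, `secVal_smul`, `secVal_mul`, `secVal_eq_zero_iff`).

INTEGRATION: this file does NOT import `PLK/Skel.lean` (no import cycle): the four CG1 statements enter as the
explicit hypothesis `SecValHyp F₀`.  To close the skeleton `sorry` of `H_add` inside `Skel.lean`:
    exact H2196.H_add_of ⟨fun A Q _ _ hs hs' => secVal_add A Q hs hs', fun A Q c _ hs => secVal_smul A Q c hs,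
      fun A A' Q _ _ hs hs' => secVal_mul A A' Q hs hs', fun A Q _ hs => secVal_eq_zero_iff A Q hs⟩ S a b ha hb
The verbatim wrapper (rfl-checked against the skeleton) is `HG1aWire_2196.lean`.
-/
import Fermat.Agent.S17.PLK.Defs
import Fermat.Agent.S17.PLK.Pencil2066

set_option autoImplicit false

noncomputable section

open AlgebraicCurve ModularCurve

namespace Fermat.Agent.S17.PLK.H2196

open Fermat.Agent.S17.FND Fermat.Agent.S17.H Fermat.Agent.S17.HT Fermat.Agent.S17.PLK

variable {F₀ : IntermediateField ℚ (LaurentSeries ℚ)}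
  [IsCurveOver Qbar (FB F₀)] [Algebra.EssFiniteType Qbar (FB F₀)]

variable (F₀) in
/-- The four CG1 leaves of the PLK skeleton that `H_add` uses, as one explicit hypothesis. -/
structure SecValHyp : Prop where
  add : ∀ (A : Divisor Qbar (FB F₀)) (Q : Place Qbar (FB F₀)) {s s' : FB F₀},
    s ∈ riemannRochSpace A → s' ∈ riemannRochSpace A →
      secVal A Q (s + s') = secVal A Q s + secVal A Q s'
  smul : ∀ (A : Divisor Qbar (FB F₀)) (Q : Place Qbar (FB F₀)) (c : Qbar) {s : FB F₀},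
    s ∈ riemannRochSpace A → secVal A Q (algebraMap Qbar (FB F₀) c * s) = c * secVal A Q s
  mul : ∀ (A A' : Divisor Qbar (FB F₀)) (Q : Place Qbar (FB F₀)) {s s' : FB F₀},
    s ∈ riemannRochSpace A → s' ∈ riemannRochSpace A' →
      secVal (A + A') Q (s * s') = secVal A Q s * secVal A' Q s'
  eq_zero_iff : ∀ (A : Divisor Qbar (FB F₀)) (Q : Place Qbar (FB F₀)) {s : FB F₀},
    s ∈ riemannRochSpace A → (secVal A Q s = 0 ↔ s ∈ riemannRochSpace (A - pt Q))

omit [IsCurveOver Qbar (FB F₀)] [Algebra.EssFiniteType Qbar (FB F₀)] in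
theorem lvlDiv_add (S : Setup F₀) (a b : ℕ) : lvlDiv S (a + b) = lvlDiv S a + lvlDiv S b := by
  show ((a + b : ℕ) : ℤ) • pt S.P₀ = (a : ℤ) • pt S.P₀ + (b : ℤ) • pt S.P₀
  rw [Nat.cast_add, add_smul]

theorem degree_lvlDiv (S : Setup F₀) (n : ℕ) : Divisor.degree (lvlDiv S n) = n := by
  show Divisor.degree ((n : ℤ) • pt S.P₀) = n
  rw [map_zsmul, degree_pt, smul_eq_mul, mul_one]

theorem psi_mem (S : Setup F₀) (n : ℕ) (j : Fin (dim S n)) : psi S n j ∈ V S n :=
  (lvlBasis S n j).2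

theorem secVal_zero (A : Divisor Qbar (FB F₀)) (Q : Place Qbar (FB F₀)) :
    secVal A Q (0 : FB F₀) = 0 := by
  unfold secVal
  rw [zero_mul]
  have h := evalAt_algebraMap Q (0 : Qbar)
  rwa [map_zero] at h

/-- `secVal A Q` is linear on `L(A)` (finite sums). -/
theorem secVal_sum (hsv : SecValHyp F₀) {ι : Type*} (A : Divisor Qbar (FB F₀))
    (Q : Place Qbar (FB F₀))
    (s : Finset ι) (c : ι → Qbar) (f : ι → FB F₀) (hf : ∀ i, f i ∈ riemannRochSpace A) :
    secVal A Q (∑ i ∈ s, algebraMap Qbar (FB F₀) (c i) * f i)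
      = ∑ i ∈ s, c i * secVal A Q (f i) := by
  classical
  have hmem : ∀ i, algebraMap Qbar (FB F₀) (c i) * f i ∈ riemannRochSpace A := by
    intro i
    rw [← Algebra.smul_def]
    exact Submodule.smul_mem _ _ (hf i)
  induction s using Finset.induction_on with
  | empty => simp [secVal_zero]
  | insert i s hi ih =>
    rw [Finset.sum_insert hi, Finset.sum_insert hi,
      hsv.add A Q (hmem i) (Submodule.sum_mem _ fun j _ => hmem j),
      hsv.smul A Q (c i) (hf i), ih]

/-- Every element of `V_n` is the combination of the `ψ^n_j` with its coordinates. -/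
theorem eq_sum_coords (S : Setup F₀) (n : ℕ) {s : FB F₀} (hs : s ∈ V S n) :
    ∑ j, algebraMap Qbar (FB F₀) (coords S n s j) * psi S n j = s := by
  have hc : coords S n s = ⇑((lvlBasis S n).repr ⟨s, hs⟩) := by
    unfold coords
    rw [dif_pos hs]
  have h := (lvlBasis S n).sum_repr ⟨s, hs⟩
  have h2 := congrArg Subtype.val h
  simp only [Submodule.coe_sum, Submodule.coe_smul] at h2
  rw [hc]
  refine Eq.trans (Finset.sum_congr rfl fun j _ => ?_) h2
  rw [← Algebra.smul_def]
  rfl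

/-- The value of a section of `O(n P₀)` in terms of its coordinates. -/
theorem secVal_eq_sum (hsv : SecValHyp F₀) (S : Setup F₀) (n : ℕ) (Q : Place Qbar (FB F₀))
    {s : FB F₀}
    (hs : s ∈ V S n) :
    secVal (lvlDiv S n) Q s = ∑ j, coords S n s j * xvec S n Q j := by
  have h := secVal_sum hsv (lvlDiv S n) Q Finset.univ (coords S n s) (psi S n) (psi_mem S n)
  rw [eq_sum_coords S n hs] at h
  exact h

theorem psi_mul_mem (S : Setup F₀) (a b : ℕ) (i : Fin (dim S a)) (j : Fin (dim S b)) :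
    psi S a i * psi S b j ∈ V S (a + b) := by
  show _ ∈ riemannRochSpace (lvlDiv S (a + b))
  rw [lvlDiv_add]
  exact mul_mem_RR (psi_mem S a i) (psi_mem S b j)

theorem secVal_psi_mul (hsv : SecValHyp F₀) (S : Setup F₀) (a b : ℕ) (Q : Place Qbar (FB F₀))
    (i : Fin (dim S a)) (j : Fin (dim S b)) :
    secVal (lvlDiv S (a + b)) Q (psi S a i * psi S b j) = xvec S a Q i * xvec S b Q j := by
  rw [lvlDiv_add]
  exact hsv.mul (lvlDiv S a) (lvlDiv S b) Q (psi_mem S a i) (psi_mem S b j)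

/-- The point vector of level `n ≥ 2g` never vanishes (`L(n P₀)` has no base point). -/
theorem xvec_ne_zero (hsv : SecValHyp F₀) (S : Setup F₀) (n : ℕ)
    (hn : 2 * genusFF Qbar (FB F₀) ≤ n)
    (Q : Place Qbar (FB F₀)) : xvec S n Q ≠ 0 := by
  intro h0
  have hle : riemannRochSpace (lvlDiv S n) ≤ riemannRochSpace (lvlDiv S n - pt Q) := by
    intro s hs
    rw [← eq_sum_coords S n hs]
    refine Submodule.sum_mem _ fun j _ => ?_
    rw [← Algebra.smul_def]
    refine Submodule.smul_mem _ _ ?_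
    have hj : secVal (lvlDiv S n) Q (psi S n j) = 0 := congrFun h0 j
    exact (hsv.eq_zero_iff (lvlDiv S n) Q (psi_mem S n j)).mp hj
  have hfin := finite_RR (lvlDiv S n - pt Q)
  have h1 := Submodule.finrank_mono hle
  have h2 := ell_sub_pt (D := lvlDiv S n) (by rw [degree_lvlDiv]; exact_mod_cast hn) Q
  unfold ell at h2
  omega

/-- The height of the point vector of level `n`. -/
def Hn (S : Setup F₀) (n : ℕ) (Q : Place Qbar (FB F₀)) : ℝ := ht (xvec S n Q)

/-- Easy half of (PT): `H_a + H_b ≤ H_{a+b} + C`. -/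
theorem Hn_add_le (hsv : SecValHyp F₀) (S : Setup F₀) (a b : ℕ) :
    ∃ C : ℝ, ∀ Q : Place Qbar (FB F₀), xvec S a Q ≠ 0 → xvec S b Q ≠ 0 →
      Hn S a Q + Hn S b Q ≤ Hn S (a + b) Q + C := by
  obtain ⟨C, hC⟩ := ht_mulVec_le
    (Matrix.of fun (p : Fin (dim S a) × Fin (dim S b)) (l : Fin (dim S (a + b))) =>
      coords S (a + b) (psi S a p.1 * psi S b p.2) l)
  refine ⟨C, fun Q ha hb => ?_⟩
  have h1 := hC (xvec S (a + b) Q)
  have h2 : (Matrix.of fun (p : Fin (dim S a) × Fin (dim S b)) (l : Fin (dim S (a + b))) =>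
      coords S (a + b) (psi S a p.1 * psi S b p.2) l).mulVec (xvec S (a + b) Q)
      = fun p : Fin (dim S a) × Fin (dim S b) => xvec S a Q p.1 * xvec S b Q p.2 := by
    funext p
    rw [← secVal_psi_mul hsv S a b Q p.1 p.2,
      secVal_eq_sum hsv S (a + b) Q (psi_mul_mem S a b p.1 p.2)]
    rfl
  rw [h2, ht_tensor _ _ ha hb] at h1
  exact h1

/-- The products `ψ^a_i ψ^b_j` span `V_{a+b}` when `a ≥ 2g`, `b ≥ a + 2g - 1` (pencil trick). -/
theorem exists_coeff_of_mem (S : Setup F₀) (a b : ℕ) (ha : 2 * genusFF Qbar (FB F₀) ≤ a)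
    (hab : a + 2 * genusFF Qbar (FB F₀) ≤ b + 1) {f : FB F₀} (hf : f ∈ V S (a + b)) :
    ∃ B : Fin (dim S a) × Fin (dim S b) → Qbar,
      ∑ p, algebraMap Qbar (FB F₀) (B p) * (psi S a p.1 * psi S b p.2) = f := by
  classical
  have hmul : riemannRochSpace (lvlDiv S a) * riemannRochSpace (lvlDiv S b)
      = riemannRochSpace (lvlDiv S a + lvlDiv S b) := by
    refine H2066.RR_mul_RR_eq ?_ ?_
    · rw [degree_lvlDiv]
      exact_mod_cast ha
    · rw [degree_lvlDiv, degree_lvlDiv]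
      have h : ((a + 2 * genusFF Qbar (FB F₀) : ℕ) : ℤ) ≤ ((b + 1 : ℕ) : ℤ) := by
        exact_mod_cast hab
      push_cast at h
      linarith
  have hle : riemannRochSpace (lvlDiv S a) * riemannRochSpace (lvlDiv S b)
      ≤ Submodule.span Qbar (Set.range fun p : Fin (dim S a) × Fin (dim S b) =>
          psi S a p.1 * psi S b p.2) := by
    rw [Submodule.mul_le]
    intro x hx y hy
    rw [← eq_sum_coords S a hx, ← eq_sum_coords S b hy, Finset.sum_mul_sum]
    refine Submodule.sum_mem _ fun i _ => Submodule.sum_mem _ fun j _ => ?_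
    have e : algebraMap Qbar (FB F₀) (coords S a x i) * psi S a i
        * (algebraMap Qbar (FB F₀) (coords S b y j) * psi S b j)
        = (coords S a x i * coords S b y j) • (psi S a i * psi S b j) := by
      rw [Algebra.smul_def, map_mul]
      ring
    rw [e]
    exact Submodule.smul_mem _ _ (Submodule.subset_span ⟨(i, j), rfl⟩)
  have hf' : f ∈ riemannRochSpace (lvlDiv S a) * riemannRochSpace (lvlDiv S b) := by
    rw [hmul, ← lvlDiv_add]
    exact hf
  obtain ⟨B, hB⟩ := (Submodule.mem_span_range_iff_exists_fun Qbar).mp (hle hf')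
  refine ⟨B, ?_⟩
  rw [← hB]
  refine Finset.sum_congr rfl fun p _ => ?_
  rw [Algebra.smul_def]

/-- Hard half of (PT) for separated levels: `H_{a+b} ≤ H_a + H_b + C` if `a ≥ 2g`, `b ≥ a + 2g - 1`. -/
theorem Hn_add_ge (hsv : SecValHyp F₀) (S : Setup F₀) (a b : ℕ)
    (ha : 2 * genusFF Qbar (FB F₀) ≤ a)
    (hab : a + 2 * genusFF Qbar (FB F₀) ≤ b + 1) :
    ∃ C : ℝ, ∀ Q : Place Qbar (FB F₀), xvec S a Q ≠ 0 → xvec S b Q ≠ 0 →
      Hn S (a + b) Q ≤ Hn S a Q + Hn S b Q + C := by
  choose B hB using fun l : Fin (dim S (a + b)) =>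
    exists_coeff_of_mem S a b ha hab (psi_mem S (a + b) l)
  obtain ⟨C, hC⟩ := ht_mulVec_le
    (Matrix.of fun (l : Fin (dim S (a + b))) (p : Fin (dim S a) × Fin (dim S b)) => B l p)
  refine ⟨C, fun Q hxa hxb => ?_⟩
  have h1 := hC (fun p : Fin (dim S a) × Fin (dim S b) => xvec S a Q p.1 * xvec S b Q p.2)
  have h2 : (Matrix.of fun (l : Fin (dim S (a + b))) (p : Fin (dim S a) × Fin (dim S b)) =>
      B l p).mulVec (fun p : Fin (dim S a) × Fin (dim S b) => xvec S a Q p.1 * xvec S b Q p.2)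
      = xvec S (a + b) Q := by
    funext l
    have h3 := secVal_sum hsv (lvlDiv S (a + b)) Q Finset.univ (B l)
      (fun p : Fin (dim S a) × Fin (dim S b) => psi S a p.1 * psi S b p.2)
      (fun p => psi_mul_mem S a b p.1 p.2)
    rw [hB l] at h3
    show _ = secVal (lvlDiv S (a + b)) Q (psi S (a + b) l)
    rw [h3]
    simp only [secVal_psi_mul hsv]
    rfl
  rw [h2, ht_tensor _ _ hxa hxb] at h1
  exact h1

/-- **HG1 (PT)**: additivity of the point heights in the level (conclusion verbatim from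
`PLK/Skel.lean`; the CG1 leaves enter through `hsv`). -/
theorem H_add_of (hsv : SecValHyp F₀) (S : Setup F₀) (a b : ℕ)
    (ha : 2 * genusFF Qbar (FB F₀) ≤ a)
    (hb : 2 * genusFF Qbar (FB F₀) ≤ b) :
    ∃ C : ℝ, ∀ Q : Place Qbar (FB F₀),
      |ht (xvec S (a + b) Q) - ht (xvec S a Q) - ht (xvec S b Q)| ≤ C := by
  obtain ⟨C0, h0⟩ := Hn_add_le hsv S a b
  obtain ⟨C1, h1⟩ := Hn_add_le hsv S (a + b) (a + b + 2 * genusFF Qbar (FB F₀))
  obtain ⟨C2, h2⟩ := Hn_add_ge hsv S b (a + (a + b + 2 * genusFF Qbar (FB F₀))) hb (by omega)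
  obtain ⟨C3, h3⟩ := Hn_add_ge hsv S a (a + b + 2 * genusFF Qbar (FB F₀)) ha (by omega)
  refine ⟨max C0 (C1 + C2 + C3), fun Q => ?_⟩
  have xa := xvec_ne_zero hsv S a ha Q
  have xb := xvec_ne_zero hsv S b hb Q
  have xab := xvec_ne_zero hsv S (a + b) (by omega) Q
  have xc := xvec_ne_zero hsv S (a + b + 2 * genusFF Qbar (FB F₀)) (by omega) Q
  have xac := xvec_ne_zero hsv S (a + (a + b + 2 * genusFF Qbar (FB F₀))) (by omega) Q
  have i0 := h0 Q xa xb
  have i1 := h1 Q xab xc
  have i2 := h2 Q xb xac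
  have i3 := h3 Q xa xc
  have e : b + (a + (a + b + 2 * genusFF Qbar (FB F₀)))
      = a + b + (a + b + 2 * genusFF Qbar (FB F₀)) := by omega
  rw [e] at i2
  show |Hn S (a + b) Q - Hn S a Q - Hn S b Q| ≤ _
  rw [abs_le]
  constructor
  · have := le_max_left C0 (C1 + C2 + C3)
    linarith
  · have := le_max_right C0 (C1 + C2 + C3)
    linarith

end Fermat.Agent.S17.PLK.H2196
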