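import Mathlib
import Fermat.Agent.S17.HT.Defs
import Fermat.Agent.S17.HT.Multi

set_option autoImplicit false
set_option linter.unusedSectionVars false

/-!
# S17 / PLK — calculus of multi-homogeneous polynomial MAPS (helper7236)

Every step of the height layer (HG) of the PLK route is "one application of the HT API
(`ht_blockEval_le` / `ht_blockEval_ge_of_zeroLocus`) to an explicit polynomial identity".
To apply the API one must exhibit multi-homogeneous polynomials `p j : MvPolynomial (Σ c, κ c) ℚ̄`
with `blockEval x (p j) = <explicit expression in the block vectors x c>`.  This file removes that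
burden: it works with FUNCTIONS `f : ((c : β) → κ c → R) → R` and the predicate

  `IsMHom d f`  :  `f` is the `blockEval` of a multi-homogeneous polynomial of multidegree `d`,

closed under: coordinates (`IsMHom.coord`), constants (`IsMHom.const`, degree `0`), `0` (any
degree), sums, products (degrees add), powers, finite sums / products, scalar multiples,
determinants (`IsMHom.det_rows`: rows of degrees `d i` ⟹ degree `∑ i, d i`; `IsMHom.det`),
and adjugates (`IsMHom.adjugate`).

Height API at the level of functions (`R = ℚ̄`):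
  * `ht_le_of_isMHom`            : `ht (f x) ≤ ∑ c, d c * ht (x c) + C`          (from L4.1)
  * `ht_ge_of_isMHom_of_zeroLocus`: lower bound on an `IsMClosed` set `V` (zero locus of
    multi-homogeneous equations) on which `f` has no zero with all blocks nonzero   (from L4.3)
  * `IsMClosed`: `univ`, intersections, block-wise cones `{x | x c ∈ W}` for `W` a homogeneous
    zero locus (`IsHClosed`), products of such.
Imports: Mathlib + the frozen HT skeleton (`HT/Defs`, `HT/Multi`) only.  No sorry in this file.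
-/

namespace Fermat.Agent.S17.PLK.H7236

open MvPolynomial Fermat.Agent.S17.HT

section Poly

variable {R : Type*} [CommSemiring R] {β : Type*} {κ : β → Type*} [∀ c, Fintype (κ c)]

theorem isMultiHomogeneous_zero (d : β → ℕ) :
    IsMultiHomogeneous (0 : MvPolynomial (Σ c, κ c) R) d := by
  intro m hm; simp at hm

theorem isMultiHomogeneous_C (a : R) :
    IsMultiHomogeneous (C a : MvPolynomial (Σ c, κ c) R) (0 : β → ℕ) := by
  classical
  intro m hm c
  have hm' : m = 0 := by
    by_contra h
    have : coeff m (C a : MvPolynomial (Σ c, κ c) R) = 0 := by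
      rw [coeff_C]; simp [Ne.symm h]
    exact (mem_support_iff.mp hm) this
  subst hm'
  simp

theorem isMultiHomogeneous_X [DecidableEq β] (c : β) (i : κ c) :
    IsMultiHomogeneous (X ⟨c, i⟩ : MvPolynomial (Σ c, κ c) R) (Pi.single c 1) := by
  classical
  intro m hm c'
  have hm' : m = Finsupp.single ⟨c, i⟩ 1 := by
    by_contra h
    have : coeff m (X ⟨c, i⟩ : MvPolynomial (Σ c, κ c) R) = 0 := by
      rw [coeff_X']; simp [Ne.symm h]
    exact (mem_support_iff.mp hm) this
  subst hm'
  by_cases hc : c' = c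
  · subst hc
    simp only [Pi.single_eq_same]
    rw [Finset.sum_eq_single i]
    · simp
    · intro b _ hb
      rw [Finsupp.single_apply, if_neg]
      intro h
      exact hb (by cases h; rfl)
    · intro h; exact absurd (Finset.mem_univ i) h
  · rw [Pi.single_eq_of_ne hc]
    apply Finset.sum_eq_zero
    intro b _
    rw [Finsupp.single_apply, if_neg]
    intro h
    exact hc (by cases h; rfl)

theorem isMultiHomogeneous_add {p q : MvPolynomial (Σ c, κ c) R} {d : β → ℕ}
    (hp : IsMultiHomogeneous p d) (hq : IsMultiHomogeneous q d) :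
    IsMultiHomogeneous (p + q) d := by
  classical
  intro m hm c
  rcases Finset.mem_union.mp (support_add hm) with h | h
  · exact hp m h c
  · exact hq m h c

theorem isMultiHomogeneous_mul {p q : MvPolynomial (Σ c, κ c) R} {d e : β → ℕ}
    (hp : IsMultiHomogeneous p d) (hq : IsMultiHomogeneous q e) :
    IsMultiHomogeneous (p * q) (d + e) := by
  classical
  intro m hm c
  obtain ⟨m₁, h₁, m₂, h₂, rfl⟩ := Finset.mem_add.mp (support_mul p q hm)
  simp only [Finsupp.coe_add, Pi.add_apply, Finset.sum_add_distrib]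
  rw [hp m₁ h₁ c, hq m₂ h₂ c]

theorem isMultiHomogeneous_sum {ι : Type*} (s : Finset ι) {p : ι → MvPolynomial (Σ c, κ c) R}
    {d : β → ℕ} (hp : ∀ i ∈ s, IsMultiHomogeneous (p i) d) :
    IsMultiHomogeneous (∑ i ∈ s, p i) d := by
  classical
  induction s using Finset.induction_on with
  | empty => simpa using isMultiHomogeneous_zero d
  | insert a s ha ih =>
    rw [Finset.sum_insert ha]
    exact isMultiHomogeneous_add (hp a (Finset.mem_insert_self a s))
      (ih fun i hi => hp i (Finset.mem_insert_of_mem hi))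

theorem isMultiHomogeneous_prod {ι : Type*} (s : Finset ι) {p : ι → MvPolynomial (Σ c, κ c) R}
    {d : ι → β → ℕ} (hp : ∀ i ∈ s, IsMultiHomogeneous (p i) (d i)) :
    IsMultiHomogeneous (∏ i ∈ s, p i) (∑ i ∈ s, d i) := by
  classical
  induction s using Finset.induction_on with
  | empty => simpa using isMultiHomogeneous_C (1 : R)
  | insert a s ha ih =>
    rw [Finset.prod_insert ha, Finset.sum_insert ha]
    exact isMultiHomogeneous_mul (hp a (Finset.mem_insert_self a s))
      (ih fun i hi => hp i (Finset.mem_insert_of_mem hi))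

end Poly

section Fun

variable {R : Type*} [CommRing R] {β : Type*} {κ : β → Type*} [∀ c, Fintype (κ c)]

/-- `f` is the `blockEval` of a multi-homogeneous polynomial of multidegree `d`. -/
def IsMHom (d : β → ℕ) (f : ((c : β) → κ c → R) → R) : Prop :=
  ∃ p : MvPolynomial (Σ c, κ c) R, IsMultiHomogeneous p d ∧ ∀ x, f x = blockEval x p

theorem blockEval_add (x : (c : β) → κ c → R) (p q : MvPolynomial (Σ c, κ c) R) :
    blockEval x (p + q) = blockEval x p + blockEval x q := by
  simp [blockEval]

theorem blockEval_mul (x : (c : β) → κ c → R) (p q : MvPolynomial (Σ c, κ c) R) :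
    blockEval x (p * q) = blockEval x p * blockEval x q := by
  simp [blockEval]

theorem blockEval_C (x : (c : β) → κ c → R) (a : R) :
    blockEval x (C a : MvPolynomial (Σ c, κ c) R) = a := by
  simp [blockEval]

theorem blockEval_X (x : (c : β) → κ c → R) (c : β) (i : κ c) :
    blockEval x (X ⟨c, i⟩ : MvPolynomial (Σ c, κ c) R) = x c i := by
  simp [blockEval]

theorem blockEval_sum {ι : Type*} (s : Finset ι) (x : (c : β) → κ c → R)
    (p : ι → MvPolynomial (Σ c, κ c) R) :
    blockEval x (∑ i ∈ s, p i) = ∑ i ∈ s, blockEval x (p i) := by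
  simp [blockEval]

theorem blockEval_prod {ι : Type*} (s : Finset ι) (x : (c : β) → κ c → R)
    (p : ι → MvPolynomial (Σ c, κ c) R) :
    blockEval x (∏ i ∈ s, p i) = ∏ i ∈ s, blockEval x (p i) := by
  simp [blockEval]

namespace IsMHom

theorem congr {d : β → ℕ} {f g : ((c : β) → κ c → R) → R} (hf : IsMHom d f)
    (h : ∀ x, g x = f x) : IsMHom d g := by
  obtain ⟨p, hp, hpf⟩ := hf
  exact ⟨p, hp, fun x => (h x).trans (hpf x)⟩

theorem degree_congr {d e : β → ℕ} {f : ((c : β) → κ c → R) → R} (hf : IsMHom d f)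
    (h : d = e) : IsMHom e f := h ▸ hf

theorem zero (d : β → ℕ) : IsMHom d (fun _ : (c : β) → κ c → R => (0 : R)) :=
  ⟨0, isMultiHomogeneous_zero d, fun x => by simp [blockEval]⟩

theorem const (a : R) : IsMHom (0 : β → ℕ) (fun _ : (c : β) → κ c → R => a) :=
  ⟨C a, isMultiHomogeneous_C a, fun x => (blockEval_C x a).symm⟩

theorem coord [DecidableEq β] (c : β) (i : κ c) :
    IsMHom (Pi.single c 1) (fun x : (c : β) → κ c → R => x c i) :=
  ⟨X ⟨c, i⟩, isMultiHomogeneous_X c i, fun x => (blockEval_X x c i).symm⟩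

theorem add {d : β → ℕ} {f g : ((c : β) → κ c → R) → R} (hf : IsMHom d f) (hg : IsMHom d g) :
    IsMHom d (fun x => f x + g x) := by
  obtain ⟨p, hp, hpf⟩ := hf
  obtain ⟨q, hq, hqg⟩ := hg
  exact ⟨p + q, isMultiHomogeneous_add hp hq, fun x => by simp only [blockEval_add, hpf, hqg]⟩

theorem mul {d e : β → ℕ} {f g : ((c : β) → κ c → R) → R} (hf : IsMHom d f) (hg : IsMHom e g) :
    IsMHom (d + e) (fun x => f x * g x) := by
  obtain ⟨p, hp, hpf⟩ := hf
  obtain ⟨q, hq, hqg⟩ := hg
  exact ⟨p * q, isMultiHomogeneous_mul hp hq, fun x => by simp only [blockEval_mul, hpf, hqg]⟩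

theorem const_mul {d : β → ℕ} {f : ((c : β) → κ c → R) → R} (a : R) (hf : IsMHom d f) :
    IsMHom d (fun x => a * f x) :=
  ((const a).mul hf).degree_congr (zero_add d)

theorem mul_const {d : β → ℕ} {f : ((c : β) → κ c → R) → R} (hf : IsMHom d f) (a : R) :
    IsMHom d (fun x => f x * a) :=
  (hf.mul (const a)).degree_congr (add_zero d)

theorem neg {d : β → ℕ} {f : ((c : β) → κ c → R) → R} (hf : IsMHom d f) :
    IsMHom d (fun x => - f x) :=
  (hf.const_mul (-1)).congr fun x => by ring

theorem sub {d : β → ℕ} {f g : ((c : β) → κ c → R) → R} (hf : IsMHom d f) (hg : IsMHom d g) :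
    IsMHom d (fun x => f x - g x) :=
  (hf.add hg.neg).congr fun x => by ring

theorem sum {ι : Type*} (s : Finset ι) {d : β → ℕ} {f : ι → ((c : β) → κ c → R) → R}
    (hf : ∀ i ∈ s, IsMHom d (f i)) : IsMHom d (fun x => ∑ i ∈ s, f i x) := by
  classical
  induction s using Finset.induction_on with
  | empty => simpa using zero (R := R) (κ := κ) d
  | insert a s ha ih =>
    have h1 := (hf a (Finset.mem_insert_self a s)).add
      (ih fun i hi => hf i (Finset.mem_insert_of_mem hi))
    exact h1.congr fun x => by rw [Finset.sum_insert ha]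

theorem prod {ι : Type*} (s : Finset ι) {d : ι → β → ℕ} {f : ι → ((c : β) → κ c → R) → R}
    (hf : ∀ i ∈ s, IsMHom (d i) (f i)) : IsMHom (∑ i ∈ s, d i) (fun x => ∏ i ∈ s, f i x) := by
  classical
  induction s using Finset.induction_on with
  | empty => simpa using const (R := R) (β := β) (κ := κ) 1
  | insert a s ha ih =>
    have h1 := (hf a (Finset.mem_insert_self a s)).mul
      (ih fun i hi => hf i (Finset.mem_insert_of_mem hi))
    rw [Finset.sum_insert ha]
    exact h1.congr fun x => by rw [Finset.prod_insert ha]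

theorem pow {d : β → ℕ} {f : ((c : β) → κ c → R) → R} (hf : IsMHom d f) (n : ℕ) :
    IsMHom (n • d) (fun x => f x ^ n) := by
  have h := prod (Finset.range n) (d := fun _ => d) (f := fun _ => f) (fun _ _ => hf)
  have hd : (∑ _i ∈ Finset.range n, d) = n • d := by simp
  rw [hd] at h
  exact h.congr fun x => by simp

theorem smul_int {d : β → ℕ} {f : ((c : β) → κ c → R) → R} (hf : IsMHom d f) (n : ℤ) :
    IsMHom d (fun x => n • f x) :=
  (hf.const_mul (n : R)).congr fun x => by rw [zsmul_eq_mul]

/-- Determinant of a matrix whose row `i` consists of forms of multidegree `d i`. -/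
theorem det_rows {n : Type*} [Fintype n] [DecidableEq n] {d : n → β → ℕ}
    {M : n → n → ((c : β) → κ c → R) → R} (hM : ∀ i j, IsMHom (d i) (M i j)) :
    IsMHom (∑ i, d i) (fun x => Matrix.det (Matrix.of fun i j => M i j x)) := by
  classical
  have key : ∀ σ : Equiv.Perm n, IsMHom (∑ i, d i) (fun x => ∏ i, M (σ i) i x) := by
    intro σ
    have h := prod (Finset.univ : Finset n) (d := fun i => d (σ i)) (f := fun i => M (σ i) i)
      (fun i _ => hM (σ i) i)
    have hd : (∑ i, d (σ i)) = ∑ i, d i := Equiv.sum_comp σ d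
    rw [hd] at h
    exact h
  have h2 := sum (Finset.univ : Finset (Equiv.Perm n))
    (f := fun σ x => (Equiv.Perm.sign σ : ℤ) • ∏ i, M (σ i) i x)
    (fun σ _ => (key σ).smul_int _)
  refine h2.congr fun x => ?_
  rw [Matrix.det_apply]
  rfl

/-- Determinant of an `n × n` matrix of forms of multidegree `d`. -/
theorem det {n : Type*} [Fintype n] [DecidableEq n] {d : β → ℕ}
    {M : n → n → ((c : β) → κ c → R) → R} (hM : ∀ i j, IsMHom d (M i j)) :
    IsMHom (Fintype.card n • d) (fun x => Matrix.det (Matrix.of fun i j => M i j x)) := by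
  have h := det_rows (d := fun _ : n => d) hM
  have hd : (∑ _i : n, d) = Fintype.card n • d := by simp
  rw [hd] at h
  exact h

/-- Entries of the adjugate of an `n × n` matrix of forms of multidegree `d`
have multidegree `(card n - 1) • d`. -/
theorem adjugate {n : Type*} [Fintype n] [DecidableEq n] {d : β → ℕ}
    {M : n → n → ((c : β) → κ c → R) → R} (hM : ∀ i j, IsMHom d (M i j)) (a b : n) :
    IsMHom ((Fintype.card n - 1) • d)
      (fun x => Matrix.adjugate (Matrix.of fun i j => M i j x) a b) := by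
  classical
  -- adjugate A a b = det (A.updateRow b (Pi.single a 1))
  let dd : n → β → ℕ := fun i => if i = b then 0 else d
  let M' : n → n → ((c : β) → κ c → R) → R :=
    fun i j => if i = b then (fun _ => (Pi.single a (1 : R) : n → R) j) else M i j
  have hM' : ∀ i j, IsMHom (dd i) (M' i j) := by
    intro i j
    by_cases h : i = b
    · simp only [dd, M', if_pos h]
      exact const _
    · simp only [dd, M', if_neg h]
      exact hM i j
  have h := det_rows hM'
  have hd : (∑ i, dd i) = (Fintype.card n - 1) • d := by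
    simp only [dd]
    rw [Finset.sum_ite, Finset.sum_const_zero, zero_add, Finset.sum_const]
    congr 1
    rw [Finset.filter_not, Finset.card_sdiff_of_subset (Finset.subset_univ _),
      Finset.filter_eq', if_pos (Finset.mem_univ b), Finset.card_singleton, Finset.card_univ]
  rw [hd] at h
  refine h.congr fun x => ?_
  rw [Matrix.adjugate_apply]
  congr 1
  ext i j
  simp only [Matrix.of_apply, Matrix.updateRow_apply, M']
  by_cases h : i = b <;> simp [h]

end IsMHom

end Fun

section Height

local notation "ℚ̄" => AlgebraicClosure ℚ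

variable {β : Type*} [Fintype β] {κ : β → Type*} [∀ c, Fintype (κ c)]
variable {ι' : Type*} [Fintype ι']

/-- Upper bound for multi-homogeneous polynomial maps, function form (HT L4.1). -/
theorem ht_le_of_isMHom {d : β → ℕ} {f : ι' → ((c : β) → κ c → ℚ̄) → ℚ̄}
    (hf : ∀ j, IsMHom d (f j)) :
    ∃ C : ℝ, ∀ x : (c : β) → κ c → ℚ̄,
      ht (fun j => f j x) ≤ ∑ c, (d c : ℝ) * ht (x c) + C := by
  choose p hp hpf using hf
  obtain ⟨C, hC⟩ := ht_blockEval_le d p hp
  refine ⟨C, fun x => ?_⟩
  have : (fun j => f j x) = fun j => blockEval x (p j) := funext fun j => hpf j x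
  rw [this]
  exact hC x

/-- `V` is the zero locus of a set of multi-homogeneous polynomials. -/
def IsMClosed (V : Set ((c : β) → κ c → ℚ̄)) : Prop :=
  ∃ S : Set (MvPolynomial (Σ c, κ c) ℚ̄), (∀ f ∈ S, ∃ e : β → ℕ, IsMultiHomogeneous f e) ∧
    V = {x | ∀ f ∈ S, blockEval x f = 0}

theorem isMClosed_univ : IsMClosed (Set.univ : Set ((c : β) → κ c → ℚ̄)) :=
  ⟨∅, by simp, by simp⟩

theorem IsMClosed.inter {V W : Set ((c : β) → κ c → ℚ̄)} (hV : IsMClosed V) (hW : IsMClosed W) :
    IsMClosed (V ∩ W) := by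
  obtain ⟨S, hS, rfl⟩ := hV
  obtain ⟨T, hT, rfl⟩ := hW
  refine ⟨S ∪ T, ?_, ?_⟩
  · rintro f (hf | hf)
    · exact hS f hf
    · exact hT f hf
  · ext x
    simp only [Set.mem_inter_iff, Set.mem_ofPred_eq, Set.mem_union]
    constructor
    · rintro ⟨h1, h2⟩ f (hf | hf)
      · exact h1 f hf
      · exact h2 f hf
    · intro h
      exact ⟨fun f hf => h f (Or.inl hf), fun f hf => h f (Or.inr hf)⟩

theorem IsMClosed.iInter {ι : Type*} {V : ι → Set ((c : β) → κ c → ℚ̄)}
    (hV : ∀ i, IsMClosed (V i)) : IsMClosed (⋂ i, V i) := by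
  choose S hS hVS using hV
  refine ⟨⋃ i, S i, ?_, ?_⟩
  · intro f hf
    obtain ⟨i, hi⟩ := Set.mem_iUnion.mp hf
    exact hS i f hi
  · ext x
    simp only [Set.mem_iInter, Set.mem_ofPred_eq, Set.mem_iUnion]
    constructor
    · rintro h f ⟨i, hi⟩
      have := h i
      rw [hVS i] at this
      exact this f hi
    · intro h i
      rw [hVS i]
      exact fun f hf => h f ⟨i, hf⟩

/-- The zero set of a multi-homogeneous map is closed. -/
theorem isMClosed_zero_of_isMHom {d : β → ℕ} {f : ((c : β) → κ c → ℚ̄) → ℚ̄}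
    (hf : IsMHom d f) : IsMClosed {x | f x = 0} := by
  obtain ⟨p, hp, hpf⟩ := hf
  refine ⟨{p}, ?_, ?_⟩
  · rintro f rfl; exact ⟨d, hp⟩
  · ext x; simp [hpf x]

/-- `W` is the zero locus of a set of homogeneous polynomials (a closed cone). -/
def IsHClosed {ι : Type*} (W : Set (ι → ℚ̄)) : Prop :=
  ∃ S : Set (MvPolynomial ι ℚ̄), (∀ f ∈ S, ∃ n : ℕ, f.IsHomogeneous n) ∧
    W = {y | ∀ f ∈ S, eval y f = 0}

omit [Fintype β] in
theorem isMultiHomogeneous_rename [DecidableEq β] (c : β) {p : MvPolynomial (κ c) ℚ̄} {n : ℕ}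
    (hp : p.IsHomogeneous n) :
    IsMultiHomogeneous (rename (Sigma.mk c : κ c → Σ c, κ c) p) (Pi.single c n) := by
  classical
  intro m hm c'
  have hinj : Function.Injective (Sigma.mk c : κ c → Σ c, κ c) := sigma_mk_injective
  rw [support_rename_of_injective hinj] at hm
  obtain ⟨m₀, hm₀, rfl⟩ := Finset.mem_image.mp hm
  have hdeg : ∑ i : κ c, m₀ i = n := by
    have := hp (mem_support_iff.mp hm₀)
    rw [Finsupp.weight_apply] at this
    rw [← this, Finsupp.sum_fintype]
    · simp
    · simp
  by_cases hc : c' = c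
  · subst hc
    rw [Pi.single_eq_same, ← hdeg]
    refine Finset.sum_congr rfl fun i _ => ?_
    exact Finsupp.mapDomain_apply hinj m₀ i
  · rw [Pi.single_eq_of_ne hc]
    refine Finset.sum_eq_zero fun i _ => ?_
    rw [Finsupp.mapDomain_of_notMem_range]
    rintro ⟨j, hj⟩
    exact hc (by cases hj; rfl)

omit [Fintype β] in
theorem blockEval_rename (c : β) (p : MvPolynomial (κ c) ℚ̄) (x : (c : β) → κ c → ℚ̄) :
    blockEval x (rename (Sigma.mk c : κ c → Σ c, κ c) p) = eval (x c) p := by
  unfold blockEval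
  rw [eval_rename]
  rfl

/-- Block-wise cone condition. -/
theorem isMClosed_block (c : β) {W : Set (κ c → ℚ̄)} (hW : IsHClosed W) :
    IsMClosed {x : (c : β) → κ c → ℚ̄ | x c ∈ W} := by
  classical
  obtain ⟨S, hS, rfl⟩ := hW
  refine ⟨(rename (Sigma.mk c : κ c → Σ c, κ c)) '' S, ?_, ?_⟩
  · rintro f ⟨p, hp, rfl⟩
    obtain ⟨n, hn⟩ := hS p hp
    exact ⟨_, isMultiHomogeneous_rename c hn⟩
  · ext x
    simp only [Set.mem_ofPred_eq, Set.mem_image, forall_exists_index, and_imp,
      forall_apply_eq_imp_iff₂, blockEval_rename]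

/-- Product of cones. -/
theorem isMClosed_pi {W : (c : β) → Set (κ c → ℚ̄)} (hW : ∀ c, IsHClosed (W c)) :
    IsMClosed {x : (c : β) → κ c → ℚ̄ | ∀ c, x c ∈ W c} := by
  have h := IsMClosed.iInter (fun c => isMClosed_block c (hW c))
  have : {x : (c : β) → κ c → ℚ̄ | ∀ c, x c ∈ W c} = ⋂ c, {x : (c : β) → κ c → ℚ̄ | x c ∈ W c} := by
    ext x; simp
  rw [this]
  exact h

/-- Lower bound on a closed multi-cone, function form (HT L4.3). -/
theorem ht_ge_of_isMHom_of_zeroLocus {V : Set ((c : β) → κ c → ℚ̄)} (hV : IsMClosed V)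
    {d : β → ℕ} {f : ι' → ((c : β) → κ c → ℚ̄) → ℚ̄} (hf : ∀ j, IsMHom d (f j))
    (h0 : ∀ x ∈ V, (∀ j, f j x = 0) → ∃ c, x c = 0) :
    ∃ C : ℝ, ∀ x ∈ V, (∀ c, x c ≠ 0) →
      ∑ c, (d c : ℝ) * ht (x c) ≤ ht (fun j => f j x) + C := by
  obtain ⟨S, hS, rfl⟩ := hV
  choose p hp hpf using hf
  obtain ⟨C, hC⟩ := ht_blockEval_ge_of_zeroLocus S hS d p hp (by
    intro x hx hpx
    exact h0 x hx (fun j => (hpf j x).trans (hpx j)))
  refine ⟨C, fun x hx hne => ?_⟩
  have : (fun j => f j x) = fun j => blockEval x (p j) := funext fun j => hpf j x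
  rw [this]
  exact hC x hx hne

/-- Lower bound on the whole multi-projective space (no zeros at all). -/
theorem ht_ge_of_isMHom {d : β → ℕ} {f : ι' → ((c : β) → κ c → ℚ̄) → ℚ̄}
    (hf : ∀ j, IsMHom d (f j))
    (h0 : ∀ x, (∀ j, f j x = 0) → ∃ c, x c = 0) :
    ∃ C : ℝ, ∀ x : (c : β) → κ c → ℚ̄, (∀ c, x c ≠ 0) →
      ∑ c, (d c : ℝ) * ht (x c) ≤ ht (fun j => f j x) + C := by
  obtain ⟨C, hC⟩ := ht_ge_of_isMHom_of_zeroLocus isMClosed_univ hf (fun x _ => h0 x)
  exact ⟨C, fun x hne => hC x (Set.mem_univ x) hne⟩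

end Height

end Fermat.Agent.S17.PLK.H7236
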