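import Mathlib
import Fermat.Agent.S17.PLK.MHom7236

set_option autoImplicit false
set_option linter.unusedSectionVars false

/-!
# S17 / PLK — multi-homogeneous maps with values in a space of sections (helper7236)

`IsMHomSec d W s` : the map `s : (blocks) → F` is a finite combination `s y = ∑ i, c i y • w i` of
FIXED elements `w i` of the `K`-subspace `W ⊆ F` with coefficient functions `c i` that are
multi-homogeneous of multidegree `d` (`IsMHom d (c i)`, file `MHom7236.lean`).

Closure: constants (`const`), `0`, sums, coefficient multiples (`smul`), products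
(`mul`: values in `W * W'`, degrees add), finite products (`prod`), monotonicity in `W` (`mono`).
Evaluation: if `ev : F → K` is `K`-linear ON `W`, then `y ↦ ev (s y)` is `IsMHom d` (`apply`).
Typical use (PLK route): `W = L(A)`, `ev = coords S N · l` or `secVal A Q`, and
`s y = ∏ i, bsec S (y i) (c i) * psi ..` (the generating sections `sgen`).
Mathlib + `MHom7236` only; no sorry.
-/

namespace Fermat.Agent.S17.PLK.H7236

open Fermat.Agent.S17.HT

variable {K F : Type*} [Field K] [CommRing F] [Algebra K F]
variable {β : Type*} {κ : β → Type*} [∀ c, Fintype (κ c)]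

/-- `s` is a combination of fixed elements of `W` with multi-homogeneous coefficients of
multidegree `d`. -/
def IsMHomSec (d : β → ℕ) (W : Submodule K F) (s : ((c : β) → κ c → K) → F) : Prop :=
  ∃ (n : ℕ) (w : Fin n → F) (c : Fin n → ((c : β) → κ c → K) → K),
    (∀ i, w i ∈ W) ∧ (∀ i, IsMHom d (c i)) ∧ ∀ y, s y = ∑ i, c i y • w i

namespace IsMHomSec

theorem mem {d : β → ℕ} {W : Submodule K F} {s : ((c : β) → κ c → K) → F}
    (hs : IsMHomSec d W s) (y : (c : β) → κ c → K) : s y ∈ W := by
  obtain ⟨n, w, c, hw, -, hs⟩ := hs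
  rw [hs y]
  exact W.sum_mem fun i _ => W.smul_mem _ (hw i)

theorem congr {d : β → ℕ} {W : Submodule K F} {s s' : ((c : β) → κ c → K) → F}
    (hs : IsMHomSec d W s) (h : ∀ y, s' y = s y) : IsMHomSec d W s' := by
  obtain ⟨n, w, c, hw, hc, hs⟩ := hs
  exact ⟨n, w, c, hw, hc, fun y => (h y).trans (hs y)⟩

theorem degree_congr {d e : β → ℕ} {W : Submodule K F} {s : ((c : β) → κ c → K) → F}
    (hs : IsMHomSec d W s) (h : d = e) : IsMHomSec e W s := h ▸ hs

theorem mono {d : β → ℕ} {W W' : Submodule K F} {s : ((c : β) → κ c → K) → F}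
    (hs : IsMHomSec d W s) (h : W ≤ W') : IsMHomSec d W' s := by
  obtain ⟨n, w, c, hw, hc, hs⟩ := hs
  exact ⟨n, w, c, fun i => h (hw i), hc, hs⟩

theorem zero (d : β → ℕ) (W : Submodule K F) :
    IsMHomSec d W (fun _ : (c : β) → κ c → K => (0 : F)) :=
  ⟨0, Fin.elim0, Fin.elim0, fun i => i.elim0, fun i => i.elim0, fun y => by simp⟩

theorem const {W : Submodule K F} {w : F} (hw : w ∈ W) :
    IsMHomSec (0 : β → ℕ) W (fun _ : (c : β) → κ c → K => w) :=
  ⟨1, fun _ => w, fun _ _ => 1, fun _ => hw, fun _ => IsMHom.const 1, fun y => by simp⟩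

theorem add {d : β → ℕ} {W : Submodule K F} {s s' : ((c : β) → κ c → K) → F}
    (hs : IsMHomSec d W s) (hs' : IsMHomSec d W s') : IsMHomSec d W (fun y => s y + s' y) := by
  obtain ⟨n, w, c, hw, hc, hs⟩ := hs
  obtain ⟨n', w', c', hw', hc', hs'⟩ := hs'
  refine ⟨n + n', Fin.append w w', Fin.append c c', ?_, ?_, ?_⟩
  · intro i
    refine Fin.addCases (fun j => ?_) (fun j => ?_) i
    · rw [Fin.append_left]; exact hw j
    · rw [Fin.append_right]; exact hw' j
  · intro i
    refine Fin.addCases (fun j => ?_) (fun j => ?_) i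
    · rw [Fin.append_left]; exact hc j
    · rw [Fin.append_right]; exact hc' j
  · intro y
    show s y + s' y = _
    rw [hs y, hs' y, Fin.sum_univ_add]
    simp only [Fin.append_left, Fin.append_right]

theorem smul {d e : β → ℕ} {W : Submodule K F} {s : ((c : β) → κ c → K) → F}
    {a : ((c : β) → κ c → K) → K} (ha : IsMHom d a) (hs : IsMHomSec e W s) :
    IsMHomSec (d + e) W (fun y => a y • s y) := by
  obtain ⟨n, w, c, hw, hc, hs⟩ := hs
  refine ⟨n, w, fun i y => a y * c i y, hw, fun i => ha.mul (hc i), fun y => ?_⟩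
  show a y • s y = ∑ i, (a y * c i y) • w i
  rw [hs y, Finset.smul_sum]
  exact Finset.sum_congr rfl fun i _ => by rw [smul_smul]

theorem neg {d : β → ℕ} {W : Submodule K F} {s : ((c : β) → κ c → K) → F}
    (hs : IsMHomSec d W s) : IsMHomSec d W (fun y => - s y) := by
  have h := smul (IsMHom.const (β := β) (κ := κ) (-1 : K)) hs
  rw [zero_add] at h
  exact h.congr fun y => by simp

theorem sub {d : β → ℕ} {W : Submodule K F} {s s' : ((c : β) → κ c → K) → F}
    (hs : IsMHomSec d W s) (hs' : IsMHomSec d W s') : IsMHomSec d W (fun y => s y - s' y) :=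
  (hs.add hs'.neg).congr fun y => by ring

theorem sum {ι : Type*} (t : Finset ι) {d : β → ℕ} {W : Submodule K F}
    {s : ι → ((c : β) → κ c → K) → F} (hs : ∀ i ∈ t, IsMHomSec d W (s i)) :
    IsMHomSec d W (fun y => ∑ i ∈ t, s i y) := by
  classical
  induction t using Finset.induction_on with
  | empty => simpa using zero (K := K) (κ := κ) d W
  | insert a t ha ih =>
    have h1 := (hs a (Finset.mem_insert_self a t)).add
      (ih fun i hi => hs i (Finset.mem_insert_of_mem hi))
    exact h1.congr fun y => by rw [Finset.sum_insert ha]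

theorem mul {d e : β → ℕ} {W W' : Submodule K F} {s s' : ((c : β) → κ c → K) → F}
    (hs : IsMHomSec d W s) (hs' : IsMHomSec e W' s') :
    IsMHomSec (d + e) (W * W') (fun y => s y * s' y) := by
  obtain ⟨n, w, c, hw, hc, hs⟩ := hs
  obtain ⟨n', w', c', hw', hc', hs'⟩ := hs'
  have key : ∀ i : Fin n, ∀ j : Fin n',
      IsMHomSec (d + e) (W * W') (fun y => (c i y * c' j y) • (w i * w' j)) := by
    intro i j
    have h1 := const (β := β) (κ := κ) (Submodule.mul_mem_mul (hw i) (hw' j))
    have h2 := smul ((hc i).mul (hc' j)) h1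
    rw [add_zero] at h2
    exact h2
  have h3 := sum (Finset.univ : Finset (Fin n))
    (s := fun i y => ∑ j : Fin n', (c i y * c' j y) • (w i * w' j))
    (fun i _ => sum (Finset.univ : Finset (Fin n')) (fun j _ => key i j))
  refine h3.congr fun y => ?_
  show s y * s' y = _
  rw [hs y, hs' y, Finset.sum_mul_sum]
  refine Finset.sum_congr rfl fun i _ => Finset.sum_congr rfl fun j _ => ?_
  rw [smul_mul_smul_comm]

/-- Finite products: factor `i` has values in `W i` and multidegree `d i`; the product has
values in any `W'` containing the products of elements of the `W i`. -/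
theorem prod {ι : Type*} (t : Finset ι) {d : ι → β → ℕ} {W : ι → Submodule K F}
    {s : ι → ((c : β) → κ c → K) → F} (hs : ∀ i ∈ t, IsMHomSec (d i) (W i) (s i)) :
    IsMHomSec (∑ i ∈ t, d i) (∏ i ∈ t, W i) (fun y => ∏ i ∈ t, s i y) := by
  classical
  induction t using Finset.induction_on with
  | empty =>
    simp only [Finset.sum_empty, Finset.prod_empty]
    exact const (Submodule.one_le.mp le_rfl)
  | insert a t ha ih =>
    have h1 := (hs a (Finset.mem_insert_self a t)).mul
      (ih fun i hi => hs i (Finset.mem_insert_of_mem hi))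
    rw [Finset.sum_insert ha, Finset.prod_insert ha]
    exact h1.congr fun y => by rw [Finset.prod_insert ha]

/-- Evaluation by a functional that is `K`-linear on `W`. -/
theorem apply {d : β → ℕ} {W : Submodule K F} {s : ((c : β) → κ c → K) → F}
    (hs : IsMHomSec d W s) (ev : F → K)
    (hadd : ∀ a ∈ W, ∀ b ∈ W, ev (a + b) = ev a + ev b)
    (hsmul : ∀ (c : K), ∀ a ∈ W, ev (c • a) = c * ev a) :
    IsMHom d (fun y => ev (s y)) := by
  classical
  obtain ⟨n, w, c, hw, hc, hs⟩ := hs
  have h0 : ev 0 = 0 := by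
    have := hsmul 0 0 W.zero_mem
    simpa using this
  have hsum : ∀ (t : Finset (Fin n)) (y : (c : β) → κ c → K),
      ev (∑ i ∈ t, c i y • w i) = ∑ i ∈ t, c i y * ev (w i) := by
    intro t y
    induction t using Finset.induction_on with
    | empty => simpa using h0
    | insert a t ha ih =>
      rw [Finset.sum_insert ha, Finset.sum_insert ha,
        hadd _ (W.smul_mem _ (hw a)) _ (W.sum_mem fun i _ => W.smul_mem _ (hw i)), ih,
        hsmul _ _ (hw a)]
  have h := IsMHom.sum (Finset.univ : Finset (Fin n)) (f := fun i y => c i y * ev (w i))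
    (fun i _ => (hc i).mul_const (ev (w i)))
  exact h.congr fun y => by rw [hs y, hsum]

end IsMHomSec

end Fermat.Agent.S17.PLK.H7236
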