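import Fermat.Agent.S17.PLK.Defs
import Fermat.Agent.S17.PLK.MHomSec7236

set_option autoImplicit false
set_option linter.unusedSectionVars false

/-!
# S17 / PLK leaf HG2 `cert_minors` (helper7236)

`cert_minors_of` = the frozen statement `PLK.cert_minors` of `PLK/Skel.lean` v0, with the three
EARLIER leaves it uses as explicit hypotheses:
  `hspan` = CG2 `span_sgen`, `hcone` = CG3 `cone_closed`, `hne` = CG1 `xphi_ne_zero`
(so this file imports only `PLK/Defs.lean` — no import cycle with the skeleton).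
`HG2Wire7236.lean` states the verbatim leaf from the skeleton statements.

Proof: the minors are multi-homogeneous of multidegree `(r, …, r)` in the blocks `y_i`
(`IsMHom` calculus of `MHom7236.lean` / `MHomSec7236.lean`); the product of cones is an
`IsMClosed` set; the minors have no common zero on it with all blocks nonzero (CG3: every
block is a multiple of some `xphi S P_i`; CG2 + Riemann: the `sgen` span a space of dimension
`r = dim S N − k`, so some `r`-minor is nonzero); conclude with HT L4.3 in the function form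
`ht_ge_of_isMHom_of_zeroLocus`.
Also exported (reusable for HG3/HG4/HG6): `coords_add`, `coords_smul`, `coords_eq_equivFun`,
`V_mul_le`, `phi_mem_V`, `psi_mem_V`, `isMHomSec_bsec`, `isMHomSec_sgen`, `isMHom_coords_sgen`,
`xphi_mem_cone` (the point vectors lie on the cone), `eval_evalAt_eq` (evaluation commutes with
polynomial expressions of regular functions), `exists_minor_ne_zero`, `ell_lvl_sub_pts`.
-/

noncomputable section

open AlgebraicCurve ModularCurve MvPolynomial

namespace Fermat.Agent.S17.PLK.H7236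

open Fermat.Agent.S17.FND Fermat.Agent.S17.H Fermat.Agent.S17.HT Fermat.Agent.S17.PLK

/-! ### Linear algebra: a nonzero maximal minor of an independent family -/

theorem exists_minor_ne_zero {K : Type*} [Field K] {r d : ℕ} (v : Fin r → Fin d → K)
    (hv : LinearIndependent K v) :
    ∃ R : Fin r → Fin d, Matrix.det (Matrix.of fun i j => v j (R i)) ≠ 0 := by
  classical
  let A : Matrix (Fin r) (Fin d) K := Matrix.of v
  have hrank : A.rank = r := by
    have h := LinearIndependent.rank_matrix (M := A) hv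
    simpa using h
  have hcol : Submodule.span K (Set.range A.col) = ⊤ := by
    apply Submodule.eq_top_of_finrank_eq
    rw [← Matrix.rank_eq_finrank_span_cols, hrank]
    simp
  obtain ⟨κ, a, -, hspan, hli⟩ := exists_linearIndependent' K A.col
  haveI : Finite κ := hli.finite
  haveI : Fintype κ := Fintype.ofFinite κ
  have hcard : Fintype.card κ = r := by
    have h1 := finrank_span_eq_card hli
    rw [hspan, hcol] at h1
    simpa using h1.symm
  let e : Fin r ≃ κ := (Fintype.equivFinOfCardEq hcard).symm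
  refine ⟨fun i => a (e i), ?_⟩
  have hli' : LinearIndependent K (fun i : Fin r => A.col (a (e i))) :=
    hli.comp e e.injective
  have hunit : IsUnit (Matrix.of fun i j => v j (a (e i)) : Matrix (Fin r) (Fin r) K) := by
    rw [← Matrix.linearIndependent_rows_iff_isUnit]
    exact hli'
  exact ((Matrix.isUnit_iff_isUnit_det _).mp hunit).ne_zero

variable {F₀ : IntermediateField ℚ (LaurentSeries ℚ)}
  [IsCurveOver Qbar (FB F₀)] [Algebra.EssFiniteType Qbar (FB F₀)]

/-! ### `coords` is linear on `V_n` -/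

theorem coords_eq_equivFun (S : Setup F₀) (n : ℕ) {s : FB F₀} (hs : s ∈ V S n) :
    coords S n s = (lvlBasis S n).equivFun ⟨s, hs⟩ := by
  unfold coords
  rw [dif_pos hs]
  rfl

theorem coords_add (S : Setup F₀) (n : ℕ) {s s' : FB F₀} (hs : s ∈ V S n) (hs' : s' ∈ V S n) :
    coords S n (s + s') = coords S n s + coords S n s' := by
  rw [coords_eq_equivFun S n hs, coords_eq_equivFun S n hs',
    coords_eq_equivFun S n ((V S n).add_mem hs hs'), ← map_add]
  rfl

theorem coords_smul (S : Setup F₀) (n : ℕ) (c : Qbar) {s : FB F₀} (hs : s ∈ V S n) :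
    coords S n (c • s) = c • coords S n s := by
  rw [coords_eq_equivFun S n hs, coords_eq_equivFun S n ((V S n).smul_mem c hs), ← map_smul]
  rfl

/-! ### Levels -/

theorem lvlDiv_add (S : Setup F₀) (a b : ℕ) : lvlDiv S a + lvlDiv S b = lvlDiv S (a + b) := by
  unfold lvlDiv
  rw [← add_smul, Nat.cast_add]

theorem V_mul_le (S : Setup F₀) (a b : ℕ) : V S a * V S b ≤ V S (a + b) := by
  rw [Submodule.mul_le]
  intro x hx y hy
  have h := mul_mem_RR hx hy
  rw [lvlDiv_add] at h
  exact h

theorem V_pow_le (S : Setup F₀) (a k : ℕ) : V S a ^ k ≤ V S (k * a) := by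
  induction k with
  | zero =>
    rw [pow_zero, zero_mul, Submodule.one_le]
    have h1 : (1 : FB F₀) ∈ riemannRochSpace (0 : Divisor Qbar (FB F₀)) := by
      rw [mem_riemannRochSpace_iff]
      intro v
      right
      simp
    have h2 : lvlDiv S 0 = 0 := by simp [lvlDiv]
    show (1 : FB F₀) ∈ riemannRochSpace (lvlDiv S 0)
    rw [h2]
    exact h1
  | succ k ih =>
    rw [pow_succ, Nat.succ_mul]
    refine le_trans ?_ (V_mul_le S (k * a) a)
    exact Submodule.mul_le.mpr fun x hx y hy => Submodule.mul_mem_mul (ih hx) hy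

theorem phi_mem_V (S : Setup F₀) (j : Fin (S.r + 1)) : S.φ j ∈ V S S.m := by
  have h := S.basis.2
  show S.φ j ∈ riemannRochSpace ((S.m : ℤ) • pt S.P₀)
  rw [← h]
  exact Submodule.subset_span (Set.mem_range_self j)

theorem psi_mem_V (S : Setup F₀) (n : ℕ) (j : Fin (dim S n)) : psi S n j ∈ V S n :=
  (lvlBasis S n j).2

/-! ### The generating sections are multilinear in the point vectors -/

theorem isMHomSec_bsec (S : Setup F₀) {k : ℕ} (i : Fin k)
    (c : Fin (S.r + 1) × Fin (S.r + 1)) :
    IsMHomSec (β := Fin k) (κ := fun _ => Fin (S.r + 1)) (Pi.single i 1) (V S S.m)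
      (fun Y => bsec S (Y i) c) := by
  have h1 := IsMHomSec.smul (IsMHom.coord (R := Qbar) (β := Fin k) (κ := fun _ => Fin (S.r + 1)) i c.1)
    (IsMHomSec.const (β := Fin k) (κ := fun _ => Fin (S.r + 1)) (phi_mem_V S c.2))
  have h2 := IsMHomSec.smul (IsMHom.coord (R := Qbar) (β := Fin k) (κ := fun _ => Fin (S.r + 1)) i c.2)
    (IsMHomSec.const (β := Fin k) (κ := fun _ => Fin (S.r + 1)) (phi_mem_V S c.1))
  rw [add_zero] at h1 h2
  refine (h1.sub h2).congr fun Y => ?_
  simp only [bsec, Algebra.smul_def]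

theorem isMHomSec_sgen (S : Setup F₀) (k N : ℕ) (hN : k * S.m ≤ N)
    (b : (Fin k → Fin (S.r + 1) × Fin (S.r + 1)) × Fin (dim S (N - k * S.m))) :
    IsMHomSec (β := Fin k) (κ := fun _ => Fin (S.r + 1)) (fun _ => 1) (V S N)
      (fun Y => sgen S k N Y b) := by
  classical
  have h1 := IsMHomSec.prod (K := Qbar) (F := FB F₀) (β := Fin k) (κ := fun _ => Fin (S.r + 1))
    (Finset.univ : Finset (Fin k)) (d := fun i => Pi.single i 1) (W := fun _ => V S S.m)
    (s := fun i Y => bsec S (Y i) (b.1 i)) (fun i _ => isMHomSec_bsec S i (b.1 i))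
  have h2 := h1.mul (IsMHomSec.const (β := Fin k) (κ := fun _ => Fin (S.r + 1))
    (psi_mem_V S (N - k * S.m) b.2))
  have hd : (∑ i : Fin k, (Pi.single i 1 : Fin k → ℕ)) + 0 = fun _ => 1 := by
    rw [add_zero]
    exact Finset.univ_sum_single (fun _ : Fin k => (1 : ℕ))
  rw [hd] at h2
  have hW : (∏ _i : Fin k, V S S.m) * V S (N - k * S.m) ≤ V S N := by
    rw [Finset.prod_const, Finset.card_univ, Fintype.card_fin]
    have h := V_mul_le S (k * S.m) (N - k * S.m)
    rw [Nat.add_sub_cancel' hN] at h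
    refine le_trans ?_ h
    exact Submodule.mul_le.mpr fun x hx y hy => Submodule.mul_mem_mul (V_pow_le S S.m k hx) hy
  exact (h2.mono hW).congr fun Y => rfl

theorem sgen_mem_V (S : Setup F₀) (k N : ℕ) (hN : k * S.m ≤ N)
    (Y : Fin k → Fin (S.r + 1) → Qbar)
    (b : (Fin k → Fin (S.r + 1) × Fin (S.r + 1)) × Fin (dim S (N - k * S.m))) :
    sgen S k N Y b ∈ V S N :=
  (isMHomSec_sgen S k N hN b).mem Y

theorem isMHom_coords_sgen (S : Setup F₀) (k N : ℕ) (hN : k * S.m ≤ N)
    (b : (Fin k → Fin (S.r + 1) × Fin (S.r + 1)) × Fin (dim S (N - k * S.m)))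
    (l : Fin (dim S N)) :
    IsMHom (β := Fin k) (κ := fun _ => Fin (S.r + 1)) (fun _ => 1)
      (fun Y => coords S N (sgen S k N Y b) l) :=
  (isMHomSec_sgen S k N hN b).apply (fun s => coords S N s l)
    (fun a ha b hb => by rw [coords_add S N ha hb]; rfl)
    (fun c a ha => by rw [coords_smul S N c ha]; rfl)

/-- Scaling the point vectors scales the generating sections. -/
theorem sgen_smul (S : Setup F₀) (k N : ℕ) (c : Fin k → Qbar)
    (Y : Fin k → Fin (S.r + 1) → Qbar)
    (b : (Fin k → Fin (S.r + 1) × Fin (S.r + 1)) × Fin (dim S (N - k * S.m))) :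
    sgen S k N (fun i => c i • Y i) b = (∏ i, c i) • sgen S k N Y b := by
  unfold sgen
  have h : ∀ i, bsec S (c i • Y i) (b.1 i) = c i • bsec S (Y i) (b.1 i) := by
    intro i
    simp only [bsec, Pi.smul_apply, smul_eq_mul, map_mul, Algebra.smul_def]
    ring
  simp only [h]
  rw [Finset.prod_smul, smul_mul_assoc]

/-! ### Evaluation commutes with polynomial expressions; the point vectors lie on the cone -/

theorem eval_evalAt_eq {ι : Type*} (Q : Place Qbar (FB F₀)) (u : ι → FB F₀)
    (hu : ∀ j, u j ∈ Q.toValuationSubring) (G : MvPolynomial ι Qbar) :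
    aeval u G ∈ Q.toValuationSubring ∧
      eval (fun j => evalAt Q (u j)) G = evalAt Q (aeval u G) := by
  induction G using MvPolynomial.induction_on with
  | C a =>
    refine ⟨?_, ?_⟩
    · rw [aeval_C]; exact Q.algebraMap_mem' a
    · rw [aeval_C, eval_C, evalAt_algebraMap]
  | add p q hp hq =>
    refine ⟨?_, ?_⟩
    · rw [map_add]; exact Q.toValuationSubring.add_mem _ _ hp.1 hq.1
    · rw [map_add, map_add, evalAt_add Q hp.1 hq.1, hp.2, hq.2]
  | mul_X p j hp =>
    refine ⟨?_, ?_⟩
    · rw [map_mul, aeval_X]; exact Q.toValuationSubring.mul_mem _ _ hp.1 (hu j)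
    · rw [map_mul, map_mul, aeval_X, eval_X, evalAt_mul Q hp.1 (hu j), hp.2]

theorem aeval_mul_right_of_isHomogeneous {ι : Type*} [Fintype ι] {A : Type*} [CommRing A]
    [Algebra Qbar A] (u : ι → A) (τ : A) {G : MvPolynomial ι Qbar} {n : ℕ}
    (hG : G.IsHomogeneous n) :
    aeval (fun j => u j * τ) G = τ ^ n * aeval u G := by
  rw [aeval_def, aeval_def, eval₂_eq', eval₂_eq', Finset.mul_sum]
  refine Finset.sum_congr rfl fun d hd => ?_
  have hdeg : ∑ i, d i = n := by
    have := hG (mem_support_iff.mp hd)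
    rw [Finsupp.weight_apply] at this
    rw [← this, Finsupp.sum_fintype]
    · simp
    · simp
  have : ∏ i, (u i * τ) ^ d i = (∏ i, u i ^ d i) * τ ^ n := by
    simp only [mul_pow]
    rw [Finset.prod_mul_distrib, Finset.prod_pow_eq_pow_sum, hdeg]
  rw [this]
  ring

theorem unif_ord (Q : Place Qbar (FB F₀)) : Q.ord (unif Q) = 1 := by
  unfold unif
  have h : ∃ t : FB F₀, Q.ord t = 1 := exists_uniformizer Q
  rw [dif_pos h]
  exact h.choose_spec

theorem unif_ne_zero (Q : Place Qbar (FB F₀)) : unif Q ≠ 0 := by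
  intro h
  have := unif_ord Q
  rw [h, Place.ord_zero] at this
  exact zero_ne_one this

/-- A section of `O(A)` times `t_Q ^ A(Q)` is regular at `Q`. -/
theorem mul_unif_mem (A : Divisor Qbar (FB F₀)) (Q : Place Qbar (FB F₀)) {s : FB F₀}
    (hs : s ∈ riemannRochSpace A) : s * unif Q ^ (A Q) ∈ Q.toValuationSubring := by
  rcases eq_or_ne s 0 with rfl | hs0
  · rw [zero_mul]; exact Q.toValuationSubring.zero_mem
  · rw [mem_valuationSubring_iff, Place.ord_mul Q hs0 (zpow_ne_zero _ (unif_ne_zero Q)),
      Place.ord_zpow, unif_ord, mul_one]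
    rcases (mem_riemannRochSpace_iff.mp hs) Q with h | h
    · exact absurd h hs0
    · linarith

/-- The point vectors `xphi S Q` kill every homogeneous relation between the `φ_j`. -/
theorem xphi_mem_cone (S : Setup F₀) (Q : Place Qbar (FB F₀))
    (G : MvPolynomial (Fin (S.r + 1)) Qbar) (hG : ∃ n, G.IsHomogeneous n)
    (h0 : aeval S.φ G = 0) : eval (xphi S Q) G = 0 := by
  obtain ⟨n, hn⟩ := hG
  set τ : FB F₀ := unif Q ^ ((lvlDiv S S.m) Q) with hτ
  have hu : ∀ j, S.φ j * τ ∈ Q.toValuationSubring := fun j => mul_unif_mem _ Q (phi_mem_V S j)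
  have h1 := (eval_evalAt_eq Q (fun j => S.φ j * τ) hu G).2
  have h2 : xphi S Q = fun j => evalAt Q (S.φ j * τ) := rfl
  rw [h2, h1, aeval_mul_right_of_isHomogeneous S.φ τ hn, h0, mul_zero]
  have := evalAt_algebraMap Q (0 : Qbar)
  simpa using this

/-! ### Dimension count -/

theorem degree_lvlDiv (S : Setup F₀) (n : ℕ) : Divisor.degree (lvlDiv S n) = n := by
  unfold lvlDiv
  rw [map_zsmul, degree_pt]
  simp

theorem dim_eq (S : Setup F₀) {N : ℕ} (hN : 2 * genusFF Qbar (FB F₀) ≤ N + 1) :
    (dim S N : ℤ) = N + 1 - genusFF Qbar (FB F₀) := by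
  unfold dim
  rw [ell_eq_of_degree_gt (by rw [degree_lvlDiv]; omega), degree_lvlDiv]

theorem ell_lvl_sub_pts (S : Setup F₀) {k N : ℕ}
    (hN : 2 * genusFF Qbar (FB F₀) + k ≤ N + 1) (P : Fin k → Place Qbar (FB F₀)) :
    ell (lvlDiv S N - ∑ i, pt (P i)) = dim S N - k := by
  have hdeg : Divisor.degree (lvlDiv S N - ∑ i, pt (P i)) = (N : ℤ) - k := by
    rw [map_sub, degree_lvlDiv, map_sum]
    simp only [degree_pt, Finset.sum_const, Finset.card_univ, Fintype.card_fin, nsmul_eq_mul,
      mul_one]
  have h1 := ell_eq_of_degree_gt (D := lvlDiv S N - ∑ i, pt (P i)) (by rw [hdeg]; omega)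
  have h2 := dim_eq S (N := N) (by omega)
  rw [hdeg] at h1
  omega

/-! ### The leaf -/

/-- The cone over the embedded curve (as a set of vectors). -/
def cone (S : Setup F₀) : Set (Fin (S.r + 1) → Qbar) :=
  {y | ∀ G : MvPolynomial (Fin (S.r + 1)) Qbar, (∃ n, G.IsHomogeneous n) →
    aeval S.φ G = 0 → eval y G = 0}

theorem isHClosed_cone (S : Setup F₀) : IsHClosed (cone S) := by
  refine ⟨{G | (∃ n, G.IsHomogeneous n) ∧ aeval S.φ G = 0}, fun f hf => hf.1, ?_⟩
  ext y
  simp only [cone, Set.mem_ofPred_eq, and_imp]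

/-- HG2 with the earlier leaves as hypotheses. -/
theorem cert_minors_of (S : Setup F₀) (k N : ℕ)
    (hN : (k + 1) * S.m + 2 * genusFF Qbar (FB F₀) ≤ N)
    (hspan : ∀ P : Fin k → Place Qbar (FB F₀),
      Submodule.span Qbar (Set.range (sgen S k N fun i => xphi S (P i))) =
        riemannRochSpace (lvlDiv S N - ∑ i, pt (P i)))
    (hcone : ∀ y : Fin (S.r + 1) → Qbar, y ≠ 0 →
      (∀ G : MvPolynomial (Fin (S.r + 1)) Qbar, (∃ n, G.IsHomogeneous n) →
        aeval S.φ G = 0 → eval y G = 0) →
      ∃ (P : Place Qbar (FB F₀)) (c : Qbar), c ≠ 0 ∧ y = c • xphi S P)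
    (hne : ∀ Q : Place Qbar (FB F₀), xphi S Q ≠ 0) :
    ∃ C : ℝ, ∀ P : Fin k → Place Qbar (FB F₀),
      ((dim S N - k : ℕ) : ℝ) * ∑ i, ht (xphi S (P i)) ≤
        ht (fun α : (Fin (dim S N - k) → Fin (dim S N)) ×
            (Fin (dim S N - k) →
              (Fin k → Fin (S.r + 1) × Fin (S.r + 1)) × Fin (dim S (N - k * S.m))) =>
          Matrix.det (Matrix.of fun i j =>
            coords S N (sgen S k N (fun i => xphi S (P i)) (α.2 j)) (α.1 i))) + C := by
  classical
  have hm : 2 * genusFF Qbar (FB F₀) + 1 ≤ S.m := S.hm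
  have hkm : k * S.m ≤ N := by nlinarith
  have hkN : 2 * genusFF Qbar (FB F₀) + k ≤ N + 1 := by nlinarith
  set r := dim S N - k with hr
  -- the minors as multi-homogeneous maps
  let f : (Fin r → Fin (dim S N)) ×
      (Fin r → (Fin k → Fin (S.r + 1) × Fin (S.r + 1)) × Fin (dim S (N - k * S.m))) →
      (Fin k → Fin (S.r + 1) → Qbar) → Qbar :=
    fun α Y => Matrix.det (Matrix.of fun i j => coords S N (sgen S k N Y (α.2 j)) (α.1 i))
  have hf : ∀ α, IsMHom (β := Fin k) (κ := fun _ => Fin (S.r + 1)) (fun _ => r) (f α) := by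
    intro α
    have h := IsMHom.det (R := Qbar) (β := Fin k) (κ := fun _ => Fin (S.r + 1)) (n := Fin r)
      (d := fun _ => 1)
      (M := fun i j Y => coords S N (sgen S k N Y (α.2 j)) (α.1 i))
      (fun i j => isMHom_coords_sgen S k N hkm (α.2 j) (α.1 i))
    have hd : (Fintype.card (Fin r) • fun _ : Fin k => 1) = fun _ : Fin k => r := by
      funext c; simp
    rw [hd] at h
    exact h
  have hV : IsMClosed (β := Fin k) (κ := fun _ => Fin (S.r + 1))
      {Y : Fin k → Fin (S.r + 1) → Qbar | ∀ i, Y i ∈ cone S} :=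
    isMClosed_pi (β := Fin k) (κ := fun _ => Fin (S.r + 1)) (fun _ => isHClosed_cone S)
  have h0 : ∀ Y ∈ {Y : Fin k → Fin (S.r + 1) → Qbar | ∀ i, Y i ∈ cone S},
      (∀ α, f α Y = 0) → ∃ i, Y i = 0 := by
    intro Y hY hzero
    by_contra hcon
    push Not at hcon
    have hex : ∀ i, ∃ (P : Place Qbar (FB F₀)) (c : Qbar), c ≠ 0 ∧ Y i = c • xphi S P :=
      fun i => hcone (Y i) (hcon i) (hY i)
    choose P c hc hYP using hex
    have hYeq : Y = fun i => c i • xphi S (P i) := funext hYP
    -- independent generators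
    have hfin : Module.Finite Qbar (riemannRochSpace (lvlDiv S N - ∑ i, pt (P i))) := finite_RR _
    obtain ⟨κ', a, -, hsp, hli⟩ := exists_linearIndependent' Qbar
      (sgen S k N fun i => xphi S (P i))
    rw [hspan P] at hsp
    have : Module.Finite Qbar (Submodule.span Qbar
        (Set.range ((sgen S k N fun i => xphi S (P i)) ∘ a))) := by rw [hsp]; exact hfin
    have hli0 : LinearIndependent Qbar (fun j : κ' =>
        (⟨(sgen S k N fun i => xphi S (P i)) (a j), Submodule.subset_span ⟨j, rfl⟩⟩ :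
          Submodule.span Qbar (Set.range ((sgen S k N fun i => xphi S (P i)) ∘ a)))) :=
      LinearIndependent.of_comp (Submodule.subtype _) hli
    haveI : Finite κ' := hli0.finite
    haveI : Fintype κ' := Fintype.ofFinite κ'
    have hcard : Fintype.card κ' = r := by
      have h1 := finrank_span_eq_card hli
      rw [hsp] at h1
      have h2 := ell_lvl_sub_pts S hkN P
      unfold ell at h2
      rw [← h1, h2]
    let e : Fin r ≃ κ' := (Fintype.equivFinOfCardEq hcard).symm
    -- the coordinate vectors of the chosen generators are independent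
    have hmem : ∀ j : Fin r, sgen S k N (fun i => xphi S (P i)) (a (e j)) ∈ V S N :=
      fun j => sgen_mem_V S k N hkm _ _
    have hli1 : LinearIndependent Qbar (fun j : Fin r =>
        (⟨sgen S k N (fun i => xphi S (P i)) (a (e j)), hmem j⟩ : V S N)) := by
      apply LinearIndependent.of_comp (Submodule.subtype _)
      exact hli.comp e e.injective
    have hli2 : LinearIndependent Qbar (fun j : Fin r =>
        coords S N (sgen S k N (fun i => xphi S (P i)) (a (e j)))) := by
      have h := hli1.map' ((lvlBasis S N).equivFun : V S N →ₗ[Qbar] (Fin (dim S N) → Qbar))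
        (LinearEquiv.ker _)
      have heq : (fun j : Fin r => coords S N (sgen S k N (fun i => xphi S (P i)) (a (e j)))) =
          ⇑((lvlBasis S N).equivFun : V S N →ₗ[Qbar] (Fin (dim S N) → Qbar)) ∘
            (fun j : Fin r => (⟨sgen S k N (fun i => xphi S (P i)) (a (e j)), hmem j⟩ : V S N)) := by
        funext j
        exact coords_eq_equivFun S N (hmem j)
      rw [heq]
      exact h
    obtain ⟨R, hR⟩ := exists_minor_ne_zero _ hli2
    -- the same minor for `Y`
    have hz := hzero (R, fun j => a (e j))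
    have hdet : f (R, fun j => a (e j)) Y =
        (∏ i, c i) ^ r * Matrix.det (Matrix.of fun i j =>
          coords S N (sgen S k N (fun i => xphi S (P i)) (a (e j))) (R i)) := by
      have hmat : (Matrix.of fun i j => coords S N (sgen S k N Y (a (e j))) (R i)) =
          (∏ i, c i) • (Matrix.of fun i j =>
            coords S N (sgen S k N (fun i => xphi S (P i)) (a (e j))) (R i) :
              Matrix (Fin r) (Fin r) Qbar) := by
        ext i j
        rw [Matrix.smul_apply, Matrix.of_apply, Matrix.of_apply, hYeq, sgen_smul,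
          coords_smul S N _ (hmem j)]
        rfl
      show Matrix.det (Matrix.of fun i j => coords S N (sgen S k N Y (a (e j))) (R i)) = _
      rw [hmat, Matrix.det_smul, Fintype.card_fin]
    rw [hdet] at hz
    have hprod : (∏ i, c i) ≠ 0 := Finset.prod_ne_zero_iff.mpr fun i _ => hc i
    exact hR ((mul_eq_zero.mp hz).resolve_left (pow_ne_zero _ hprod))
  obtain ⟨C, hC⟩ := ht_ge_of_isMHom_of_zeroLocus (β := Fin k) (κ := fun _ => Fin (S.r + 1))
    hV hf h0
  refine ⟨C, fun P => ?_⟩
  have h := hC (fun i => xphi S (P i)) (fun i => xphi_mem_cone S (P i)) (fun i => hne (P i))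
  rw [Finset.mul_sum]
  exact h

end Fermat.Agent.S17.PLK.H7236
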