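/-
S17 project — PLK route, leaf HG5 `eta_mul` (S) of helper2397's skeleton v0 (helper756).

`η_N(Z_n(a)) = d_{N−n} · h_n(a) + O(1)`: `L(N P₀ − Z_n(a)) = a · V_{N−n}`, the Plücker vector of
`a · V_{N−n}` in the basis `a ψ^{N−n}_l` is the vector of maximal minors of the matrix of
"multiplication by `a`", a matrix of linear forms in `[a]_n` which is injective for `a ≠ 0`;
the abstract statement is `H756.ht_minors_linMat` (`Minors756.lean`).
-/
import Fermat.Agent.S17.PLK.Defs
import Fermat.Agent.S17.PLK.Minors756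

set_option autoImplicit false

noncomputable section

open AlgebraicCurve ModularCurve

namespace Fermat.Agent.S17.PLK.H756

open Fermat.Agent.S17.FND Fermat.Agent.S17.H Fermat.Agent.S17.HT Fermat.Agent.S17.PLK

local notation "ℚ̄" => AlgebraicClosure ℚ

/-! ### LA1 and basis independence of the Plücker height -/

/-- LA1 (own copy): a change of basis multiplies the Plücker vector by the determinant. -/
theorem plVec_mul756 {K : Type*} [Field K] {r d : ℕ} (A : Matrix (Fin r) (Fin r) K)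
    (B : Fin r → Fin d → K) :
    plVec (fun i => ∑ l, A i l • B l) = A.det • plVec B := by
  funext f
  simp only [plVec, Pi.smul_apply, smul_eq_mul]
  rw [← Matrix.det_mul]
  congr 1
  ext i j
  simp [Matrix.mul_apply, Finset.sum_apply]

/-- The Plücker height of a subspace does not depend on the basis. -/
theorem ht_plVec_basis756 {V : Type*} [AddCommGroup V] [Module ℚ̄ V] {r r' d : ℕ}
    (b : Module.Basis (Fin r) ℚ̄ V) (b' : Module.Basis (Fin r') ℚ̄ V)
    (co : V →ₗ[ℚ̄] (Fin d → ℚ̄)) :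
    ht (plVec fun i => co (b i)) = ht (plVec fun i => co (b' i)) := by
  have hr : r = r' := by
    have h1 := Module.finrank_eq_card_basis b
    have h2 := Module.finrank_eq_card_basis b'
    simpa using h1.symm.trans h2
  subst hr
  have key : (fun i => co (b i)) = fun i => ∑ l, (b'.toMatrix b).transpose i l • co (b' l) := by
    funext i
    have h := b'.sum_repr (b i)
    conv_lhs => rw [← h]
    rw [map_sum]
    refine Finset.sum_congr rfl fun l _ => ?_
    rw [map_smul]
    rfl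
  rw [key, plVec_mul756, Matrix.det_transpose]
  refine ht_smul _ ?_
  have hu := b'.isUnit_det b
  rw [Module.Basis.det_apply] at hu
  exact hu.ne_zero

/-! ### Coordinates in a basis of a subspace of `F` -/

section Generic

variable {F : Type*} [Field F] [Algebra ℚ̄ F]

open Classical in
/-- Coordinates of `s` in a basis of the subspace `V` (junk `0` outside `V`). -/
def cof {d : ℕ} (V : Submodule ℚ̄ F) (b : Module.Basis (Fin d) ℚ̄ V) (s : F) : Fin d → ℚ̄ :=
  if h : s ∈ V then ⇑(b.repr ⟨s, h⟩) else 0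

lemma cof_coe {d : ℕ} (V : Submodule ℚ̄ F) (b : Module.Basis (Fin d) ℚ̄ V) (x : V) :
    cof V b (x : F) = b.equivFun x := by
  unfold cof
  rw [dif_pos x.2]
  rfl

lemma cof_sum {d : ℕ} (V : Submodule ℚ̄ F) (b : Module.Basis (Fin d) ℚ̄ V) {ι : Type*}
    (s : Finset ι) (t : ι → ℚ̄) (f : ι → F) (hf : ∀ i, f i ∈ V) :
    cof V b (∑ i ∈ s, t i • f i) = ∑ i ∈ s, t i • cof V b (f i) := by
  have h1 : ∑ i ∈ s, t i • f i = ((∑ i ∈ s, t i • (⟨f i, hf i⟩ : V) : V) : F) := by
    simp
  rw [h1, cof_coe, map_sum]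
  refine Finset.sum_congr rfl fun i _ => ?_
  rw [map_smul, ← cof_coe]

lemma sum_cof_smul {d : ℕ} (V : Submodule ℚ̄ F) (b : Module.Basis (Fin d) ℚ̄ V) {a : F}
    (ha : a ∈ V) : ∑ i, cof V b a i • (b i : F) = a := by
  have h := b.sum_equivFun ⟨a, ha⟩
  have h2 := congrArg (Subtype.val) h
  rw [← cof_coe] at h2
  simpa using h2

lemma cof_sum_basis {d : ℕ} (V : Submodule ℚ̄ F) (b : Module.Basis (Fin d) ℚ̄ V)
    (α : Fin d → ℚ̄) : cof V b (∑ i, α i • (b i : F)) = α := by
  have h1 : ∑ i, α i • (b i : F) = ((b.equivFun.symm α : V) : F) := by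
    rw [Module.Basis.equivFun_symm_apply]
    simp
  rw [h1, cof_coe, LinearEquiv.apply_symm_apply]

variable {dn dk dN : ℕ} (Vn Vk VN : Submodule ℚ̄ F) (bn : Module.Basis (Fin dn) ℚ̄ Vn)
  (bk : Module.Basis (Fin dk) ℚ̄ Vk) (bN : Module.Basis (Fin dN) ℚ̄ VN)

/-- Structure constants of the multiplication `Vn × Vk → VN`. -/
def cst : Fin dN → Fin dk → Fin dn → ℚ̄ :=
  fun u l i => cof VN bN ((bn i : F) * (bk l : F)) u

variable {Vn Vk VN}

lemma cof_mul_col (hmul : ∀ x ∈ Vn, ∀ y ∈ Vk, x * y ∈ VN) (α : Fin dn → ℚ̄) (l : Fin dk) :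
    cof VN bN ((∑ i, α i • (bn i : F)) * (bk l : F)) =
      fun u => evalMat (cst Vn Vk VN bn bk bN) α u l := by
  rw [Finset.sum_mul]
  simp_rw [smul_mul_assoc]
  rw [cof_sum VN bN _ _ _ (fun i => hmul _ (bn i).2 _ (bk l).2)]
  funext u
  simp [Finset.sum_apply, cst, evalMat, mul_comm]

lemma cof_mul_mulVec (hmul : ∀ x ∈ Vn, ∀ y ∈ Vk, x * y ∈ VN) (α : Fin dn → ℚ̄)
    (β : Fin dk → ℚ̄) :
    cof VN bN ((∑ i, α i • (bn i : F)) * (∑ l, β l • (bk l : F))) =
      (evalMat (cst Vn Vk VN bn bk bN) α).mulVec β := by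
  rw [Finset.mul_sum]
  simp_rw [mul_smul_comm]
  rw [cof_sum VN bN _ _ _ (fun l => hmul _ (Submodule.sum_mem _ fun i _ =>
    Submodule.smul_mem _ _ (bn i).2) _ (bk l).2)]
  simp_rw [cof_mul_col bn bk bN hmul]
  funext u
  simp [Finset.sum_apply, Matrix.mulVec, dotProduct, mul_comm]

lemma cst_injective (hmul : ∀ x ∈ Vn, ∀ y ∈ Vk, x * y ∈ VN) (α : Fin dn → ℚ̄) (hα : α ≠ 0) :
    Function.Injective (evalMat (cst Vn Vk VN bn bk bN) α).mulVec := by
  intro β β' h
  rw [← sub_eq_zero] at h ⊢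
  rw [← Matrix.mulVec_sub] at h
  set γ := β - β' with hγ
  rw [← cof_mul_mulVec bn bk bN hmul] at h
  set x : F := ∑ i, α i • (bn i : F) with hx
  set y : F := ∑ l, γ l • (bk l : F) with hy
  have hxV : x ∈ Vn := Submodule.sum_mem _ fun i _ => Submodule.smul_mem _ _ (bn i).2
  have hyV : y ∈ Vk := Submodule.sum_mem _ fun i _ => Submodule.smul_mem _ _ (bk i).2
  have hx0 : x ≠ 0 := by
    intro h0
    apply hα
    have := cof_sum_basis Vn bn α
    rw [← hx, h0] at this
    rw [← this]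
    have h2 := cof_coe Vn bn 0
    simpa using h2
  have hxy : x * y = 0 := by
    have h2 := cof_coe VN bN ⟨x * y, hmul x hxV y hyV⟩
    rw [h] at h2
    have h3 : (⟨x * y, hmul x hxV y hyV⟩ : VN) = 0 :=
      bN.equivFun.injective (by rw [← h2, map_zero])
    exact congrArg Subtype.val h3
  have hy0 : y = 0 := (mul_eq_zero.mp hxy).resolve_left hx0
  have := cof_sum_basis Vk bk γ
  rw [← hy, hy0] at this
  rw [← this]
  have h2 := cof_coe Vk bk 0
  simpa using h2

/-- Generic form of (S). -/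
theorem generic_S (bn : Module.Basis (Fin dn) ℚ̄ Vn) (bk : Module.Basis (Fin dk) ℚ̄ Vk)
    (bN : Module.Basis (Fin dN) ℚ̄ VN) (hmul : ∀ x ∈ Vn, ∀ y ∈ Vk, x * y ∈ VN) :
    ∃ C : ℝ, ∀ a ∈ Vn, a ≠ 0 → ∀ (r : ℕ) (W : Submodule ℚ̄ F) (b : Module.Basis (Fin r) ℚ̄ W),
      (∀ w, w ∈ W ↔ ∃ y ∈ Vk, w = a * y) →
      |ht (plVec fun i => cof VN bN (b i : F)) - (dk : ℝ) * ht (cof Vn bn a)| ≤ C := by
  obtain ⟨C, hC⟩ := ht_minors_linMat (cst Vn Vk VN bn bk bN) (cst_injective bn bk bN hmul)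
  refine ⟨C, fun a ha ha0 r W b hW => ?_⟩
  have h := hC (cof Vn bn a)
  rw [Fintype.card_fin] at h
  have hWN : W ≤ VN := fun w hw => by
    obtain ⟨y, hy, rfl⟩ := (hW w).mp hw
    exact hmul a ha y hy
  let co : W →ₗ[ℚ̄] (Fin dN → ℚ̄) := bN.equivFun.toLinearMap ∘ₗ Submodule.inclusion hWN
  have hco : ∀ w : W, cof VN bN (w : F) = co w := fun w => by
    have := cof_coe VN bN (Submodule.inclusion hWN w)
    exact this
  let e : Vk ≃ₗ[ℚ̄] W := LinearEquiv.ofBijective
    ((LinearMap.mulLeft ℚ̄ a).restrict (p := Vk) (q := W) (fun y hy => (hW _).mpr ⟨y, hy, rfl⟩))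
    ⟨fun y y' hyy => by
      have h2 := congrArg Subtype.val hyy
      simp only [LinearMap.coe_restrict_apply, LinearMap.mulLeft_apply] at h2
      exact Subtype.ext (mul_left_cancel₀ ha0 h2),
     fun w => by
      obtain ⟨y, hy, hwy⟩ := (hW w).mp w.2
      exact ⟨⟨y, hy⟩, Subtype.ext (by simp [hwy])⟩⟩
  have he : ∀ y : Vk, ((e y : W) : F) = a * (y : F) := fun y => rfl
  have e1 : ht (plVec fun i => cof VN bN (b i : F)) =
      ht (plVec fun l => cof VN bN (a * (bk l : F))) := by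
    have h3 := ht_plVec_basis756 b (bk.map e) co
    have h4 : (fun i => co (b i)) = fun i => cof VN bN (b i : F) := by
      funext i; rw [hco]
    have h5 : (fun l => co (bk.map e l)) = fun l => cof VN bN (a * (bk l : F)) := by
      funext l; rw [← hco, Module.Basis.map_apply, he]
    rw [h4, h5] at h3
    exact h3
  have e2 : (plVec fun l => cof VN bN (a * (bk l : F))) =
      fun f : Fin dk → Fin dN =>
        ((evalMat (cst Vn Vk VN bn bk bN) (cof Vn bn a)).submatrix f id).det := by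
    funext f
    unfold plVec
    rw [← Matrix.det_transpose]
    congr 1
    ext i j
    simp only [Matrix.transpose_apply, Matrix.of_apply, Matrix.submatrix_apply, id]
    have h6 := cof_mul_col bn bk bN hmul (cof Vn bn a) j
    rw [sum_cof_smul Vn bn ha] at h6
    exact congrFun h6 (f i)
  rw [e1, e2]
  exact h

end Generic

/-! ### Riemann–Roch spaces and multiplication by a function -/

section RR

variable {K F : Type*} [Field K] [Field F] [Algebra K F]

theorem mul_mem_RR756 {D E : Divisor K F} {f g : F} (hf : f ∈ riemannRochSpace D)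
    (hg : g ∈ riemannRochSpace E) : f * g ∈ riemannRochSpace (D + E) := by
  rw [mem_riemannRochSpace_iff] at hf hg ⊢
  intro v
  by_cases hf0 : f = 0
  · left; rw [hf0, zero_mul]
  by_cases hg0 : g = 0
  · left; rw [hg0, mul_zero]
  right
  have h1 := (hf v).resolve_left hf0
  have h2 := (hg v).resolve_left hg0
  rw [v.ord_mul hf0 hg0, Finsupp.add_apply]
  linarith

theorem mul_mem_RR_sub_divF756 [HasPrincipalDivisors K F] (D : Divisor K F) {a : F} (ha : a ≠ 0)
    (f : F) : a * f ∈ riemannRochSpace (D - divF a) ↔ f ∈ riemannRochSpace D := by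
  rw [mem_riemannRochSpace_iff, mem_riemannRochSpace_iff]
  refine forall_congr' fun v => ?_
  by_cases hf : f = 0
  · simp [hf]
  · have h1 : a * f ≠ 0 := mul_ne_zero ha hf
    simp only [h1, hf, false_or, Finsupp.coe_sub, Pi.sub_apply, divF_apply, v.ord_mul ha hf]
    constructor <;> intro h <;> linarith

end RR

/-! ### The leaf -/

variable {F₀ : IntermediateField ℚ (LaurentSeries ℚ)}
  [IsCurveOver Qbar (FB F₀)] [Algebra.EssFiniteType Qbar (FB F₀)]

/-- Unfolding of `etaSub` for a finite-dimensional subspace given as a variable. -/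
theorem etaSub_aux756 (S : Setup F₀) (n N : ℕ) (C : ℝ) (a : FB F₀)
    (W : Submodule Qbar (FB F₀)) (hfin : Module.Finite Qbar W)
    (hC : ∀ (r : ℕ) (b : Module.Basis (Fin r) Qbar W),
      |ht (plVec fun i => cof (V S N) (lvlBasis S N) (b i : FB F₀)) -
        (dim S (N - n) : ℝ) * ht (cof (V S n) (lvlBasis S n) a)| ≤ C) :
    |etaSub S N W - (dim S (N - n) : ℝ) * ht (coords S n a)| ≤ C := by
  have h := hC _ (Module.finBasis Qbar W)
  unfold etaSub
  rw [dif_pos hfin]
  exact h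

/-- HG5 (S) [glue]: `η_N(Z_n(a)) = d_{N−n} · h_n(a) + O(1)`. -/
theorem eta_mul (S : Setup F₀) (n N : ℕ) (hnN : n ≤ N) :
    ∃ C : ℝ, ∀ a : FB F₀, a ∈ V S n → a ≠ 0 →
      |eta S N (divF a + lvlDiv S n) - (dim S (N - n) : ℝ) * ht (coords S n a)| ≤ C := by
  have hlvl : lvlDiv S n + lvlDiv S (N - n) = lvlDiv S N := by
    simp only [lvlDiv]
    rw [← add_smul]
    congr 1
    push_cast [Nat.cast_sub hnN]
    ring
  have hmul : ∀ x ∈ V S n, ∀ y ∈ V S (N - n), x * y ∈ V S N := by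
    intro x hx y hy
    have h := mul_mem_RR756 hx hy
    rwa [hlvl] at h
  obtain ⟨C, hC⟩ := generic_S (lvlBasis S n) (lvlBasis S (N - n)) (lvlBasis S N) hmul
  refine ⟨C, fun a ha ha0 => ?_⟩
  have hD : lvlDiv S N - (divF a + lvlDiv S n) = lvlDiv S (N - n) - divF a := by
    rw [← hlvl]; abel
  have hW : ∀ w : FB F₀, w ∈ riemannRochSpace (lvlDiv S N - (divF a + lvlDiv S n)) ↔
      ∃ y ∈ V S (N - n), w = a * y := by
    intro w
    rw [hD]
    constructor
    · intro hw
      refine ⟨a⁻¹ * w, ?_, by rw [mul_inv_cancel_left₀ ha0]⟩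
      rw [← mul_mem_RR_sub_divF756 _ ha0, mul_inv_cancel_left₀ ha0]
      exact hw
    · rintro ⟨y, hy, rfl⟩
      exact (mul_mem_RR_sub_divF756 _ ha0 y).mpr hy
  exact etaSub_aux756 S n N C a _ (finite_RR _) (fun r b => hC a ha ha0 r _ b hW)

end Fermat.Agent.S17.PLK.H756
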