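/-
S17 / PLK leaf HG7 (helper4977): `etaSub_bot`, `etaSub_line`, `eta_zero` — statements VERBATIM from
`Fermat/Agent/S17/PLK/Skel.lean` v0 (origin/helper2397), namespace `Fermat.Agent.S17.PLK.H4977`.
Black boxes used: HT L1 statements `ht_of_subsingleton`, `ht_smul`, `ht_comp_equiv`, `ht_pow`;
FND `finite_RR`.  No sorry in this file.
-/
import Fermat.Agent.S17.PLK.Defs

set_option autoImplicit false

noncomputable section

open AlgebraicCurve ModularCurve

namespace Fermat.Agent.S17.PLK.H4977

open Fermat.Agent.S17.FND Fermat.Agent.S17.H Fermat.Agent.S17.HT Fermat.Agent.S17.PLK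

/-- A tuple all of whose coordinates are `0` or `1` has height `0` (`x ^ 2 = x` and `ht_pow`). -/
theorem ht_eq_zero_of_idem {ι : Type*} [Finite ι] (e : ι → Qbar) (he : ∀ i, e i ^ 2 = e i) :
    ht e = 0 := by
  have h := ht_pow e 2
  have h2 : (fun i => e i ^ 2) = e := funext he
  rw [h2] at h
  push_cast at h
  linarith

/-- A tuple whose coordinates squared are all `0` or a fixed nonzero `c` has height `0`. -/
theorem ht_eq_zero_of_sq {ι : Type*} [Finite ι] (x e : ι → Qbar) (c : Qbar) (hc : c ≠ 0)
    (he : ∀ i, e i ^ 2 = e i) (hx : ∀ i, x i ^ 2 = c * e i) : ht x = 0 := by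
  have h := ht_pow x 2
  have h2 : (fun i => x i ^ 2) = c • e := funext fun i => by rw [hx i]; rfl
  rw [h2, ht_smul e hc, ht_eq_zero_of_idem e he] at h
  push_cast at h
  linarith

/-- The Plücker vector of a basis of the whole space has height `0`: all its coordinates are
`0` or `± det`. -/
theorem ht_plVec_eq_zero {r d : ℕ} (h : r = d) (B : Fin r → Fin d → Qbar)
    (hB : LinearIndependent Qbar B) : ht (plVec B) = 0 := by
  classical
  subst h
  set T : Matrix (Fin r) (Fin r) Qbar := Matrix.of B with hT
  have hTdet : T.det ≠ 0 := by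
    have h1 : LinearIndependent Qbar T.row := hB
    exact ((Matrix.isUnit_iff_isUnit_det T).mp
      (Matrix.linearIndependent_rows_iff_isUnit.mp h1)).ne_zero
  refine ht_eq_zero_of_sq _ (fun f => if Function.Bijective f then 1 else 0) (T.det ^ 2)
    (pow_ne_zero 2 hTdet) (fun f => by split_ifs <;> simp) (fun f => ?_)
  have hpl : plVec B f = (T.submatrix id f).det := rfl
  rw [hpl]
  by_cases hf : Function.Bijective f
  · rw [if_pos hf, mul_one]
    have h2 : T.submatrix id f = T.submatrix id (Equiv.ofBijective f hf) := rfl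
    rw [h2, Matrix.det_permute', mul_pow]
    rcases Int.units_eq_one_or (Equiv.Perm.sign (Equiv.ofBijective f hf)) with h | h <;>
      simp [h]
  · rw [if_neg hf, mul_zero]
    have hinj : ¬ Function.Injective f := fun hi => hf (Finite.injective_iff_bijective.mp hi)
    rw [Function.Injective] at hinj
    push Not at hinj
    obtain ⟨i, j, hij, hne⟩ := hinj
    rw [Matrix.det_zero_of_column_eq hne (fun k => by simp [Matrix.submatrix_apply, hij])]
    simp

variable {F₀ : IntermediateField ℚ (LaurentSeries ℚ)}
  [IsCurveOver Qbar (FB F₀)] [Algebra.EssFiniteType Qbar (FB F₀)]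

/-- HG7 [glue]. -/
theorem etaSub_bot (S : Setup F₀) (N : ℕ) : etaSub S N ⊥ = 0 := by
  classical
  have hfin : Module.Finite Qbar (⊥ : Submodule Qbar (FB F₀)) := inferInstance
  rw [etaSub, dif_pos hfin]
  have : IsEmpty (Fin (Module.finrank Qbar (⊥ : Submodule Qbar (FB F₀)))) := by
    rw [finrank_bot]; infer_instance
  exact ht_of_subsingleton _

omit [IsCurveOver Qbar (FB F₀)] [Algebra.EssFiniteType Qbar (FB F₀)] in
/-- `coords` commutes with scaling by a nonzero constant (also outside `V S N`, where both are `0`). -/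
theorem coords_smul [IsCurveOver Qbar (FB F₀)] [Algebra.EssFiniteType Qbar (FB F₀)]
    (S : Setup F₀) (N : ℕ) (c : Qbar) (hc : c ≠ 0) (a : FB F₀) :
    coords S N (c • a) = c • coords S N a := by
  classical
  by_cases h : a ∈ V S N
  · have h' : c • a ∈ V S N := Submodule.smul_mem _ c h
    rw [coords, coords, dif_pos h, dif_pos h']
    have : (⟨c • a, h'⟩ : V S N) = c • ⟨a, h⟩ := rfl
    rw [this, map_smul]
    rfl
  · have h' : c • a ∉ V S N := fun hmem => h (by
      have := Submodule.smul_mem (V S N) c⁻¹ hmem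
      rwa [smul_smul, inv_mul_cancel₀ hc, one_smul] at this)
    rw [coords, coords, dif_neg h, dif_neg h', smul_zero]

/-- HG7 [glue]: the Plücker height of a line is the height of a generator. -/
theorem etaSub_line (S : Setup F₀) (N : ℕ) (a : FB F₀) (ha : a ≠ 0) :
    etaSub S N (Submodule.span Qbar {a}) = ht (coords S N a) := by
  classical
  have hfin : Module.Finite Qbar (Submodule.span Qbar ({a} : Set (FB F₀))) :=
    FiniteDimensional.span_singleton Qbar a
  rw [etaSub, dif_pos hfin]
  have hrank : Module.finrank Qbar (Submodule.span Qbar ({a} : Set (FB F₀))) = 1 :=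
    finrank_span_singleton ha
  haveI : Unique (Fin (Module.finrank Qbar (Submodule.span Qbar ({a} : Set (FB F₀))))) := by
    rw [hrank]; infer_instance
  set b := Module.finBasis Qbar (Submodule.span Qbar ({a} : Set (FB F₀))) with hb
  set i₀ : Fin (Module.finrank Qbar (Submodule.span Qbar ({a} : Set (FB F₀)))) := default with hi₀
  obtain ⟨c, hc⟩ := Submodule.mem_span_singleton.mp (b i₀).2
  have hc0 : c ≠ 0 := by
    rintro rfl
    rw [zero_smul] at hc
    exact b.ne_zero i₀ (Subtype.ext hc.symm)
  have key : (plVec fun i => coords S N ((b i : Submodule.span Qbar ({a} : Set (FB F₀))) : FB F₀)) =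
      (c • coords S N a) ∘ (Equiv.funUnique _ (Fin (dim S N))) := by
    funext f
    rw [plVec, Matrix.det_unique, Matrix.of_apply, Function.comp_apply, ← coords_smul S N c hc0, hc]
    rfl
  rw [key, ht_comp_equiv, ht_smul _ hc0]

/-- HG7 [glue]. -/
theorem eta_zero (S : Setup F₀) (N : ℕ) : eta S N 0 = 0 := by
  classical
  rw [eta, sub_zero]
  have hfin : Module.Finite Qbar (riemannRochSpace (lvlDiv S N)) := finite_RR _
  rw [etaSub, dif_pos hfin]
  refine ht_plVec_eq_zero rfl _ ?_
  set b := Module.finBasis Qbar (riemannRochSpace (lvlDiv S N)) with hb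
  have h1 : (fun i => coords S N ((b i : riemannRochSpace (lvlDiv S N)) : FB F₀)) =
      ((lvlBasis S N).equivFun : V S N →ₗ[Qbar] (Fin (dim S N) → Qbar)) ∘ b := by
    funext i
    rw [coords, dif_pos (b i).2]
    rfl
  rw [h1]
  exact b.linearIndependent.map' _ (LinearEquiv.ker _)

end Fermat.Agent.S17.PLK.H4977
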