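import Fermat.Agent.S17.PLK.Defs

set_option autoImplicit false

/-!
# S17 / PLK — leaves LA (linear algebra of minors), helper178

Statements copied verbatim from `Fermat/Agent/S17/PLK/Skel.lean` (origin/helper2397, skeleton v0),
proved in the namespace `Fermat.Agent.S17.PLK.H178` (Mathlib only + the definition `PLK.plVec`).

* `plVec_mul` (LA1), `plVec_cons_mem_span` (LA2(i')), `plVec_mul_apply` (LA2(ii)),
  `det_mul_eq_of_rank_le` (LA3): PROVED verbatim.
* `plVec_contract` (LA2(i)) is FALSE as stated for `r = 0` (left side `τ(B 0)`, right side `1`):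
  see `plVec_contract_false`.  Proved here: `plVec_contract_pos` (the skeleton statement under the
  extra hypothesis `0 < r`) and `plVec_contract_mul` (all `r`, both sides multiplied by `τ(B 0)`).

Proof ideas.  LA2(ii): for `x = B k` the `(r+2) × (r+2)` matrix with rows `B k, B 0, .., B r` and
columns `i, g 0, .., g r` has a repeated row; expand its determinant along the first row
(`plVec_key`), then multiply by `τ i` and sum.  LA3: rank factorisation `T = P * Q` with inner
dimension `r` (`exists_mul_of_rank_le`), then `adjugate (A * B) = adjugate B * adjugate A`.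
-/

namespace Fermat.Agent.S17.PLK.H178

variable {K : Type*} [Field K]

/-- counterexample to plVec_contract at r = 0 -/
theorem plVec_contract_false :
    ¬ ∀ (r d : ℕ) (B : Fin (r + 1) → Fin d → ℚ) (τ : Fin d → ℚ) (f : Fin r → Fin d),
      (∑ i, τ i * B 0 i) ^ (r - 1) * ∑ j, τ j * plVec B (Fin.cons j f) =
      plVec (fun i : Fin r => (∑ l, τ l * B 0 l) • B i.succ - (∑ l, τ l * B i.succ l) • B 0) f := by
  intro h
  have := h 0 1 (fun _ _ => 2) (fun _ => 1) Fin.elim0
  simp [plVec] at this

/-- LA1 -/
theorem plVec_mul {r d : ℕ} (A : Matrix (Fin r) (Fin r) K) (B : Fin r → Fin d → K) :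
    plVec (fun i => ∑ l, A i l • B l) = A.det • plVec B := by
  funext f
  simp only [plVec, Pi.smul_apply, smul_eq_mul]
  rw [← Matrix.det_mul]
  congr 1
  ext i j
  simp [Matrix.mul_apply, Finset.sum_apply]

/-- expansion along the first column -/
theorem plVec_cons_eq_sum {r d : ℕ} (B : Fin (r + 1) → Fin d → K) (f : Fin r → Fin d) (j : Fin d) :
    plVec B (Fin.cons j f) = ∑ i : Fin (r + 1), (-1) ^ (i : ℕ) * B i j *
      Matrix.det (Matrix.of fun (i' : Fin r) (j' : Fin r) => B (i.succAbove i') (f j')) := by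
  simp only [plVec]
  rw [Matrix.det_succ_column_zero]
  refine Finset.sum_congr rfl fun i _ => ?_
  have h2 : (Matrix.of fun i j' => B i ((Fin.cons j f : Fin (r + 1) → Fin d) j')).submatrix
      i.succAbove Fin.succ = Matrix.of fun i' j' => B (i.succAbove i') (f j') := by
    ext a b
    simp [Matrix.submatrix_apply]
  rw [h2]
  simp

theorem plVec_cons_mem_span {r d : ℕ} (B : Fin (r + 1) → Fin d → K) (f : Fin r → Fin d) :
    (fun j => plVec B (Fin.cons j f)) ∈ Submodule.span K (Set.range B) := by
  have h : (fun j => plVec B (Fin.cons j f)) =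
      ∑ i : Fin (r + 1), ((-1) ^ (i : ℕ) *
        Matrix.det (Matrix.of fun (i' : Fin r) (j' : Fin r) => B (i.succAbove i') (f j'))) • B i := by
    funext j
    rw [plVec_cons_eq_sum, Finset.sum_apply]
    refine Finset.sum_congr rfl fun i _ => ?_
    simp only [Pi.smul_apply, smul_eq_mul]
    ring
  rw [h]
  exact Submodule.sum_mem _ fun i _ => Submodule.smul_mem _ _ (Submodule.subset_span ⟨i, rfl⟩)


/-- LA2(ii), core: a determinant with a repeated row. -/
theorem plVec_key {r d : ℕ} (B : Fin (r + 1) → Fin d → K) (g : Fin (r + 1) → Fin d)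
    (k : Fin (r + 1)) (i : Fin d) :
    B k i * plVec B g = ∑ j : Fin (r + 1), (-1) ^ (j : ℕ) * B k (g j) *
      plVec B (Fin.cons i (g ∘ j.succAbove)) := by
  let N : Matrix (Fin (r + 2)) (Fin (r + 2)) K := Matrix.of fun a b =>
    (Fin.cons (B k) B : Fin (r + 2) → Fin d → K) a ((Fin.cons i g : Fin (r + 2) → Fin d) b)
  have h0 : N.det = 0 := by
    refine Matrix.det_zero_of_row_eq (i := 0) (j := k.succ) (Fin.succ_ne_zero k).symm ?_
    funext b
    simp [N]
  rw [Matrix.det_succ_row_zero, Fin.sum_univ_succ] at h0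
  have h1 : N.submatrix Fin.succ (Fin.succAbove 0) = Matrix.of fun a b => B a (g b) := by
    ext a b
    simp [N, Matrix.submatrix_apply]
  have h2 : ∀ j : Fin (r + 1), N.submatrix Fin.succ (Fin.succAbove j.succ) =
      Matrix.of fun a b => B a ((Fin.cons i (g ∘ j.succAbove) : Fin (r + 1) → Fin d) b) := by
    intro j
    ext a b
    simp only [N, Matrix.submatrix_apply, Matrix.of_apply, Fin.cons_succ]
    congr 1
    refine Fin.cases ?_ (fun c => ?_) b
    · simp
    · simp
  have h3 : N 0 0 = B k i := by simp [N]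
  have h4 : ∀ j : Fin (r + 1), N 0 j.succ = B k (g j) := by intro j; simp [N]
  simp only [h1, h2, h3, h4] at h0
  simp only [plVec]
  have h5 : ∑ j : Fin (r + 1), (-1) ^ ((j.succ : Fin (r + 2)) : ℕ) * B k (g j) *
      (Matrix.of fun a b => B a ((Fin.cons i (g ∘ j.succAbove) : Fin (r + 1) → Fin d) b)).det =
      - ∑ j : Fin (r + 1), (-1) ^ (j : ℕ) * B k (g j) *
      (Matrix.of fun a b => B a ((Fin.cons i (g ∘ j.succAbove) : Fin (r + 1) → Fin d) b)).det := by
    rw [← Finset.sum_neg_distrib]
    refine Finset.sum_congr rfl fun j _ => ?_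
    rw [Fin.val_succ, pow_succ]
    ring
  rw [h5] at h0
  simp only [Fin.val_zero, pow_zero, one_mul] at h0
  linear_combination h0

/-- LA2(ii) -/
theorem plVec_mul_apply {r d : ℕ} (B : Fin (r + 1) → Fin d → K) (τ : Fin d → K) (x : Fin d → K)
    (hx : x ∈ Submodule.span K (Set.range B)) (g : Fin (r + 1) → Fin d) :
    (∑ i, τ i * x i) * plVec B g =
      ∑ j : Fin (r + 1), (-1) ^ (j : ℕ) * x (g j) *
        ∑ i, τ i * plVec B (Fin.cons i (g ∘ j.succAbove)) := by
  induction hx using Submodule.span_induction with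
  | mem x hx =>
    obtain ⟨k, rfl⟩ := hx
    rw [Finset.sum_mul]
    have : ∀ i : Fin d, τ i * B k i * plVec B g = ∑ j : Fin (r + 1), τ i * ((-1) ^ (j : ℕ) * B k (g j) *
        plVec B (Fin.cons i (g ∘ j.succAbove))) := by
      intro i
      rw [mul_assoc, plVec_key B g k i, Finset.mul_sum]
    simp only [this]
    rw [Finset.sum_comm]
    refine Finset.sum_congr rfl fun j _ => ?_
    rw [Finset.mul_sum]
    refine Finset.sum_congr rfl fun i _ => ?_
    ring
  | zero => simp
  | add x y _ _ hx hy =>
    simp only [Pi.add_apply, mul_add, add_mul, Finset.sum_add_distrib, hx, hy]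
  | smul c x _ hx =>
    simp only [Pi.smul_apply, smul_eq_mul]
    have e1 : (∑ i, τ i * (c * x i)) = c * ∑ i, τ i * x i := by
      rw [Finset.mul_sum]; refine Finset.sum_congr rfl fun i _ => ?_; ring
    rw [e1, mul_assoc, hx, Finset.mul_sum]
    refine Finset.sum_congr rfl fun j _ => ?_
    ring


/-- rank factorisation -/
theorem exists_mul_of_rank_le {I J : Type*} [Fintype I] [Fintype J] [DecidableEq I] [DecidableEq J]
    {r : ℕ} (T : Matrix I J K) (hT : T.rank ≤ r) :
    ∃ (P : Matrix I (Fin r) K) (Q : Matrix (Fin r) J K), T = P * Q := by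
  classical
  have hfin : Module.finrank K (Submodule.span K (Set.range T.col)) ≤ r := by
    rw [← Matrix.rank_eq_finrank_span_cols]; exact hT
  obtain ⟨w', -, hw', -⟩ := Submodule.exists_fun_fin_finrank_span_eq K (Set.range T.col)
  let w : Fin r → (I → K) := fun a =>
    if h : (a : ℕ) < Module.finrank K (Submodule.span K (Set.range T.col)) then w' ⟨a, h⟩ else 0
  have hsub : Submodule.span K (Set.range T.col) ≤ Submodule.span K (Set.range w) := by
    rw [← hw', Submodule.span_le]
    rintro _ ⟨b, rfl⟩
    refine Submodule.subset_span ⟨Fin.castLE hfin b, ?_⟩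
    simp [w]
  have hcol : ∀ j : J, ∃ c : Fin r → K, ∑ a, c a • w a = T.col j := by
    intro j
    exact (Submodule.mem_span_range_iff_exists_fun K).mp
      (hsub (Submodule.subset_span ⟨j, rfl⟩))
  choose c hc using hcol
  refine ⟨Matrix.of fun i a => w a i, Matrix.of fun a j => c j a, ?_⟩
  ext i j
  have := congrFun (hc j) i
  simp only [Finset.sum_apply, Pi.smul_apply, smul_eq_mul, Matrix.col_apply] at this
  rw [Matrix.mul_apply, ← this]
  refine Finset.sum_congr rfl fun a _ => ?_
  simp [mul_comm]

/-- LA3 -/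
theorem det_mul_eq_of_rank_le {I J : Type*} [Fintype I] [Fintype J] [DecidableEq I] [DecidableEq J]
    {r : ℕ} (T : Matrix I J K) (hT : T.rank ≤ r) (R : Fin r → I) (C : Fin r → J) :
    (T.submatrix R C).det • T =
      T.submatrix id C * (T.submatrix R C).adjugate * T.submatrix R id := by
  obtain ⟨P, Q, rfl⟩ := exists_mul_of_rank_le T hT
  have e1 : (P * Q).submatrix R C = P.submatrix R id * Q.submatrix id C := by
    ext a b; simp [Matrix.mul_apply]
  have e2 : (P * Q).submatrix id C = P * Q.submatrix id C := by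
    ext a b; simp [Matrix.mul_apply]
  have e3 : (P * Q).submatrix R id = P.submatrix R id * Q := by
    ext a b; simp [Matrix.mul_apply]
  rw [e1, e2, e3, Matrix.adjugate_mul_distrib, Matrix.det_mul]
  have h1 : Q.submatrix id C * (Q.submatrix id C).adjugate =
      (Q.submatrix id C).det • (1 : Matrix (Fin r) (Fin r) K) := Matrix.mul_adjugate _
  have h2 : (P.submatrix R id).adjugate * P.submatrix R id =
      (P.submatrix R id).det • (1 : Matrix (Fin r) (Fin r) K) := Matrix.adjugate_mul _
  have h3 : P * Q.submatrix id C * ((Q.submatrix id C).adjugate * (P.submatrix R id).adjugate) *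
      (P.submatrix R id * Q) = P * (Q.submatrix id C * (Q.submatrix id C).adjugate) *
          ((P.submatrix R id).adjugate * P.submatrix R id) * Q := by
    simp only [Matrix.mul_assoc]
  rw [h3, h1, h2]
  simp only [Matrix.mul_smul, Matrix.smul_mul, Matrix.mul_one, smul_smul]


/-- LA2(i), all `r`, both sides multiplied by `τ(B 0)`. -/
theorem plVec_contract_mul {r d : ℕ} (B : Fin (r + 1) → Fin d → K) (τ : Fin d → K)
    (f : Fin r → Fin d) :
    (∑ i, τ i * B 0 i) ^ r * ∑ j, τ j * plVec B (Fin.cons j f) =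
      (∑ i, τ i * B 0 i) *
        plVec (fun i : Fin r => (∑ l, τ l * B 0 l) • B i.succ - (∑ l, τ l * B i.succ l) • B 0) f := by
  set c : K := ∑ i, τ i * B 0 i with hc
  set t : Fin r → K := fun i => ∑ l, τ l * B i.succ l with ht
  let E : Matrix (Fin (r + 1)) (Fin (r + 1)) K := Matrix.of
    (Fin.cons (fun b => if b = 0 then 1 else 0)
      (fun (i : Fin r) (b : Fin (r + 1)) =>
        c * (if b = i.succ then 1 else 0) - t i * (if b = 0 then 1 else 0)) :
      Fin (r + 1) → Fin (r + 1) → K)
  have hE0 : ∀ b, E 0 b = if b = 0 then 1 else 0 := fun b => by simp [E]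
  have hEs : ∀ (i : Fin r) b, E i.succ b =
      c * (if b = i.succ then 1 else 0) - t i * (if b = 0 then 1 else 0) :=
    fun i b => by simp [E]
  have hE : E.det = c ^ r := by
    rw [Matrix.det_succ_row_zero, Finset.sum_eq_single 0]
    · have h1 : E.submatrix Fin.succ (Fin.succAbove 0) = c • (1 : Matrix (Fin r) (Fin r) K) := by
        ext a b
        simp only [Matrix.submatrix_apply, Fin.zero_succAbove, hEs, Matrix.smul_apply,
          Matrix.one_apply, smul_eq_mul, Fin.succ_inj, Fin.succ_ne_zero, if_false, mul_zero,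
          sub_zero]
        by_cases hab : b = a
        · simp [hab]
        · simp [hab, Ne.symm hab]
      rw [h1, Matrix.det_smul, Matrix.det_one, hE0]
      simp
    · intro j _ hj
      rw [hE0]
      simp [hj]
    · simp
  let B'' : Fin (r + 1) → Fin d → K := fun i => ∑ l, E i l • B l
  have hB0 : B'' 0 = B 0 := by
    funext j
    simp only [B'', Finset.sum_apply, Pi.smul_apply, smul_eq_mul, hE0]
    rw [Finset.sum_eq_single 0]
    · simp
    · intro l _ hl; simp [hl]
    · simp
  have hBs : ∀ i : Fin r, B'' i.succ = c • B i.succ - t i • B 0 := by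
    intro i
    funext j
    simp only [B'', Finset.sum_apply, Pi.smul_apply, smul_eq_mul, hEs, Pi.sub_apply, sub_mul,
      Finset.sum_sub_distrib]
    congr 1
    · rw [Finset.sum_eq_single i.succ]
      · simp
      · intro l _ hl; simp [hl]
      · simp
    · rw [Finset.sum_eq_single 0]
      · simp
      · intro l _ hl; simp [hl]
      · simp
  have h1 : plVec B'' = c ^ r • plVec B := by rw [← hE]; exact plVec_mul E B
  have hτ0 : ∑ j, τ j * B'' 0 j = c := by rw [hB0]
  have hτs : ∀ i : Fin r, ∑ j, τ j * B'' i.succ j = 0 := by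
    intro i
    rw [hBs]
    simp only [Pi.sub_apply, Pi.smul_apply, smul_eq_mul, mul_sub, Finset.sum_sub_distrib]
    have e1 : ∑ j, τ j * (c * B i.succ j) = c * t i := by
      rw [ht, Finset.mul_sum]; refine Finset.sum_congr rfl fun j _ => ?_; ring
    have e2 : ∑ j, τ j * (t i * B 0 j) = t i * c := by
      rw [hc, Finset.mul_sum]; refine Finset.sum_congr rfl fun j _ => ?_; ring
    rw [e1, e2]; ring
  have h2 : ∑ j, τ j * plVec B'' (Fin.cons j f) =
      c * plVec (fun i : Fin r => c • B i.succ - t i • B 0) f := by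
    simp only [plVec_cons_eq_sum, Finset.mul_sum]
    rw [Finset.sum_comm]
    have h3 : ∀ i : Fin (r + 1), ∑ j, τ j * ((-1) ^ (i : ℕ) * B'' i j *
        (Matrix.of fun (i' : Fin r) (j' : Fin r) => B'' (i.succAbove i') (f j')).det) =
        (-1) ^ (i : ℕ) * (∑ j, τ j * B'' i j) *
        (Matrix.of fun (i' : Fin r) (j' : Fin r) => B'' (i.succAbove i') (f j')).det := by
      intro i
      rw [Finset.mul_sum, Finset.sum_mul]
      refine Finset.sum_congr rfl fun j _ => ?_
      ring
    simp only [h3]
    rw [Fin.sum_univ_succ]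
    simp only [hτs, mul_zero, zero_mul, Finset.sum_const_zero, add_zero, hτ0, Fin.val_zero,
      pow_zero, one_mul, Fin.zero_succAbove]
    congr 1
    simp only [plVec]
    congr 1
    ext a b
    simp [hBs]
  calc c ^ r * ∑ j, τ j * plVec B (Fin.cons j f)
      = ∑ j, τ j * (c ^ r • plVec B) (Fin.cons j f) := by
        rw [Finset.mul_sum]
        refine Finset.sum_congr rfl fun j _ => ?_
        simp only [Pi.smul_apply, smul_eq_mul]
        ring
    _ = ∑ j, τ j * plVec B'' (Fin.cons j f) := by rw [h1]
    _ = _ := h2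

/-- LA2(i) for `r = 1` (direct computation, no hypothesis on `τ(B 0)`). -/
theorem plVec_contract_one {d : ℕ} (B : Fin 2 → Fin d → K) (τ : Fin d → K) (f : Fin 1 → Fin d) :
    ∑ j, τ j * plVec B (Fin.cons j f) =
      plVec (fun i : Fin 1 => (∑ l, τ l * B 0 l) • B i.succ - (∑ l, τ l * B i.succ l) • B 0) f := by
  have h1 : ∀ j, (Fin.cons j f : Fin 2 → Fin d) 1 = f 0 := fun j => rfl
  simp only [plVec, Matrix.det_fin_two, Matrix.det_unique, Matrix.of_apply,
    Fin.cons_zero, Fin.default_eq_zero, Pi.sub_apply, Pi.smul_apply, smul_eq_mul, h1, mul_sub,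
    Finset.sum_sub_distrib, Fin.succ_zero_eq_one]
  congr 1
  · rw [Finset.sum_mul]
    refine Finset.sum_congr rfl fun j _ => ?_
    ring
  · rw [Finset.sum_mul]
    refine Finset.sum_congr rfl fun j _ => ?_
    ring

/-- LA2(i): the skeleton statement, under the (necessary) hypothesis `0 < r`. -/
theorem plVec_contract_pos {r d : ℕ} (hr : 0 < r) (B : Fin (r + 1) → Fin d → K) (τ : Fin d → K)
    (f : Fin r → Fin d) :
    (∑ i, τ i * B 0 i) ^ (r - 1) * ∑ j, τ j * plVec B (Fin.cons j f) =
      plVec (fun i : Fin r => (∑ l, τ l * B 0 l) • B i.succ - (∑ l, τ l * B i.succ l) • B 0) f := by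
  obtain ⟨n, rfl⟩ : ∃ n, r = n + 1 := ⟨r - 1, by omega⟩
  simp only [Nat.add_sub_cancel]
  rcases n with _ | n
  · -- `r = 1`: direct computation
    rw [pow_zero, one_mul]
    exact plVec_contract_one B τ f
  · by_cases hc : (∑ i, τ i * B 0 i) = 0
    · -- `r ≥ 2`, `τ(B 0) = 0`: both sides vanish
      rw [hc, zero_pow (Nat.succ_ne_zero n), zero_mul]
      symm
      simp only [plVec, zero_smul, zero_sub]
      have h2 : (Matrix.of fun (i j : Fin (n + 1 + 1)) =>
          (-((∑ l, τ l * B i.succ l) • B 0)) (f j)) =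
          Matrix.of fun i j => (-(∑ l, τ l * B i.succ l)) *
            (Matrix.of fun (_ : Fin (n + 1 + 1)) j => B 0 (f j)) i j := by
        ext i j
        simp
      rw [h2, Matrix.det_mul_column,
        Matrix.det_zero_of_row_eq (i := (0 : Fin (n + 1 + 1))) (j := 1) (by simp) rfl, mul_zero]
    · have h := plVec_contract_mul B τ f
      rw [pow_succ', mul_assoc] at h
      exact mul_left_cancel₀ hc h

end Fermat.Agent.S17.PLK.H178
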