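/-
S17 project, B-route "PLK" (skeleton of helper2397, v0 27f1513e): INTEGRATED BASE LAYER.

Every leaf of `PLK/Skel.lean` v0 EXCEPT `incidence` (HG3), `eta_add_pt` (HG4), `eta_step` (HG6) and the
leaf `plVec_contract` (LA2(i): false as stated for `r = 0`, not used by the glue) is declared here with its
VERBATIM statement and proved by a delivered leaf file:
  LA   helper178 (`LA178.lean`)          CG1  helper8158 (`CG1_8158.lean`)     CG2  helper8196 (`CG2_8196.lean`)
  CG3  helper598 (`CG3_598.lean`)        HG1  helper2196 (`HG1a_2196.lean`), helper3566 (`HG1_3566.lean`)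
  HG2  helper7236 (`HG2_7236.lean`)      HG5  helper756 (`HG5_756.lean`)       HG7  helper4977 (`HG7_4977.lean`)
-/
import Fermat.Agent.S17.PLK.Defs
import Fermat.Agent.S17.PLK.LA178
import Fermat.Agent.S17.PLK.CG1_8158
import Fermat.Agent.S17.PLK.CG2_8196
import Fermat.Agent.S17.PLK.CG3_598
import Fermat.Agent.S17.PLK.HG1a_2196
import Fermat.Agent.S17.PLK.HG1_3566
import Fermat.Agent.S17.PLK.HG2_7236
import Fermat.Agent.S17.PLK.HG5_756
import Fermat.Agent.S17.PLK.HG7_4977

set_option autoImplicit false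

noncomputable section

open AlgebraicCurve ModularCurve

namespace Fermat.Agent.S17.PLK

open Fermat.Agent.S17.FND Fermat.Agent.S17.H Fermat.Agent.S17.HT

/-! ## LA — linear algebra of minors (Mathlib only) -/

section LA

variable {K : Type*} [Field K]

/-- LA1: a change of basis multiplies the Plücker vector by the determinant. -/
theorem plVec_mul {r d : ℕ} (A : Matrix (Fin r) (Fin r) K) (B : Fin r → Fin d → K) :
    plVec (fun i => ∑ l, A i l • B l) = A.det • plVec B :=
  H178.plVec_mul A B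

/-- LA2(i'): each coordinate of the contraction is the value of `τ` on a vector of the row space
whose coordinates are Plücker coordinates. -/
theorem plVec_cons_mem_span {r d : ℕ} (B : Fin (r + 1) → Fin d → K) (f : Fin r → Fin d) :
    (fun j => plVec B (Fin.cons j f)) ∈ Submodule.span K (Set.range B) :=
  H178.plVec_cons_mem_span B f

/-- LA2(ii): for `x` in the row space, `τ(x) · ω(g) = Σ_j (−1)^j x_{g j} · D(g ∘ succAbove j)`. -/
theorem plVec_mul_apply {r d : ℕ} (B : Fin (r + 1) → Fin d → K) (τ : Fin d → K) (x : Fin d → K)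
    (hx : x ∈ Submodule.span K (Set.range B)) (g : Fin (r + 1) → Fin d) :
    (∑ i, τ i * x i) * plVec B g =
      ∑ j : Fin (r + 1), (-1) ^ (j : ℕ) * x (g j) *
        ∑ i, τ i * plVec B (Fin.cons i (g ∘ j.succAbove)) :=
  H178.plVec_mul_apply B τ x hx g

/-- LA3: for a matrix `T` of rank `≤ r` and index `r`-tuples `R`, `C`:
`det T[R,C] · T = T[·,C] · adj(T[R,C]) · T[R,·]`. -/
theorem det_mul_eq_of_rank_le {I J : Type*} [Fintype I] [Fintype J] [DecidableEq I] [DecidableEq J]
    {r : ℕ} (T : Matrix I J K) (hT : T.rank ≤ r) (R : Fin r → I) (C : Fin r → J) :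
    (T.submatrix R C).det • T =
      T.submatrix id C * (T.submatrix R C).adjugate * T.submatrix R id :=
  H178.det_mul_eq_of_rank_le T hT R C

end LA

variable {F₀ : IntermediateField ℚ (LaurentSeries ℚ)}
  [IsCurveOver Qbar (FB F₀)] [Algebra.EssFiniteType Qbar (FB F₀)]

/-! ## CG1 — evaluation calculus -/

/-- `secVal A Q` is additive on `L(A)`. -/
theorem secVal_add (A : Divisor Qbar (FB F₀)) (Q : Place Qbar (FB F₀)) {s s' : FB F₀}
    (hs : s ∈ riemannRochSpace A) (hs' : s' ∈ riemannRochSpace A) :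
    secVal A Q (s + s') = secVal A Q s + secVal A Q s' :=
  H8158.secVal_add A Q hs hs'

theorem secVal_smul (A : Divisor Qbar (FB F₀)) (Q : Place Qbar (FB F₀)) (c : Qbar) {s : FB F₀}
    (hs : s ∈ riemannRochSpace A) :
    secVal A Q (algebraMap Qbar (FB F₀) c * s) = c * secVal A Q s :=
  H8158.secVal_smul A Q c hs

/-- `secVal` is multiplicative. -/
theorem secVal_mul (A A' : Divisor Qbar (FB F₀)) (Q : Place Qbar (FB F₀)) {s s' : FB F₀}
    (hs : s ∈ riemannRochSpace A) (hs' : s' ∈ riemannRochSpace A') :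
    secVal (A + A') Q (s * s') = secVal A Q s * secVal A' Q s' :=
  H8158.secVal_mul A A' Q hs hs'

/-- The kernel of `secVal A Q` on `L(A)` is `L(A − Q)`. -/
theorem secVal_eq_zero_iff (A : Divisor Qbar (FB F₀)) (Q : Place Qbar (FB F₀)) {s : FB F₀}
    (hs : s ∈ riemannRochSpace A) :
    secVal A Q s = 0 ↔ s ∈ riemannRochSpace (A - pt Q) :=
  H8158.secVal_eq_zero_iff A Q hs

/-- `xphi S Q` is a system of projective coordinates of `Q`: its height is `hX`. -/
theorem ht_xphi (S : Setup F₀) (Q : Place Qbar (FB F₀)) : ht (xphi S Q) = hX S.φ Q :=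
  H8158.ht_xphi S Q

theorem xphi_ne_zero (S : Setup F₀) (Q : Place Qbar (FB F₀)) : xphi S Q ≠ 0 :=
  H8158.xphi_ne_zero S Q

/-- (M): the pairing vector computes the Δ-height (minors for `P ≠ Q`, Gauss vector for `P = Q`). -/
theorem ht_Mvec (S : Setup F₀) (P Q : Place Qbar (FB F₀)) :
    ht (Mvec S P Q) = hX S.φ P + hX S.φ Q - delta S.φ P Q :=
  H8158.ht_Mvec S P Q

theorem Mvec_ne_zero (S : Setup F₀) (P Q : Place Qbar (FB F₀)) : Mvec S P Q ≠ 0 :=
  H8158.Mvec_ne_zero S P Q

/-- [glue] symmetry of the Δ-height (same statement as `H.delta_symm`). -/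
theorem delta_symm (S : Setup F₀) (P Q : Place Qbar (FB F₀)) :
    delta S.φ P Q = delta S.φ Q P :=
  H8158.delta_symm S P Q

/-! ## CG2, CG3 — geometry of the embedded curve -/

/-- CG2 (SURJ): the sections `s_β(x(P_1), .., x(P_k))` span `L(N P₀ − Σ P_i)`, for ALL `k`-tuples of
places (repetitions and `P₀` allowed). -/
theorem span_sgen (S : Setup F₀) (k N : ℕ)
    (hN : (k + 1) * S.m + 2 * genusFF Qbar (FB F₀) ≤ N) (P : Fin k → Place Qbar (FB F₀)) :
    Submodule.span Qbar (Set.range (sgen S k N fun i => xphi S (P i))) =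
      riemannRochSpace (lvlDiv S N - ∑ i, pt (P i)) :=
  H8196.span_sgen S k N hN P

/-- CG3: the cone over the embedded curve is closed: a nonzero point killed by all homogeneous
relations between the `φ_j` is a multiple of `xphi S P` for a place `P` (possibly `P₀`). -/
theorem cone_closed (S : Setup F₀) (y : Fin (S.r + 1) → Qbar) (hy : y ≠ 0)
    (h : ∀ G : MvPolynomial (Fin (S.r + 1)) Qbar, (∃ n, G.IsHomogeneous n) →
      MvPolynomial.aeval S.φ G = 0 → MvPolynomial.eval y G = 0) :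
    ∃ (P : Place Qbar (FB F₀)) (c : Qbar), c ≠ 0 ∧ y = c • xphi S P :=
  H598.cone_closed S y hy h

/-! ## HG — heights -/

/-- HG1 (PT): additivity of the point heights in the level. -/
theorem H_add (S : Setup F₀) (a b : ℕ) (ha : 2 * genusFF Qbar (FB F₀) ≤ a)
    (hb : 2 * genusFF Qbar (FB F₀) ≤ b) :
    ∃ C : ℝ, ∀ Q : Place Qbar (FB F₀),
      |ht (xvec S (a + b) Q) - ht (xvec S a Q) - ht (xvec S b Q)| ≤ C :=
  H2196.H_add_of ⟨fun A Q _ _ hs hs' => secVal_add A Q hs hs', fun A Q c _ hs => secVal_smul A Q c hs,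
    fun A A' Q _ _ hs hs' => secVal_mul A A' Q hs hs', fun A Q _ hs => secVal_eq_zero_iff A Q hs⟩ S a b ha hb

/-- HG1: the level-`m` height in the basis `ψ^m` is `hX` up to `O(1)`. -/
theorem xvec_m_sub (S : Setup F₀) :
    ∃ C : ℝ, ∀ Q : Place Qbar (FB F₀), |ht (xvec S S.m Q) - hX S.φ Q| ≤ C :=
  H3566.xvec_m_sub_of S (ht_xphi S)

/-- HG1 [glue]: `δ(P, P₀) ≥ hX(P)/m − C`. -/
theorem delta_base_ge (S : Setup F₀) :
    ∃ C : ℝ, ∀ P : Place Qbar (FB F₀), (1 / (S.m : ℝ)) * hX S.φ P - C ≤ delta S.φ P S.P₀ :=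
  H3566.delta_base_ge_of S (ht_xphi S) (ht_Mvec S) (fun a b ha hb => H_add S a b ha hb)

/-- HG1 [glue]: the height of the coefficient vector does not depend on the level, up to `O(1)`. -/
theorem coords_level (S : Setup F₀) (n N : ℕ) (hnN : n ≤ N) :
    ∃ C : ℝ, ∀ a : FB F₀, a ∈ V S n → |ht (coords S N a) - ht (coords S n a)| ≤ C :=
  H3566.coords_level S n N hnN

/-- HG2 (CERT_k): the `r`-minors (`r = d_N − k`) of the matrix of the sections `s_β(y)` have no common
zero on the product of cones; hence their height is `≥ r · Σ ht(y_i) − C`. -/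
theorem cert_minors (S : Setup F₀) (k N : ℕ)
    (hN : (k + 1) * S.m + 2 * genusFF Qbar (FB F₀) ≤ N) :
    ∃ C : ℝ, ∀ P : Fin k → Place Qbar (FB F₀),
      ((dim S N - k : ℕ) : ℝ) * ∑ i, ht (xphi S (P i)) ≤
        ht (fun α : (Fin (dim S N - k) → Fin (dim S N)) ×
            (Fin (dim S N - k) →
              (Fin k → Fin (S.r + 1) × Fin (S.r + 1)) × Fin (dim S (N - k * S.m))) =>
          Matrix.det (Matrix.of fun i j =>
            coords S N (sgen S k N (fun i => xphi S (P i)) (α.2 j)) (α.1 i))) + C :=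
  H7236.cert_minors_of S k N hN (span_sgen S k N hN) (cone_closed S) (xphi_ne_zero S)



/-- HG5 (S) [glue]: `η_N(Z_n(a)) = d_{N−n} · h_n(a) + O(1)`. -/
theorem eta_mul (S : Setup F₀) (n N : ℕ) (hnN : n ≤ N) :
    ∃ C : ℝ, ∀ a : FB F₀, a ∈ V S n → a ≠ 0 →
      |eta S N (divF a + lvlDiv S n) - (dim S (N - n) : ℝ) * ht (coords S n a)| ≤ C :=
  H756.eta_mul S n N hnN


/-- HG7 [glue]. -/
theorem etaSub_bot (S : Setup F₀) (N : ℕ) : etaSub S N ⊥ = 0 :=
  H4977.etaSub_bot S N

/-- HG7 [glue]: the Plücker height of a line is the height of a generator. -/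
theorem etaSub_line (S : Setup F₀) (N : ℕ) (a : FB F₀) (ha : a ≠ 0) :
    etaSub S N (Submodule.span Qbar {a}) = ht (coords S N a) :=
  H4977.etaSub_line S N a ha

/-- HG7 [glue]. -/
theorem eta_zero (S : Setup F₀) (N : ℕ) : eta S N 0 = 0 :=
  H4977.eta_zero S N

end Fermat.Agent.S17.PLK
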