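/-
S17 / PLK — leaf HG4 `eta_add_pt` (A), part 2: curve-side facts (helper576).
Uses the frozen statements of FND/Skel, PLK/Skel (CG1, CG2) as black boxes.  Complete proofs in this file.
-/
import Fermat.Agent.S17.PLK.SkelBase
import Fermat.Agent.S17.PLK.HG4LA576

set_option autoImplicit false

noncomputable section

open AlgebraicCurve ModularCurve

namespace Fermat.Agent.S17.PLK.H576

open Fermat.Agent.S17.FND Fermat.Agent.S17.H Fermat.Agent.S17.HT Fermat.Agent.S17.PLK

variable {F₀ : IntermediateField ℚ (LaurentSeries ℚ)}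
  [IsCurveOver Qbar (FB F₀)] [Algebra.EssFiniteType Qbar (FB F₀)]

/-! ### Coordinates -/

/-- The coordinate isomorphism of `V_N` in the basis `ψ^N`. -/
def coordsL (S : Setup F₀) (N : ℕ) : V S N ≃ₗ[Qbar] (Fin (dim S N) → Qbar) :=
  (lvlBasis S N).equivFun

theorem coords_eq (S : Setup F₀) (N : ℕ) {s : FB F₀} (h : s ∈ V S N) :
    coords S N s = coordsL S N ⟨s, h⟩ := by
  unfold coords coordsL
  rw [dif_pos h]
  rfl

/-- Coordinates on a subspace of `V_N`, as a linear map. -/
def coordsW (S : Setup F₀) (N : ℕ) (W : Submodule Qbar (FB F₀)) (hW : W ≤ V S N) :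
    W →ₗ[Qbar] (Fin (dim S N) → Qbar) :=
  (coordsL S N).toLinearMap ∘ₗ Submodule.inclusion hW

theorem coordsW_apply (S : Setup F₀) (N : ℕ) (W : Submodule Qbar (FB F₀)) (hW : W ≤ V S N)
    (w : W) : coordsW S N W hW w = coords S N (w : FB F₀) := by
  rw [coords_eq S N (hW w.2)]
  rfl

theorem coordsW_injective (S : Setup F₀) (N : ℕ) (W : Submodule Qbar (FB F₀)) (hW : W ≤ V S N) :
    Function.Injective (coordsW S N W hW) := by
  unfold coordsW
  rw [LinearMap.coe_comp]
  exact (coordsL S N).injective.comp (Submodule.inclusion_injective hW)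

/-- `etaSub` computed in any basis. -/
theorem etaSub_eq_of_basis (S : Setup F₀) (N : ℕ) (W : Submodule Qbar (FB F₀)) (hW : W ≤ V S N)
    [Module.Finite Qbar W] {n : ℕ} (e : Module.Basis (Fin n) Qbar W) :
    etaSub S N W = ht (plVec fun i => coords S N ((e i : W) : FB F₀)) := by
  have hfin : Module.Finite Qbar W := inferInstance
  unfold etaSub
  rw [dif_pos hfin]
  have h := ht_plVec_basis_indep (coordsW S N W hW) (Module.finBasis Qbar W) e
  simp only [coordsW_apply] at h
  exact h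

/-- `etaSub` computed from any linearly independent spanning family. -/
theorem etaSub_eq_of_family (S : Setup F₀) (N : ℕ) (W : Submodule Qbar (FB F₀)) (hW : W ≤ V S N)
    {n : ℕ} (b : Fin n → FB F₀) (hli : LinearIndependent Qbar b)
    (hsp : Submodule.span Qbar (Set.range b) = W) :
    etaSub S N W = ht (plVec fun i => coords S N (b i)) := by
  subst hsp
  haveI : Module.Finite Qbar (Submodule.span Qbar (Set.range b)) :=
    Module.Finite.span_of_finite Qbar (Set.finite_range b)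
  rw [etaSub_eq_of_basis S N _ hW (Module.Basis.span hli)]
  congr 2
  funext i
  rw [Module.Basis.span_apply]

/-! ### Riemann–Roch spaces -/

theorem rr_mono {D D' : Divisor Qbar (FB F₀)} (h : D ≤ D') :
    riemannRochSpace D ≤ riemannRochSpace D' := by
  intro f hf
  rw [mem_riemannRochSpace_iff] at hf ⊢
  intro v
  rcases hf v with h0 | h1
  · exact Or.inl h0
  · refine Or.inr (le_trans ?_ h1)
    have := h v
    omega

theorem degree_lvlDiv (S : Setup F₀) (n : ℕ) : Divisor.degree (lvlDiv S n) = n := by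
  show Divisor.degree ((n : ℤ) • pt S.P₀) = n
  rw [map_zsmul, degree_pt]
  simp

theorem degree_sum_pt {k : ℕ} (P : Fin k → Place Qbar (FB F₀)) :
    Divisor.degree (∑ i, pt (P i)) = k := by
  rw [map_sum]
  simp only [degree_pt]
  simp

theorem lvlDiv_add (S : Setup F₀) (a b : ℕ) : lvlDiv S (a + b) = lvlDiv S a + lvlDiv S b := by
  simp only [lvlDiv, Nat.cast_add, add_smul]

theorem lvlDiv_mul (S : Setup F₀) (k n : ℕ) : lvlDiv S (k * n) = k • lvlDiv S n := by
  simp only [lvlDiv, Nat.cast_mul, mul_smul, natCast_zsmul]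

theorem pt_nonneg (P : Place Qbar (FB F₀)) : (0 : Divisor Qbar (FB F₀)) ≤ pt P := by
  intro Q
  by_cases h : P = Q
  · subst h
    simp
  · simp [Finsupp.single_apply, h]

/-- Enumeration of an effective divisor. -/
theorem exists_enum : ∀ (n : ℕ) (E : Divisor Qbar (FB F₀)), 0 ≤ E → Divisor.degree E = n →
    ∃ P : Fin n → Place Qbar (FB F₀), E = ∑ i, pt (P i) := by
  intro n
  induction n with
  | zero =>
    intro E hE hd
    refine ⟨Fin.elim0, ?_⟩
    rw [eq_zero_of_nonneg_of_degree hE (by simpa using hd)]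
    simp
  | succ n ih =>
    intro E hE hd
    have hne : E ≠ 0 := by
      rintro rfl
      rw [map_zero] at hd
      have : (0 : ℤ) < ((n + 1 : ℕ) : ℤ) := by positivity
      omega
    obtain ⟨P, hP⟩ : ∃ P, E P ≠ 0 := by
      by_contra h
      push_neg at h
      exact hne (Finsupp.ext h)
    have hP0 : (0 : ℤ) ≤ E P := hE P
    have hE' : 0 ≤ E - pt P := by
      intro Q
      by_cases hQ : P = Q
      · subst hQ
        simp
        omega
      · have := hE Q
        simpa [Finsupp.single_apply, hQ] using this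
    have hd' : Divisor.degree (E - pt P) = n := by
      rw [map_sub, degree_pt, hd]
      push_cast
      ring
    obtain ⟨P', hP'⟩ := ih (E - pt P) hE' hd'
    refine ⟨Fin.cons P P', ?_⟩
    rw [Fin.sum_univ_succ]
    simp only [Fin.cons_zero, Fin.cons_succ]
    rw [← hP']
    abel

theorem Lam_sum_pt (δ : Place Qbar (FB F₀) → Place Qbar (FB F₀) → ℝ) {k : ℕ}
    (P : Fin k → Place Qbar (FB F₀)) (Q : Place Qbar (FB F₀)) :
    Lam δ (∑ i, pt (P i)) (pt Q) = ∑ i, δ (P i) Q := by
  have key : ∀ (P' : Place Qbar (FB F₀)) (n : ℤ),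
      ((pt Q : Divisor Qbar (FB F₀)).sum fun Q' m => (n : ℝ) * (m : ℝ) * δ P' Q') =
        (n : ℝ) * δ P' Q := by
    intro P' n
    rw [Finsupp.sum_single_index] <;> simp
  unfold Lam
  simp only [key]
  rw [← Finsupp.sum_finset_sum_index]
  · refine Finset.sum_congr rfl fun i _ => ?_
    rw [Finsupp.sum_single_index] <;> simp
  · intro a
    simp
  · intro a b₁ b₂
    push_cast
    ring

/-! ### `secVal` calculus -/

/-- `secVal A Q` as a linear form on `L(A)`. -/
def secValL (A : Divisor Qbar (FB F₀)) (Q : Place Qbar (FB F₀)) :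
    riemannRochSpace A →ₗ[Qbar] Qbar where
  toFun s := secVal A Q (s : FB F₀)
  map_add' s t := secVal_add A Q s.2 t.2
  map_smul' c s := by
    have h := secVal_smul A Q c s.2
    simp only [RingHom.id_apply, smul_eq_mul]
    rw [← h, Submodule.coe_smul, Algebra.smul_def]

theorem secValL_apply (A : Divisor Qbar (FB F₀)) (Q : Place Qbar (FB F₀))
    (s : riemannRochSpace A) : secValL A Q s = secVal A Q (s : FB F₀) := rfl

theorem secVal_sub (A : Divisor Qbar (FB F₀)) (Q : Place Qbar (FB F₀)) {s s' : FB F₀}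
    (hs : s ∈ riemannRochSpace A) (hs' : s' ∈ riemannRochSpace A) :
    secVal A Q (s - s') = secVal A Q s - secVal A Q s' :=
  (secValL A Q).map_sub ⟨s, hs⟩ ⟨s', hs'⟩

theorem algebraMap_mul_mem {D : Divisor Qbar (FB F₀)} (c : Qbar) {s : FB F₀}
    (hs : s ∈ riemannRochSpace D) : algebraMap Qbar (FB F₀) c * s ∈ riemannRochSpace D := by
  rw [← Algebra.smul_def]
  exact Submodule.smul_mem _ _ hs

theorem phi_mem (S : Setup F₀) (j : Fin (S.r + 1)) : S.φ j ∈ V S S.m := by
  have h := S.basis.2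
  show S.φ j ∈ riemannRochSpace ((S.m : ℤ) • pt S.P₀)
  rw [← h]
  exact Submodule.subset_span (Set.mem_range_self j)

theorem psi_mem (S : Setup F₀) (n : ℕ) (j : Fin (dim S n)) : psi S n j ∈ V S n :=
  (lvlBasis S n j).2

theorem bsec_mem_V (S : Setup F₀) (y : Fin (S.r + 1) → Qbar)
    (c : Fin (S.r + 1) × Fin (S.r + 1)) : bsec S y c ∈ V S S.m :=
  Submodule.sub_mem _ (algebraMap_mul_mem _ (phi_mem S _)) (algebraMap_mul_mem _ (phi_mem S _))

theorem secVal_bsec (S : Setup F₀) (y : Fin (S.r + 1) → Qbar)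
    (c : Fin (S.r + 1) × Fin (S.r + 1)) (Q : Place Qbar (FB F₀)) :
    secVal (lvlDiv S S.m) Q (bsec S y c) = y c.1 * xphi S Q c.2 - y c.2 * xphi S Q c.1 := by
  unfold bsec
  rw [secVal_sub _ _ (algebraMap_mul_mem _ (phi_mem S _)) (algebraMap_mul_mem _ (phi_mem S _)),
    secVal_smul _ _ _ (phi_mem S _), secVal_smul _ _ _ (phi_mem S _)]
  rfl

theorem bsec_mem (S : Setup F₀) (P : Place Qbar (FB F₀)) (c : Fin (S.r + 1) × Fin (S.r + 1)) :
    bsec S (xphi S P) c ∈ riemannRochSpace (lvlDiv S S.m - pt P) := by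
  rw [← secVal_eq_zero_iff (lvlDiv S S.m) P (bsec_mem_V S _ c), secVal_bsec]
  ring

theorem one_mem_RR_zero : (1 : FB F₀) ∈ riemannRochSpace (0 : Divisor Qbar (FB F₀)) := by
  rw [mem_riemannRochSpace_iff]
  intro v
  right
  have h := ord_algebraMap v (1 : Qbar)
  rw [map_one] at h
  rw [h]
  simp

theorem secVal_zero_one (Q : Place Qbar (FB F₀)) :
    secVal (0 : Divisor Qbar (FB F₀)) Q 1 = 1 := by
  unfold secVal
  have h := evalAt_algebraMap Q (1 : Qbar)
  rw [map_one] at h
  simpa using h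

theorem prod_mem_RR {ι : Type*} (t : Finset ι) (A : ι → Divisor Qbar (FB F₀)) (s : ι → FB F₀)
    (hs : ∀ i ∈ t, s i ∈ riemannRochSpace (A i)) :
    ∏ i ∈ t, s i ∈ riemannRochSpace (∑ i ∈ t, A i) := by
  classical
  induction t using Finset.induction_on with
  | empty => simpa using one_mem_RR_zero
  | insert a t ha ih =>
    rw [Finset.prod_insert ha, Finset.sum_insert ha]
    exact mul_mem_RR (hs a (Finset.mem_insert_self a t))
      (ih fun i hi => hs i (Finset.mem_insert_of_mem hi))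

theorem secVal_prod {ι : Type*} (t : Finset ι) (A : ι → Divisor Qbar (FB F₀)) (s : ι → FB F₀)
    (Q : Place Qbar (FB F₀)) (hs : ∀ i ∈ t, s i ∈ riemannRochSpace (A i)) :
    secVal (∑ i ∈ t, A i) Q (∏ i ∈ t, s i) = ∏ i ∈ t, secVal (A i) Q (s i) := by
  classical
  induction t using Finset.induction_on with
  | empty => simpa using secVal_zero_one Q
  | insert a t ha ih =>
    rw [Finset.prod_insert ha, Finset.sum_insert ha, Finset.prod_insert ha,
      secVal_mul _ _ Q (hs a (Finset.mem_insert_self a t))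
        (prod_mem_RR t A s fun i hi => hs i (Finset.mem_insert_of_mem hi)),
      ih fun i hi => hs i (Finset.mem_insert_of_mem hi)]

/-! ### The sections `sgen` -/

theorem sgenDiv_eq (S : Setup F₀) {k N : ℕ} (h : k * S.m ≤ N) (P : Fin k → Place Qbar (FB F₀)) :
    ∑ i, (lvlDiv S S.m - pt (P i)) + lvlDiv S (N - k * S.m) = lvlDiv S N - ∑ i, pt (P i) := by
  have h1 : lvlDiv S N = lvlDiv S (k * S.m) + lvlDiv S (N - k * S.m) := by
    rw [← lvlDiv_add]
    congr 1
    omega
  rw [h1, lvlDiv_mul, Finset.sum_sub_distrib, Finset.sum_const, Finset.card_univ, Fintype.card_fin]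
  abel

theorem sgen_mem (S : Setup F₀) {k N : ℕ} (h : k * S.m ≤ N) (P : Fin k → Place Qbar (FB F₀))
    (β : (Fin k → Fin (S.r + 1) × Fin (S.r + 1)) × Fin (dim S (N - k * S.m))) :
    sgen S k N (fun i => xphi S (P i)) β ∈ riemannRochSpace (lvlDiv S N - ∑ i, pt (P i)) := by
  rw [← sgenDiv_eq S h P]
  exact mul_mem_RR (prod_mem_RR _ _ _ fun i _ => bsec_mem S (P i) (β.1 i)) (psi_mem S _ β.2)

theorem secVal_sgen (S : Setup F₀) {k N : ℕ} (h : k * S.m ≤ N) (P : Fin k → Place Qbar (FB F₀))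
    (Q : Place Qbar (FB F₀))
    (β : (Fin k → Fin (S.r + 1) × Fin (S.r + 1)) × Fin (dim S (N - k * S.m))) :
    secVal (lvlDiv S N - ∑ i, pt (P i)) Q (sgen S k N (fun i => xphi S (P i)) β) =
      (∏ i, Mvec S (P i) Q (β.1 i)) * xvec S (N - k * S.m) Q β.2 := by
  rw [← sgenDiv_eq S h P]
  unfold sgen
  rw [secVal_mul _ _ Q (prod_mem_RR _ _ _ fun i _ => bsec_mem S (P i) (β.1 i)) (psi_mem S _ β.2),
    secVal_prod _ _ _ Q fun i _ => bsec_mem S (P i) (β.1 i)]
  rfl

theorem xvec_ne_zero (S : Setup F₀) (n : ℕ) (hn : 2 * genusFF Qbar (FB F₀) ≤ n)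
    (Q : Place Qbar (FB F₀)) : xvec S n Q ≠ 0 := by
  intro h0
  have hzero : secValL (lvlDiv S n) Q = 0 := by
    apply (lvlBasis S n).ext
    intro j
    exact congrFun h0 j
  have hle : V S n ≤ riemannRochSpace (lvlDiv S n - pt Q) := by
    intro s hs
    rw [← secVal_eq_zero_iff (lvlDiv S n) Q hs]
    exact LinearMap.congr_fun hzero ⟨s, hs⟩
  have h1 := ell_sub_pt (D := lvlDiv S n) (by rw [degree_lvlDiv]; exact_mod_cast hn) Q
  haveI := finite_RR (lvlDiv S n - pt Q)
  have h2 : ell (lvlDiv S n) ≤ ell (lvlDiv S n - pt Q) := Submodule.finrank_mono hle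
  omega

/-! ### Multilinear expansion of `sgen` in the `y`-variables -/

/-- `b_c(y) = ∑_a y_a · bfun c a`. -/
def bfun (S : Setup F₀) (c : Fin (S.r + 1) × Fin (S.r + 1)) (a : Fin (S.r + 1)) : FB F₀ :=
  (if a = c.1 then S.φ c.2 else 0) - (if a = c.2 then S.φ c.1 else 0)

theorem bfun_mem (S : Setup F₀) (c : Fin (S.r + 1) × Fin (S.r + 1)) (a : Fin (S.r + 1)) :
    bfun S c a ∈ V S S.m := by
  unfold bfun
  refine Submodule.sub_mem _ ?_ ?_
  · split_ifs
    · exact phi_mem S _
    · exact Submodule.zero_mem _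
  · split_ifs
    · exact phi_mem S _
    · exact Submodule.zero_mem _

theorem bsec_eq_sum (S : Setup F₀) (y : Fin (S.r + 1) → Qbar)
    (c : Fin (S.r + 1) × Fin (S.r + 1)) :
    bsec S y c = ∑ a, algebraMap Qbar (FB F₀) (y a) * bfun S c a := by
  unfold bsec bfun
  simp only [mul_sub, mul_ite, mul_zero, Finset.sum_sub_distrib, Finset.sum_ite_eq',
    Finset.mem_univ, if_true]

theorem prod_bsec_eq_sum (S : Setup F₀) {k : ℕ} (y : Fin k → Fin (S.r + 1) → Qbar)
    (c : Fin k → Fin (S.r + 1) × Fin (S.r + 1)) :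
    ∏ i, bsec S (y i) (c i) = ∑ a : Fin k → Fin (S.r + 1),
      algebraMap Qbar (FB F₀) (∏ i, y i (a i)) * ∏ i, bfun S (c i) (a i) := by
  simp only [bsec_eq_sum]
  rw [Finset.prod_univ_sum]
  simp only [Fintype.piFinset_univ, Finset.prod_mul_distrib, map_prod]

/-- The constant sections in the expansion of `sgen`. -/
def cterm (S : Setup F₀) (k N : ℕ) (a : Fin k → Fin (S.r + 1))
    (β : (Fin k → Fin (S.r + 1) × Fin (S.r + 1)) × Fin (dim S (N - k * S.m))) : FB F₀ :=
  (∏ i, bfun S (β.1 i) (a i)) * psi S (N - k * S.m) β.2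

theorem cterm_mem (S : Setup F₀) {k N : ℕ} (h : k * S.m ≤ N) (a : Fin k → Fin (S.r + 1))
    (β : (Fin k → Fin (S.r + 1) × Fin (S.r + 1)) × Fin (dim S (N - k * S.m))) :
    cterm S k N a β ∈ V S N := by
  have h1 : lvlDiv S N = ∑ _i : Fin k, lvlDiv S S.m + lvlDiv S (N - k * S.m) := by
    rw [Finset.sum_const, Finset.card_univ, Fintype.card_fin, ← lvlDiv_mul, ← lvlDiv_add]
    congr 1
    omega
  show _ ∈ riemannRochSpace (lvlDiv S N)
  rw [h1]
  exact mul_mem_RR (prod_mem_RR _ _ _ fun i _ => bfun_mem S _ _) (psi_mem S _ _)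

theorem sgen_eq_sum (S : Setup F₀) (k N : ℕ) (y : Fin k → Fin (S.r + 1) → Qbar)
    (β : (Fin k → Fin (S.r + 1) × Fin (S.r + 1)) × Fin (dim S (N - k * S.m))) :
    sgen S k N y β = ∑ a : Fin k → Fin (S.r + 1),
      algebraMap Qbar (FB F₀) (∏ i, y i (a i)) * cterm S k N a β := by
  unfold sgen cterm
  rw [prod_bsec_eq_sum, Finset.sum_mul]
  exact Finset.sum_congr rfl fun a _ => by ring

/-! ### Linearity of the coordinates -/

theorem coords_coe (S : Setup F₀) (N : ℕ) (x : V S N) :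
    coords S N (x : FB F₀) = coordsL S N x := coords_eq S N x.2

theorem coords_sum_smul (S : Setup F₀) (N : ℕ) {ι : Type*} (t : Finset ι) (c : ι → Qbar)
    (s : ι → FB F₀) (hs : ∀ i, s i ∈ V S N) :
    coords S N (∑ i ∈ t, algebraMap Qbar (FB F₀) (c i) * s i) =
      ∑ i ∈ t, c i • coords S N (s i) := by
  have h1 : (∑ i ∈ t, algebraMap Qbar (FB F₀) (c i) * s i) =
      ((∑ i ∈ t, c i • (⟨s i, hs i⟩ : V S N) : V S N) : FB F₀) := by
    rw [Submodule.coe_sum]
    refine Finset.sum_congr rfl fun i _ => ?_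
    rw [Submodule.coe_smul, Algebra.smul_def]
  rw [h1, coords_coe, map_sum]
  refine Finset.sum_congr rfl fun i _ => ?_
  rw [map_smul, coords_eq S N (hs i)]

theorem coords_sgen (S : Setup F₀) {k N : ℕ} (h : k * S.m ≤ N) (y : Fin k → Fin (S.r + 1) → Qbar)
    (β : (Fin k → Fin (S.r + 1) × Fin (S.r + 1)) × Fin (dim S (N - k * S.m)))
    (j : Fin (dim S N)) :
    coords S N (sgen S k N y β) j =
      ∑ a : Fin k → Fin (S.r + 1), (∏ i, y i (a i)) * coords S N (cterm S k N a β) j := by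
  rw [sgen_eq_sum, coords_sum_smul S N _ _ _ (fun a => cterm_mem S h a β)]
  simp [Finset.sum_apply]

theorem coords_linearIndependent (S : Setup F₀) (N : ℕ) {ι : Type*} (b : ι → FB F₀)
    (hb : ∀ i, b i ∈ V S N) (hli : LinearIndependent Qbar b) :
    LinearIndependent Qbar (fun i => coords S N (b i)) := by
  have h1 : LinearIndependent Qbar (fun i => (⟨b i, hb i⟩ : V S N)) := by
    apply LinearIndependent.of_comp (V S N).subtype
    exact hli
  have h2 := h1.map' (coordsL S N).toLinearMap (LinearEquiv.ker _)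
  have h3 : (fun i => coords S N (b i)) = (coordsL S N).toLinearMap ∘ fun i => (⟨b i, hb i⟩ : V S N) := by
    funext i
    exact coords_eq S N (hb i)
  rw [h3]
  exact h2

theorem coords_mem_span (S : Setup F₀) (N : ℕ) {n : ℕ} (b : Fin n → FB F₀)
    (hb : ∀ i, b i ∈ V S N) {x : FB F₀} (hx : x ∈ Submodule.span Qbar (Set.range b)) :
    coords S N x ∈ Submodule.span Qbar (Set.range fun i => coords S N (b i)) := by
  obtain ⟨c, rfl⟩ := (Submodule.mem_span_range_iff_exists_fun Qbar).1 hx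
  have h1 : (∑ i, c i • b i) = ∑ i, algebraMap Qbar (FB F₀) (c i) * b i := by
    simp [Algebra.smul_def]
  rw [h1, coords_sum_smul S N _ _ _ hb]
  exact Submodule.sum_mem _ fun i _ => Submodule.smul_mem _ _ (Submodule.subset_span ⟨i, rfl⟩)

/-- The evaluation functional `secVal A Q` in `ψ^N`-coordinates. -/
theorem exists_tau (S : Setup F₀) (N : ℕ) (A : Divisor Qbar (FB F₀))
    (hA : riemannRochSpace A ≤ V S N) (Q : Place Qbar (FB F₀)) :
    ∃ τ : Fin (dim S N) → Qbar, ∀ w ∈ riemannRochSpace A,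
      ∑ l, τ l * coords S N w l = secVal A Q w := by
  classical
  obtain ⟨g, hg⟩ := LinearMap.exists_leftInverse_of_injective (coordsW S N _ hA)
    (LinearMap.ker_eq_bot.2 (coordsW_injective S N _ hA))
  let T : (Fin (dim S N) → Qbar) →ₗ[Qbar] Qbar := secValL A Q ∘ₗ g
  refine ⟨fun l => T (fun j => if l = j then 1 else 0), fun w hw => ?_⟩
  have h1 : T (coords S N w) = secVal A Q w := by
    have h2 : g (coordsW S N _ hA ⟨w, hw⟩) = ⟨w, hw⟩ := LinearMap.congr_fun hg ⟨w, hw⟩
    rw [coordsW_apply] at h2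
    show secValL A Q (g (coords S N w)) = _
    rw [h2]
    rfl
  rw [← h1, LinearMap.pi_apply_eq_sum_univ T (coords S N w)]
  refine Finset.sum_congr rfl fun l _ => ?_
  rw [smul_eq_mul, mul_comm]

/-! ### Dimensions -/

theorem degree_A (S : Setup F₀) (N : ℕ) {k : ℕ} (P : Fin k → Place Qbar (FB F₀)) :
    Divisor.degree (lvlDiv S N - ∑ i, pt (P i)) = (N : ℤ) - k := by
  rw [map_sub, degree_lvlDiv, degree_sum_pt]

theorem one_le_m (S : Setup F₀) : 2 * genusFF Qbar (FB F₀) + 1 ≤ S.m := S.hm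

theorem ell_A (S : Setup F₀) {k N : ℕ} (hN : (k + 1) * S.m + 2 * genusFF Qbar (FB F₀) ≤ N)
    (P : Fin k → Place Qbar (FB F₀)) :
    ell (lvlDiv S N - ∑ i, pt (P i)) + k = dim S N := by
  have hm := one_le_m S
  have hk : k + 1 ≤ (k + 1) * S.m := Nat.le_mul_of_pos_right _ (by omega)
  have h1 := ell_eq_of_degree_gt (D := lvlDiv S N - ∑ i, pt (P i)) (by rw [degree_A]; omega)
  have h2 := ell_eq_of_degree_gt (D := lvlDiv S N) (by rw [degree_lvlDiv]; omega)
  rw [degree_A] at h1
  rw [degree_lvlDiv] at h2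
  unfold dim
  omega

/-- A spanning family of a space of dimension `n` contains `n` independent vectors. -/
theorem exists_fin_subfamily {K V' : Type*} [Field K] [AddCommGroup V'] [Module K V'] {ι : Type}
    [Finite ι] (v : ι → V') {n : ℕ}
    (hn : Module.finrank K (Submodule.span K (Set.range v)) = n) :
    ∃ a : Fin n → ι, LinearIndependent K (v ∘ a) := by
  obtain ⟨κ, a, ha, hsp, hli⟩ := exists_linearIndependent' K v
  haveI : Finite κ := Finite.of_injective a ha
  haveI := Fintype.ofFinite κ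
  have hcard : Fintype.card κ = n := by
    rw [← finrank_span_eq_card hli, hsp, hn]
  let e : Fin n ≃ κ := (Fintype.equivFinOfCardEq hcard).symm
  exact ⟨a ∘ e, hli.comp e e.injective⟩

/-! ### The data of the step `E ↦ E + Q` -/

theorem exists_data (S : Setup F₀) {k N : ℕ}
    (hN : (k + 1) * S.m + 2 * genusFF Qbar (FB F₀) ≤ N) (P : Fin k → Place Qbar (FB F₀))
    (Q : Place Qbar (FB F₀)) {r : ℕ} (hr : dim S N - k = r + 1) :
    ∃ (B : Fin (r + 1) → Fin (dim S N) → Qbar) (τ : Fin (dim S N) → Qbar),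
      eta S N (∑ i, pt (P i)) = ht (plVec B) ∧
      eta S N (∑ i, pt (P i) + pt Q) = ht (plVec fun i : Fin r => B i.succ) ∧
      LinearIndependent Qbar B ∧
      (∀ i : Fin r, ∑ l, τ l * B i.succ l = 0) ∧
      (∑ l, τ l * B 0 l ≠ 0) ∧
      (∀ β, coords S N (sgen S k N (fun i => xphi S (P i)) β) ∈
        Submodule.span Qbar (Set.range B)) ∧
      (∀ β, ∑ l, τ l * coords S N (sgen S k N (fun i => xphi S (P i)) β) l =
        (∏ i, Mvec S (P i) Q (β.1 i)) * xvec S (N - k * S.m) Q β.2) ∧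
      ∃ Cc : Fin (r + 1) → (Fin k → Fin (S.r + 1) × Fin (S.r + 1)) × Fin (dim S (N - k * S.m)),
        LinearIndependent Qbar fun l => coords S N (sgen S k N (fun i => xphi S (P i)) (Cc l)) := by
  classical
  have hm := one_le_m S
  have hkm : k * S.m ≤ N := by
    have : (k + 1) * S.m = k * S.m + S.m := by ring
    omega
  have hk : k + 1 ≤ (k + 1) * S.m := Nat.le_mul_of_pos_right _ (by omega)
  have hAle : lvlDiv S N - ∑ i, pt (P i) ≤ lvlDiv S N :=
    sub_le_self _ (Finset.sum_nonneg fun i _ => pt_nonneg (P i))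
  have hWV : riemannRochSpace (lvlDiv S N - ∑ i, pt (P i)) ≤ V S N := rr_mono hAle
  have hW'W : riemannRochSpace (lvlDiv S N - ∑ i, pt (P i) - pt Q) ≤
      riemannRochSpace (lvlDiv S N - ∑ i, pt (P i)) := rr_mono (sub_le_self _ (pt_nonneg Q))
  have hellA : ell (lvlDiv S N - ∑ i, pt (P i)) + k = dim S N := ell_A S hN P
  have hellA' : ell (lvlDiv S N - ∑ i, pt (P i) - pt Q) + 1 = ell (lvlDiv S N - ∑ i, pt (P i)) :=
    ell_sub_pt (by rw [degree_A]; omega) Q
  have hfA : Module.finrank Qbar (riemannRochSpace (lvlDiv S N - ∑ i, pt (P i))) = r + 1 := by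
    show ell (lvlDiv S N - ∑ i, pt (P i)) = r + 1
    omega
  have hfA' : Module.finrank Qbar (riemannRochSpace (lvlDiv S N - ∑ i, pt (P i) - pt Q)) = r := by
    show ell (lvlDiv S N - ∑ i, pt (P i) - pt Q) = r
    omega
  haveI := finite_RR (lvlDiv S N - ∑ i, pt (P i))
  haveI := finite_RR (lvlDiv S N - ∑ i, pt (P i) - pt Q)
  -- a basis of `W' = L(A - Q)`
  let e' := Module.finBasisOfFinrankEq Qbar
    (riemannRochSpace (lvlDiv S N - ∑ i, pt (P i) - pt Q)) hfA'
  let b' : Fin r → FB F₀ := fun i => (e' i : FB F₀)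
  have hb'mem : ∀ i, b' i ∈ riemannRochSpace (lvlDiv S N - ∑ i, pt (P i) - pt Q) :=
    fun i => (e' i).2
  have hb'li : LinearIndependent Qbar b' :=
    e'.linearIndependent.map' (Submodule.subtype _) (Submodule.ker_subtype _)
  have hb'sp : Submodule.span Qbar (Set.range b') =
      riemannRochSpace (lvlDiv S N - ∑ i, pt (P i) - pt Q) := by
    have h2 := congrArg (Submodule.map (Submodule.subtype _)) e'.span_eq
    rw [Submodule.map_span, Submodule.map_subtype_top, ← Set.range_comp] at h2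
    exact h2
  -- a vector of `W` outside `W'`
  obtain ⟨w₀, hw₀, hw₀'⟩ : ∃ w ∈ riemannRochSpace (lvlDiv S N - ∑ i, pt (P i)),
      w ∉ riemannRochSpace (lvlDiv S N - ∑ i, pt (P i) - pt Q) := by
    by_contra hcon
    push_neg at hcon
    have : Module.finrank Qbar (riemannRochSpace (lvlDiv S N - ∑ i, pt (P i))) ≤
        Module.finrank Qbar (riemannRochSpace (lvlDiv S N - ∑ i, pt (P i) - pt Q)) :=
      Submodule.finrank_mono hcon
    omega
  let b : Fin (r + 1) → FB F₀ := Fin.cons w₀ b'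
  have hb0 : b 0 = w₀ := rfl
  have hbs : ∀ i : Fin r, b i.succ = b' i := fun i => rfl
  have hbli : LinearIndependent Qbar b := by
    rw [linearIndependent_finCons]
    exact ⟨hb'li, by rw [hb'sp]; exact hw₀'⟩
  have hbmem : ∀ i, b i ∈ riemannRochSpace (lvlDiv S N - ∑ i, pt (P i)) := by
    intro i
    refine Fin.cases ?_ (fun j => ?_) i
    · exact hw₀
    · exact hW'W (hb'mem j)
  have hbsp : Submodule.span Qbar (Set.range b) = riemannRochSpace (lvlDiv S N - ∑ i, pt (P i)) := by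
    apply Submodule.eq_of_le_of_finrank_eq
    · rw [Submodule.span_le]
      rintro _ ⟨i, rfl⟩
      exact hbmem i
    · rw [finrank_span_eq_card hbli, Fintype.card_fin, hfA]
  obtain ⟨τ, hτ⟩ := exists_tau S N (lvlDiv S N - ∑ i, pt (P i)) hWV Q
  refine ⟨fun i => coords S N (b i), τ, ?_, ?_, ?_, ?_, ?_, ?_, ?_, ?_⟩
  · exact etaSub_eq_of_family S N _ hWV b hbli hbsp
  · have h1 : lvlDiv S N - (∑ i, pt (P i) + pt Q) = lvlDiv S N - ∑ i, pt (P i) - pt Q := by abel
    unfold eta
    rw [h1]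
    exact etaSub_eq_of_family S N _ (hW'W.trans hWV) b' hb'li hb'sp
  · exact coords_linearIndependent S N b (fun i => hWV (hbmem i)) hbli
  · intro i
    rw [hτ _ (hbmem i.succ)]
    exact (secVal_eq_zero_iff _ Q (hbmem i.succ)).2 (hb'mem i)
  · rw [hτ _ (hbmem 0)]
    intro h0
    exact hw₀' ((secVal_eq_zero_iff _ Q hw₀).1 h0)
  · intro β
    apply coords_mem_span S N b (fun i => hWV (hbmem i))
    rw [hbsp]
    exact sgen_mem S hkm P β
  · intro β
    rw [hτ _ (sgen_mem S hkm P β)]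
    exact secVal_sgen S hkm P Q β
  · have hsp := span_sgen S k N hN P
    have hfin : Module.finrank Qbar
        (Submodule.span Qbar (Set.range (sgen S k N fun i => xphi S (P i)))) = r + 1 := by
      rw [hsp]
      exact hfA
    obtain ⟨a, ha⟩ := exists_fin_subfamily _ hfin
    exact ⟨a, coords_linearIndependent S N _ (fun l => hWV (sgen_mem S hkm P _)) ha⟩

end Fermat.Agent.S17.PLK.H576
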