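/-
S17 / PLK — leaf HG4 `eta_add_pt` (A), part 3: the two abstract height inequalities (helper576).
Black boxes: the frozen HT statements (through helper6026's `cramer_ht_le`, `ht_le_of_isMHFun`) and the
skeleton LA leaves `plVec_cons_mem_span`, `plVec_mul_apply`.  Complete proofs in this file.
-/
import Fermat.Agent.S17.PLK.SkelBase
import Fermat.Agent.S17.PLK.HG4LA576
import Fermat.Agent.S17.PLK.Engine6026

set_option autoImplicit false

noncomputable section

namespace Fermat.Agent.S17.PLK.H576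

open Fermat.Agent.S17.H Fermat.Agent.S17.HT Fermat.Agent.S17.PLK Fermat.Agent.S17.PLK6026

/-- Three blocks of variables. -/
def κ3 (A B C : Type) : Option Bool → Type
  | none => A
  | some true => B
  | some false => C

instance κ3.instFintype (A B C : Type) [Fintype A] [Fintype B] [Fintype C] :
    ∀ c, Fintype (κ3 A B C c)
  | none => ‹Fintype A›
  | some true => ‹Fintype B›
  | some false => ‹Fintype C›

/-- A point of the three blocks. -/
def vec3 {A B C : Type} (a : A → Qbar) (b : B → Qbar) (c : C → Qbar) :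
    (t : Option Bool) → κ3 A B C t → Qbar
  | none => a
  | some true => b
  | some false => c

theorem sum_vec3 {A B C : Type} (a : A → Qbar) (b : B → Qbar) (c : C → Qbar) (w : Option Bool → ℝ) :
    ∑ t : Option Bool, w t * ht (vec3 a b c t) =
      w none * ht a + w (some true) * ht b + w (some false) * ht c := by
  rw [Fintype.sum_option, Fintype.sum_bool]
  change w none * ht a + (w (some true) * ht b + w (some false) * ht c) = _
  ring

/-- The "≤" half: Cramer + contraction. -/
theorem upper_aux {A Cl : Type} [Fintype A] [Fintype Cl] (d r : ℕ) (cst : A → Cl → Fin d → Qbar) :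
    ∃ C : ℝ, ∀ (z : A → Qbar) (B : Fin (r + 1) → Fin d → Qbar) (p : Cl → Qbar) (τ : Fin d → Qbar),
      LinearIndependent Qbar B →
      (∀ i : Fin r, ∑ l, τ l * B i.succ l = 0) →
      (∑ l, τ l * B 0 l ≠ 0) →
      (∀ β, (fun j => ∑ a, z a * cst a β j) ∈ Submodule.span Qbar (Set.range B)) →
      (∀ β, ∑ l, τ l * ∑ a, z a * cst a β l = p β) →
      (∃ Cc : Fin (r + 1) → Cl,
        LinearIndependent Qbar fun l => (fun j => ∑ a, z a * cst a (Cc l) j)) →
      ht (fun α : (Fin (r + 1) → Fin d) × (Fin (r + 1) → Cl) =>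
          Matrix.det (Matrix.of fun i j => ∑ a, z a * cst a (α.2 j) (α.1 i))) +
        ht (plVec fun i : Fin r => B i.succ) ≤ (r : ℝ) * ht z + ht (plVec B) + ht p + C := by
  classical
  let T : Fin d → Cl → ((c : Option Bool) → κ3 A (Fin (r + 1) → Fin d) Cl c → Qbar) → Qbar :=
    fun i j x => ∑ a : A, x none a * cst a j i
  let u : (Fin r → Fin d) → Fin d →
      ((c : Option Bool) → κ3 A (Fin (r + 1) → Fin d) Cl c → Qbar) → Qbar :=
    fun f i x => x (some true) (Fin.cons i f)
  let π : Cl → ((c : Option Bool) → κ3 A (Fin (r + 1) → Fin d) Cl c → Qbar) → Qbar :=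
    fun j x => x (some false) j
  have hT : ∀ i j, IsMHFun (Pi.single none 1) (T i j) := fun i j =>
    IsMHFun.sum Finset.univ fun a _ =>
      (isMHFun_coord (κ := κ3 A (Fin (r + 1) → Fin d) Cl) (none : Option Bool) a).mul_const _
  have hu : ∀ l i, IsMHFun (Pi.single (some true) 1) (u l i) := fun l i =>
    isMHFun_coord (κ := κ3 A (Fin (r + 1) → Fin d) Cl) (some true : Option Bool) (Fin.cons i l)
  have hπ : ∀ j, IsMHFun (Pi.single (some false) 1) (π j) := fun j =>
    isMHFun_coord (κ := κ3 A (Fin (r + 1) → Fin d) Cl) (some false : Option Bool) j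
  obtain ⟨C, hC⟩ := cramer_ht_le (r + 1) (Pi.single none 1) (Pi.single (some true) 1)
    (Pi.single (some false) 1) T hT u hu π hπ
  refine ⟨C, fun z B p τ hB hτ0 ht0 hspan hτT hCc => ?_⟩
  have hv : plVec (fun i : Fin r => B i.succ) ≠ 0 :=
    plVec_ne_zero _ (hB.comp Fin.succ (Fin.succ_injective _))
  have hminor : ∃ α, minorFun (r + 1) T α (vec3 z (plVec B) p) ≠ 0 := by
    obtain ⟨Cc, hCc⟩ := hCc
    have h1 := plVec_ne_zero _ hCc
    obtain ⟨f, hf⟩ : ∃ f, plVec (fun l => (fun j => ∑ a, z a * cst a (Cc l) j)) f ≠ 0 := by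
      by_contra hcon
      push_neg at hcon
      exact h1 (funext hcon)
    refine ⟨(f, Cc), ?_⟩
    have h2 : minorFun (r + 1) T (f, Cc) (vec3 z (plVec B) p) =
        plVec (fun l => (fun j => ∑ a, z a * cst a (Cc l) j)) f := by
      unfold minorFun plVec
      rw [← Matrix.det_transpose]
      rfl
    rw [h2]
    exact hf
  have h := hC (vec3 z (plVec B) p) (∑ l, τ l * B 0 l) (plVec fun i : Fin r => B i.succ) τ
    (Submodule.span Qbar (Set.range B)) ((finrank_range_le_card B).trans (by simp))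
    (fun j => hspan j) (fun l => plVec_cons_mem_span B l) (fun j => hτT j)
    (fun l => plVec_contract' B τ hτ0 l) ht0 hv hminor
  have hs := sum_vec3 z (plVec B) p (fun c => (((Pi.single (some false) 1 : Option Bool → ℕ) c +
    ((r + 1 - 1) * (Pi.single none 1 : Option Bool → ℕ) c +
      (Pi.single (some true) 1 : Option Bool → ℕ) c) : ℕ) : ℝ))
  rw [hs] at h
  simp at h
  have h3 : (fun α : (Fin (r + 1) → Fin d) × (Fin (r + 1) → Cl) =>
      minorFun (r + 1) T α (vec3 z (plVec B) p)) =
      fun α => Matrix.det (Matrix.of fun i j => ∑ a, z a * cst a (α.2 j) (α.1 i)) := rfl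
  rw [h3] at h
  linarith

/-- The "≥" half: Laplace expansion along the contraction. -/
theorem lower_aux {A Cl : Type} [Fintype A] [Fintype Cl] (d r : ℕ) (cst : A → Cl → Fin d → Qbar) :
    ∃ C : ℝ, ∀ (z : A → Qbar) (B : Fin (r + 1) → Fin d → Qbar) (p : Cl → Qbar) (τ : Fin d → Qbar),
      LinearIndependent Qbar B →
      (∀ i : Fin r, ∑ l, τ l * B i.succ l = 0) →
      (∑ l, τ l * B 0 l ≠ 0) →
      (∀ β, (fun j => ∑ a, z a * cst a β j) ∈ Submodule.span Qbar (Set.range B)) →
      (∀ β, ∑ l, τ l * ∑ a, z a * cst a β l = p β) →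
      p ≠ 0 →
      ht p + ht (plVec B) ≤ ht z + ht (plVec fun i : Fin r => B i.succ) + C := by
  classical
  let G : Cl × (Fin (r + 1) → Fin d) →
      ((c : Option Bool) → κ3 A (Fin r → Fin d) Unit c → Qbar) → Qbar :=
    fun J x => ∑ j : Fin (r + 1), ∑ a : A,
      x none a * x (some true) (J.2 ∘ j.succAbove) * ((-1) ^ (j : ℕ) * cst a J.1 (J.2 j))
  have hG : ∀ J, IsMHFun (Pi.single none 1 + Pi.single (some true) 1) (G J) := fun J =>
    IsMHFun.sum Finset.univ fun j _ => IsMHFun.sum Finset.univ fun a _ =>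
      ((isMHFun_coord (κ := κ3 A (Fin r → Fin d) Unit) (none : Option Bool) a).mul
        (isMHFun_coord (κ := κ3 A (Fin r → Fin d) Unit) (some true : Option Bool)
          (J.2 ∘ j.succAbove))).mul_const _
  obtain ⟨C, hC⟩ := ht_le_of_isMHFun (Pi.single none 1 + Pi.single (some true) 1) G hG
  refine ⟨C, fun z B p τ hB hτ0 ht0 hspan hτT hp => ?_⟩
  have hω : plVec B ≠ 0 := plVec_ne_zero _ hB
  have h := hC (vec3 z (plVec fun i : Fin r => B i.succ) (0 : Unit → Qbar))
  have hs := sum_vec3 z (plVec fun i : Fin r => B i.succ) (0 : Unit → Qbar)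
    (fun c => (((Pi.single none 1 + Pi.single (some true) 1 : Option Bool → ℕ) c : ℕ) : ℝ))
  rw [hs] at h
  simp at h
  have hkey : (fun J : Cl × (Fin (r + 1) → Fin d) => p J.1 * plVec B J.2) =
      (∑ l, τ l * B 0 l) •
        fun J => G J (vec3 z (plVec fun i : Fin r => B i.succ) (0 : Unit → Qbar)) := by
    funext J
    obtain ⟨β, g⟩ := J
    have h1 := plVec_mul_apply B τ (fun j => ∑ a, z a * cst a β j) (hspan β) g
    rw [hτT β] at h1
    simp only [plVec_contract' B τ hτ0] at h1
    have h2 : ∀ j : Fin (r + 1), (-1) ^ (j : ℕ) * (∑ a, z a * cst a β (g j)) *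
        ((∑ l, τ l * B 0 l) * plVec (fun i : Fin r => B i.succ) (g ∘ j.succAbove)) =
        (∑ l, τ l * B 0 l) * ∑ a : A, z a * plVec (fun i : Fin r => B i.succ) (g ∘ j.succAbove) *
          ((-1) ^ (j : ℕ) * cst a β (g j)) := by
      intro j
      have gen : ∀ (e t v : Qbar) (f c : A → Qbar),
          e * (∑ a, f a * c a) * (t * v) = t * ∑ a, f a * v * (e * c a) := by
        intro e t v f c
        simp only [Finset.mul_sum, Finset.sum_mul]
        exact Finset.sum_congr rfl fun a _ => by ring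
      exact gen _ _ _ _ _
    show p β * plVec B g = (∑ l, τ l * B 0 l) * ∑ j : Fin (r + 1), ∑ a : A,
      z a * plVec (fun i : Fin r => B i.succ) (g ∘ j.succAbove) * ((-1) ^ (j : ℕ) * cst a β (g j))
    rw [h1, Finset.mul_sum]
    exact Finset.sum_congr rfl fun j _ => h2 j
  have h2 : ht (fun J : Cl × (Fin (r + 1) → Fin d) => p J.1 * plVec B J.2) =
      ht p + ht (plVec B) := ht_tensor p (plVec B) hp hω
  rw [hkey, ht_smul _ ht0] at h2
  linarith

end Fermat.Agent.S17.PLK.H576
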