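/-
S17 / PLK — leaf HG4 `eta_add_pt` (A) of helper2397's skeleton v0, VERBATIM (helper576).

Black boxes (statements only): FND/Skel (`finite_RR`, `ell_eq_of_degree_gt`, `ell_sub_pt`, `mul_mem_RR`,
`degree_pt`, `degree_nonneg_of_nonneg`, `eq_zero_of_nonneg_of_degree`, `evalAt_algebraMap`,
`ord_algebraMap`), HT (through helper6026's engine), and the EARLIER leaves of PLK/Skel:
LA `plVec_cons_mem_span`, `plVec_mul_apply`; CG1 `secVal_add`, `secVal_smul`, `secVal_mul`,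
`secVal_eq_zero_iff`, `ht_xphi`, `xphi_ne_zero`, `ht_Mvec`, `Mvec_ne_zero`; CG2 `span_sgen`;
HG1 `H_add`, `xvec_m_sub`; HG2 `cert_minors`.  (The bugged LA2(i) `plVec_contract` is NOT used.)
Complete proofs in this file.
-/
import Fermat.Agent.S17.PLK.HG4Curve576
import Fermat.Agent.S17.PLK.HG4Ht576

set_option autoImplicit false

noncomputable section

open AlgebraicCurve ModularCurve

namespace Fermat.Agent.S17.PLK.H576

open Fermat.Agent.S17.FND Fermat.Agent.S17.H Fermat.Agent.S17.HT Fermat.Agent.S17.PLK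

variable {F₀ : IntermediateField ℚ (LaurentSeries ℚ)}
  [IsCurveOver Qbar (FB F₀)] [Algebra.EssFiniteType Qbar (FB F₀)]

theorem dim_gt (S : Setup F₀) {k N : ℕ} (hN : (k + 1) * S.m + 2 * genusFF Qbar (FB F₀) ≤ N) :
    k < dim S N := by
  have hm := one_le_m S
  have hk : k + 1 ≤ (k + 1) * S.m := Nat.le_mul_of_pos_right _ (by omega)
  have h2 := ell_eq_of_degree_gt (D := lvlDiv S N) (by rw [degree_lvlDiv]; omega)
  rw [degree_lvlDiv] at h2
  unfold dim
  omega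

/-- (PT), iterated: `H_{n₀ + j m} = j · hX + H_{n₀} + O(1)`. -/
theorem PT_iter (S : Setup F₀) (n₀ : ℕ) (hn₀ : 2 * genusFF Qbar (FB F₀) ≤ n₀) (j : ℕ) :
    ∃ C : ℝ, ∀ Q : Place Qbar (FB F₀),
      |ht (xvec S (n₀ + j * S.m) Q) - j * hX S.φ Q - ht (xvec S n₀ Q)| ≤ C := by
  induction j with
  | zero =>
    refine ⟨0, fun Q => ?_⟩
    have e : n₀ + 0 * S.m = n₀ := by omega
    rw [e]
    simp
  | succ j ih =>
    obtain ⟨C₁, h₁⟩ := ih
    obtain ⟨C₂, h₂⟩ := H_add S (n₀ + j * S.m) S.m (le_trans hn₀ (Nat.le_add_right _ _))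
      (by have := one_le_m S; omega)
    obtain ⟨C₃, h₃⟩ := xvec_m_sub S
    refine ⟨C₁ + C₂ + C₃, fun Q => ?_⟩
    have e : n₀ + (j + 1) * S.m = n₀ + j * S.m + S.m := by ring
    rw [e]
    have a₁ := abs_le.1 (h₁ Q)
    have a₂ := abs_le.1 (h₂ Q)
    have a₃ := abs_le.1 (h₃ Q)
    rw [abs_le]
    push_cast
    constructor <;> linarith [a₁.1, a₁.2, a₂.1, a₂.2, a₃.1, a₃.2]

theorem ht_zvec (S : Setup F₀) {k : ℕ} (P : Fin k → Place Qbar (FB F₀)) :
    ht (fun a : Fin k → Fin (S.r + 1) => ∏ i, xphi S (P i) (a i)) = ∑ i, hX S.φ (P i) := by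
  rw [ht_pi_prod (fun i => xphi S (P i)) (fun i => xphi_ne_zero S (P i))]
  exact Finset.sum_congr rfl fun i _ => ht_xphi S (P i)

theorem pvec_facts (S : Setup F₀) {k N : ℕ}
    (hN : (k + 1) * S.m + 2 * genusFF Qbar (FB F₀) ≤ N) (P : Fin k → Place Qbar (FB F₀))
    (Q : Place Qbar (FB F₀)) :
    (fun β : (Fin k → Fin (S.r + 1) × Fin (S.r + 1)) × Fin (dim S (N - k * S.m)) =>
        (∏ i, Mvec S (P i) Q (β.1 i)) * xvec S (N - k * S.m) Q β.2) ≠ 0 ∧
    ht (fun β : (Fin k → Fin (S.r + 1) × Fin (S.r + 1)) × Fin (dim S (N - k * S.m)) =>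
        (∏ i, Mvec S (P i) Q (β.1 i)) * xvec S (N - k * S.m) Q β.2) =
      ∑ i, hX S.φ (P i) + k * hX S.φ Q - ∑ i, delta S.φ (P i) Q +
        ht (xvec S (N - k * S.m) Q) := by
  have hm := one_le_m S
  have hkm : (k + 1) * S.m = k * S.m + S.m := by ring
  have hx' : xvec S (N - k * S.m) Q ≠ 0 := xvec_ne_zero S _ (by omega) Q
  have hc : ∀ i, ∃ c, Mvec S (P i) Q c ≠ 0 := fun i =>
    Function.ne_iff.1 (Mvec_ne_zero S (P i) Q)
  choose c hc using hc
  obtain ⟨l, hl⟩ := Function.ne_iff.1 hx'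
  have hq : (fun c : Fin k → Fin (S.r + 1) × Fin (S.r + 1) => ∏ i, Mvec S (P i) Q (c i)) ≠ 0 := by
    intro h0
    have := congrFun h0 c
    exact Finset.prod_ne_zero_iff.2 (fun i _ => hc i) this
  constructor
  · intro h0
    have h1 := congrFun h0 (c, l)
    simp only [Pi.zero_apply, mul_eq_zero] at h1
    rcases h1 with h1 | h1
    · exact Finset.prod_ne_zero_iff.2 (fun i _ => hc i) h1
    · exact hl h1
  · rw [ht_tensor (fun c : Fin k → Fin (S.r + 1) × Fin (S.r + 1) => ∏ i, Mvec S (P i) Q (c i))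
      (xvec S (N - k * S.m) Q) hq hx',
      ht_pi_prod (fun i => Mvec S (P i) Q) (fun i => Mvec_ne_zero S (P i) Q)]
    simp only [ht_Mvec]
    rw [Finset.sum_sub_distrib, Finset.sum_add_distrib, Finset.sum_const, Finset.card_univ,
      Fintype.card_fin, nsmul_eq_mul]

/-- `cert_minors` with the number of rows renamed. -/
theorem cert_minors' (S : Setup F₀) (k N : ℕ)
    (hN : (k + 1) * S.m + 2 * genusFF Qbar (FB F₀) ≤ N) (ρ : ℕ) (hρ : dim S N - k = ρ) :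
    ∃ C : ℝ, ∀ P : Fin k → Place Qbar (FB F₀),
      (ρ : ℝ) * ∑ i, ht (xphi S (P i)) ≤
        ht (fun α : (Fin ρ → Fin (dim S N)) ×
            (Fin ρ → (Fin k → Fin (S.r + 1) × Fin (S.r + 1)) × Fin (dim S (N - k * S.m))) =>
          Matrix.det (Matrix.of fun i j =>
            coords S N (sgen S k N (fun i => xphi S (P i)) (α.2 j)) (α.1 i))) + C := by
  subst hρ
  exact cert_minors S k N hN

/-- (A) for divisors given as a sum of `k` points. -/
theorem eta_add_pt_core (S : Setup F₀) (k N : ℕ)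
    (hN : (k + 1) * S.m + 2 * genusFF Qbar (FB F₀) ≤ N) :
    ∃ C : ℝ, ∀ (P : Fin k → Place Qbar (FB F₀)) (Q : Place Qbar (FB F₀)),
      |eta S N (∑ i, pt (P i) + pt Q) - eta S N (∑ i, pt (P i)) - ht (xvec S N Q) +
        ∑ i, delta S.φ (P i) Q| ≤ C := by
  have hm := one_le_m S
  have hkm' : (k + 1) * S.m = k * S.m + S.m := by ring
  have hkm : k * S.m ≤ N := by omega
  obtain ⟨r, hr⟩ : ∃ r, dim S N - k = r + 1 := by
    have := dim_gt S hN
    exact ⟨dim S N - k - 1, by omega⟩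
  obtain ⟨C₁, h₁⟩ := upper_aux (A := Fin k → Fin (S.r + 1))
    (Cl := (Fin k → Fin (S.r + 1) × Fin (S.r + 1)) × Fin (dim S (N - k * S.m))) (dim S N) r
    (fun a β j => coords S N (cterm S k N a β) j)
  obtain ⟨C₂, h₂⟩ := lower_aux (A := Fin k → Fin (S.r + 1))
    (Cl := (Fin k → Fin (S.r + 1) × Fin (S.r + 1)) × Fin (dim S (N - k * S.m))) (dim S N) r
    (fun a β j => coords S N (cterm S k N a β) j)
  obtain ⟨C₃, h₃⟩ := cert_minors' S k N hN (r + 1) hr
  obtain ⟨C₄, h₄⟩ := PT_iter S (N - k * S.m) (by omega) k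
  refine ⟨max (C₁ + C₃ + C₄) (C₂ + C₄), fun P Q => ?_⟩
  obtain ⟨B, τ, e1, e2, hB, hτ0, ht0, hspan, hτT, hCc⟩ := exists_data S hN P Q hr
  have hcoord : ∀ β, coords S N (sgen S k N (fun i => xphi S (P i)) β) =
      fun j => ∑ a : Fin k → Fin (S.r + 1),
        (∏ i, xphi S (P i) (a i)) * coords S N (cterm S k N a β) j :=
    fun β => funext fun j => coords_sgen S hkm _ β j
  simp only [hcoord] at hspan hτT hCc
  obtain ⟨hp0, hpht⟩ := pvec_facts S hN P Q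
  have hup := h₁ (fun a => ∏ i, xphi S (P i) (a i)) B
    (fun β => (∏ i, Mvec S (P i) Q (β.1 i)) * xvec S (N - k * S.m) Q β.2) τ hB hτ0 ht0 hspan hτT hCc
  have hlo := h₂ (fun a => ∏ i, xphi S (P i) (a i)) B
    (fun β => (∏ i, Mvec S (P i) Q (β.1 i)) * xvec S (N - k * S.m) Q β.2) τ hB hτ0 ht0 hspan hτT hp0
  have hcert := h₃ P
  simp only [coords_sgen S hkm, ht_xphi] at hcert
  rw [ht_zvec, hpht] at hup hlo
  have hpt := abs_le.1 (h₄ Q)
  have hNe : N - k * S.m + k * S.m = N := by omega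
  rw [hNe] at hpt
  rw [e1, e2]
  push_cast at hcert
  rw [abs_le]
  constructor
  · have := le_max_right (C₁ + C₃ + C₄) (C₂ + C₄)
    linarith [hpt.1, hpt.2]
  · have := le_max_left (C₁ + C₃ + C₄) (C₂ + C₄)
    nlinarith [hpt.1, hpt.2]

/-- **HG4 (A)**, verbatim statement of `PLK/Skel.lean` v0. -/
theorem eta_add_pt (S : Setup F₀) (k : ℕ) :
    ∃ N₁ : ℕ, ∀ N : ℕ, N₁ ≤ N → ∃ C : ℝ, ∀ E : Divisor Qbar (FB F₀), 0 ≤ E → E S.P₀ = 0 →
      Divisor.degree E ≤ k → ∀ Q : Place Qbar (FB F₀), Q ≠ S.P₀ →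
        |eta S N (E + pt Q) - eta S N E - ht (xvec S N Q) + Lam (delta S.φ) E (pt Q)| ≤ C := by
  refine ⟨(k + 1) * S.m + 2 * genusFF Qbar (FB F₀), fun N hN => ?_⟩
  have hex : ∀ k' : ℕ, ∃ C : ℝ, k' ≤ k → ∀ (P : Fin k' → Place Qbar (FB F₀))
      (Q : Place Qbar (FB F₀)),
      |eta S N (∑ i, pt (P i) + pt Q) - eta S N (∑ i, pt (P i)) - ht (xvec S N Q) +
        ∑ i, delta S.φ (P i) Q| ≤ C := by
    intro k'
    by_cases hk : k' ≤ k
    · have hN' : (k' + 1) * S.m + 2 * genusFF Qbar (FB F₀) ≤ N := by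
        have : (k' + 1) * S.m ≤ (k + 1) * S.m := Nat.mul_le_mul_right _ (by omega)
        omega
      obtain ⟨C, hC⟩ := eta_add_pt_core S k' N hN'
      exact ⟨C, fun _ => hC⟩
    · exact ⟨0, fun h => absurd h hk⟩
  choose Cf hCf using hex
  refine ⟨∑ i ∈ Finset.range (k + 1), |Cf i|, fun E hE _ hdeg Q _ => ?_⟩
  have hd0 := degree_nonneg_of_nonneg hE
  obtain ⟨n, hn⟩ : ∃ n : ℕ, Divisor.degree E = n := ⟨(Divisor.degree E).toNat, by omega⟩
  have hnk : n ≤ k := by omega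
  obtain ⟨P, rfl⟩ := exists_enum n E hE hn
  rw [Lam_sum_pt]
  refine (hCf n hnk P Q).trans ?_
  refine (le_abs_self _).trans ?_
  exact Finset.single_le_sum (f := fun i => |Cf i|) (fun i _ => abs_nonneg _)
    (Finset.mem_range.2 (by omega))

end Fermat.Agent.S17.PLK.H576
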