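/-
S17 / PLK — linear algebra of Plücker vectors used by `GC36.lean` (helper36).  Mathlib + `PLK/Defs` only.

* `exists_minor_ne_zero`   : linearly independent rows have a nonzero maximal minor.
* `plVec_ne_zero`          : the Plücker vector of a linearly independent family is nonzero.
* `plVec_sum_smul`         : change of basis (= LA1, proved here to keep this file self-contained).
* `plVec_eq_smul_of_span`  : two bases of the same subspace have proportional Plücker vectors.
* `contr`, `contr_plVec_cons`, `contr_plVec_eq_smul` : contraction of a Plücker vector with a linear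
  form `τ` = Plücker vector of `W ∩ ker τ` (valid for every rank, no natural subtraction).
* `exists_submatrix_det_ne_zero` : a matrix whose columns span a `ρ`-dimensional space has a nonzero
  `ρ × ρ` minor.
-/
import Fermat.Agent.S17.PLK.Defs

set_option autoImplicit false

noncomputable section

namespace Fermat.Agent.S17.PLK.H36

open Fermat.Agent.S17.PLK

variable {K : Type*} [Field K]

/-- Linearly independent rows have a nonzero maximal minor. -/
theorem exists_minor_ne_zero {r : ℕ} {I : Type*} [Fintype I] (B : Fin r → I → K)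
    (hB : LinearIndependent K B) :
    ∃ f : Fin r → I, Matrix.det (Matrix.of fun i j => B i (f j)) ≠ 0 := by
  classical
  let A : Matrix (Fin r) I K := Matrix.of B
  have hrank : A.rank = r := by
    have h := LinearIndependent.rank_matrix (R := K) (M := A) hB
    simpa using h
  have hspan : Submodule.span K (Set.range A.col) = ⊤ := by
    apply Submodule.eq_top_of_finrank_eq
    rw [← Matrix.rank_eq_finrank_span_cols, hrank]
    simp
  obtain ⟨κ, a, ha, hsp, hli⟩ := exists_linearIndependent' K A.col
  haveI : Finite κ := Finite.of_injective a ha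
  haveI : Fintype κ := Fintype.ofFinite κ
  have hcard : Fintype.card κ = r := by
    have h1 : Submodule.span K (Set.range (A.col ∘ a)) = ⊤ := by rw [hsp, hspan]
    have h2 := finrank_span_eq_card (R := K) hli
    rw [h1] at h2
    simpa using h2.symm
  let e : Fin r ≃ κ := (Fintype.equivFinOfCardEq hcard).symm
  refine ⟨fun j => a (e j), ?_⟩
  have hcols : LinearIndependent K (Matrix.of fun i j => B i (a (e j)) : Matrix (Fin r) (Fin r) K).col := by
    have h3 : (Matrix.of fun i j => B i (a (e j)) : Matrix (Fin r) (Fin r) K).col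
        = (A.col ∘ a) ∘ e := by
      funext j i
      rfl
    rw [h3]
    exact hli.comp e e.injective
  have hunit := Matrix.linearIndependent_cols_iff_isUnit.mp hcols
  exact (Matrix.isUnit_iff_isUnit_det _).mp hunit |>.ne_zero

/-- The Plücker vector of a linearly independent family is nonzero. -/
theorem plVec_ne_zero {r d : ℕ} (B : Fin r → Fin d → K) (hB : LinearIndependent K B) :
    plVec B ≠ 0 := by
  obtain ⟨f, hf⟩ := exists_minor_ne_zero B hB
  intro h
  exact hf (congrFun h f)

/-- LA1: change of basis multiplies the Plücker vector by the determinant. -/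
theorem plVec_sum_smul {r d : ℕ} (A : Matrix (Fin r) (Fin r) K) (B : Fin r → Fin d → K) :
    plVec (fun i => ∑ l, A i l • B l) = A.det • plVec B := by
  funext f
  simp only [plVec, Pi.smul_apply, smul_eq_mul]
  rw [← Matrix.det_mul]
  congr 1
  ext i j
  simp [Matrix.mul_apply]

/-- Two independent families with the same span have proportional Plücker vectors. -/
theorem plVec_eq_smul_of_span {r d : ℕ} (B B' : Fin r → Fin d → K)
    (hB' : LinearIndependent K B')
    (hsp : ∀ i, B' i ∈ Submodule.span K (Set.range B)) :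
    ∃ c : K, c ≠ 0 ∧ plVec B' = c • plVec B := by
  have hex : ∀ i, ∃ a : Fin r → K, ∑ l, a l • B l = B' i := fun i =>
    (Submodule.mem_span_range_iff_exists_fun K).mp (hsp i)
  choose A hA using hex
  have h1 : plVec B' = (Matrix.of A).det • plVec B := by
    rw [← plVec_sum_smul]
    congr 1
    funext i
    exact (hA i).symm
  refine ⟨(Matrix.of A).det, ?_, h1⟩
  intro h0
  apply plVec_ne_zero B' hB'
  rw [h1, h0, zero_smul]

/-- Contraction of an `(r+1)`-vector `ω` with the linear form `τ`. -/
def contr {r d : ℕ} (τ : Fin d → K) (ω : (Fin (r + 1) → Fin d) → K) : (Fin r → Fin d) → K :=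
  fun f => ∑ j, τ j * ω (Fin.cons j f)

theorem contr_smul {r d : ℕ} (τ : Fin d → K) (c : K) (ω : (Fin (r + 1) → Fin d) → K) :
    contr τ (c • ω) = c • contr τ ω := by
  funext f
  simp only [contr, Pi.smul_apply, smul_eq_mul, Finset.mul_sum]
  exact Finset.sum_congr rfl fun j _ => by ring

/-- Contraction of the Plücker vector of `(b₀, B'')` with `τ`, when `τ b₀ = 1` and `τ` kills `B''`. -/
theorem contr_plVec_cons {r d : ℕ} (τ : Fin d → K) (b₀ : Fin d → K) (B'' : Fin r → Fin d → K)
    (h0 : ∑ j, τ j * b₀ j = 1) (h1 : ∀ i, ∑ j, τ j * B'' i j = 0) :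
    contr τ (plVec (Fin.cons b₀ B'' : Fin (r + 1) → Fin d → K)) = plVec B'' := by
  funext f
  simp only [contr, plVec]
  have hexp : ∀ j : Fin d,
      Matrix.det (Matrix.of fun (i : Fin (r + 1)) (l : Fin (r + 1)) =>
        (Fin.cons b₀ B'' : Fin (r + 1) → Fin d → K) i ((Fin.cons j f : Fin (r + 1) → Fin d) l)) =
      ∑ i : Fin (r + 1), (-1) ^ (i : ℕ) * (Fin.cons b₀ B'' : Fin (r + 1) → Fin d → K) i j *
        Matrix.det (Matrix.of fun (a : Fin r) (l : Fin r) =>
          (Fin.cons b₀ B'' : Fin (r + 1) → Fin d → K) (i.succAbove a) (f l)) := by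
    intro j
    rw [Matrix.det_succ_column_zero]
    refine Finset.sum_congr rfl fun i _ => ?_
    congr 1
  simp only [hexp]
  simp only [Finset.mul_sum]
  rw [Finset.sum_comm]
  rw [Fin.sum_univ_succ]
  have hz : ∀ i : Fin r, ∑ j : Fin d, τ j * ((-1) ^ ((i.succ : Fin (r + 1)) : ℕ) *
      (Fin.cons b₀ B'' : Fin (r + 1) → Fin d → K) i.succ j *
        Matrix.det (Matrix.of fun (a : Fin r) (l : Fin r) =>
          (Fin.cons b₀ B'' : Fin (r + 1) → Fin d → K) (i.succ.succAbove a) (f l))) = 0 := by
    intro i
    have : ∀ j : Fin d, τ j * ((-1) ^ ((i.succ : Fin (r + 1)) : ℕ) *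
        (Fin.cons b₀ B'' : Fin (r + 1) → Fin d → K) i.succ j *
          Matrix.det (Matrix.of fun (a : Fin r) (l : Fin r) =>
            (Fin.cons b₀ B'' : Fin (r + 1) → Fin d → K) (i.succ.succAbove a) (f l))) =
        (τ j * B'' i j) * ((-1) ^ ((i.succ : Fin (r + 1)) : ℕ) *
          Matrix.det (Matrix.of fun (a : Fin r) (l : Fin r) =>
            (Fin.cons b₀ B'' : Fin (r + 1) → Fin d → K) (i.succ.succAbove a) (f l))) := by
      intro j
      rw [Fin.cons_succ]
      ring
    simp only [this]
    rw [← Finset.sum_mul, h1 i, zero_mul]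
  rw [Finset.sum_eq_zero (fun i _ => hz i), add_zero]
  have h00 : ∀ j : Fin d, τ j * ((-1) ^ ((0 : Fin (r + 1)) : ℕ) *
      (Fin.cons b₀ B'' : Fin (r + 1) → Fin d → K) 0 j *
        Matrix.det (Matrix.of fun (a : Fin r) (l : Fin r) =>
          (Fin.cons b₀ B'' : Fin (r + 1) → Fin d → K) ((0 : Fin (r + 1)).succAbove a) (f l))) =
      (τ j * b₀ j) * Matrix.det (Matrix.of fun (a : Fin r) (l : Fin r) => B'' a (f l)) := by
    intro j
    simp only [Fin.val_zero, pow_zero, one_mul, Fin.cons_zero, Fin.zero_succAbove, Fin.cons_succ]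
    ring
  simp only [h00]
  rw [← Finset.sum_mul, h0, one_mul]

/-- The contraction of the Plücker vector of `W` with `τ` is the Plücker vector of `W ∩ ker τ`. -/
theorem contr_plVec_eq_smul {r d : ℕ} (τ : Fin d → K) (B : Fin (r + 1) → Fin d → K)
    (B'' : Fin r → Fin d → K) (hB'' : LinearIndependent K B'')
    (hsub : ∀ i, B'' i ∈ Submodule.span K (Set.range B))
    (hker : ∀ i, ∑ j, τ j * B'' i j = 0) (hne : ∃ i, ∑ j, τ j * B i j ≠ 0) :
    ∃ c : K, c ≠ 0 ∧ contr τ (plVec B) = c • plVec B'' := by
  classical
  obtain ⟨i₀, hi₀⟩ := hne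
  set t : K := ∑ j, τ j * B i₀ j with ht
  let b₀ : Fin d → K := t⁻¹ • B i₀
  have hb₀ : ∑ j, τ j * b₀ j = 1 := by
    have : ∀ j, τ j * b₀ j = t⁻¹ * (τ j * B i₀ j) := fun j => by
      simp only [b₀, Pi.smul_apply, smul_eq_mul]; ring
    simp only [this]
    rw [← Finset.mul_sum, ← ht, inv_mul_cancel₀ hi₀]
  -- the linear form `τ` as a linear map
  let τL : (Fin d → K) →ₗ[K] K :=
    { toFun := fun x => ∑ j, τ j * x j
      map_add' := fun x y => by
        simp only [Pi.add_apply, mul_add, Finset.sum_add_distrib]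
      map_smul' := fun c x => by
        simp only [Pi.smul_apply, smul_eq_mul, RingHom.id_apply, Finset.mul_sum]
        exact Finset.sum_congr rfl fun j _ => by ring }
  have hτspan : ∀ x ∈ Submodule.span K (Set.range B''), τL x = 0 := by
    intro x hx
    induction hx using Submodule.span_induction with
    | mem x hx => obtain ⟨i, rfl⟩ := hx; exact hker i
    | zero => exact map_zero τL
    | add x y _ _ hx hy => rw [map_add, hx, hy, add_zero]
    | smul c x _ hx => rw [map_smul, hx, smul_zero]
  have hb₀not : b₀ ∉ Submodule.span K (Set.range B'') := by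
    intro h
    have := hτspan b₀ h
    have h1 : τL b₀ = 1 := hb₀
    rw [h1] at this
    exact one_ne_zero this
  have hli : LinearIndependent K (Fin.cons b₀ B'' : Fin (r + 1) → Fin d → K) :=
    (linearIndependent_finCons).mpr ⟨hB'', hb₀not⟩
  have hmem : ∀ i, (Fin.cons b₀ B'' : Fin (r + 1) → Fin d → K) i ∈
      Submodule.span K (Set.range B) := by
    intro i
    refine Fin.cases ?_ (fun i' => ?_) i
    · rw [Fin.cons_zero]
      exact Submodule.smul_mem _ _ (Submodule.subset_span (Set.mem_range_self i₀))
    · rw [Fin.cons_succ]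
      exact hsub i'
  obtain ⟨c, hc, hcB⟩ := plVec_eq_smul_of_span B _ hli hmem
  refine ⟨c⁻¹, inv_ne_zero hc, ?_⟩
  have h2 : plVec B = c⁻¹ • plVec (Fin.cons b₀ B'' : Fin (r + 1) → Fin d → K) := by
    rw [hcB, smul_smul, inv_mul_cancel₀ hc, one_smul]
  rw [h2, contr_smul, contr_plVec_cons τ b₀ B'' hb₀ hker]

/-- A matrix whose columns span a space of dimension `ρ` has a nonzero `ρ × ρ` minor. -/
theorem exists_submatrix_det_ne_zero {I J : Type*} [Fintype I] [Fintype J] {ρ : ℕ}
    (T : Matrix I J K)
    (hT : Module.finrank K (Submodule.span K (Set.range T.col)) = ρ) :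
    ∃ (R : Fin ρ → I) (C : Fin ρ → J), (T.submatrix R C).det ≠ 0 := by
  classical
  obtain ⟨κ, a, ha, hsp, hli⟩ := exists_linearIndependent' K T.col
  haveI : Finite κ := Finite.of_injective a ha
  haveI : Fintype κ := Fintype.ofFinite κ
  have hcard : Fintype.card κ = ρ := by
    have h2 := finrank_span_eq_card (R := K) hli
    rw [hsp, hT] at h2
    exact h2.symm
  let e : Fin ρ ≃ κ := (Fintype.equivFinOfCardEq hcard).symm
  -- the `ρ` independent columns, as rows of the transpose
  let B : Fin ρ → I → K := fun l i => T i (a (e l))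
  have hB : LinearIndependent K B := by
    have h3 : B = (T.col ∘ a) ∘ e := by
      funext l i
      rfl
    rw [h3]
    exact hli.comp e e.injective
  obtain ⟨f, hf⟩ := exists_minor_ne_zero B hB
  refine ⟨f, fun l => a (e l), ?_⟩
  have h4 : (T.submatrix f fun l => a (e l)) =
      (Matrix.of fun i j => B i (f j) : Matrix (Fin ρ) (Fin ρ) K).transpose := by
    ext i j
    rfl
  rw [h4, Matrix.det_transpose]
  exact hf

end Fermat.Agent.S17.PLK.H36
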