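/-
S17 / PLK — curve-side tools for `GC36.lean` (helper36): coordinates `coords S n`, Plücker heights of
subspaces in arbitrary bases, contraction with a linear functional, sections `bsec`, `sgen`.
Uses the statements of the EARLIER leaves of `PLK/Skel.lean` (CG1 `secVal_*`) and of FND.
-/
import Fermat.Agent.S17.PLK.SkelBase
import Fermat.Agent.S17.PLK.LA36

set_option autoImplicit false

noncomputable section

open AlgebraicCurve ModularCurve

namespace Fermat.Agent.S17.PLK.H36

open Fermat.Agent.S17.FND Fermat.Agent.S17.H Fermat.Agent.S17.HT Fermat.Agent.S17.PLK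

variable {F₀ : IntermediateField ℚ (LaurentSeries ℚ)}
  [IsCurveOver Qbar (FB F₀)] [Algebra.EssFiniteType Qbar (FB F₀)]

/-! ### Riemann–Roch spaces -/

omit [IsCurveOver Qbar (FB F₀)] [Algebra.EssFiniteType Qbar (FB F₀)] in
theorem rr_mono {D D' : Divisor Qbar (FB F₀)} (h : D ≤ D') :
    riemannRochSpace D ≤ riemannRochSpace D' := by
  intro f hf
  rw [mem_riemannRochSpace_iff] at hf ⊢
  intro v
  rcases hf v with h0 | h1
  · exact Or.inl h0
  · right
    have := Finsupp.le_def.mp h v
    omega

omit [IsCurveOver Qbar (FB F₀)] [Algebra.EssFiniteType Qbar (FB F₀)] in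
theorem pt_nonneg (P : Place Qbar (FB F₀)) : (0 : Divisor Qbar (FB F₀)) ≤ pt P := by
  classical
  rw [Finsupp.le_def]
  intro v
  simp only [Finsupp.coe_zero, Pi.zero_apply, pt]
  rw [Finsupp.single_apply]
  split_ifs <;> simp

omit [IsCurveOver Qbar (FB F₀)] [Algebra.EssFiniteType Qbar (FB F₀)] in
theorem lvlDiv_mono (S : Setup F₀) {n N : ℕ} (h : n ≤ N) : lvlDiv S n ≤ lvlDiv S N := by
  classical
  rw [Finsupp.le_def]
  intro v
  simp only [lvlDiv, Finsupp.smul_apply, pt, smul_eq_mul]
  rw [Finsupp.single_apply]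
  split_ifs
  · simpa using h
  · simp

omit [IsCurveOver Qbar (FB F₀)] [Algebra.EssFiniteType Qbar (FB F₀)] in
theorem lvlDiv_add (S : Setup F₀) (a b : ℕ) : lvlDiv S a + lvlDiv S b = lvlDiv S (a + b) := by
  simp only [lvlDiv]
  rw [← add_smul]
  push_cast
  rfl

omit [IsCurveOver Qbar (FB F₀)] [Algebra.EssFiniteType Qbar (FB F₀)] in
theorem V_mono (S : Setup F₀) {n N : ℕ} (h : n ≤ N) : V S n ≤ V S N :=
  rr_mono (lvlDiv_mono S h)

theorem one_mem_RR_zero : (1 : FB F₀) ∈ riemannRochSpace (0 : Divisor Qbar (FB F₀)) := by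
  rw [mem_riemannRochSpace_iff]
  intro v
  right
  have h := ord_algebraMap v (1 : Qbar)
  rw [map_one] at h
  simp [h]

theorem prod_mem_RR {ι : Type*} (s : Finset ι) (A : ι → Divisor Qbar (FB F₀)) (f : ι → FB F₀)
    (hf : ∀ i ∈ s, f i ∈ riemannRochSpace (A i)) :
    ∏ i ∈ s, f i ∈ riemannRochSpace (∑ i ∈ s, A i) := by
  classical
  induction s using Finset.induction_on with
  | empty => simpa using one_mem_RR_zero (F₀ := F₀)
  | insert a s ha ih =>
    rw [Finset.prod_insert ha, Finset.sum_insert ha]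
    exact mul_mem_RR (hf a (Finset.mem_insert_self a s))
      (ih fun i hi => hf i (Finset.mem_insert_of_mem hi))

/-! ### Coordinates -/

theorem coords_of_mem (S : Setup F₀) (n : ℕ) {s : FB F₀} (h : s ∈ V S n) :
    coords S n s = (lvlBasis S n).equivFun ⟨s, h⟩ := by
  unfold coords
  rw [dif_pos h]
  rfl

theorem psi_mem (S : Setup F₀) (n : ℕ) (j : Fin (dim S n)) : psi S n j ∈ V S n :=
  (lvlBasis S n j).2

theorem coords_add (S : Setup F₀) (n : ℕ) {s t : FB F₀} (hs : s ∈ V S n) (ht : t ∈ V S n) :
    coords S n (s + t) = coords S n s + coords S n t := by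
  rw [coords_of_mem S n hs, coords_of_mem S n ht, coords_of_mem S n (add_mem hs ht), ← map_add]
  rfl

theorem coords_smul (S : Setup F₀) (n : ℕ) (c : Qbar) {s : FB F₀} (hs : s ∈ V S n) :
    coords S n (c • s) = c • coords S n s := by
  rw [coords_of_mem S n hs, coords_of_mem S n (Submodule.smul_mem _ c hs), ← map_smul]
  rfl

theorem coords_zero (S : Setup F₀) (n : ℕ) : coords S n (0 : FB F₀) = 0 := by
  rw [coords_of_mem S n (zero_mem _)]
  exact map_zero _

theorem coords_sum_smul (S : Setup F₀) (n : ℕ) {ι : Type*} (s : Finset ι) (a : ι → Qbar)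
    (f : ι → FB F₀) (hf : ∀ i ∈ s, f i ∈ V S n) :
    coords S n (∑ i ∈ s, a i • f i) = ∑ i ∈ s, a i • coords S n (f i) := by
  classical
  induction s using Finset.induction_on with
  | empty => simpa using coords_zero S n
  | insert b s hb ih =>
    rw [Finset.sum_insert hb, Finset.sum_insert hb]
    rw [coords_add S n (Submodule.smul_mem _ _ (hf b (Finset.mem_insert_self b s)))
      (Submodule.sum_mem _ fun i hi => Submodule.smul_mem _ _ (hf i (Finset.mem_insert_of_mem hi))),
      coords_smul S n _ (hf b (Finset.mem_insert_self b s)),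
      ih fun i hi => hf i (Finset.mem_insert_of_mem hi)]

theorem sum_coords_smul_psi (S : Setup F₀) (n : ℕ) {s : FB F₀} (hs : s ∈ V S n) :
    ∑ j, coords S n s j • psi S n j = s := by
  rw [coords_of_mem S n hs]
  have h := (lvlBasis S n).sum_equivFun ⟨s, hs⟩
  have h2 := congrArg (Subtype.val) h
  simp only [Submodule.coe_sum, Submodule.coe_smul] at h2
  exact h2

/-- Every linear map on `F` is computed on `V_n` by its values on the basis `ψ^n`. -/
theorem linear_eq_sum_coords (S : Setup F₀) (n : ℕ) {M : Type*} [AddCommGroup M] [Module Qbar M]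
    (G : FB F₀ →ₗ[Qbar] M) {s : FB F₀} (hs : s ∈ V S n) :
    G s = ∑ j, coords S n s j • G (psi S n j) := by
  conv_lhs => rw [← sum_coords_smul_psi S n hs]
  rw [map_sum]
  exact Finset.sum_congr rfl fun j _ => map_smul G _ _

/-- The coordinate map on a subspace of `V_n`. -/
def cmap (S : Setup F₀) (n : ℕ) (W : Submodule Qbar (FB F₀)) (hW : W ≤ V S n) :
    W →ₗ[Qbar] (Fin (dim S n) → Qbar) :=
  (lvlBasis S n).equivFun.toLinearMap ∘ₗ Submodule.inclusion hW

theorem cmap_apply (S : Setup F₀) (n : ℕ) (W : Submodule Qbar (FB F₀)) (hW : W ≤ V S n) (w : W) :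
    cmap S n W hW w = coords S n (w : FB F₀) := by
  rw [coords_of_mem S n (hW w.2)]
  rfl

theorem cmap_injective (S : Setup F₀) (n : ℕ) (W : Submodule Qbar (FB F₀)) (hW : W ≤ V S n) :
    Function.Injective (cmap S n W hW) :=
  (lvlBasis S n).equivFun.injective.comp (Submodule.inclusion_injective hW)

/-! ### Plücker heights in arbitrary bases -/

omit [IsCurveOver Qbar (FB F₀)] [Algebra.EssFiniteType Qbar (FB F₀)] in
theorem ht_plVec_eq_of_span {r r' d : ℕ} (B : Fin r → Fin d → Qbar) (B' : Fin r' → Fin d → Qbar)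
    (hB : LinearIndependent Qbar B) (hB' : LinearIndependent Qbar B')
    (hsp : Submodule.span Qbar (Set.range B) = Submodule.span Qbar (Set.range B')) :
    ht (plVec B) = ht (plVec B') := by
  have hr : r = r' := by
    have h1 := finrank_span_eq_card (R := Qbar) hB
    have h2 := finrank_span_eq_card (R := Qbar) hB'
    rw [hsp, h2] at h1
    simpa using h1.symm
  subst hr
  obtain ⟨c, hc, h⟩ := plVec_eq_smul_of_span B B' hB'
    (fun i => hsp ▸ Submodule.subset_span (Set.mem_range_self i))
  rw [h, ht_smul _ hc]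

omit [IsCurveOver Qbar (FB F₀)] [Algebra.EssFiniteType Qbar (FB F₀)] in
/-- Family in `W` from a family in `F` spanning `W`. -/
theorem exists_lift_family (W : Submodule Qbar (FB F₀)) {r : ℕ} (b : Fin r → FB F₀)
    (hb : LinearIndependent Qbar b) (hspan : Submodule.span Qbar (Set.range b) = W) :
    ∃ b' : Fin r → W, (∀ i, (b' i : FB F₀) = b i) ∧ LinearIndependent Qbar b' ∧
      Submodule.span Qbar (Set.range b') = ⊤ := by
  have hmem : ∀ i, b i ∈ W := fun i => hspan ▸ Submodule.subset_span (Set.mem_range_self i)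
  refine ⟨fun i => ⟨b i, hmem i⟩, fun i => rfl, ?_, ?_⟩
  · apply LinearIndependent.of_comp W.subtype
    exact hb
  · apply Submodule.map_injective_of_injective W.injective_subtype
    rw [Submodule.map_span, ← Set.range_comp, Submodule.map_subtype_top]
    exact hspan

theorem ht_plVec_coords_eq (S : Setup F₀) (N : ℕ) (W : Submodule Qbar (FB F₀)) (hW : W ≤ V S N)
    {r r' : ℕ} (v : Fin r → W) (v' : Fin r' → W) (hv : LinearIndependent Qbar v)
    (hv' : LinearIndependent Qbar v') (hs : Submodule.span Qbar (Set.range v) = ⊤)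
    (hs' : Submodule.span Qbar (Set.range v') = ⊤) :
    ht (plVec fun i => coords S N (v i : FB F₀)) = ht (plVec fun i => coords S N (v' i : FB F₀)) := by
  have e1 : (fun i => coords S N (v i : FB F₀)) = cmap S N W hW ∘ v := by
    funext i
    exact (cmap_apply S N W hW (v i)).symm
  have e2 : (fun i => coords S N (v' i : FB F₀)) = cmap S N W hW ∘ v' := by
    funext i
    exact (cmap_apply S N W hW (v' i)).symm
  rw [e1, e2]
  have hker : LinearMap.ker (cmap S N W hW) = ⊥ := LinearMap.ker_eq_bot.mpr (cmap_injective S N W hW)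
  apply ht_plVec_eq_of_span _ _ (hv.map' _ hker) (hv'.map' _ hker)
  rw [Set.range_comp, Set.range_comp, ← Submodule.map_span, ← Submodule.map_span, hs, hs']

/-- `etaSub` may be computed in ANY basis of the subspace. -/
theorem etaSub_eq_of_basis (S : Setup F₀) (N : ℕ) (W : Submodule Qbar (FB F₀)) (hW : W ≤ V S N)
    {r : ℕ} (b : Fin r → FB F₀) (hb : LinearIndependent Qbar b)
    (hspan : Submodule.span Qbar (Set.range b) = W) :
    etaSub S N W = ht (plVec fun i => coords S N (b i)) := by
  haveI : Module.Finite Qbar (riemannRochSpace (lvlDiv S N)) := finite_RR _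
  have hfin : Module.Finite Qbar W := Submodule.finiteDimensional_of_le hW
  obtain ⟨b', hb'1, hb'2, hb'3⟩ := exists_lift_family W b hb hspan
  unfold etaSub
  rw [dif_pos hfin]
  have e1 : (fun i => coords S N (b i)) = fun i => coords S N (b' i : FB F₀) := by
    funext i
    rw [hb'1]
  rw [e1]
  exact ht_plVec_coords_eq S N W hW _ b' (Module.finBasis Qbar W).linearIndependent hb'2
    (Module.finBasis Qbar W).span_eq hb'3

/-- The contraction of the Plücker vector of `W'` with a functional vanishing exactly on the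
hyperplane `W''` is a Plücker vector of `W''`. -/
theorem etaSub_contr (S : Setup F₀) (N : ℕ) (W' W'' : Submodule Qbar (FB F₀)) (hW' : W' ≤ V S N)
    (hW'' : W'' ≤ W') {w : ℕ} (b' : Fin (w + 1) → FB F₀)
    (hsp' : Submodule.span Qbar (Set.range b') = W') (hfr : Module.finrank Qbar W'' = w)
    (τ : Fin (dim S N) → Qbar) (g : FB F₀ → Qbar)
    (hτ : ∀ s ∈ W', ∑ j, τ j * coords S N s j = g s)
    (hker : ∀ s ∈ W'', g s = 0) (hne : ∃ s ∈ W', g s ≠ 0) :
    etaSub S N W'' = ht (contr τ (plVec fun i => coords S N (b' i))) ∧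
      contr τ (plVec fun i => coords S N (b' i)) ≠ 0 := by
  haveI : Module.Finite Qbar (riemannRochSpace (lvlDiv S N)) := finite_RR _
  haveI hfin : Module.Finite Qbar W'' := Submodule.finiteDimensional_of_le (hW''.trans hW')
  let bb : Module.Basis (Fin w) Qbar W'' := Module.finBasisOfFinrankEq Qbar W'' hfr
  let b'' : Fin w → FB F₀ := fun i => (bb i : FB F₀)
  have hb''li : LinearIndependent Qbar b'' :=
    bb.linearIndependent.map' W''.subtype (Submodule.ker_subtype W'')
  have hb''sp : Submodule.span Qbar (Set.range b'') = W'' := by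
    have : Set.range b'' = W''.subtype '' Set.range bb := by
      rw [← Set.range_comp]
      rfl
    rw [this, ← Submodule.map_span, bb.span_eq, Submodule.map_subtype_top]
  have h1 : etaSub S N W'' = ht (plVec fun i => coords S N (b'' i)) :=
    etaSub_eq_of_basis S N W'' (hW''.trans hW') b'' hb''li hb''sp
  have hb'mem : ∀ i, b' i ∈ W' := fun i => hsp' ▸ Submodule.subset_span (Set.mem_range_self i)
  have hb''mem : ∀ i, b'' i ∈ W'' := fun i => (bb i).2
  -- coordinates of the two bases
  have hB''li : LinearIndependent Qbar (fun i => coords S N (b'' i)) := by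
    have e : (fun i => coords S N (b'' i)) = cmap S N W'' (hW''.trans hW') ∘ bb := by
      funext i
      exact (cmap_apply S N W'' (hW''.trans hW') (bb i)).symm
    rw [e]
    exact bb.linearIndependent.map' _ (LinearMap.ker_eq_bot.mpr (cmap_injective S N W'' _))
  -- linear combinations
  have hcomb : ∀ s ∈ W', ∃ a : Fin (w + 1) → Qbar, s = ∑ l, a l • b' l ∧
      coords S N s = ∑ l, a l • coords S N (b' l) := by
    intro s hs
    rw [← hsp'] at hs
    obtain ⟨a, ha⟩ := (Submodule.mem_span_range_iff_exists_fun Qbar).mp hs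
    refine ⟨a, ha.symm, ?_⟩
    rw [← ha]
    exact coords_sum_smul S N Finset.univ a b' (fun i _ => hW' (hb'mem i))
  have hsub : ∀ i, coords S N (b'' i) ∈
      Submodule.span Qbar (Set.range fun i => coords S N (b' i)) := by
    intro i
    obtain ⟨a, -, ha⟩ := hcomb (b'' i) (hW'' (hb''mem i))
    rw [ha]
    exact Submodule.sum_mem _ fun l _ =>
      Submodule.smul_mem _ _ (Submodule.subset_span (Set.mem_range_self l))
  have hker' : ∀ i, ∑ j, τ j * coords S N (b'' i) j = 0 := fun i => by
    rw [hτ _ (hW'' (hb''mem i))]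
    exact hker _ (hb''mem i)
  have hne' : ∃ i, ∑ j, τ j * coords S N (b' i) j ≠ 0 := by
    by_contra hcon
    have hall : ∀ i, ∑ j, τ j * coords S N (b' i) j = 0 := fun i =>
      by_contra fun h => hcon ⟨i, h⟩
    obtain ⟨s, hs, hgs⟩ := hne
    apply hgs
    rw [← hτ s hs]
    obtain ⟨a, -, ha⟩ := hcomb s hs
    rw [ha]
    simp only [Finset.sum_apply, Pi.smul_apply, smul_eq_mul, Finset.mul_sum]
    rw [Finset.sum_comm]
    apply Finset.sum_eq_zero
    intro l _
    have : ∀ j, τ j * (a l * coords S N (b' l) j) = a l * (τ j * coords S N (b' l) j) :=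
      fun j => by ring
    simp only [this]
    rw [← Finset.mul_sum, hall l, mul_zero]
  obtain ⟨c, hc, hcontr⟩ := contr_plVec_eq_smul τ (fun i => coords S N (b' i))
    (fun i => coords S N (b'' i)) hB''li hsub hker' hne'
  constructor
  · rw [h1, hcontr, ht_smul _ hc]
  · rw [hcontr]
    exact smul_ne_zero hc (plVec_ne_zero _ hB''li)

end Fermat.Agent.S17.PLK.H36
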