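/-
S17 / PLK — curve-side tools for `GC36.lean`, part 2 (helper36): linear extensions of `secVal`,
matrices of multiplication maps, effective divisors as sums of points, the sections `bsec`, `sgen`
and their values, the multilinear expansion of `sgen`.
-/
import Fermat.Agent.S17.PLK.Sec36

set_option autoImplicit false

noncomputable section

open AlgebraicCurve ModularCurve

namespace Fermat.Agent.S17.PLK.H36

open Fermat.Agent.S17.FND Fermat.Agent.S17.H Fermat.Agent.S17.HT Fermat.Agent.S17.PLK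

variable {F₀ : IntermediateField ℚ (LaurentSeries ℚ)}
  [IsCurveOver Qbar (FB F₀)] [Algebra.EssFiniteType Qbar (FB F₀)]

/-! ### `secVal` as a linear functional -/

theorem secVal_sub' (A : Divisor Qbar (FB F₀)) (Q : Place Qbar (FB F₀)) {s s' : FB F₀}
    (hs : s ∈ riemannRochSpace A) (hs' : s' ∈ riemannRochSpace A) :
    secVal A Q (s - s') = secVal A Q s - secVal A Q s' := by
  have h1 : s - s' = s + algebraMap Qbar (FB F₀) (-1) * s' := by
    rw [map_neg, map_one]; ring
  have hm : algebraMap Qbar (FB F₀) (-1) * s' ∈ riemannRochSpace A := by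
    rw [← Algebra.smul_def]
    exact Submodule.smul_mem _ _ hs'
  rw [h1, secVal_add A Q hs hm, secVal_smul A Q (-1) hs']
  ring

/-- A `K`-linear functional on `F` extending `secVal A Q` on `L(A)`. -/
theorem exists_linear_secVal (A : Divisor Qbar (FB F₀)) (Q : Place Qbar (FB F₀)) :
    ∃ g : FB F₀ →ₗ[Qbar] Qbar, ∀ s ∈ riemannRochSpace A, g s = secVal A Q s := by
  let f : riemannRochSpace A →ₗ[Qbar] Qbar :=
    { toFun := fun s => secVal A Q (s : FB F₀)
      map_add' := fun s t => secVal_add A Q s.2 t.2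
      map_smul' := fun c s => by
        simp only [Submodule.coe_smul, RingHom.id_apply, smul_eq_mul]
        rw [Algebra.smul_def]
        exact secVal_smul A Q c s.2 }
  obtain ⟨g, hg⟩ := LinearMap.exists_extend f
  refine ⟨g, fun s hs => ?_⟩
  have := LinearMap.congr_fun hg ⟨s, hs⟩
  simpa [f] using this

/-- The matrix of multiplication by `e` from `V_n ⊆ V_N` (coordinates `ψ^N`) to `V_{N'}`. -/
theorem exists_mulMatrix (S : Setup F₀) (n N N' : ℕ) (hnN : n ≤ N) (e : FB F₀)
    (he : ∀ s ∈ V S n, e * s ∈ V S N') :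
    ∃ A : Matrix (Fin (dim S N')) (Fin (dim S N)) Qbar,
      ∀ s ∈ V S n, coords S N' (e * s) = A.mulVec (coords S N s) := by
  let f : V S n →ₗ[Qbar] (Fin (dim S N') → Qbar) :=
    { toFun := fun s => coords S N' (e * (s : FB F₀))
      map_add' := fun s t => by
        simp only [Submodule.coe_add, mul_add]
        exact coords_add S N' (he _ s.2) (he _ t.2)
      map_smul' := fun c s => by
        simp only [Submodule.coe_smul, RingHom.id_apply]
        rw [mul_smul_comm]
        exact coords_smul S N' c (he _ s.2) }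
  obtain ⟨G, hG⟩ := LinearMap.exists_extend f
  refine ⟨Matrix.of fun i j => G (psi S N j) i, fun s hs => ?_⟩
  have h1 : G s = coords S N' (e * s) := by
    have := LinearMap.congr_fun hG ⟨s, hs⟩
    simpa [f] using this
  rw [← h1, linear_eq_sum_coords S N G (V_mono S hnN hs)]
  funext i
  simp only [Finset.sum_apply, Pi.smul_apply, smul_eq_mul, Matrix.mulVec, dotProduct,
    Matrix.of_apply]
  exact Finset.sum_congr rfl fun j _ => mul_comm _ _

/-! ### Effective divisors are sums of points -/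

theorem exists_points_of_effective (k : ℕ) :
    ∀ E : Divisor Qbar (FB F₀), 0 ≤ E → Divisor.degree E = k →
      ∃ P : Fin k → Place Qbar (FB F₀), E = ∑ i, pt (P i) := by
  classical
  induction k with
  | zero =>
    intro E hE hk
    refine ⟨Fin.elim0, ?_⟩
    rw [Finset.univ_eq_empty, Finset.sum_empty]
    exact eq_zero_of_nonneg_of_degree hE (by simpa using hk)
  | succ k ih =>
    intro E hE hk
    have hE0 : E ≠ 0 := by
      intro h
      rw [h, map_zero] at hk
      norm_cast at hk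
    obtain ⟨v, hv⟩ := DFunLike.ne_iff.mp hE0
    have hv0 : 0 ≤ E v := by
      have := Finsupp.le_def.mp hE v
      simpa using this
    have hv1 : 1 ≤ E v := by
      have : E v ≠ 0 := by simpa using hv
      omega
    have hE' : 0 ≤ E - pt v := by
      rw [Finsupp.le_def]
      intro u
      simp only [Finsupp.coe_zero, Pi.zero_apply, Finsupp.coe_sub, Pi.sub_apply, pt]
      rw [Finsupp.single_apply]
      split_ifs with h
      · subst h; omega
      · have := Finsupp.le_def.mp hE u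
        simpa using this
    have hdeg : Divisor.degree (E - pt v) = k := by
      rw [map_sub, hk, degree_pt]
      push_cast
      ring
    obtain ⟨P', hP'⟩ := ih (E - pt v) hE' hdeg
    refine ⟨Fin.cons v P', ?_⟩
    rw [Fin.sum_univ_succ]
    simp only [Fin.cons_zero, Fin.cons_succ]
    rw [← hP']
    abel

omit [IsCurveOver Qbar (FB F₀)] [Algebra.EssFiniteType Qbar (FB F₀)] in
theorem Lam_pt_right (δ : Place Qbar (FB F₀) → Place Qbar (FB F₀) → ℝ) (D : Divisor Qbar (FB F₀))
    (Q : Place Qbar (FB F₀)) : Lam δ D (pt Q) = D.sum fun P n => (n : ℝ) * δ P Q := by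
  unfold Lam
  congr 1
  funext P n
  rw [Finsupp.sum_single_index]
  · simp
  · simp

omit [IsCurveOver Qbar (FB F₀)] [Algebra.EssFiniteType Qbar (FB F₀)] in
theorem Lam_sum_pt (δ : Place Qbar (FB F₀) → Place Qbar (FB F₀) → ℝ) {k : ℕ}
    (P : Fin k → Place Qbar (FB F₀)) (Q : Place Qbar (FB F₀)) :
    Lam δ (∑ i, pt (P i)) (pt Q) = ∑ i, δ (P i) Q := by
  rw [Lam_pt_right]
  rw [← Finsupp.sum_finsetSum_index
    (h := fun (P : Place Qbar (FB F₀)) (n : ℤ) => (n : ℝ) * δ P Q)]
  · refine Finset.sum_congr rfl fun i _ => ?_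
    rw [Finsupp.sum_single_index]
    · simp
    · simp
  · intro a; simp
  · intro a b₁ b₂; push_cast; ring

/-! ### The sections `bsec`, `sgen` -/

omit [IsCurveOver Qbar (FB F₀)] [Algebra.EssFiniteType Qbar (FB F₀)] in
theorem phi_mem (S : Setup F₀) (j : Fin (S.r + 1)) : S.φ j ∈ V S S.m := by
  have h := S.basis.2
  have : S.φ j ∈ Submodule.span Qbar (Set.range S.φ) := Submodule.subset_span (Set.mem_range_self j)
  rw [h] at this
  exact this

omit [IsCurveOver Qbar (FB F₀)] [Algebra.EssFiniteType Qbar (FB F₀)] in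
theorem bsec_mem (S : Setup F₀) (y : Fin (S.r + 1) → Qbar) (c : Fin (S.r + 1) × Fin (S.r + 1)) :
    bsec S y c ∈ V S S.m := by
  unfold bsec
  refine Submodule.sub_mem _ ?_ ?_
  · rw [← Algebra.smul_def]
    exact Submodule.smul_mem _ _ (phi_mem S _)
  · rw [← Algebra.smul_def]
    exact Submodule.smul_mem _ _ (phi_mem S _)

theorem secVal_bsec (S : Setup F₀) (y : Fin (S.r + 1) → Qbar)
    (c : Fin (S.r + 1) × Fin (S.r + 1)) (Q : Place Qbar (FB F₀)) :
    secVal (lvlDiv S S.m) Q (bsec S y c) = y c.1 * xphi S Q c.2 - y c.2 * xphi S Q c.1 := by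
  unfold bsec
  have h1 : algebraMap Qbar (FB F₀) (y c.1) * S.φ c.2 ∈ riemannRochSpace (lvlDiv S S.m) := by
    rw [← Algebra.smul_def]
    exact Submodule.smul_mem _ _ (phi_mem S _)
  have h2 : algebraMap Qbar (FB F₀) (y c.2) * S.φ c.1 ∈ riemannRochSpace (lvlDiv S S.m) := by
    rw [← Algebra.smul_def]
    exact Submodule.smul_mem _ _ (phi_mem S _)
  rw [secVal_sub' _ Q h1 h2, secVal_smul _ Q _ (phi_mem S _), secVal_smul _ Q _ (phi_mem S _)]
  rfl

theorem bsec_xphi_mem (S : Setup F₀) (P : Place Qbar (FB F₀))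
    (c : Fin (S.r + 1) × Fin (S.r + 1)) :
    bsec S (xphi S P) c ∈ riemannRochSpace (lvlDiv S S.m - pt P) := by
  rw [← secVal_eq_zero_iff (lvlDiv S S.m) P (bsec_mem S _ c), secVal_bsec]
  ring

theorem secVal_one (Q : Place Qbar (FB F₀)) :
    secVal (0 : Divisor Qbar (FB F₀)) Q (1 : FB F₀) = 1 := by
  unfold secVal
  simp only [Finsupp.coe_zero, Pi.zero_apply, zpow_zero, mul_one]
  have h := evalAt_algebraMap Q (1 : Qbar)
  rwa [map_one] at h

theorem secVal_prod {ι : Type*} (s : Finset ι) (A : ι → Divisor Qbar (FB F₀))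
    (Q : Place Qbar (FB F₀)) (f : ι → FB F₀) (hf : ∀ i ∈ s, f i ∈ riemannRochSpace (A i)) :
    secVal (∑ i ∈ s, A i) Q (∏ i ∈ s, f i) = ∏ i ∈ s, secVal (A i) Q (f i) := by
  classical
  induction s using Finset.induction_on with
  | empty => simpa using secVal_one (F₀ := F₀) Q
  | insert a s ha ih =>
    rw [Finset.prod_insert ha, Finset.sum_insert ha, Finset.prod_insert ha]
    rw [secVal_mul _ _ Q (hf a (Finset.mem_insert_self a s))
      (prod_mem_RR s A f fun i hi => hf i (Finset.mem_insert_of_mem hi)),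
      ih fun i hi => hf i (Finset.mem_insert_of_mem hi)]

omit [IsCurveOver Qbar (FB F₀)] [Algebra.EssFiniteType Qbar (FB F₀)] in
/-- `N P₀ − Σ P_i = Σ (m P₀ − P_i) + (N − k m) P₀`. -/
theorem lvlDiv_sub_sum (S : Setup F₀) (k N : ℕ) (hkN : k * S.m ≤ N)
    (P : Fin k → Place Qbar (FB F₀)) :
    lvlDiv S N - ∑ i, pt (P i) =
      ∑ i, (lvlDiv S S.m - pt (P i)) + lvlDiv S (N - k * S.m) := by
  rw [Finset.sum_sub_distrib, Finset.sum_const, Finset.card_univ, Fintype.card_fin]
  have h1 : k • lvlDiv S S.m + lvlDiv S (N - k * S.m) = lvlDiv S N := by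
    simp only [lvlDiv]
    rw [← natCast_zsmul, smul_smul, ← add_smul]
    congr 1
    push_cast [Nat.cast_sub hkN]
    ring
  rw [← h1]
  abel

theorem secVal_sgen (S : Setup F₀) (k N : ℕ) (hkN : k * S.m ≤ N)
    (P : Fin k → Place Qbar (FB F₀)) (Q : Place Qbar (FB F₀))
    (β : (Fin k → Fin (S.r + 1) × Fin (S.r + 1)) × Fin (dim S (N - k * S.m))) :
    secVal (lvlDiv S N - ∑ i, pt (P i)) Q (sgen S k N (fun i => xphi S (P i)) β) =
      (∏ i, Mvec S (P i) Q (β.1 i)) * xvec S (N - k * S.m) Q β.2 := by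
  rw [lvlDiv_sub_sum S k N hkN P]
  unfold sgen
  rw [secVal_mul _ _ Q (prod_mem_RR Finset.univ _ _ fun i _ => bsec_xphi_mem S (P i) (β.1 i))
    (psi_mem S _ β.2)]
  rw [secVal_prod Finset.univ _ Q _ fun i _ => bsec_xphi_mem S (P i) (β.1 i)]
  rfl

/-! ### Multilinear expansion of `sgen` -/

/-- The coefficient sections of `bsec`: `bsec S y c = Σ_j y_j · bcoef S c j`. -/
def bcoef (S : Setup F₀) (c : Fin (S.r + 1) × Fin (S.r + 1)) (j : Fin (S.r + 1)) : FB F₀ :=
  (if j = c.1 then S.φ c.2 else 0) - (if j = c.2 then S.φ c.1 else 0)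

omit [IsCurveOver Qbar (FB F₀)] [Algebra.EssFiniteType Qbar (FB F₀)] in
theorem bcoef_mem (S : Setup F₀) (c : Fin (S.r + 1) × Fin (S.r + 1)) (j : Fin (S.r + 1)) :
    bcoef S c j ∈ V S S.m := by
  unfold bcoef
  refine Submodule.sub_mem _ ?_ ?_
  · split_ifs
    · exact phi_mem S _
    · exact zero_mem _
  · split_ifs
    · exact phi_mem S _
    · exact zero_mem _

omit [IsCurveOver Qbar (FB F₀)] [Algebra.EssFiniteType Qbar (FB F₀)] in
theorem bsec_eq_sum (S : Setup F₀) (y : Fin (S.r + 1) → Qbar)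
    (c : Fin (S.r + 1) × Fin (S.r + 1)) :
    bsec S y c = ∑ j, algebraMap Qbar (FB F₀) (y j) * bcoef S c j := by
  unfold bsec bcoef
  simp only [mul_sub, mul_ite, mul_zero, Finset.sum_sub_distrib, Finset.sum_ite_eq',
    Finset.mem_univ, if_true]

omit [IsCurveOver Qbar (FB F₀)] [Algebra.EssFiniteType Qbar (FB F₀)] in
theorem prod_bsec_eq_sum (S : Setup F₀) (k : ℕ) (y : Fin k → Fin (S.r + 1) → Qbar)
    (c : Fin k → Fin (S.r + 1) × Fin (S.r + 1)) :
    ∏ i, bsec S (y i) (c i) =
      ∑ J : Fin k → Fin (S.r + 1),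
        algebraMap Qbar (FB F₀) (∏ i, y i (J i)) * ∏ i, bcoef S (c i) (J i) := by
  simp only [bsec_eq_sum]
  rw [Finset.prod_univ_sum]
  rw [Fintype.piFinset_univ]
  refine Finset.sum_congr rfl fun J _ => ?_
  rw [map_prod, ← Finset.prod_mul_distrib]

/-- The fixed sections in the expansion of `sgen`. -/
def tfun (S : Setup F₀) (k N : ℕ)
    (β : (Fin k → Fin (S.r + 1) × Fin (S.r + 1)) × Fin (dim S (N - k * S.m)))
    (J : Fin k → Fin (S.r + 1)) : FB F₀ :=
  (∏ i, bcoef S (β.1 i) (J i)) * psi S (N - k * S.m) β.2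

theorem tfun_mem (S : Setup F₀) (k N : ℕ) (hkN : k * S.m ≤ N)
    (β : (Fin k → Fin (S.r + 1) × Fin (S.r + 1)) × Fin (dim S (N - k * S.m)))
    (J : Fin k → Fin (S.r + 1)) : tfun S k N β J ∈ V S N := by
  unfold tfun
  have h1 := prod_mem_RR (F₀ := F₀) Finset.univ (fun _ : Fin k => lvlDiv S S.m)
    (fun i => bcoef S (β.1 i) (J i)) (fun i _ => bcoef_mem S _ _)
  have h2 := mul_mem_RR h1 (psi_mem S (N - k * S.m) β.2)
  have h3 : ∑ _i : Fin k, lvlDiv S S.m + lvlDiv S (N - k * S.m) = lvlDiv S N := by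
    rw [Finset.sum_const, Finset.card_univ, Fintype.card_fin]
    simp only [lvlDiv]
    rw [← natCast_zsmul, smul_smul, ← add_smul]
    congr 1
    push_cast [Nat.cast_sub hkN]
    ring
  rw [h3] at h2
  exact h2

theorem sgen_eq_sum (S : Setup F₀) (k N : ℕ) (y : Fin k → Fin (S.r + 1) → Qbar)
    (β : (Fin k → Fin (S.r + 1) × Fin (S.r + 1)) × Fin (dim S (N - k * S.m))) :
    sgen S k N y β = ∑ J : Fin k → Fin (S.r + 1), (∏ i, y i (J i)) • tfun S k N β J := by
  unfold sgen tfun
  rw [prod_bsec_eq_sum, Finset.sum_mul]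
  refine Finset.sum_congr rfl fun J _ => ?_
  rw [Algebra.smul_def, mul_assoc]

/-- The coordinates of `sgen` are multilinear polynomials in the `y_i`. -/
theorem coords_sgen (S : Setup F₀) (k N : ℕ) (hkN : k * S.m ≤ N)
    (y : Fin k → Fin (S.r + 1) → Qbar)
    (β : (Fin k → Fin (S.r + 1) × Fin (S.r + 1)) × Fin (dim S (N - k * S.m)))
    (i : Fin (dim S N)) :
    coords S N (sgen S k N y β) i =
      ∑ J : Fin k → Fin (S.r + 1), (∏ a, y a (J a)) * coords S N (tfun S k N β J) i := by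
  rw [sgen_eq_sum, coords_sum_smul S N Finset.univ _ _ (fun J _ => tfun_mem S k N hkN β J)]
  simp only [Finset.sum_apply, Pi.smul_apply, smul_eq_mul]

end Fermat.Agent.S17.PLK.H36
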