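/-
S17 / PLK — the general contraction inequality GC (helper36).

For fixed `S k n N N'` (`n ≤ N`, `n ≤ N'`, `(k+1) m + 2g ≤ N'`) and a fixed `e ∈ V_{N'-n}` there is `C`
such that for all places `P_1..P_k`, `Q` with `secVal ((N'-n) P₀) Q e ≠ 0` and
`ℓ(n P₀ - ΣP_i) = ℓ(n P₀ - ΣP_i - Q) + 1`:

    etaSub N L(n P₀ - ΣP_i - Q) ≤ etaSub N L(n P₀ - ΣP_i) + k·hX(Q) - Σ_i δ(P_i,Q)
                                     + ht (xvec (N' - k m) Q) + C.

This is the common core of (VIII) `eta_step` (`Q = P₀`) and of the "≤" half of (A) `eta_add_pt`.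
Proof: contraction of the Plücker vector (`Sec36.etaSub_contr`), Cramer's rule on the matrix `T_k(y)`
of the sections `sgen` at level `N'` (engine A of helper6026, `Engine6026.cramer_ht_le`), and the
Skel leaf `cert_minors`.
-/
import Fermat.Agent.S17.PLK.Sec36b
import Fermat.Agent.S17.PLK.Engine6026

set_option autoImplicit false

noncomputable section

open AlgebraicCurve ModularCurve

namespace Fermat.Agent.S17.PLK.H36

open Fermat.Agent.S17.FND Fermat.Agent.S17.H Fermat.Agent.S17.HT Fermat.Agent.S17.PLK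
open Fermat.Agent.S17.PLK6026

/-! ### Blocks of variables -/

/-- Block index: the `ω`-block, `k` point blocks, `k` pairing blocks, the `x(Q)` block. -/
abbrev Blk (k : ℕ) : Type := Unit ⊕ (Fin k ⊕ (Fin k ⊕ Unit))

/-- The variables of each block. -/
def Var (r1 w dN dq k : ℕ) : Blk k → Type
  | Sum.inl _ => Fin (w + 1) → Fin dN
  | Sum.inr (Sum.inl _) => Fin r1
  | Sum.inr (Sum.inr (Sum.inl _)) => Fin r1 × Fin r1
  | Sum.inr (Sum.inr (Sum.inr _)) => Fin dq

instance instFintypeVar (r1 w dN dq k : ℕ) (c : Blk k) : Fintype (Var r1 w dN dq k c) :=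
  match c with
  | Sum.inl _ => inferInstanceAs (Fintype (Fin (w + 1) → Fin dN))
  | Sum.inr (Sum.inl _) => inferInstanceAs (Fintype (Fin r1))
  | Sum.inr (Sum.inr (Sum.inl _)) => inferInstanceAs (Fintype (Fin r1 × Fin r1))
  | Sum.inr (Sum.inr (Sum.inr _)) => inferInstanceAs (Fintype (Fin dq))

section Blocks

variable {r1 w dN dq k : ℕ}

/-- A point of the product of the blocks. -/
def pointX (ω : (Fin (w + 1) → Fin dN) → Qbar) (y : Fin k → Fin r1 → Qbar)
    (M : Fin k → Fin r1 × Fin r1 → Qbar) (xq : Fin dq → Qbar) :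
    (c : Blk k) → Var r1 w dN dq k c → Qbar
  | Sum.inl _ => ω
  | Sum.inr (Sum.inl i) => y i
  | Sum.inr (Sum.inr (Sum.inl i)) => M i
  | Sum.inr (Sum.inr (Sum.inr _)) => xq

def xOm (x : (c : Blk k) → Var r1 w dN dq k c → Qbar) : (Fin (w + 1) → Fin dN) → Qbar :=
  x (Sum.inl ())

def xY (x : (c : Blk k) → Var r1 w dN dq k c → Qbar) (i : Fin k) : Fin r1 → Qbar :=
  x (Sum.inr (Sum.inl i))

def xM (x : (c : Blk k) → Var r1 w dN dq k c → Qbar) (i : Fin k) : Fin r1 × Fin r1 → Qbar :=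
  x (Sum.inr (Sum.inr (Sum.inl i)))

def xQ (x : (c : Blk k) → Var r1 w dN dq k c → Qbar) : Fin dq → Qbar :=
  x (Sum.inr (Sum.inr (Sum.inr ())))

/-- Degree vectors. -/
def dOm (k : ℕ) : Blk k → ℕ := Pi.single (Sum.inl ()) 1

def dY (k : ℕ) : Blk k → ℕ := ∑ i : Fin k, Pi.single (Sum.inr (Sum.inl i)) 1

def dM (k : ℕ) : Blk k → ℕ := ∑ i : Fin k, Pi.single (Sum.inr (Sum.inr (Sum.inl i))) 1

def dXq (k : ℕ) : Blk k → ℕ := Pi.single (Sum.inr (Sum.inr (Sum.inr ()))) 1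

theorem sum_blk (k : ℕ) (f : Blk k → ℝ) :
    ∑ c, f c = f (Sum.inl ()) + (∑ i, f (Sum.inr (Sum.inl i)) +
      (∑ i, f (Sum.inr (Sum.inr (Sum.inl i))) + f (Sum.inr (Sum.inr (Sum.inr ()))))) := by
  simp [Fintype.sum_sum_type]

theorem isMHFun_xOm (f : Fin (w + 1) → Fin dN) :
    IsMHFun (dOm k) (fun x : (c : Blk k) → Var r1 w dN dq k c → Qbar => xOm x f) :=
  isMHFun_coord (κ := Var r1 w dN dq k) (Sum.inl ()) f

theorem isMHFun_xY (i : Fin k) (j : Fin r1) :
    IsMHFun (Pi.single (Sum.inr (Sum.inl i)) 1)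
      (fun x : (c : Blk k) → Var r1 w dN dq k c → Qbar => xY x i j) :=
  isMHFun_coord (κ := Var r1 w dN dq k) (Sum.inr (Sum.inl i)) j

theorem isMHFun_xM (i : Fin k) (c : Fin r1 × Fin r1) :
    IsMHFun (Pi.single (Sum.inr (Sum.inr (Sum.inl i))) 1)
      (fun x : (c : Blk k) → Var r1 w dN dq k c → Qbar => xM x i c) :=
  isMHFun_coord (κ := Var r1 w dN dq k) (Sum.inr (Sum.inr (Sum.inl i))) c

theorem isMHFun_xQ (l : Fin dq) :
    IsMHFun (dXq k) (fun x : (c : Blk k) → Var r1 w dN dq k c → Qbar => xQ x l) :=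
  isMHFun_coord (κ := Var r1 w dN dq k) (Sum.inr (Sum.inr (Sum.inr ()))) l

end Blocks

theorem dOm_apply (k : ℕ) :
    dOm k (Sum.inl ()) = 1 ∧ (∀ i, dOm k (Sum.inr (Sum.inl i)) = 0) ∧
      (∀ i, dOm k (Sum.inr (Sum.inr (Sum.inl i))) = 0) ∧
      dOm k (Sum.inr (Sum.inr (Sum.inr ()))) = 0 := by
  simp [dOm]

theorem dY_apply (k : ℕ) :
    dY k (Sum.inl ()) = 0 ∧ (∀ i, dY k (Sum.inr (Sum.inl i)) = 1) ∧
      (∀ i, dY k (Sum.inr (Sum.inr (Sum.inl i))) = 0) ∧
      dY k (Sum.inr (Sum.inr (Sum.inr ()))) = 0 := by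
  simp [dY, Pi.single_apply, Finset.sum_apply]

theorem dM_apply (k : ℕ) :
    dM k (Sum.inl ()) = 0 ∧ (∀ i, dM k (Sum.inr (Sum.inl i)) = 0) ∧
      (∀ i, dM k (Sum.inr (Sum.inr (Sum.inl i))) = 1) ∧
      dM k (Sum.inr (Sum.inr (Sum.inr ()))) = 0 := by
  simp [dM, Pi.single_apply, Finset.sum_apply]

theorem dXq_apply (k : ℕ) :
    dXq k (Sum.inl ()) = 0 ∧ (∀ i, dXq k (Sum.inr (Sum.inl i)) = 0) ∧
      (∀ i, dXq k (Sum.inr (Sum.inr (Sum.inl i))) = 0) ∧
      dXq k (Sum.inr (Sum.inr (Sum.inr ()))) = 1 := by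
  simp [dXq]

variable {F₀ : IntermediateField ℚ (LaurentSeries ℚ)}
  [IsCurveOver Qbar (FB F₀)] [Algebra.EssFiniteType Qbar (FB F₀)]

/-! ### Degrees and dimensions -/

theorem degree_lvlDiv (S : Setup F₀) (n : ℕ) : Divisor.degree (lvlDiv S n) = n := by
  simp only [lvlDiv]
  rw [map_zsmul, degree_pt]
  simp

theorem degree_sum_pt {k : ℕ} (P : Fin k → Place Qbar (FB F₀)) :
    Divisor.degree (∑ i, pt (P i)) = k := by
  rw [map_sum]
  have h : ∀ i ∈ (Finset.univ : Finset (Fin k)), Divisor.degree (pt (P i)) = (1 : ℤ) :=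
    fun i _ => degree_pt (P i)
  rw [Finset.sum_congr rfl h]
  simp

omit [IsCurveOver Qbar (FB F₀)] [Algebra.EssFiniteType Qbar (FB F₀)] in
theorem sum_pt_nonneg {k : ℕ} (P : Fin k → Place Qbar (FB F₀)) :
    (0 : Divisor Qbar (FB F₀)) ≤ ∑ i, pt (P i) :=
  Finset.sum_nonneg fun i _ => pt_nonneg (P i)

theorem dim_eq (S : Setup F₀) (N : ℕ) (hN : 2 * genusFF Qbar (FB F₀) ≤ N + 1) :
    (dim S N : ℤ) = N + 1 - genusFF Qbar (FB F₀) := by
  unfold dim
  have h := ell_eq_of_degree_gt (D := lvlDiv S N) (by rw [degree_lvlDiv]; omega)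
  rw [h, degree_lvlDiv]

theorem ell_lvlDiv_sub (S : Setup F₀) (N k : ℕ) (P : Fin k → Place Qbar (FB F₀))
    (hN : 2 * genusFF Qbar (FB F₀) + k ≤ N + 1) :
    (ell (lvlDiv S N - ∑ i, pt (P i)) : ℤ) = N - k + 1 - genusFF Qbar (FB F₀) := by
  have hd : Divisor.degree (lvlDiv S N - ∑ i, pt (P i)) = (N : ℤ) - k := by
    rw [map_sub, degree_lvlDiv, degree_sum_pt]
  have h := ell_eq_of_degree_gt (D := lvlDiv S N - ∑ i, pt (P i)) (by rw [hd]; omega)
  rw [h, hd]

/-! ### The functions of the engine -/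

section Engine

variable (S : Setup F₀) (k N N' w : ℕ)

/-- The index type of the sections `sgen` at level `N'`. -/
abbrev Cl : Type := (Fin k → Fin (S.r + 1) × Fin (S.r + 1)) × Fin (dim S (N' - k * S.m))

/-- The block variables for the data `(S, k, N, N', w)`. -/
abbrev XX : Type :=
  (c : Blk k) → Var (S.r + 1) w (dim S N) (dim S (N' - k * S.m)) k c → Qbar

/-- The matrix `T_k(y)` of the coordinates of the sections `sgen`. -/
def Tfun (i : Fin (dim S N')) (β : Cl S k N') : XX S k N N' w → Qbar :=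
  fun x => coords S N' (sgen S k N' (fun a => xY x a) β) i

/-- The vectors `A · u_f(ω)`. -/
def ufun (A : Matrix (Fin (dim S N')) (Fin (dim S N)) Qbar) (f : Fin w → Fin (dim S N))
    (i : Fin (dim S N')) : XX S k N N' w → Qbar :=
  fun x => ∑ j, A i j * xOm x (Fin.cons j f)

/-- The values of the functional on the sections. -/
def pifun (β : Cl S k N') : XX S k N N' w → Qbar :=
  fun x => (∏ a, xM x a (β.1 a)) * xQ x β.2

theorem isMHFun_Tfun (hkN : k * S.m ≤ N') (i : Fin (dim S N')) (β : Cl S k N') :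
    IsMHFun (dY k) (Tfun S k N N' w i β) := by
  have h : IsMHFun (dY k) (fun x : XX S k N N' w =>
      ∑ J : Fin k → Fin (S.r + 1), (∏ a, xY x a (J a)) * coords S N' (tfun S k N' β J) i) := by
    refine IsMHFun.sum Finset.univ fun J _ => IsMHFun.mul_const ?_ _
    exact IsMHFun.prod Finset.univ fun a _ => isMHFun_xY a (J a)
  exact h.congr fun x => (coords_sgen S k N' hkN (fun a => xY x a) β i).symm

omit [IsCurveOver Qbar (FB F₀)] [Algebra.EssFiniteType Qbar (FB F₀)] in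
theorem isMHFun_ufun (A : Matrix (Fin (dim S N')) (Fin (dim S N)) Qbar)
    (f : Fin w → Fin (dim S N)) (i : Fin (dim S N')) :
    IsMHFun (dOm k) (ufun S k N N' w A f i) :=
  IsMHFun.sum Finset.univ fun j _ => (isMHFun_xOm (Fin.cons j f)).const_mul (A i j)

omit [IsCurveOver Qbar (FB F₀)] [Algebra.EssFiniteType Qbar (FB F₀)] in
theorem isMHFun_pifun (β : Cl S k N') :
    IsMHFun (dM k + dXq k) (pifun S k N N' w β) :=
  (IsMHFun.prod Finset.univ fun a _ => isMHFun_xM a (β.1 a)).mul (isMHFun_xQ β.2)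

end Engine

end Fermat.Agent.S17.PLK.H36
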