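/-
S17 / PLK — the general contraction inequality GC (helper36), main theorem.  See `GC36.lean`.
-/
import Fermat.Agent.S17.PLK.GC36

set_option autoImplicit false

noncomputable section

open AlgebraicCurve ModularCurve

namespace Fermat.Agent.S17.PLK.H36

open Fermat.Agent.S17.FND Fermat.Agent.S17.H Fermat.Agent.S17.HT Fermat.Agent.S17.PLK
open Fermat.Agent.S17.PLK6026

variable {F₀ : IntermediateField ℚ (LaurentSeries ℚ)}
  [IsCurveOver Qbar (FB F₀)] [Algebra.EssFiniteType Qbar (FB F₀)]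

omit [IsCurveOver Qbar (FB F₀)] [Algebra.EssFiniteType Qbar (FB F₀)] in
theorem one_le_m (S : Setup F₀) : 1 ≤ S.m := by
  have h := S.hm
  unfold mMin at h
  omega

/-- GC with the dimension `w + 1` of the big space fixed. -/
theorem contraction_le_aux (S : Setup F₀) (k n N N' w : ℕ) (hnN : n ≤ N)
    (hN' : (k + 1) * S.m + 2 * genusFF Qbar (FB F₀) ≤ N') (hnN' : n ≤ N')
    (e : FB F₀) (he : e ∈ V S (N' - n)) :
    ∃ C : ℝ, ∀ (P : Fin k → Place Qbar (FB F₀)) (Q : Place Qbar (FB F₀)),
      secVal (lvlDiv S (N' - n)) Q e ≠ 0 →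
      ell (lvlDiv S n - ∑ i, pt (P i)) = w + 1 →
      ell (lvlDiv S n - ∑ i, pt (P i) - pt Q) = w →
      etaSub S N (riemannRochSpace (lvlDiv S n - ∑ i, pt (P i) - pt Q)) ≤
        etaSub S N (riemannRochSpace (lvlDiv S n - ∑ i, pt (P i))) + (k : ℝ) * hX S.φ Q
          - ∑ i, delta S.φ (P i) Q + ht (xvec S (N' - k * S.m) Q) + C := by
  classical
  have hm1 := one_le_m S
  have hN'' : k * S.m + S.m + 2 * genusFF Qbar (FB F₀) ≤ N' := by
    have h := hN'
    rw [Nat.add_mul, Nat.one_mul] at h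
    exact h
  have hkN' : k * S.m ≤ N' := by omega
  have hkle : k ≤ k * S.m := Nat.le_mul_of_pos_right k hm1
  -- matrix of multiplication by `e`
  have heV : ∀ s ∈ V S n, e * s ∈ V S N' := by
    intro s hs
    have h := mul_mem_RR he hs
    rw [lvlDiv_add, Nat.sub_add_cancel hnN'] at h
    exact h
  obtain ⟨A, hA⟩ := exists_mulMatrix S n N N' hnN e heV
  obtain ⟨CA, hCA⟩ := cramer_ht_le (dim S N' - k) (dY k) (dOm k) (dM k + dXq k)
    (Tfun S k N N' w) (isMHFun_Tfun S k N N' w hkN')
    (ufun S k N N' w A) (isMHFun_ufun S k N N' w A)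
    (pifun S k N N' w) (isMHFun_pifun S k N N' w)
  obtain ⟨CB, hCB⟩ := cert_minors S k N' hN'
  refine ⟨CA + CB, fun P Q hγ hw1 hw => ?_⟩
  have hE0 : (0 : Divisor Qbar (FB F₀)) ≤ ∑ i, pt (P i) := sum_pt_nonneg P
  -- the two spaces
  have hW'V : riemannRochSpace (lvlDiv S n - ∑ i, pt (P i)) ≤ V S n :=
    rr_mono (sub_le_self _ hE0)
  have hW'N : riemannRochSpace (lvlDiv S n - ∑ i, pt (P i)) ≤ V S N :=
    hW'V.trans (V_mono S hnN)
  have hW''W' : riemannRochSpace (lvlDiv S n - ∑ i, pt (P i) - pt Q) ≤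
      riemannRochSpace (lvlDiv S n - ∑ i, pt (P i)) := rr_mono (sub_le_self _ (pt_nonneg Q))
  -- a basis of the big space
  haveI : Module.Finite Qbar (riemannRochSpace (lvlDiv S n - ∑ i, pt (P i))) := finite_RR _
  let bb' : Module.Basis (Fin (w + 1)) Qbar (riemannRochSpace (lvlDiv S n - ∑ i, pt (P i))) :=
    Module.finBasisOfFinrankEq Qbar _ hw1
  let b' : Fin (w + 1) → FB F₀ := fun i => (bb' i : FB F₀)
  have hb'li : LinearIndependent Qbar b' :=
    bb'.linearIndependent.map' (Submodule.subtype _) (Submodule.ker_subtype _)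
  have hb'sp : Submodule.span Qbar (Set.range b') =
      riemannRochSpace (lvlDiv S n - ∑ i, pt (P i)) := by
    have : Set.range b' = (Submodule.subtype _) '' Set.range bb' := by
      rw [← Set.range_comp]
      rfl
    rw [this, ← Submodule.map_span, bb'.span_eq, Submodule.map_subtype_top]
  have hb'mem : ∀ i, b' i ∈ riemannRochSpace (lvlDiv S n - ∑ i, pt (P i)) := fun i => (bb' i).2
  have hω : etaSub S N (riemannRochSpace (lvlDiv S n - ∑ i, pt (P i))) =
      ht (plVec fun i => coords S N (b' i)) :=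
    etaSub_eq_of_basis S N _ hW'N b' hb'li hb'sp
  -- the functional
  obtain ⟨g, hg⟩ := exists_linear_secVal (lvlDiv S n - ∑ i, pt (P i)) Q
  have hτ : ∀ s ∈ riemannRochSpace (lvlDiv S n - ∑ i, pt (P i)),
      ∑ j, g (psi S N j) * coords S N s j = g s := by
    intro s hs
    rw [linear_eq_sum_coords S N g (hW'N hs)]
    exact Finset.sum_congr rfl fun j _ => by rw [smul_eq_mul, mul_comm]
  have hkerg : ∀ s ∈ riemannRochSpace (lvlDiv S n - ∑ i, pt (P i) - pt Q), g s = 0 := by
    intro s hs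
    rw [hg s (hW''W' hs)]
    exact (secVal_eq_zero_iff _ Q (hW''W' hs)).mpr hs
  have hneg : ∃ s ∈ riemannRochSpace (lvlDiv S n - ∑ i, pt (P i)), g s ≠ 0 := by
    by_contra hcon
    push Not at hcon
    have hle : riemannRochSpace (lvlDiv S n - ∑ i, pt (P i)) ≤
        riemannRochSpace (lvlDiv S n - ∑ i, pt (P i) - pt Q) := fun s hs =>
      (secVal_eq_zero_iff _ Q hs).mp (by rw [← hg s hs]; exact hcon s hs)
    have heq := le_antisymm hle hW''W'
    have h1 : ell (lvlDiv S n - ∑ i, pt (P i)) = ell (lvlDiv S n - ∑ i, pt (P i) - pt Q) := by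
      unfold ell
      rw [heq]
    omega
  obtain ⟨hD, hD0⟩ := etaSub_contr S N _ _ hW'N hW''W' b' hb'sp hw
    (fun j => g (psi S N j)) (fun s => g s) hτ hkerg hneg
  -- the vectors `u_f`
  have hu_ex : ∀ f : Fin w → Fin (dim S N), ∃ u : FB F₀,
      u ∈ riemannRochSpace (lvlDiv S n - ∑ i, pt (P i)) ∧
      coords S N u = fun j => plVec (fun i => coords S N (b' i)) (Fin.cons j f) := by
    intro f
    have h := plVec_cons_mem_span (fun i => coords S N (b' i)) f
    obtain ⟨a, ha⟩ := (Submodule.mem_span_range_iff_exists_fun Qbar).mp h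
    refine ⟨∑ l, a l • b' l, Submodule.sum_mem _ fun l _ => Submodule.smul_mem _ _ (hb'mem l), ?_⟩
    rw [coords_sum_smul S N Finset.univ a b' (fun l _ => hW'N (hb'mem l))]
    exact ha
  choose uu huu_mem huu using hu_ex
  -- level `N'`
  have hWN : riemannRochSpace (lvlDiv S N' - ∑ i, pt (P i)) ≤ V S N' := rr_mono (sub_le_self _ hE0)
  obtain ⟨g', hg'⟩ := exists_linear_secVal (lvlDiv S N' - ∑ i, pt (P i)) Q
  have hsgen_mem : ∀ β : Cl S k N', sgen S k N' (fun i => xphi S (P i)) β ∈
      riemannRochSpace (lvlDiv S N' - ∑ i, pt (P i)) := by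
    intro β
    rw [← span_sgen S k N' hN' P]
    exact Submodule.subset_span (Set.mem_range_self β)
  have hdivadd : lvlDiv S (N' - n) + (lvlDiv S n - ∑ i, pt (P i)) =
      lvlDiv S N' - ∑ i, pt (P i) := by
    rw [← add_sub_assoc, lvlDiv_add, Nat.sub_add_cancel hnN']
  have heu_mem : ∀ f, e * uu f ∈ riemannRochSpace (lvlDiv S N' - ∑ i, pt (P i)) := by
    intro f
    have h := mul_mem_RR he (huu_mem f)
    rw [hdivadd] at h
    exact h
  -- the point
  let x : XX S k N N' w := pointX (plVec fun i => coords S N (b' i)) (fun i => xphi S (P i))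
    (fun i => Mvec S (P i) Q) (xvec S (N' - k * S.m) Q)
  -- the subspace of the engine
  let Wc : Submodule Qbar (Fin (dim S N') → Qbar) :=
    Submodule.map (cmap S N' _ hWN) ⊤
  have hρ : ell (lvlDiv S N' - ∑ i, pt (P i)) = dim S N' - k := by
    have h1 := dim_eq S N' (by omega)
    have h2 := ell_lvlDiv_sub S N' k P (by omega)
    omega
  haveI : Module.Finite Qbar (riemannRochSpace (lvlDiv S N' - ∑ i, pt (P i))) := finite_RR _
  have hWcfin : Module.finrank Qbar Wc = dim S N' - k := by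
    rw [← hρ]
    show Module.finrank Qbar (Submodule.map (cmap S N' _ hWN) ⊤) = _
    rw [Submodule.map_top, LinearMap.finrank_range_of_inj (cmap_injective S N' _ hWN)]
    rfl
  have hcoords_mem : ∀ s ∈ riemannRochSpace (lvlDiv S N' - ∑ i, pt (P i)),
      coords S N' s ∈ Wc := by
    intro s hs
    have : coords S N' s = cmap S N' _ hWN ⟨s, hs⟩ := (cmap_apply S N' _ hWN ⟨s, hs⟩).symm
    rw [this]
    exact Submodule.mem_map_of_mem Submodule.mem_top
  have hTW : ∀ β : Cl S k N', (fun i => Tfun S k N N' w i β x) ∈ Wc := fun β =>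
    hcoords_mem _ (hsgen_mem β)
  have hux : ∀ f : Fin w → Fin (dim S N),
      (fun i => ufun S k N N' w A f i x) = coords S N' (e * uu f) := by
    intro f
    rw [hA (uu f) (hW'V (huu_mem f)), huu f]
    funext i
    rfl
  have huW : ∀ f : Fin w → Fin (dim S N), (fun i => ufun S k N N' w A f i x) ∈ Wc := by
    intro f
    rw [hux f]
    exact hcoords_mem _ (heu_mem f)
  have hτT : ∀ β : Cl S k N', ∑ i, g' (psi S N' i) * Tfun S k N N' w i β x =
      pifun S k N N' w β x := by
    intro β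
    have h1 : ∑ i, g' (psi S N' i) * Tfun S k N N' w i β x =
        g' (sgen S k N' (fun i => xphi S (P i)) β) := by
      rw [linear_eq_sum_coords S N' g' (hWN (hsgen_mem β))]
      exact Finset.sum_congr rfl fun j _ => by rw [smul_eq_mul, mul_comm]; rfl
    rw [h1, hg' _ (hsgen_mem β), secVal_sgen S k N' hkN' P Q β]
    rfl
  have hτu : ∀ f : Fin w → Fin (dim S N), ∑ i, g' (psi S N' i) * ufun S k N N' w A f i x =
      secVal (lvlDiv S (N' - n)) Q e *
        contr (fun j => g (psi S N j)) (plVec fun i => coords S N (b' i)) f := by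
    intro f
    have h1 : ∑ i, g' (psi S N' i) * ufun S k N N' w A f i x = g' (e * uu f) := by
      rw [linear_eq_sum_coords S N' g' (hWN (heu_mem f))]
      refine Finset.sum_congr rfl fun j _ => ?_
      rw [smul_eq_mul, mul_comm]
      congr 1
      exact congrFun (hux f) j
    rw [h1, hg' _ (heu_mem f), ← hdivadd, secVal_mul _ _ Q he (huu_mem f), ← hg _ (huu_mem f),
      ← hτ _ (huu_mem f), huu f]
    rfl
  -- a nonzero minor
  have hμ : ∃ α, minorFun (dim S N' - k) (Tfun S k N N' w) α x ≠ 0 := by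
    let Tm : Matrix (Fin (dim S N')) (Cl S k N') Qbar := Matrix.of fun i β => Tfun S k N N' w i β x
    have hcol : ∀ β, Tm.col β = coords S N' (sgen S k N' (fun i => xphi S (P i)) β) := by
      intro β
      funext i
      rfl
    have hspan : Submodule.span Qbar (Set.range Tm.col) = Wc := by
      apply le_antisymm
      · rw [Submodule.span_le]
        rintro _ ⟨β, rfl⟩
        rw [hcol β]
        exact hcoords_mem _ (hsgen_mem β)
      · rintro _ ⟨⟨s, hs⟩, -, rfl⟩
        rw [cmap_apply]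
        have hs' := hs
        rw [← span_sgen S k N' hN' P] at hs'
        obtain ⟨a, ha⟩ := (Submodule.mem_span_range_iff_exists_fun Qbar).mp hs'
        show coords S N' s ∈ _
        rw [← ha, coords_sum_smul S N' Finset.univ a _ (fun β _ => hWN (hsgen_mem β))]
        refine Submodule.sum_mem _ fun β _ => Submodule.smul_mem _ _ ?_
        rw [← hcol β]
        exact Submodule.subset_span (Set.mem_range_self β)
    obtain ⟨R, C, hRC⟩ := exists_submatrix_det_ne_zero Tm (by rw [hspan, hWcfin])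
    exact ⟨(R, C), hRC⟩
  have hmain := hCA x (secVal (lvlDiv S (N' - n)) Q e)
    (contr (fun j => g (psi S N j)) (plVec fun i => coords S N (b' i)))
    (fun i => g' (psi S N' i)) Wc hWcfin.le hTW huW hτT hτu hγ hD0 hμ
  have hcert := hCB P
  have hminor : (fun α => minorFun (dim S N' - k) (Tfun S k N N' w) α x) =
      fun α : (Fin (dim S N' - k) → Fin (dim S N')) × (Fin (dim S N' - k) → Cl S k N') =>
        Matrix.det (Matrix.of fun i j =>
          coords S N' (sgen S k N' (fun i => xphi S (P i)) (α.2 j)) (α.1 i)) := by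
    funext α
    rfl
  rw [hminor] at hmain
  -- evaluate the sum over the blocks
  have hρ1 : 1 ≤ dim S N' - k := by
    have h1 := dim_eq S N' (by omega)
    omega
  obtain ⟨o1, o2, o3, o4⟩ := dOm_apply k
  obtain ⟨y1, y2, y3, y4⟩ := dY_apply k
  obtain ⟨m1, m2, m3, m4⟩ := dM_apply k
  obtain ⟨q1, q2, q3, q4⟩ := dXq_apply k
  have hsum : ∑ c, (((dM k + dXq k) c + ((dim S N' - k - 1) * dY k c + dOm k c) : ℕ) : ℝ) * ht (x c) =
      ht (plVec fun i => coords S N (b' i)) +
        ((dim S N' - k : ℕ) : ℝ) * ∑ i, ht (xphi S (P i)) - ∑ i, ht (xphi S (P i)) +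
        ∑ i, ht (Mvec S (P i) Q) + ht (xvec S (N' - k * S.m) Q) := by
    rw [sum_blk]
    simp only [Pi.add_apply, o1, o2, o3, o4, y1, y2, y3, y4, m1, m2, m3, m4, q1, q2, q3, q4]
    have hx1 : ht (x (Sum.inl ())) = ht (plVec fun i => coords S N (b' i)) := rfl
    have hx2 : ∀ i, ht (x (Sum.inr (Sum.inl i))) = ht (xphi S (P i)) := fun i => rfl
    have hx3 : ∀ i, ht (x (Sum.inr (Sum.inr (Sum.inl i)))) = ht (Mvec S (P i) Q) := fun i => rfl
    have hx4 : ht (x (Sum.inr (Sum.inr (Sum.inr ())))) = ht (xvec S (N' - k * S.m) Q) := rfl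
    simp only [hx1, hx2, hx3, hx4]
    push_cast [Nat.cast_sub hρ1]
    rw [← Finset.mul_sum]
    ring_nf
  rw [hsum] at hmain
  have hxphi : ∀ i, ht (xphi S (P i)) = hX S.φ (P i) := fun i => ht_xphi S (P i)
  have hMv : ∀ i, ht (Mvec S (P i) Q) = hX S.φ (P i) + hX S.φ Q - delta S.φ (P i) Q :=
    fun i => ht_Mvec S (P i) Q
  simp only [hxphi, hMv] at hmain hcert
  rw [Finset.sum_sub_distrib, Finset.sum_add_distrib, Finset.sum_const, Finset.card_univ,
    Fintype.card_fin, nsmul_eq_mul] at hmain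
  rw [hD, hω]
  linarith

end Fermat.Agent.S17.PLK.H36
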