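/-
S17 / PLK — leaf HG6 `eta_step` (VIII), VERBATIM vs `PLK/Skel.lean` v0 of helper2397 (helper36).

One strict step of the pole-order flag of `L(N P₀ − E)` at `P₀`:
  `etaSub N L(j P₀ − E) ≤ etaSub N L((j+1) P₀ − E) − h_∞(E) + C`.
Proof: the general contraction inequality `contraction_le` (`GC36b.lean`) with `Q = P₀`, `n = j + 1`,
auxiliary Cramer level `N' = (k+1) m + 2g + n`, and a fixed multiplier `e ∈ V_{N'-n}` of exact pole
order at `P₀`.  Uses the statements of the EARLIER leaves LA2(i') `plVec_cons_mem_span`, CG1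
(`secVal_*`, `ht_xphi`, `ht_Mvec`), CG2 `span_sgen`, HG2 `cert_minors` of the skeleton, FND, and the
HT API through helper6026's engine `cramer_ht_le`.
-/
import Fermat.Agent.S17.PLK.GC36b

set_option autoImplicit false

noncomputable section

open AlgebraicCurve ModularCurve

namespace Fermat.Agent.S17.PLK.H36

open Fermat.Agent.S17.FND Fermat.Agent.S17.H Fermat.Agent.S17.HT Fermat.Agent.S17.PLK

variable {F₀ : IntermediateField ℚ (LaurentSeries ℚ)}
  [IsCurveOver Qbar (FB F₀)] [Algebra.EssFiniteType Qbar (FB F₀)]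

/-- GC: the general contraction inequality (all dimensions at once). -/
theorem contraction_le (S : Setup F₀) (k n N N' : ℕ) (hnN : n ≤ N)
    (hN' : (k + 1) * S.m + 2 * genusFF Qbar (FB F₀) ≤ N') (hnN' : n ≤ N')
    (e : FB F₀) (he : e ∈ V S (N' - n)) :
    ∃ C : ℝ, ∀ (P : Fin k → Place Qbar (FB F₀)) (Q : Place Qbar (FB F₀)),
      secVal (lvlDiv S (N' - n)) Q e ≠ 0 →
      ell (lvlDiv S n - ∑ i, pt (P i)) = ell (lvlDiv S n - ∑ i, pt (P i) - pt Q) + 1 →
      etaSub S N (riemannRochSpace (lvlDiv S n - ∑ i, pt (P i) - pt Q)) ≤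
        etaSub S N (riemannRochSpace (lvlDiv S n - ∑ i, pt (P i))) + (k : ℝ) * hX S.φ Q
          - ∑ i, delta S.φ (P i) Q + ht (xvec S (N' - k * S.m) Q) + C := by
  choose Cw hCw using fun w => contraction_le_aux S k n N N' w hnN hN' hnN' e he
  refine ⟨∑ w ∈ Finset.range (dim S N + 1), |Cw w|, fun P Q hγ hell => ?_⟩
  have hwlt : ell (lvlDiv S n - ∑ i, pt (P i) - pt Q) ∈ Finset.range (dim S N + 1) := by
    rw [Finset.mem_range]
    have h1 : ell (lvlDiv S n - ∑ i, pt (P i)) ≤ dim S N :=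
      ell_mono ((sub_le_self _ (sum_pt_nonneg P)).trans (lvlDiv_mono S hnN))
    omega
  have h := hCw _ P Q hγ hell rfl
  have hle : Cw (ell (lvlDiv S n - ∑ i, pt (P i) - pt Q)) ≤
      ∑ w ∈ Finset.range (dim S N + 1), |Cw w| :=
    (le_abs_self _).trans
      (Finset.single_le_sum (f := fun w => |Cw w|) (fun i _ => abs_nonneg _) hwlt)
  linarith

/-- A section of `V_M` with a pole of exact order `M` at `P₀` (`M ≥ 2g`). -/
theorem exists_exact_pole (S : Setup F₀) (M : ℕ) (hM : 2 * genusFF Qbar (FB F₀) ≤ M) :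
    ∃ e : FB F₀, e ∈ V S M ∧ secVal (lvlDiv S M) S.P₀ e ≠ 0 := by
  have h1 := ell_sub_pt (D := lvlDiv S M) (by rw [degree_lvlDiv]; exact_mod_cast hM) S.P₀
  by_contra hcon
  push Not at hcon
  have hle : riemannRochSpace (lvlDiv S M) ≤ riemannRochSpace (lvlDiv S M - pt S.P₀) :=
    fun s hs => (secVal_eq_zero_iff _ S.P₀ hs).mp (hcon s hs)
  have heq := le_antisymm hle (rr_mono (sub_le_self _ (pt_nonneg S.P₀)))
  have h2 : ell (lvlDiv S M) = ell (lvlDiv S M - pt S.P₀) := by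
    unfold ell
    rw [heq]
  omega

omit [IsCurveOver Qbar (FB F₀)] [Algebra.EssFiniteType Qbar (FB F₀)] in
theorem lvlDiv_succ (S : Setup F₀) (j : ℕ) : lvlDiv S (j + 1) = lvlDiv S j + pt S.P₀ := by
  rw [← lvlDiv_add S j 1]
  congr 1
  simp [lvlDiv]

/-- **HG6 (VIII)**: one strict step of the pole-order flag of `L(N P₀ − E)` at `P₀`
(statement verbatim from `PLK/Skel.lean`). -/
theorem eta_step (S : Setup F₀) (k N : ℕ) :
    ∃ C : ℝ, ∀ E : Divisor Qbar (FB F₀), 0 ≤ E → E S.P₀ = 0 → Divisor.degree E ≤ k →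
      ∀ j : ℕ, j < N → ell (lvlDiv S (j + 1) - E) = ell (lvlDiv S j - E) + 1 →
        etaSub S N (riemannRochSpace (lvlDiv S j - E)) ≤
          etaSub S N (riemannRochSpace (lvlDiv S (j + 1) - E)) - hInf S E + C := by
  classical
  -- the auxiliary level and multiplier for each `(k', j)`
  have hex : ∀ (k' j : ℕ), ∃ e : FB F₀,
      e ∈ V S ((k' + 1) * S.m + 2 * genusFF Qbar (FB F₀)) ∧
      secVal (lvlDiv S ((k' + 1) * S.m + 2 * genusFF Qbar (FB F₀))) S.P₀ e ≠ 0 := fun k' _ =>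
    exists_exact_pole S _ (by omega)
  choose e he_mem he_ne using hex
  have hsub : ∀ k' j : ℕ, (k' + 1) * S.m + 2 * genusFF Qbar (FB F₀) + (j + 1) - (j + 1) =
      (k' + 1) * S.m + 2 * genusFF Qbar (FB F₀) := fun k' j => Nat.add_sub_cancel _ _
  have hGC : ∀ (k' j : ℕ), j < N → ∃ C : ℝ, ∀ (P : Fin k' → Place Qbar (FB F₀)),
      ell (lvlDiv S (j + 1) - ∑ i, pt (P i)) =
        ell (lvlDiv S (j + 1) - ∑ i, pt (P i) - pt S.P₀) + 1 →
      etaSub S N (riemannRochSpace (lvlDiv S (j + 1) - ∑ i, pt (P i) - pt S.P₀)) ≤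
        etaSub S N (riemannRochSpace (lvlDiv S (j + 1) - ∑ i, pt (P i))) -
          ∑ i, delta S.φ (P i) S.P₀ + C := by
    intro k' j hj
    obtain ⟨C, hC⟩ := contraction_le S k' (j + 1) N
      ((k' + 1) * S.m + 2 * genusFF Qbar (FB F₀) + (j + 1)) hj (by omega) (by omega)
      (e k' j) (by rw [hsub]; exact he_mem k' j)
    refine ⟨(k' : ℝ) * hX S.φ S.P₀ + ht (xvec S
      ((k' + 1) * S.m + 2 * genusFF Qbar (FB F₀) + (j + 1) - k' * S.m) S.P₀) + C, fun P hell => ?_⟩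
    have h := hC P S.P₀ (by rw [hsub]; exact he_ne k' j) hell
    linarith
  choose! Cf hCf using hGC
  refine ⟨∑ k' ∈ Finset.range (k + 1), ∑ j ∈ Finset.range N, |Cf k' j|,
    fun E hE _ hdeg j hj hell => ?_⟩
  -- enumerate `E`
  have hdeg0 : 0 ≤ Divisor.degree E := degree_nonneg_of_nonneg hE
  obtain ⟨k', hk'⟩ : ∃ k' : ℕ, Divisor.degree E = k' := ⟨(Divisor.degree E).toNat, by omega⟩
  have hk'k : k' ≤ k := by
    have : (k' : ℤ) ≤ k := by rw [← hk']; exact hdeg
    exact_mod_cast this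
  obtain ⟨P, hP⟩ := exists_points_of_effective k' E hE hk'
  have hdiv : lvlDiv S (j + 1) - E - pt S.P₀ = lvlDiv S j - E := by
    rw [lvlDiv_succ]
    abel
  have hell' : ell (lvlDiv S (j + 1) - ∑ i, pt (P i)) =
      ell (lvlDiv S (j + 1) - ∑ i, pt (P i) - pt S.P₀) + 1 := by
    rw [← hP, hdiv]
    exact hell
  have h := hCf k' j hj P hell'
  rw [← hP, hdiv] at h
  have hInf : hInf S E = ∑ i, delta S.φ (P i) S.P₀ := by
    unfold PLK.hInf
    rw [hP, Lam_sum_pt]
  have hle : Cf k' j ≤ ∑ k' ∈ Finset.range (k + 1), ∑ j ∈ Finset.range N, |Cf k' j| := by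
    have h1 : |Cf k' j| ≤ ∑ j ∈ Finset.range N, |Cf k' j| :=
      Finset.single_le_sum (f := fun j => |Cf k' j|) (fun i _ => abs_nonneg _)
        (Finset.mem_range.mpr hj)
    have h2 : ∑ j ∈ Finset.range N, |Cf k' j| ≤
        ∑ k' ∈ Finset.range (k + 1), ∑ j ∈ Finset.range N, |Cf k' j| :=
      Finset.single_le_sum (f := fun k' => ∑ j ∈ Finset.range N, |Cf k' j|)
        (fun i _ => Finset.sum_nonneg fun j _ => abs_nonneg _)
        (Finset.mem_range.mpr (by omega))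
    exact (le_abs_self _).trans (h1.trans h2)
  rw [hInf]
  linarith

end Fermat.Agent.S17.PLK.H36
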