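/-
S17 project, B-route "PLK" (skeleton of helper2397, v0 27f1513e): INTEGRATED SKELETON.
`SkelBase.lean` proves the leaves LA, CG1-3, HG1, HG2, HG5, HG7; this file adds HG3 `incidence`,
HG4 `eta_add_pt`, HG6 `eta_step` (statements VERBATIM), which is all that `Glue.lean` / `Pos.lean` use.
-/
import Fermat.Agent.S17.PLK.SkelBase
import Fermat.Agent.S17.PLK.HG3.Of4046
import Fermat.Agent.S17.PLK.HG4_576
import Fermat.Agent.S17.PLK.HG6_36

set_option autoImplicit false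

noncomputable section

open AlgebraicCurve ModularCurve

namespace Fermat.Agent.S17.PLK

open Fermat.Agent.S17.FND Fermat.Agent.S17.H Fermat.Agent.S17.HT

variable {F₀ : IntermediateField ℚ (LaurentSeries ℚ)}
  [IsCurveOver Qbar (FB F₀)] [Algebra.EssFiniteType Qbar (FB F₀)]

/-- HG3 (T1) [glue]: the INCIDENCE identity, for all sections `a ∈ L(n P₀)` and ALL places `Q`
(`Q` a zero of `a`, `Q = P₀`, `P₀` a zero of `a` as a section: all allowed; diagonal convention). -/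
theorem incidence (S : Setup F₀) (n : ℕ) (hn : 2 * genusFF Qbar (FB F₀) ≤ n) :
    ∃ C : ℝ, ∀ a : FB F₀, a ∈ V S n → a ≠ 0 → ∀ Q : Place Qbar (FB F₀),
      |Lam (delta S.φ) (divF a + lvlDiv S n) (pt Q) - ht (coords S n a) - ht (xvec S n Q)| ≤ C :=
  H4046.incidence_of S (ht_xphi S) (xphi_ne_zero S) (ht_Mvec S) (Mvec_ne_zero S) (span_sgen S)
    (H_add S) (xvec_m_sub S) (cert_minors S) n hn

/-- HG4 (A) [glue]: adding a point to `E` changes `η_N` by `H_N(Q) − Λ(E, Q)` (also for `Q ∈ E`). -/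
theorem eta_add_pt (S : Setup F₀) (k : ℕ) :
    ∃ N₁ : ℕ, ∀ N : ℕ, N₁ ≤ N → ∃ C : ℝ, ∀ E : Divisor Qbar (FB F₀), 0 ≤ E → E S.P₀ = 0 →
      Divisor.degree E ≤ k → ∀ Q : Place Qbar (FB F₀), Q ≠ S.P₀ →
        |eta S N (E + pt Q) - eta S N E - ht (xvec S N Q) + Lam (delta S.φ) E (pt Q)| ≤ C :=
  H576.eta_add_pt S k

/-- HG6 (VIII) [glue]: one strict step of the pole-order flag of `L(N P₀ − E)` at `P₀`. -/
theorem eta_step (S : Setup F₀) (k N : ℕ) :
    ∃ C : ℝ, ∀ E : Divisor Qbar (FB F₀), 0 ≤ E → E S.P₀ = 0 → Divisor.degree E ≤ k →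
      ∀ j : ℕ, j < N → ell (lvlDiv S (j + 1) - E) = ell (lvlDiv S j - E) + 1 →
        etaSub S N (riemannRochSpace (lvlDiv S j - E)) ≤
          etaSub S N (riemannRochSpace (lvlDiv S (j + 1) - E)) - hInf S E + C :=
  H36.eta_step S k N

end Fermat.Agent.S17.PLK
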