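/-
S17 project — B-route "PLK" (helper2397).  GLUE: the two frozen H-interface statements
`delta_classInv` and `delta_pos` of `Fermat/Agent/S17/H/Interfaces.lean`, PROVED from the leaves of
`PLK/Skel.lean` (+ FND statements).  This file is complete (all proofs given).
-/
import Fermat.Agent.S17.PLK.Skel

set_option autoImplicit false
set_option linter.unusedSectionVars false

noncomputable section

open AlgebraicCurve ModularCurve

namespace Fermat.Agent.S17.PLK

open Fermat.Agent.S17.FND Fermat.Agent.S17.H Fermat.Agent.S17.HT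

/-! ## Algebra of the pairing `Lam` -/

section LamAlgebra

variable {K F : Type*} [Field K] [Field F] [Algebra K F]

theorem Lam_add_left (δ : Place K F → Place K F → ℝ) (D D' E : Divisor K F) :
    Lam δ (D + D') E = Lam δ D E + Lam δ D' E := by
  unfold Lam
  rw [Finsupp.sum_add_index']
  · intro P; simp [Finsupp.sum]
  · intro P a b
    simp only [Finsupp.sum, Int.cast_add, add_mul, Finset.sum_add_distrib]

theorem Lam_add_right (δ : Place K F → Place K F → ℝ) (D E E' : Divisor K F) :
    Lam δ D (E + E') = Lam δ D E + Lam δ D E' := by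
  unfold Lam
  rw [← Finsupp.sum_add]
  refine Finsupp.sum_congr fun P _ => ?_
  rw [Finsupp.sum_add_index']
  · intro Q; simp
  · intro Q a b; simp only [Int.cast_add]; ring

theorem Lam_zero_left (δ : Place K F → Place K F → ℝ) (E : Divisor K F) : Lam δ 0 E = 0 := by
  simp [Lam]

theorem Lam_zero_right (δ : Place K F → Place K F → ℝ) (D : Divisor K F) : Lam δ D 0 = 0 := by
  simp [Lam]

theorem Lam_neg_left (δ : Place K F → Place K F → ℝ) (D E : Divisor K F) :
    Lam δ (-D) E = - Lam δ D E := by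
  have h := Lam_add_left δ D (-D) E
  rw [add_neg_cancel, Lam_zero_left] at h
  linarith

theorem Lam_neg_right (δ : Place K F → Place K F → ℝ) (D E : Divisor K F) :
    Lam δ D (-E) = - Lam δ D E := by
  have h := Lam_add_right δ D E (-E)
  rw [add_neg_cancel, Lam_zero_right] at h
  linarith

theorem Lam_sub_left (δ : Place K F → Place K F → ℝ) (D D' E : Divisor K F) :
    Lam δ (D - D') E = Lam δ D E - Lam δ D' E := by
  rw [sub_eq_add_neg, Lam_add_left, Lam_neg_left]; ring

theorem Lam_sub_right (δ : Place K F → Place K F → ℝ) (D E E' : Divisor K F) :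
    Lam δ D (E - E') = Lam δ D E - Lam δ D E' := by
  rw [sub_eq_add_neg, Lam_add_right, Lam_neg_right]; ring

theorem Lam_single_single (δ : Place K F → Place K F → ℝ) (P Q : Place K F) (a b : ℤ) :
    Lam δ (Finsupp.single P a) (Finsupp.single Q b) = (a : ℝ) * (b : ℝ) * δ P Q := by
  unfold Lam
  rw [Finsupp.sum_single_index]
  · rw [Finsupp.sum_single_index]; simp
  · simp

theorem Lam_pt_pt (δ : Place K F → Place K F → ℝ) (P Q : Place K F) :
    Lam δ (pt P) (pt Q) = δ P Q := by
  rw [Lam_single_single]; simp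

theorem Lam_zsmul_left (δ : Place K F → Place K F → ℝ) (n : ℤ) (D E : Divisor K F) :
    Lam δ (n • D) E = (n : ℝ) * Lam δ D E := by
  induction n using Int.induction_on with
  | zero => simp [Lam_zero_left]
  | succ n ih => rw [add_smul, Lam_add_left, ih, one_smul]; push_cast; ring
  | pred n ih => rw [sub_smul, Lam_sub_left, ih, one_smul]; push_cast; ring

theorem Lam_zsmul_right (δ : Place K F → Place K F → ℝ) (n : ℤ) (D E : Divisor K F) :
    Lam δ D (n • E) = (n : ℝ) * Lam δ D E := by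
  induction n using Int.induction_on with
  | zero => simp [Lam_zero_right]
  | succ n ih => rw [add_smul, Lam_add_right, ih, one_smul]; push_cast; ring
  | pred n ih => rw [sub_smul, Lam_sub_right, ih, one_smul]; push_cast; ring

theorem Lam_symm (δ : Place K F → Place K F → ℝ) (hδ : ∀ P Q, δ P Q = δ Q P) (D E : Divisor K F) :
    Lam δ D E = Lam δ E D := by
  unfold Lam Finsupp.sum
  rw [Finset.sum_comm]
  refine Finset.sum_congr rfl fun Q _ => Finset.sum_congr rfl fun P _ => ?_
  show (D P : ℝ) * (E Q : ℝ) * δ P Q = (E Q : ℝ) * (D P : ℝ) * δ Q P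
  rw [hδ P Q]; ring

end LamAlgebra

/-! ## Divisor bookkeeping -/

section Bookkeeping

variable {K F : Type*} [Field K] [Field F] [Algebra K F]
variable [IsAlgClosed K] [CharZero K] [IsCurveOver K F] [Algebra.EssFiniteType K F]

theorem degree_eq_sum (D : Divisor K F) : Divisor.degree D = D.sum fun _ n => n := by
  unfold Divisor.degree
  rw [Finsupp.liftAddHom_apply]
  refine Finsupp.sum_congr fun v _ => ?_
  simp [IsCurveOver.deg_eq_one_of_isAlgClosed v]

theorem degree_pt' (P : Place K F) : Divisor.degree (pt P) = 1 := by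
  rw [Divisor.degree_single, IsCurveOver.deg_eq_one_of_isAlgClosed P]; simp

theorem degree_nonneg' {D : Divisor K F} (h : 0 ≤ D) : 0 ≤ Divisor.degree D := by
  rw [degree_eq_sum]
  exact Finset.sum_nonneg fun v _ => by simpa using Finsupp.le_def.mp h v

theorem size_eq_of_nonneg {D : Divisor K F} (h : 0 ≤ D) : (size D : ℤ) = Divisor.degree D := by
  rw [degree_eq_sum]
  unfold size Finsupp.sum
  push_cast
  refine Finset.sum_congr rfl fun v _ => ?_
  have : 0 ≤ D v := by simpa using Finsupp.le_def.mp h v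
  simp [abs_of_nonneg this]

theorem degree_posPart_le (D : Divisor K F) : Divisor.degree (D ⊔ 0) ≤ size D := by
  classical
  rw [degree_eq_sum]
  have hsub : (D ⊔ 0).support ⊆ D.support := by
    intro v hv
    rw [Finsupp.mem_support_iff] at hv ⊢
    intro h0
    apply hv
    rw [Finsupp.sup_apply, h0]; simp
  rw [Finsupp.sum_of_support_subset _ hsub _ (fun _ _ => rfl)]
  unfold size Finsupp.sum
  push_cast
  refine Finset.sum_le_sum fun v _ => ?_
  rw [Finsupp.sup_apply]
  simp only [Finsupp.coe_zero, Pi.zero_apply]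
  exact sup_le (le_abs_self _) (abs_nonneg _)

theorem size_add_le (D E : Divisor K F) : size (D + E) ≤ size D + size E := by
  classical
  unfold size
  have h1 : (D + E).support ⊆ D.support ∪ E.support := Finsupp.support_add
  rw [Finsupp.sum_of_support_subset _ h1 _ (fun _ _ => rfl),
    Finsupp.sum_of_support_subset D Finset.subset_union_left _ (fun _ _ => rfl),
    Finsupp.sum_of_support_subset E Finset.subset_union_right _ (fun _ _ => rfl),
    ← Finset.sum_add_distrib]
  exact Finset.sum_le_sum fun v _ => by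
    rw [Finsupp.add_apply]; exact Int.natAbs_add_le _ _

theorem size_neg (D : Divisor K F) : size (-D) = size D := by
  unfold size
  rw [Finsupp.sum_neg_index (fun _ => rfl)]
  simp [Finsupp.sum]

theorem size_zsmul_pt (n : ℤ) (P : Place K F) : size (n • pt P) = n.natAbs := by
  unfold size
  rw [Finsupp.smul_single, Finsupp.sum_single_index rfl]; simp

/-- Induction on effective divisors: add one point at a time. -/
theorem eff_induction {motive : Divisor K F → Prop} (h0 : motive 0)
    (hstep : ∀ (B : Divisor K F) (Q : Place K F), 0 ≤ B → motive B → motive (B + pt Q)) :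
    ∀ B : Divisor K F, 0 ≤ B → motive B := by
  classical
  have key : ∀ n : ℕ, ∀ B : Divisor K F, 0 ≤ B → Divisor.degree B = n → motive B := by
    intro n
    induction n with
    | zero =>
      intro B hB hd
      have hB0 : B = 0 := by
        ext v
        have hsum : ∑ w ∈ B.support, B w = 0 := by
          have := degree_eq_sum B
          rw [hd] at this
          simpa [Finsupp.sum] using this.symm
        by_cases hv : v ∈ B.support
        · have := (Finset.sum_eq_zero_iff_of_nonneg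
            (fun w _ => by simpa using Finsupp.le_def.mp hB w)).mp hsum v hv
          simpa using this
        · simpa using Finsupp.notMem_support_iff.mp hv
      rw [hB0]; exact h0
    | succ n ih =>
      intro B hB hd
      have hne : B ≠ 0 := by
        rintro rfl
        simp at hd
        omega
      obtain ⟨Q, hQ⟩ : ∃ Q, B Q ≠ 0 := by
        by_contra hcon
        exact hne (Finsupp.ext fun v => not_not.mp fun h => hcon ⟨v, h⟩)
      have hQpos : 1 ≤ B Q := by
        have : 0 ≤ B Q := by simpa using Finsupp.le_def.mp hB Q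
        omega
      have hB' : 0 ≤ B - pt Q := by
        rw [Finsupp.le_def]
        intro v
        rw [Finsupp.sub_apply, Finsupp.single_apply]
        have : 0 ≤ B v := by simpa using Finsupp.le_def.mp hB v
        simp only [Finsupp.coe_zero, Pi.zero_apply]
        split_ifs with hv
        · subst hv; omega
        · omega
      have hd' : Divisor.degree (B - pt Q) = n := by
        rw [map_sub, degree_pt', hd]; push_cast; ring
      have := hstep (B - pt Q) Q hB' (ih (B - pt Q) hB' hd')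
      rwa [sub_add_cancel] at this
  intro B hB
  have hnn := degree_nonneg' hB
  exact key (Divisor.degree B).toNat B hB (Int.toNat_of_nonneg hnn).symm

theorem hSum_add (h : Place K F → ℝ) (D E : Divisor K F) :
    hSum h (D + E) = hSum h D + hSum h E := by
  unfold hSum
  rw [Finsupp.sum_add_index']
  · intro P; simp
  · intro P a b; push_cast; ring

theorem hSum_pt (h : Place K F → ℝ) (P : Place K F) : hSum h (pt P) = h P := by
  unfold hSum
  rw [Finsupp.sum_single_index] <;> simp

/-- If `Λ(G, Q − P₀)` is bounded by `C` for all `Q`, then `|Λ(G, B − deg B · P₀)| ≤ deg B · C`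
for effective `B`. -/
theorem Lam_eff_bound (δ : Place K F → Place K F → ℝ) (G : Divisor K F) (P₀ : Place K F) (C : ℝ)
    (hG : ∀ Q, |Lam δ G (pt Q - pt P₀)| ≤ C) :
    ∀ B : Divisor K F, 0 ≤ B →
      |Lam δ G (B - Divisor.degree B • pt P₀)| ≤ (Divisor.degree B : ℝ) * C := by
  refine eff_induction ?_ ?_
  · simp [Lam_zero_right]
  · intro B Q hB ih
    have e : B + pt Q - Divisor.degree (B + pt Q) • pt P₀ =
        (B - Divisor.degree B • pt P₀) + (pt Q - pt P₀) := by
      rw [map_add, degree_pt', add_smul, one_smul]; abel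
    rw [e, Lam_add_right, map_add, degree_pt']
    push_cast
    calc |Lam δ G (B - Divisor.degree B • pt P₀) + Lam δ G (pt Q - pt P₀)|
        ≤ |Lam δ G (B - Divisor.degree B • pt P₀)| + |Lam δ G (pt Q - pt P₀)| := abs_add_le _ _
      _ ≤ (Divisor.degree B : ℝ) * C + C := add_le_add ih (hG Q)
      _ = ((Divisor.degree B : ℝ) + 1) * C := by ring

/-- Lower bound for `Λ(B, P₀)` from a pointwise lower bound of `δ(·, P₀)`. -/
theorem Lam_pt_ge (δ : Place K F → Place K F → ℝ) (h : Place K F → ℝ) (P₀ : Place K F) (c C : ℝ)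
    (hδ : ∀ P, c * h P - C ≤ δ P P₀) :
    ∀ B : Divisor K F, 0 ≤ B →
      c * hSum h B - (Divisor.degree B : ℝ) * C ≤ Lam δ B (pt P₀) := by
  refine eff_induction ?_ ?_
  · simp [Lam_zero_left, hSum]
  · intro B Q hB ih
    rw [Lam_add_left, Lam_pt_pt, hSum_add, hSum_pt, map_add, degree_pt']
    push_cast
    have := hδ Q
    linarith

theorem RR_mono {D D' : Divisor K F} (h : D ≤ D') : riemannRochSpace D ≤ riemannRochSpace D' := by
  intro f hf
  rw [mem_riemannRochSpace_iff] at hf ⊢
  intro v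
  rcases hf v with h0 | h1
  · exact Or.inl h0
  · exact Or.inr (le_trans (neg_le_neg (Finsupp.le_def.mp h v)) h1)

theorem exists_ne_zero_of_ell_pos {D : Divisor K F} (h : 0 < ell D) :
    ∃ a : F, a ∈ riemannRochSpace D ∧ a ≠ 0 := by
  have := Module.nontrivial_of_finrank_pos (R := K) (M := riemannRochSpace D) h
  obtain ⟨x, hx⟩ := exists_ne (0 : riemannRochSpace D)
  exact ⟨x, x.2, fun h0 => hx (Subtype.ext h0)⟩

end Bookkeeping

variable {F₀ : IntermediateField ℚ (LaurentSeries ℚ)}
  [IsCurveOver Qbar (FB F₀)] [Algebra.EssFiniteType Qbar (FB F₀)]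

theorem degree_lvlDiv (S : Setup F₀) (n : ℕ) : Divisor.degree (lvlDiv S n) = n := by
  rw [lvlDiv, map_zsmul, degree_pt']; simp

/-- **(W)**: the frozen statement `H.delta_classInv`, from the incidence identity (T1). -/
theorem delta_classInv (S : Setup F₀) (M : ℕ) :
    ∃ C : ℝ, ∀ D : Divisor Qbar (FB F₀), Divisor.IsPrincipal D → size D ≤ M →
      ∀ Q : Place Qbar (FB F₀), |Lam (delta S.φ) D (pt Q - pt S.P₀)| ≤ C := by
  obtain ⟨C, hC⟩ := incidence S (M + 2 * genusFF Qbar (FB F₀)) (by omega)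
  refine ⟨4 * C, ?_⟩
  intro D hD hsize Q
  obtain ⟨f, hf0, hf⟩ := hD
  have hDf : D = divF f := Finsupp.ext fun v => by rw [hf v, divF_apply]
  set n := M + 2 * genusFF Qbar (FB F₀) with hn
  set Dp : Divisor Qbar (FB F₀) := D ⊔ 0 with hDp
  have hDp0 : 0 ≤ Dp := le_sup_right
  have hDpD : D ≤ Dp := le_sup_left
  have hdeg : Divisor.degree Dp ≤ M := le_trans (degree_posPart_le D) (by exact_mod_cast hsize)
  have hell : 0 < ell (lvlDiv S n - Dp) := by
    have h1 := ell_ge (lvlDiv S n - Dp)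
    rw [map_sub, degree_lvlDiv] at h1
    have : (0 : ℤ) < ell (lvlDiv S n - Dp) := by
      have : (n : ℤ) = M + 2 * genusFF Qbar (FB F₀) := by rw [hn]; push_cast; ring
      omega
    exact_mod_cast this
  obtain ⟨a', ha'mem, ha'0⟩ := exists_ne_zero_of_ell_pos hell
  have ha'V : a' ∈ V S n := RR_mono (sub_le_self _ hDp0) ha'mem
  have hfi : f⁻¹ ≠ 0 := inv_ne_zero hf0
  have ha0 : a' * f⁻¹ ≠ 0 := mul_ne_zero ha'0 hfi
  have hdiv : (divF (a' * f⁻¹) : Divisor Qbar (FB F₀)) = divF a' - D := by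
    rw [divF_mul ha'0 hfi, divF_inv, hDf]; abel
  have h1 : 0 ≤ divF a' + (lvlDiv S n - Dp) := by
    rcases (mem_RR_iff _ _).mp ha'mem with h | h
    · exact absurd h ha'0
    · exact h
  have haV : a' * f⁻¹ ∈ V S n := by
    refine (mem_RR_iff _ _).mpr (Or.inr ?_)
    rw [hdiv]
    have h2 : 0 ≤ Dp - D := sub_nonneg.mpr hDpD
    have e : divF a' - D + lvlDiv S n = (divF a' + (lvlDiv S n - Dp)) + (Dp - D) := by abel
    rw [e]
    exact add_nonneg h1 h2
  have hD' : D = (divF a' + lvlDiv S n) - (divF (a' * f⁻¹) + lvlDiv S n) := by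
    rw [hdiv]; abel
  have t1 := hC a' ha'V ha'0 Q
  have t2 := hC a' ha'V ha'0 S.P₀
  have t3 := hC (a' * f⁻¹) haV ha0 Q
  have t4 := hC (a' * f⁻¹) haV ha0 S.P₀
  rw [hD', Lam_sub_left, Lam_sub_right, Lam_sub_right]
  rw [abs_le] at t1 t2 t3 t4 ⊢
  constructor <;> linarith [t1.1, t1.2, t2.1, t2.2, t3.1, t3.2, t4.1, t4.2]

/-! ## (POS) -/

/-- `k = 2g + 1`. -/
def kpos (F₀ : IntermediateField ℚ (LaurentSeries ℚ)) : ℕ := 2 * genusFF Qbar (FB F₀) + 1

omit [IsCurveOver Qbar (FB F₀)] [Algebra.EssFiniteType Qbar (FB F₀)] in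
theorem kpos_eq : kpos F₀ = 2 * genusFF Qbar (FB F₀) + 1 := rfl

/-- The auxiliary data of the proof of (POS) for a rigid divisor `D` of degree `d ≤ g` off `P₀`:
`E ∈ |D + (k − d) P₀|` and `Eb ∈ |(k + d) P₀ − D|`, both effective of degree `k = 2g + 1` and off `P₀`. -/
structure IsPosData (S : Setup F₀) (D : Divisor Qbar (FB F₀)) (d : ℕ) (E Eb : Divisor Qbar (FB F₀))
    (u u' : FB F₀) : Prop where
  D_nonneg : 0 ≤ D
  D_base : D S.P₀ = 0
  D_deg : Divisor.degree D = d
  d_le : d ≤ genusFF Qbar (FB F₀)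
  D_ell : ell D = 1
  u_ne : u ≠ 0
  u'_ne : u' ≠ 0
  E_eq : E = D + ((kpos F₀ : ℤ) - d) • pt S.P₀ + divF u
  Eb_eq : Eb = ((kpos F₀ : ℤ) + d) • pt S.P₀ - D + divF u'
  E_nonneg : 0 ≤ E
  E_base : E S.P₀ = 0
  Eb_nonneg : 0 ≤ Eb
  Eb_base : Eb S.P₀ = 0

/-- A divisor `A` of degree `2g + 1` with `A(P₀) = a₀`: there is `u ∈ L(A)` with `A + div u` off `P₀`. -/
theorem exists_off_base (P₀ : Place Qbar (FB F₀)) (A : Divisor Qbar (FB F₀))
    (hA : Divisor.degree A = kpos F₀) :
    ∃ u : FB F₀, u ≠ 0 ∧ 0 ≤ A + divF u ∧ (A + divF u : Divisor Qbar (FB F₀)) P₀ = 0 := by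
  have hk : (kpos F₀ : ℤ) = 2 * genusFF Qbar (FB F₀) + 1 := by rw [kpos_eq]; push_cast; ring
  have h1 : (ell A : ℤ) = Divisor.degree A + 1 - genusFF Qbar (FB F₀) :=
    ell_eq_of_degree_gt (by rw [hA]; omega)
  have h2 : (ell (A - pt P₀) : ℤ) = Divisor.degree (A - pt P₀) + 1 - genusFF Qbar (FB F₀) :=
    ell_eq_of_degree_gt (by rw [map_sub, hA, degree_pt']; omega)
  rw [map_sub, degree_pt'] at h2
  have hlt : ell (A - pt P₀) < ell A := by omega
  have hnle : ¬ riemannRochSpace A ≤ riemannRochSpace (A - pt P₀) := by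
    intro hle
    have : Module.Finite Qbar (riemannRochSpace (A - pt P₀)) := finite_RR _
    have := Submodule.finrank_mono hle
    unfold ell at hlt
    omega
  obtain ⟨u, huA, hu⟩ := SetLike.not_le_iff_exists.mp hnle
  have hu0 : u ≠ 0 := by
    rintro rfl
    exact hu (Submodule.zero_mem _)
  have hE : 0 ≤ A + divF u := by
    rcases (mem_RR_iff _ _).mp huA with h | h
    · exact absurd h hu0
    · rwa [add_comm] at h
  refine ⟨u, hu0, hE, ?_⟩
  by_contra hne
  apply hu
  refine (mem_RR_iff _ _).mpr (Or.inr ?_)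
  rw [Finsupp.le_def]
  intro v
  have hv : 0 ≤ (A + divF u : Divisor Qbar (FB F₀)) v := Finsupp.le_def.mp hE v
  have e : (divF u + (A - pt P₀) : Divisor Qbar (FB F₀)) v =
      (A + divF u : Divisor Qbar (FB F₀)) v - (pt P₀ : Divisor Qbar (FB F₀)) v := by
    simp only [Finsupp.add_apply, Finsupp.sub_apply]; ring
  rw [e]
  classical
  rw [Finsupp.single_apply]
  simp only [Finsupp.coe_zero, Pi.zero_apply]
  split_ifs with hvP
  · subst hvP
    have : (A + divF u : Divisor Qbar (FB F₀)) P₀ ≠ 0 := hne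
    omega
  · omega

theorem exists_posData (S : Setup F₀) (D : Divisor Qbar (FB F₀)) (hrig : IsRigid D)
    (hP : D S.P₀ = 0) (hdeg : Divisor.degree D ≤ genusFF Qbar (FB F₀)) :
    ∃ (d : ℕ) (E Eb : Divisor Qbar (FB F₀)) (u u' : FB F₀), IsPosData S D d E Eb u u' := by
  obtain ⟨d, hd⟩ := Int.eq_ofNat_of_zero_le (degree_nonneg' hrig.1)
  have hdg : d ≤ genusFF Qbar (FB F₀) := by rw [hd] at hdeg; exact_mod_cast hdeg
  obtain ⟨u, hu0, hE0, hEP⟩ := exists_off_base S.P₀ (D + ((kpos F₀ : ℤ) - d) • pt S.P₀)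
    (by rw [map_add, map_zsmul, degree_pt', hd]; simp)
  obtain ⟨u', hu'0, hEb0, hEbP⟩ := exists_off_base S.P₀ (((kpos F₀ : ℤ) + d) • pt S.P₀ - D)
    (by rw [map_sub, map_zsmul, degree_pt', hd]; simp)
  exact ⟨d, _, _, u, u', ⟨hrig.1, hP, hd, hdg, hrig.2, hu0, hu'0, rfl, rfl, hE0, hEP, hEb0, hEbP⟩⟩

namespace IsPosData

variable {S : Setup F₀} {D : Divisor Qbar (FB F₀)} {d : ℕ} {E Eb : Divisor Qbar (FB F₀)}
  {u u' : FB F₀}

theorem degree_E (h : IsPosData S D d E Eb u u') : Divisor.degree E = kpos F₀ := by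
  rw [h.E_eq, map_add, map_add, map_zsmul, degree_pt', h.D_deg, degree_divF]; simp

theorem degree_Eb (h : IsPosData S D d E Eb u u') : Divisor.degree Eb = kpos F₀ := by
  rw [h.Eb_eq, map_add, map_sub, map_zsmul, degree_pt', h.D_deg, degree_divF]; simp

theorem divF_mul_add (h : IsPosData S D d E Eb u u') :
    divF (u * u') + lvlDiv S (2 * kpos F₀) = E + Eb := by
  rw [divF_mul h.u_ne h.u'_ne, h.E_eq, h.Eb_eq, lvlDiv]
  have : ((2 * kpos F₀ : ℕ) : ℤ) • pt S.P₀ =
      ((kpos F₀ : ℤ) - d) • pt S.P₀ + ((kpos F₀ : ℤ) + d) • pt S.P₀ := by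
    rw [← add_smul]; congr 1; push_cast; ring
  rw [this]; abel

theorem mul_mem (h : IsPosData S D d E Eb u u') : u * u' ∈ V S (2 * kpos F₀) := by
  refine (mem_RR_iff _ _).mpr (Or.inr ?_)
  rw [h.divF_mul_add]
  exact add_nonneg h.E_nonneg h.Eb_nonneg

theorem divF_u'_add (h : IsPosData S D d E Eb u u') :
    divF u' + lvlDiv S (kpos F₀ + genusFF Qbar (FB F₀)) =
      Eb + D + ((genusFF Qbar (FB F₀) : ℤ) - d) • pt S.P₀ := by
  rw [h.Eb_eq, lvlDiv]
  have : ((kpos F₀ + genusFF Qbar (FB F₀) : ℕ) : ℤ) • pt S.P₀ =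
      ((kpos F₀ : ℤ) + d) • pt S.P₀ + ((genusFF Qbar (FB F₀) : ℤ) - d) • pt S.P₀ := by
    rw [← add_smul]; congr 1; push_cast; ring
  rw [this]; abel

theorem u'_mem (h : IsPosData S D d E Eb u u') :
    u' ∈ V S (kpos F₀ + genusFF Qbar (FB F₀)) := by
  refine (mem_RR_iff _ _).mpr (Or.inr ?_)
  rw [h.divF_u'_add]
  refine add_nonneg (add_nonneg h.Eb_nonneg h.D_nonneg) ?_
  have hd := h.d_le
  have : (0 : ℤ) ≤ (genusFF Qbar (FB F₀) : ℤ) - d := by omega
  exact smul_nonneg this (by simp [pt])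

end IsPosData

/-- Iterating (A): `η(E + B) = η(E) + η(B) − Λ(E, B) + O(1)` for effective `E`, `B` off `P₀`. -/
theorem eta_add_eff (S : Setup F₀) (N K : ℕ) (C : ℝ)
    (hA : ∀ E : Divisor Qbar (FB F₀), 0 ≤ E → E S.P₀ = 0 → Divisor.degree E ≤ K →
      ∀ Q : Place Qbar (FB F₀), Q ≠ S.P₀ →
        |eta S N (E + pt Q) - eta S N E - ht (xvec S N Q) + Lam (delta S.φ) E (pt Q)| ≤ C)
    (E : Divisor Qbar (FB F₀)) (hE : 0 ≤ E) (hEP : E S.P₀ = 0) :
    ∀ B : Divisor Qbar (FB F₀), 0 ≤ B → B S.P₀ = 0 →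
      Divisor.degree E + Divisor.degree B ≤ K →
      |eta S N (E + B) - eta S N E - eta S N B + Lam (delta S.φ) E B| ≤
        2 * (Divisor.degree B : ℝ) * C := by
  classical
  refine eff_induction (motive := fun B => B S.P₀ = 0 →
      Divisor.degree E + Divisor.degree B ≤ K →
      |eta S N (E + B) - eta S N E - eta S N B + Lam (delta S.φ) E B| ≤
        2 * (Divisor.degree B : ℝ) * C) ?_ ?_
  · intro _ _
    simp [eta_zero, Lam_zero_right]
  · intro B Q hB ih hBQ hdeg
    have hB0 : 0 ≤ B S.P₀ := Finsupp.le_def.mp hB S.P₀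
    have hsum : B S.P₀ + (pt Q : Divisor Qbar (FB F₀)) S.P₀ = 0 := by
      rw [← Finsupp.add_apply]; exact hBQ
    have hBP : B S.P₀ = 0 ∧ Q ≠ S.P₀ := by
      rw [Finsupp.single_apply] at hsum
      split_ifs at hsum with hQ
      · omega
      · exact ⟨by omega, hQ⟩
    rw [map_add, degree_pt'] at hdeg
    have hdB := degree_nonneg' hB
    have hdE := degree_nonneg' hE
    have t1 := hA (E + B) (add_nonneg hE hB) (by rw [Finsupp.add_apply, hEP, hBP.1]; rfl)
      (by rw [map_add]; omega) Q hBP.2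
    have t2 := hA B hB hBP.1 (by omega) Q hBP.2
    have t3 := ih hBP.1 (by omega)
    rw [Lam_add_left] at t1
    rw [← add_assoc, Lam_add_right, map_add, degree_pt']
    push_cast
    rw [abs_le] at t1 t2 t3 ⊢
    constructor <;> linarith [t1.1, t1.2, t2.1, t2.2, t3.1, t3.2]

/-- The pole-order flag at `P₀`: iterating (VIII). -/
theorem eta_flag (S : Setup F₀) (k N : ℕ) (C : ℝ)
    (hstep : ∀ E : Divisor Qbar (FB F₀), 0 ≤ E → E S.P₀ = 0 → Divisor.degree E ≤ k →
      ∀ j : ℕ, j < N → ell (lvlDiv S (j + 1) - E) = ell (lvlDiv S j - E) + 1 →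
        etaSub S N (riemannRochSpace (lvlDiv S j - E)) ≤
          etaSub S N (riemannRochSpace (lvlDiv S (j + 1) - E)) - hInf S E + C)
    (E : Divisor Qbar (FB F₀)) (hE : 0 ≤ E) (hEP : E S.P₀ = 0) (hdeg : Divisor.degree E ≤ k) :
    ∀ (i j : ℕ), j + i = N →
      etaSub S N (riemannRochSpace (lvlDiv S j - E)) -
          (ell (lvlDiv S j - E) : ℝ) * (hInf S E - C) ≤
        eta S N E - (ell (lvlDiv S N - E) : ℝ) * (hInf S E - C) := by
  intro i
  induction i with
  | zero =>
    intro j hj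
    have : j = N := by omega
    subst this
    exact le_refl _
  | succ i ih =>
    intro j hj
    have h1 := ih (j + 1) (by omega)
    refine le_trans ?_ h1
    have e : lvlDiv S j - E + pt S.P₀ = lvlDiv S (j + 1) - E := by
      simp only [lvlDiv]
      push_cast
      rw [add_smul, one_smul]; abel
    have hle : lvlDiv S j - E ≤ lvlDiv S (j + 1) - E := by
      rw [← e]
      exact le_add_of_nonneg_right (by simp [pt])
    have hm := ell_mono hle
    have ha := ell_add_pt_le (lvlDiv S j - E) S.P₀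
    rw [e] at ha
    rcases Nat.lt_or_ge (ell (lvlDiv S j - E)) (ell (lvlDiv S (j + 1) - E)) with hlt | hge
    · have heq : ell (lvlDiv S (j + 1) - E) = ell (lvlDiv S j - E) + 1 := by omega
      have := hstep E hE hEP hdeg j (by omega) heq
      rw [heq]
      push_cast
      linarith
    · have heq : ell (lvlDiv S j - E) = ell (lvlDiv S (j + 1) - E) := by omega
      have : Module.Finite Qbar (riemannRochSpace (lvlDiv S (j + 1) - E)) := finite_RR _
      have hsub : riemannRochSpace (lvlDiv S j - E) = riemannRochSpace (lvlDiv S (j + 1) - E) :=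
        Submodule.eq_of_le_of_finrank_eq (RR_mono hle) heq
      rw [hsub, heq]

end Fermat.Agent.S17.PLK
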