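/-
S17 project — B-route "PLK" (helper2397).  GLUE, part 2: the frozen H-interface statement `delta_pos`
PROVED from the leaves of `PLK/Skel.lean` (+ FND statements).  This file is complete (all proofs given).
-/
import Fermat.Agent.S17.PLK.Glue

set_option autoImplicit false
set_option linter.unusedSectionVars false

noncomputable section

open AlgebraicCurve ModularCurve

namespace Fermat.Agent.S17.PLK

open Fermat.Agent.S17.FND Fermat.Agent.S17.H Fermat.Agent.S17.HT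

variable {F₀ : IntermediateField ℚ (LaurentSeries ℚ)}
  [IsCurveOver Qbar (FB F₀)] [Algebra.EssFiniteType Qbar (FB F₀)]

/-- `ℓ(N P₀ − E) = N − deg E + 1 − g` in the Riemann range. -/
theorem ell_lvl_sub (S : Setup F₀) (N k : ℕ) (E : Divisor Qbar (FB F₀))
    (hE : Divisor.degree E = k) (hN : k + 2 * genusFF Qbar (FB F₀) ≤ N + 1) :
    (ell (lvlDiv S N - E) : ℝ) = (N : ℝ) - k + 1 - genusFF Qbar (FB F₀) := by
  have h := ell_eq_of_degree_gt (D := lvlDiv S N - E)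
    (by rw [map_sub, degree_lvlDiv, hE]; omega)
  rw [map_sub, degree_lvlDiv, hE] at h
  have : ((ell (lvlDiv S N - E) : ℤ) : ℝ) = ((N - k + 1 - genusFF Qbar (FB F₀) : ℤ) : ℝ) := by
    rw [h]
  push_cast at this
  exact this

/-- (VIII) for `E`: `η_N(E) ≥ r · h_∞(E) − C`. -/
theorem pos_flag_E (S : Setup F₀) (N : ℕ) (hN : 2 * kpos F₀ + 2 * genusFF Qbar (FB F₀) ≤ N) :
    ∃ C : ℝ, ∀ (D : Divisor Qbar (FB F₀)) (d : ℕ) (E Eb : Divisor Qbar (FB F₀)) (u u' : FB F₀),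
      IsPosData S D d E Eb u u' →
        ((N : ℝ) - kpos F₀ + 1 - genusFF Qbar (FB F₀)) * hInf S E - C ≤ eta S N E := by
  obtain ⟨C, hC⟩ := eta_step S (kpos F₀) N
  refine ⟨((N : ℝ) - kpos F₀ + 1 - genusFF Qbar (FB F₀)) * C, ?_⟩
  intro D d E Eb u u' h
  have hk := kpos_eq (F₀ := F₀)
  have hfl := eta_flag S (kpos F₀) N C hC E h.E_nonneg h.E_base (by rw [h.degree_E]) N 0
    (by omega)
  have h0 : ell (lvlDiv S 0 - E) = 0 :=
    ell_eq_zero_of_degree_neg (by rw [map_sub, degree_lvlDiv, h.degree_E]; omega)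
  have hbot : riemannRochSpace (lvlDiv S 0 - E) = ⊥ := by
    have : Module.Finite Qbar (riemannRochSpace (lvlDiv S 0 - E)) := finite_RR _
    exact Submodule.finrank_eq_zero.mp h0
  rw [hbot, etaSub_bot, h0, ell_lvl_sub S N (kpos F₀) E h.degree_E (by omega)] at hfl
  simp only [CharP.cast_eq_zero, zero_mul, sub_zero] at hfl
  linarith

/-- (VIII) for `Eb`, with the bottom line `K · u'`: `η_N(Eb) ≥ r · h_∞(Eb) + h_∞(D) − C`. -/
theorem pos_flag_Eb (S : Setup F₀) (N : ℕ) (hN : 2 * kpos F₀ + 2 * genusFF Qbar (FB F₀) ≤ N) :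
    ∃ C : ℝ, ∀ (D : Divisor Qbar (FB F₀)) (d : ℕ) (E Eb : Divisor Qbar (FB F₀)) (u u' : FB F₀),
      IsPosData S D d E Eb u u' →
        ((N : ℝ) - kpos F₀ + 1 - genusFF Qbar (FB F₀)) * hInf S Eb + hInf S D - C ≤
          eta S N Eb := by
  have hk := kpos_eq (F₀ := F₀)
  obtain ⟨CF, hCF⟩ := eta_step S (kpos F₀) N
  obtain ⟨CT, hCT⟩ := incidence S (kpos F₀ + genusFF Qbar (FB F₀)) (by omega)
  obtain ⟨CL, hCL⟩ := coords_level S (kpos F₀ + genusFF Qbar (FB F₀)) N (by omega)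
  refine ⟨((N : ℝ) - kpos F₀ + 1 - genusFF Qbar (FB F₀) - 1) * CF + CL + CT +
    ht (xvec S (kpos F₀ + genusFF Qbar (FB F₀)) S.P₀) +
    (genusFF Qbar (FB F₀) : ℝ) * |delta S.φ S.P₀ S.P₀|, ?_⟩
  intro D d E Eb u u' h
  have hd := h.d_le
  have hfl := eta_flag S (kpos F₀) N CF hCF Eb h.Eb_nonneg h.Eb_base (by rw [h.degree_Eb])
    (N - (kpos F₀ + d)) (kpos F₀ + d) (by omega)
  have hlvl : lvlDiv S (kpos F₀ + d) - Eb = D + divF u'⁻¹ := by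
    rw [h.Eb_eq, divF_inv, lvlDiv]; push_cast; abel
  have hell1 : ell (lvlDiv S (kpos F₀ + d) - Eb) = 1 := by
    rw [hlvl, ell_add_divF _ (inv_ne_zero h.u'_ne), h.D_ell]
  have hu'mem : u' ∈ riemannRochSpace (lvlDiv S (kpos F₀ + d) - Eb) := by
    refine (mem_RR_iff _ _).mpr (Or.inr ?_)
    rw [hlvl, divF_inv]
    have : (divF u' + (D + -divF u') : Divisor Qbar (FB F₀)) = D := by abel
    rw [this]; exact h.D_nonneg
  have hline : riemannRochSpace (lvlDiv S (kpos F₀ + d) - Eb) = Submodule.span Qbar {u'} := by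
    have : Module.Finite Qbar (riemannRochSpace (lvlDiv S (kpos F₀ + d) - Eb)) := finite_RR _
    symm
    refine Submodule.eq_of_le_of_finrank_eq
      ((Submodule.span_singleton_le_iff_mem _ _).mpr hu'mem) ?_
    rw [finrank_span_singleton h.u'_ne]; exact hell1.symm
  rw [hline, etaSub_line S N u' h.u'_ne, hell1,
    ell_lvl_sub S N (kpos F₀) Eb h.degree_Eb (by omega)] at hfl
  have t1 := hCL u' h.u'_mem
  have t2 := hCT u' h.u'_mem h.u'_ne S.P₀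
  rw [h.divF_u'_add, Lam_add_left, Lam_add_left, Lam_zsmul_left, Lam_pt_pt] at t2
  have t3 : -((genusFF Qbar (FB F₀) : ℝ) * |delta S.φ S.P₀ S.P₀|) ≤
      (((genusFF Qbar (FB F₀) : ℤ) - (d : ℤ) : ℤ) : ℝ) * delta S.φ S.P₀ S.P₀ := by
    have h1 : (0 : ℝ) ≤ (((genusFF Qbar (FB F₀) : ℤ) - (d : ℤ) : ℤ) : ℝ) := by
      have : (0 : ℤ) ≤ (genusFF Qbar (FB F₀) : ℤ) - (d : ℤ) := by omega
      exact_mod_cast this
    have h2 : (((genusFF Qbar (FB F₀) : ℤ) - (d : ℤ) : ℤ) : ℝ) ≤ (genusFF Qbar (FB F₀) : ℝ) := by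
      push_cast; linarith [(Nat.cast_nonneg d : (0 : ℝ) ≤ d)]
    have h3 := neg_abs_le (delta S.φ S.P₀ S.P₀)
    have h4 := abs_nonneg (delta S.φ S.P₀ S.P₀)
    nlinarith
  unfold hInf at hfl ⊢
  rw [abs_le] at t1 t2
  push_cast at hfl
  linarith [t1.1, t1.2, t2.1, t2.2]

/-- (S) + (T1) at `P₀`: `η_N(E + Eb) ≤ d_{N−2k} · (h_∞(E) + h_∞(Eb)) + C`. -/
theorem pos_eta_sum (S : Setup F₀) (N : ℕ) (hN : 2 * kpos F₀ + 2 * genusFF Qbar (FB F₀) ≤ N) :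
    ∃ C : ℝ, ∀ (D : Divisor Qbar (FB F₀)) (d : ℕ) (E Eb : Divisor Qbar (FB F₀)) (u u' : FB F₀),
      IsPosData S D d E Eb u u' →
        eta S N (E + Eb) ≤
          ((N : ℝ) - 2 * kpos F₀ + 1 - genusFF Qbar (FB F₀)) * (hInf S E + hInf S Eb) + C := by
  have hk := kpos_eq (F₀ := F₀)
  obtain ⟨CS, hCS⟩ := eta_mul S (2 * kpos F₀) N (by omega)
  obtain ⟨CT, hCT⟩ := incidence S (2 * kpos F₀) (by omega)
  have hdd : (dim S (N - 2 * kpos F₀) : ℝ) =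
      (N : ℝ) - 2 * kpos F₀ + 1 - genusFF Qbar (FB F₀) := by
    have h := ell_lvl_sub S (N - 2 * kpos F₀) 0 0 (by simp) (by omega)
    rw [sub_zero] at h
    unfold dim
    rw [h]
    push_cast [Nat.cast_sub (show 2 * kpos F₀ ≤ N by omega)]
    ring
  refine ⟨((N : ℝ) - 2 * kpos F₀ + 1 - genusFF Qbar (FB F₀)) *
    (CT - ht (xvec S (2 * kpos F₀) S.P₀)) + CS, ?_⟩
  intro D d E Eb u u' h
  have ha0 : u * u' ≠ 0 := mul_ne_zero h.u_ne h.u'_ne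
  have t1 := hCS (u * u') h.mul_mem ha0
  have t2 := hCT (u * u') h.mul_mem ha0 S.P₀
  rw [h.divF_mul_add] at t1 t2
  rw [Lam_add_left] at t2
  rw [hdd] at t1
  have hnn : (0 : ℝ) ≤ (N : ℝ) - 2 * kpos F₀ + 1 - genusFF Qbar (FB F₀) := by
    rw [← hdd]; positivity
  rw [abs_le] at t1 t2
  unfold hInf
  have t3 : ht (coords S (2 * kpos F₀) (u * u')) ≤
      Lam (delta S.φ) E (pt S.P₀) + Lam (delta S.φ) Eb (pt S.P₀) +
        (CT - ht (xvec S (2 * kpos F₀) S.P₀)) := by linarith [t2.1]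
  have t4 := mul_le_mul_of_nonneg_left t3 hnn
  linarith [t1.2]

/-- (A) iterated: `Λ(E, Eb) ≥ η_N(E) + η_N(Eb) − η_N(E + Eb) − C`. -/
theorem pos_chain (S : Setup F₀) :
    ∃ N₁ : ℕ, ∀ N : ℕ, N₁ ≤ N → ∃ C : ℝ,
      ∀ (D : Divisor Qbar (FB F₀)) (d : ℕ) (E Eb : Divisor Qbar (FB F₀)) (u u' : FB F₀),
        IsPosData S D d E Eb u u' →
          eta S N E + eta S N Eb - eta S N (E + Eb) - C ≤ Lam (delta S.φ) E Eb := by
  obtain ⟨N₁, hN₁⟩ := eta_add_pt S (2 * kpos F₀)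
  refine ⟨N₁, fun N hN => ?_⟩
  obtain ⟨C, hC⟩ := hN₁ N hN
  refine ⟨2 * (kpos F₀ : ℝ) * C, ?_⟩
  intro D d E Eb u u' h
  have t := eta_add_eff S N (2 * kpos F₀) C hC E h.E_nonneg h.E_base Eb h.Eb_nonneg h.Eb_base
    (by rw [h.degree_E, h.degree_Eb]; push_cast; omega)
  rw [h.degree_Eb] at t
  rw [abs_le] at t
  push_cast at t
  linarith [t.1, t.2]

/-- `Λ(E, Eb) ≥ k · (h_∞(E) + h_∞(Eb)) + h_∞(D) − C`. -/
theorem pos_step2 (S : Setup F₀) :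
    ∃ C : ℝ, ∀ (D : Divisor Qbar (FB F₀)) (d : ℕ) (E Eb : Divisor Qbar (FB F₀)) (u u' : FB F₀),
      IsPosData S D d E Eb u u' →
        (kpos F₀ : ℝ) * (hInf S E + hInf S Eb) + hInf S D - C ≤ Lam (delta S.φ) E Eb := by
  obtain ⟨N₁, hN₁⟩ := pos_chain S
  obtain ⟨Cd, hd⟩ := hN₁ (N₁ + 2 * kpos F₀ + 2 * genusFF Qbar (FB F₀)) (by omega)
  obtain ⟨Ca, ha⟩ := pos_flag_E S (N₁ + 2 * kpos F₀ + 2 * genusFF Qbar (FB F₀)) (by omega)
  obtain ⟨Cb, hb⟩ := pos_flag_Eb S (N₁ + 2 * kpos F₀ + 2 * genusFF Qbar (FB F₀)) (by omega)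
  obtain ⟨Cc, hc⟩ := pos_eta_sum S (N₁ + 2 * kpos F₀ + 2 * genusFF Qbar (FB F₀)) (by omega)
  refine ⟨Ca + Cb + Cc + Cd, ?_⟩
  intro D d E Eb u u' h
  have t1 := hd D d E Eb u u' h
  have t2 := ha D d E Eb u u' h
  have t3 := hb D d E Eb u u' h
  have t4 := hc D d E Eb u u' h
  nlinarith [t1, t2, t3, t4]

/-- `qForm(D) ≥ Λ(E, Eb) − k · (h_∞(E) + h_∞(Eb)) − C`  (class invariance, bilinearity, symmetry). -/
theorem pos_step1 (S : Setup F₀) :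
    ∃ C : ℝ, ∀ (D : Divisor Qbar (FB F₀)) (d : ℕ) (E Eb : Divisor Qbar (FB F₀)) (u u' : FB F₀),
      IsPosData S D d E Eb u u' →
        Lam (delta S.φ) E Eb - (kpos F₀ : ℝ) * (hInf S E + hInf S Eb) - C ≤
          qForm (delta S.φ) S.P₀ D := by
  have hk := kpos_eq (F₀ := F₀)
  obtain ⟨CM, hCM⟩ := delta_classInv S (2 * kpos F₀ + 2 * genusFF Qbar (FB F₀))
  have hCM0 : 0 ≤ CM :=
    le_trans (abs_nonneg _) (hCM 0 ⟨1, one_ne_zero, fun v => by simp⟩ (by simp [size]) S.P₀)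
  refine ⟨(kpos F₀ : ℝ) ^ 2 * |delta S.φ S.P₀ S.P₀| +
    (3 * (kpos F₀ : ℝ) + genusFF Qbar (FB F₀)) * CM, ?_⟩
  intro D d E Eb u u' h
  have hdg := h.d_le
  have hsymm : ∀ P Q, delta S.φ P Q = delta S.φ Q P := delta_symm S
  have hpu : Divisor.IsPrincipal (divF u : Divisor Qbar (FB F₀)) :=
    ⟨u, h.u_ne, fun v => divF_apply u v⟩
  have hpu' : Divisor.IsPrincipal (divF u' : Divisor Qbar (FB F₀)) :=
    ⟨u', h.u'_ne, fun v => divF_apply u' v⟩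
  have hsE : (size E : ℤ) = kpos F₀ := by rw [size_eq_of_nonneg h.E_nonneg, h.degree_E]
  have hsEb : (size Eb : ℤ) = kpos F₀ := by rw [size_eq_of_nonneg h.Eb_nonneg, h.degree_Eb]
  have hsD : (size D : ℤ) = d := by rw [size_eq_of_nonneg h.D_nonneg, h.D_deg]
  have hsu : size (divF u : Divisor Qbar (FB F₀)) ≤ 2 * kpos F₀ + 2 * genusFF Qbar (FB F₀) := by
    have e : (divF u : Divisor Qbar (FB F₀)) =
        E + (-D + -(((kpos F₀ : ℤ) - d) • pt S.P₀)) := by rw [h.E_eq]; abel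
    have s1 := size_add_le E (-D + -(((kpos F₀ : ℤ) - d) • pt S.P₀))
    have s2 := size_add_le (-D) (-(((kpos F₀ : ℤ) - d) • pt S.P₀))
    rw [size_neg, size_neg, size_zsmul_pt] at s2
    rw [e]
    omega
  have hsu' : size (divF u' : Divisor Qbar (FB F₀)) ≤
      2 * kpos F₀ + 2 * genusFF Qbar (FB F₀) := by
    have e : (divF u' : Divisor Qbar (FB F₀)) =
        Eb + (D + -(((kpos F₀ : ℤ) + d) • pt S.P₀)) := by rw [h.Eb_eq]; abel
    have s1 := size_add_le Eb (D + -(((kpos F₀ : ℤ) + d) • pt S.P₀))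
    have s2 := size_add_le D (-(((kpos F₀ : ℤ) + d) • pt S.P₀))
    rw [size_neg, size_zsmul_pt] at s2
    rw [e]
    omega
  have bu := Lam_eff_bound (delta S.φ) (divF u) S.P₀ CM (hCM _ hpu hsu)
  have bu' := Lam_eff_bound (delta S.φ) (divF u') S.P₀ CM (hCM _ hpu' hsu')
  have b1 := bu Eb h.Eb_nonneg
  have b2 := bu D h.D_nonneg
  have b3 := bu' E h.E_nonneg
  rw [h.degree_Eb] at b1
  rw [h.D_deg] at b2
  rw [h.degree_E] at b3
  have e1 : D - Divisor.degree D • pt S.P₀ = (E - (kpos F₀ : ℤ) • pt S.P₀) - divF u := by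
    rw [h.D_deg, h.E_eq, sub_smul]; abel
  have e2 : D - Divisor.degree D • pt S.P₀ = -(Eb - (kpos F₀ : ℤ) • pt S.P₀) + divF u' := by
    rw [h.D_deg, h.Eb_eq, add_smul]; abel
  have e3 : (divF u' : Divisor Qbar (FB F₀)) =
      (Eb - (kpos F₀ : ℤ) • pt S.P₀) + (D - (d : ℤ) • pt S.P₀) := by
    rw [h.Eb_eq, add_smul]; abel
  have hq : qForm (delta S.φ) S.P₀ D =
      - Lam (delta S.φ) ((E - (kpos F₀ : ℤ) • pt S.P₀) - divF u)
          (-(Eb - (kpos F₀ : ℤ) • pt S.P₀) + divF u') := by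
    unfold qForm
    rw [← e1, ← e2]
  have hs1 : Lam (delta S.φ) (E - (kpos F₀ : ℤ) • pt S.P₀) (divF u') =
      Lam (delta S.φ) (divF u') (E - (kpos F₀ : ℤ) • pt S.P₀) := Lam_symm _ hsymm _ _
  have hs2 : Lam (delta S.φ) (pt S.P₀) Eb = Lam (delta S.φ) Eb (pt S.P₀) := Lam_symm _ hsymm _ _
  have hs3 : Lam (delta S.φ) (divF u) (divF u') =
      Lam (delta S.φ) (divF u) (Eb - (kpos F₀ : ℤ) • pt S.P₀) +
        Lam (delta S.φ) (divF u) (D - (d : ℤ) • pt S.P₀) := by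
    conv_lhs => rw [e3]
    rw [Lam_add_right]
  have hs4 : Lam (delta S.φ) (E - (kpos F₀ : ℤ) • pt S.P₀) (Eb - (kpos F₀ : ℤ) • pt S.P₀) =
      Lam (delta S.φ) E Eb - (kpos F₀ : ℝ) * Lam (delta S.φ) E (pt S.P₀) -
        (kpos F₀ : ℝ) * Lam (delta S.φ) Eb (pt S.P₀) +
        (kpos F₀ : ℝ) ^ 2 * delta S.φ S.P₀ S.P₀ := by
    rw [Lam_sub_left, Lam_sub_right, Lam_sub_right, Lam_zsmul_left, Lam_zsmul_right,
      Lam_zsmul_right, Lam_zsmul_left, Lam_pt_pt, hs2]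
    push_cast
    ring
  rw [hq, Lam_sub_left, Lam_add_right, Lam_add_right, Lam_neg_right, Lam_neg_right, hs1, hs3, hs4]
  unfold hInf
  rw [abs_le] at b1 b2 b3
  push_cast at b1 b2 b3
  have hd' : (d : ℝ) ≤ genusFF Qbar (FB F₀) := by exact_mod_cast hdg
  have hdCM : (d : ℝ) * CM ≤ (genusFF Qbar (FB F₀) : ℝ) * CM :=
    mul_le_mul_of_nonneg_right hd' hCM0
  have h3 := neg_abs_le (delta S.φ S.P₀ S.P₀)
  have hk2 : (0 : ℝ) ≤ (kpos F₀ : ℝ) ^ 2 := by positivity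
  have h4 : -((kpos F₀ : ℝ) ^ 2 * |delta S.φ S.P₀ S.P₀|) ≤
      (kpos F₀ : ℝ) ^ 2 * delta S.φ S.P₀ S.P₀ := by
    have := mul_le_mul_of_nonneg_left h3 hk2
    linarith
  linarith [b1.1, b1.2, b2.1, b2.2, b3.1, b3.2]

/-- `h_∞(D) ≥ (1/m) · Σ_P D(P) h_X(P) − C`. -/
theorem pos_step3 (S : Setup F₀) :
    ∃ C : ℝ, ∀ D : Divisor Qbar (FB F₀), 0 ≤ D →
      Divisor.degree D ≤ genusFF Qbar (FB F₀) →
        (1 / (S.m : ℝ)) * hSum (hX S.φ) D - C ≤ hInf S D := by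
  obtain ⟨C, hC⟩ := delta_base_ge S
  refine ⟨(genusFF Qbar (FB F₀) : ℝ) * |C|, ?_⟩
  intro D hD hdeg
  have t := Lam_pt_ge (delta S.φ) (hX S.φ) S.P₀ (1 / (S.m : ℝ)) C hC D hD
  have h0 : (0 : ℝ) ≤ (Divisor.degree D : ℝ) := by exact_mod_cast degree_nonneg' hD
  have h1 : (Divisor.degree D : ℝ) ≤ (genusFF Qbar (FB F₀) : ℝ) := by exact_mod_cast hdeg
  have h2 := le_abs_self C
  have h3 := abs_nonneg C
  unfold hInf
  nlinarith

/-- **(POS)**: the frozen statement `H.delta_pos`. -/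
theorem delta_pos (S : Setup F₀) :
    ∃ c : ℝ, 0 < c ∧ ∃ C : ℝ, ∀ D : Divisor Qbar (FB F₀), IsRigid D → D S.P₀ = 0 →
      Divisor.degree D ≤ genusFF Qbar (FB F₀) →
        c * hSum (hX S.φ) D - C ≤ qForm (delta S.φ) S.P₀ D := by
  obtain ⟨C1, h1⟩ := pos_step1 S
  obtain ⟨C2, h2⟩ := pos_step2 S
  obtain ⟨C3, h3⟩ := pos_step3 S
  have hm : (0 : ℝ) < (S.m : ℝ) := by
    have := S.hm
    unfold mMin at this
    have : 0 < S.m := by omega
    exact_mod_cast this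
  refine ⟨1 / (S.m : ℝ), by positivity, C1 + C2 + C3, ?_⟩
  intro D hrig hP hdeg
  obtain ⟨d, E, Eb, u, u', h⟩ := exists_posData S D hrig hP hdeg
  have t1 := h1 D d E Eb u u' h
  have t2 := h2 D d E Eb u u' h
  have t3 := h3 D hrig.1 hdeg
  linarith

end Fermat.Agent.S17.PLK
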