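/-
S17 / PLK route (helper2397 spec §3 (S), (CERT)): heights of the maximal minors of a matrix of
LINEAR forms which is injective at every nonzero point (helper756).

  * `exists_det_submatrix_ne_zero_of_injective` : a matrix with injective `mulVec` has a nonzero
    maximal minor (rows selected by some `f : κ → υ`).                       [Mathlib only]
  * `ht_minors_linMat` : for structure constants `c : υ → κ → ι → ℚ̄` such that
    `M(a) = (∑ i, c u k i * a i)_{u,k}` is injective for every `a ≠ 0`:
        `| ht (all maximal minors of M(a)) - #κ * ht a | ≤ C`   for ALL `a`.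
    This is (S) of the PLK spec: the Plücker vector of `a · V_{N-n} ⊆ V_N` (minors of the matrix of
    multiplication by `a`, no zero divisors in a field) has height `d_{N-n} h_n(a) + O(1)`.

Uses the frozen HT API (helper636 skeleton v0.1): `ht_eval_le` (L2), `ht_eval_ge_of_zeroLocus` (L3)
with `S = ∅`.  No sorry in this file.
-/
import Mathlib
import Fermat.Agent.S17.HT.Defs
import Fermat.Agent.S17.HT.Descent
import Fermat.Agent.S17.HT.Basic
import Fermat.Agent.S17.HT.Eval
import Fermat.Agent.S17.HT.Null

set_option autoImplicit false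

namespace Fermat.Agent.S17.PLK.H756

open Fermat.Agent.S17.HT MvPolynomial

local notation "ℚ̄" => AlgebraicClosure ℚ

/-- A matrix with injective `mulVec` (linearly independent columns) has a nonzero maximal minor. -/
theorem exists_det_submatrix_ne_zero_of_injective {K : Type*} [Field K] {υ κ : Type*}
    [Fintype υ] [Fintype κ] [DecidableEq κ] (A : Matrix υ κ K)
    (hA : Function.Injective A.mulVec) : ∃ f : κ → υ, (A.submatrix f id).det ≠ 0 := by
  classical
  have hrank : A.rank = Fintype.card κ := by
    rw [Matrix.rank, LinearMap.finrank_range_of_inj (f := A.mulVecLin) hA]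
    simp
  have hrow : Submodule.span K (Set.range A.row) = ⊤ := by
    apply Submodule.eq_top_of_finrank_eq
    rw [← Matrix.rank_eq_finrank_span_row, hrank]
    simp
  obtain ⟨κ', a, -, hspan, hli⟩ := exists_linearIndependent' K A.row
  rw [hrow] at hspan
  let b : Module.Basis κ' K (κ → K) := Module.Basis.mk hli (by rw [hspan])
  have : Fintype κ' := FiniteDimensional.fintypeBasisIndex b
  have hcard : Fintype.card κ = Fintype.card κ' := by
    have h1 := Module.finrank_eq_card_basis b
    simpa using h1
  let e : κ ≃ κ' := Fintype.equivOfCardEq hcard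
  refine ⟨a ∘ e, ?_⟩
  have hli' : LinearIndependent K (A.submatrix (a ∘ e) id).row :=
    hli.comp e e.injective
  have hu := Matrix.linearIndependent_rows_iff_isUnit.mp hli'
  exact ((Matrix.isUnit_iff_isUnit_det _).mp hu).ne_zero

section Minors

set_option linter.unusedSectionVars false

variable {ι κ υ : Type*} [Fintype ι] [Fintype κ] [DecidableEq κ] [Fintype υ]

/-- The matrix `M(a)`, `M(a)_{u,k} = ∑ i, c u k i * a i`. -/
noncomputable def evalMat (c : υ → κ → ι → ℚ̄) (a : ι → ℚ̄) : Matrix υ κ ℚ̄ :=
  Matrix.of fun u k => ∑ i, c u k i * a i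

/-- The matrix of linear forms with structure constants `c`. -/
noncomputable def linMat (c : υ → κ → ι → ℚ̄) : Matrix υ κ (MvPolynomial ι ℚ̄) :=
  Matrix.of fun u k => ∑ i, C (c u k i) * X i

/-- The maximal minor of `linMat c` with rows selected by `f`. -/
noncomputable def minorPoly (c : υ → κ → ι → ℚ̄) (f : κ → υ) : MvPolynomial ι ℚ̄ :=
  ((linMat c).submatrix f id).det

lemma isHomogeneous_linMat (c : υ → κ → ι → ℚ̄) (u : υ) (k : κ) :
    (linMat c u k).IsHomogeneous 1 := by
  unfold linMat
  exact IsHomogeneous.sum _ _ _ fun i _ => isHomogeneous_C_mul_X (c u k i) i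

lemma isHomogeneous_minorPoly (c : υ → κ → ι → ℚ̄) (f : κ → υ) :
    (minorPoly c f).IsHomogeneous (Fintype.card κ) := by
  unfold minorPoly
  rw [Matrix.det_apply]
  refine IsHomogeneous.sum _ _ _ fun σ _ => ?_
  have h1 : (∏ k, (linMat c).submatrix f id (σ k) k).IsHomogeneous (∑ _k : κ, 1) :=
    IsHomogeneous.prod _ _ _ fun k _ => isHomogeneous_linMat c _ _
  rw [Finset.sum_const, Finset.card_univ, smul_eq_mul, mul_one] at h1
  rcases Int.units_eq_one_or (Equiv.Perm.sign σ) with h | h
  · rw [h, one_smul]; exact h1
  · rw [h, Units.neg_smul, one_smul]; exact h1.neg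

lemma eval_minorPoly (c : υ → κ → ι → ℚ̄) (f : κ → υ) (a : ι → ℚ̄) :
    eval a (minorPoly c f) = ((evalMat c a).submatrix f id).det := by
  unfold minorPoly
  rw [RingHom.map_det]
  congr 1
  ext k k'
  simp [linMat, evalMat]

/-- **(S)** Heights of the maximal minors of an injective matrix of linear forms. -/
theorem ht_minors_linMat (c : υ → κ → ι → ℚ̄)
    (hinj : ∀ a : ι → ℚ̄, a ≠ 0 → Function.Injective (evalMat c a).mulVec) :
    ∃ C : ℝ, ∀ a : ι → ℚ̄,
      |ht (fun f : κ → υ => ((evalMat c a).submatrix f id).det) - Fintype.card κ * ht a| ≤ C := by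
  obtain ⟨C₁, hC₁⟩ := ht_eval_le (N := Fintype.card κ) (fun f : κ → υ => minorPoly c f)
    (fun f => isHomogeneous_minorPoly c f)
  obtain ⟨C₂, hC₂⟩ := ht_eval_ge_of_zeroLocus (∅ : Set (MvPolynomial ι ℚ̄))
    (fun f hf => absurd hf (Set.notMem_empty f)) (N := Fintype.card κ)
    (fun f : κ → υ => minorPoly c f) (fun f => isHomogeneous_minorPoly c f)
    (by
      intro a _ h0
      by_contra ha
      obtain ⟨f, hf⟩ := exists_det_submatrix_ne_zero_of_injective _ (hinj a ha)
      exact hf ((eval_minorPoly c f a).symm.trans (h0 f)))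
  refine ⟨max C₁ C₂, fun a => ?_⟩
  have e : (fun f : κ → υ => ((evalMat c a).submatrix f id).det) =
      fun f : κ → υ => eval a (minorPoly c f) := by
    funext f; rw [eval_minorPoly]
  rw [e, abs_le]
  have h1 := hC₁ a
  have h2 := hC₂ a (fun f hf => absurd hf (Set.notMem_empty f))
  constructor
  · have := le_max_right C₁ C₂; linarith
  · have := le_max_left C₁ C₂; linarith

end Minors

end Fermat.Agent.S17.PLK.H756
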